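import Mathlib

/-!
# P-RED, R-SM (task SM-XP): algebra of the base coordinate `x' = t + t^(-ℓ)` — abstract part

Mathlib only.

* `h8xp_ic R` : the integral closure of a subring `R` of `F`, as a subring; monotone, idempotent.
* `h8xp_ic_closure_le` : `x ∈ ic (S₀[y]) → ic (S₀[x]) ≤ ic (S₀[y])`.
* `h8xp_mem_of_monic` : a root of a monic polynomial over `ic R` lies in `ic R`.
* `h8xp_t2_mem`, `h8xp_t2_inv_mem`, `h8xp_t3_mem`, `h8xp_t3_inv_mem` : the Hauptmoduln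
  `t₂`, `t₃` and their inverses are integral over a ring containing `j` and the inverses of the
  constants.
* `h8xp_t_mem_of_xp`, `h8xp_inv_mem_of_xp` : `t`, `t⁻¹` are integral over a ring containing
  `x' = t + (t⁻¹)^ℓ`.
* `h8xp_unit_of_root` : the roots of `T^(ℓ+1) - c T^ℓ + 1`, `c ∈ A`, are units of the valuation
  ring `A`;  `h8xp_wronskian_ne_zero` : they are simple.
* `h8xp_fg_of_span` : transfer of finiteness.
-/

set_option autoImplicit false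

open Polynomial

namespace Fermat.Agent.Red.SM.XP

section IC

variable {F : Type*} [CommRing F]

/-- the integral closure of the subring `R` in `F`, as a subring of `F`. -/
def h8xp_ic (R : Subring F) : Subring F := (integralClosure R F).toSubring

theorem h8xp_mem_ic {R : Subring F} {x : F} : x ∈ h8xp_ic R ↔ IsIntegral R x := Iff.rfl

theorem h8xp_le_ic (R : Subring F) : R ≤ h8xp_ic R := fun x hx =>
  h8xp_mem_ic.2 (isIntegral_algebraMap (R := R) (A := F) (x := ⟨x, hx⟩))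

/-- integrality over a subring contained in `ic S` implies integrality over `S`. -/
theorem h8xp_ic_le_of_le {R S : Subring F} (h : R ≤ h8xp_ic S) : h8xp_ic R ≤ h8xp_ic S := by
  rintro x ⟨p, hp, hpx⟩
  let φ : R →+* ↥(integralClosure S F) :=
    RingHom.codRestrict R.subtype (integralClosure S F) (fun r => h r.2)
  have h1 : IsIntegral ↥(integralClosure S F) x := by
    refine ⟨p.map φ, hp.map _, ?_⟩
    rw [Polynomial.eval₂_map]
    exact hpx
  exact h8xp_mem_ic.2 (isIntegral_trans x h1)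

theorem h8xp_ic_mono {R S : Subring F} (h : R ≤ S) : h8xp_ic R ≤ h8xp_ic S :=
  h8xp_ic_le_of_le (h.trans (h8xp_le_ic S))

theorem h8xp_ic_idem (R : Subring F) : h8xp_ic (h8xp_ic R) = h8xp_ic R :=
  le_antisymm (h8xp_ic_le_of_le le_rfl) (h8xp_le_ic _)

/-- a root of a monic polynomial with coefficients in `ic R` lies in `ic R`. -/
theorem h8xp_mem_of_monic (R : Subring F) (p : (h8xp_ic R)[X]) (hp : p.Monic) (t : F)
    (h : eval₂ (h8xp_ic R).subtype t p = 0) : t ∈ h8xp_ic R := by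
  have h1 : t ∈ h8xp_ic (h8xp_ic R) := h8xp_mem_ic.2 ⟨p, hp, h⟩
  rwa [h8xp_ic_idem] at h1

/-- `ic (S₀[x]) ≤ ic (S₀[y])` as soon as `x` is integral over `S₀[y]`. -/
theorem h8xp_ic_closure_le (S₀ : Set F) {x y : F}
    (h : x ∈ h8xp_ic (Subring.closure (S₀ ∪ {y}))) :
    h8xp_ic (Subring.closure (S₀ ∪ {x})) ≤ h8xp_ic (Subring.closure (S₀ ∪ {y})) := by
  refine h8xp_ic_le_of_le (Subring.closure_le.2 ?_)
  rintro z (hz | hz)
  · exact h8xp_le_ic _ (Subring.subset_closure (Or.inl hz))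
  · rw [Set.mem_singleton_iff] at hz
    rw [hz]
    exact h

theorem h8xp_ic_closure_eq (S₀ : Set F) {x y : F}
    (hx : x ∈ h8xp_ic (Subring.closure (S₀ ∪ {y})))
    (hy : y ∈ h8xp_ic (Subring.closure (S₀ ∪ {x}))) :
    h8xp_ic (Subring.closure (S₀ ∪ {x})) = h8xp_ic (Subring.closure (S₀ ∪ {y})) :=
  le_antisymm (h8xp_ic_closure_le S₀ hx) (h8xp_ic_closure_le S₀ hy)

end IC

section Field

variable {F : Type*} [Field F] (R : Subring F)

/-- `t₂`: `j t² = (t + c)³` with `j, c ∈ ic R` ⇒ `t ∈ ic R`. -/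
theorem h8xp_t2_mem {j c t : F} (hj : j ∈ h8xp_ic R) (hc : c ∈ h8xp_ic R)
    (ht : j * t ^ 2 = (t + c) ^ 3) : t ∈ h8xp_ic R := by
  refine h8xp_mem_of_monic R ((X + C ⟨c, hc⟩) ^ 3 - C ⟨j, hj⟩ * X ^ 2) ?_ t ?_
  · refine Monic.sub_of_left ((monic_X_add_C _).pow 3) ?_
    rw [degree_eq_natDegree ((monic_X_add_C (⟨c, hc⟩ : h8xp_ic R)).pow 3).ne_zero,
      (monic_X_add_C _).natDegree_pow, natDegree_X_add_C]
    refine lt_of_le_of_lt (degree_C_mul_X_pow_le 2 _) ?_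
    norm_num
  · simp only [eval₂_sub, eval₂_mul, eval₂_pow, eval₂_add, eval₂_X, eval₂_C, Subring.subtype_apply]
    rw [ht, sub_self]

/-- `t₂⁻¹`: `j t² = (t + c)³` with `j, c⁻¹ ∈ ic R` ⇒ `t⁻¹ ∈ ic R`. -/
theorem h8xp_t2_inv_mem {j c u t : F} (hj : j ∈ h8xp_ic R) (hu : u ∈ h8xp_ic R)
    (hcu : c * u = 1) (ht0 : t ≠ 0) (ht : j * t ^ 2 = (t + c) ^ 3) : t⁻¹ ∈ h8xp_ic R := by
  have hju : j * u ^ 3 ∈ h8xp_ic R := mul_mem hj (pow_mem hu 3)
  refine h8xp_mem_of_monic R ((X + C ⟨u, hu⟩) ^ 3 - C ⟨j * u ^ 3, hju⟩ * X ^ 1) ?_ t⁻¹ ?_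
  · refine Monic.sub_of_left ((monic_X_add_C _).pow 3) ?_
    rw [degree_eq_natDegree ((monic_X_add_C (⟨u, hu⟩ : h8xp_ic R)).pow 3).ne_zero,
      (monic_X_add_C _).natDegree_pow, natDegree_X_add_C]
    refine lt_of_le_of_lt (degree_C_mul_X_pow_le 1 _) ?_
    norm_num
  · simp only [eval₂_sub, eval₂_mul, eval₂_pow, eval₂_add, eval₂_X, eval₂_C, Subring.subtype_apply]
    have h1 : (t⁻¹ + u) ^ 3 = u ^ 3 * (t + c) ^ 3 * (t⁻¹) ^ 3 := by
      have : t⁻¹ + u = u * (t + c) * t⁻¹ := by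
        field_simp
        linear_combination (-1 : F) * hcu
      rw [this]
      ring
    rw [h1, ← ht]
    field_simp
    ring

/-- `t₃`: `j t³ = (t + a)(t + b)³` with `j, a, b ∈ ic R` ⇒ `t ∈ ic R`. -/
theorem h8xp_t3_mem {j a b t : F} (hj : j ∈ h8xp_ic R) (ha : a ∈ h8xp_ic R)
    (hb : b ∈ h8xp_ic R) (ht : j * t ^ 3 = (t + a) * (t + b) ^ 3) : t ∈ h8xp_ic R := by
  refine h8xp_mem_of_monic R
    ((X + C ⟨a, ha⟩) * (X + C ⟨b, hb⟩) ^ 3 - C ⟨j, hj⟩ * X ^ 3) ?_ t ?_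
  · have hm : ((X + C ⟨a, ha⟩) * (X + C ⟨b, hb⟩) ^ 3 : (h8xp_ic R)[X]).Monic :=
      (monic_X_add_C _).mul ((monic_X_add_C _).pow 3)
    refine Monic.sub_of_left hm ?_
    rw [degree_eq_natDegree hm.ne_zero,
      (monic_X_add_C _).natDegree_mul ((monic_X_add_C _).pow 3),
      (monic_X_add_C _).natDegree_pow, natDegree_X_add_C, natDegree_X_add_C]
    refine lt_of_le_of_lt (degree_C_mul_X_pow_le 3 _) ?_
    norm_num
  · simp only [eval₂_sub, eval₂_mul, eval₂_pow, eval₂_add, eval₂_X, eval₂_C, Subring.subtype_apply]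
    rw [ht, sub_self]

/-- `t₃⁻¹`: `j t³ = (t + a)(t + b)³` with `j, a⁻¹, b⁻¹ ∈ ic R` ⇒ `t⁻¹ ∈ ic R`. -/
theorem h8xp_t3_inv_mem {j a b u w t : F} (hj : j ∈ h8xp_ic R) (hu : u ∈ h8xp_ic R)
    (hw : w ∈ h8xp_ic R) (hau : a * u = 1) (hbw : b * w = 1) (ht0 : t ≠ 0)
    (ht : j * t ^ 3 = (t + a) * (t + b) ^ 3) : t⁻¹ ∈ h8xp_ic R := by
  have hju : j * (u * w ^ 3) ∈ h8xp_ic R := mul_mem hj (mul_mem hu (pow_mem hw 3))
  refine h8xp_mem_of_monic R
    ((X + C ⟨u, hu⟩) * (X + C ⟨w, hw⟩) ^ 3 - C ⟨j * (u * w ^ 3), hju⟩ * X ^ 1) ?_ t⁻¹ ?_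
  · have hm : ((X + C ⟨u, hu⟩) * (X + C ⟨w, hw⟩) ^ 3 : (h8xp_ic R)[X]).Monic :=
      (monic_X_add_C _).mul ((monic_X_add_C _).pow 3)
    refine Monic.sub_of_left hm ?_
    rw [degree_eq_natDegree hm.ne_zero,
      (monic_X_add_C _).natDegree_mul ((monic_X_add_C _).pow 3),
      (monic_X_add_C _).natDegree_pow, natDegree_X_add_C, natDegree_X_add_C]
    refine lt_of_le_of_lt (degree_C_mul_X_pow_le 1 _) ?_
    norm_num
  · simp only [eval₂_sub, eval₂_mul, eval₂_pow, eval₂_add, eval₂_X, eval₂_C, Subring.subtype_apply]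
    have h1 : t⁻¹ + u = u * (t + a) * t⁻¹ := by
      field_simp
      linear_combination (-1 : F) * hau
    have h2 : t⁻¹ + w = w * (t + b) * t⁻¹ := by
      field_simp
      linear_combination (-1 : F) * hbw
    have h3 : (t⁻¹ + u) * (t⁻¹ + w) ^ 3 = u * w ^ 3 * ((t + a) * (t + b) ^ 3) * (t⁻¹) ^ 4 := by
      rw [h1, h2]
      ring
    rw [h3, ← ht]
    field_simp
    ring

/-- the relation `t^(ℓ+1) - x' t^ℓ + 1 = 0` for `x' = t + (t⁻¹)^ℓ`. -/
theorem h8xp_rel {t : F} (ht0 : t ≠ 0) (ℓ : ℕ) :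
    t ^ (ℓ + 1) - (t + (t⁻¹) ^ ℓ) * t ^ ℓ + 1 = 0 := by
  have h1 : (t⁻¹) ^ ℓ * t ^ ℓ = 1 := by
    rw [← mul_pow, inv_mul_cancel₀ ht0, one_pow]
  rw [add_mul, h1, pow_succ]
  ring

/-- `t` is integral over any ring containing `x' = t + (t⁻¹)^ℓ`. -/
theorem h8xp_t_mem_of_xp {t : F} (ht0 : t ≠ 0) (ℓ : ℕ)
    (hx : t + (t⁻¹) ^ ℓ ∈ h8xp_ic R) : t ∈ h8xp_ic R := by
  refine h8xp_mem_of_monic R (X ^ (ℓ + 1) - C ⟨_, hx⟩ * X ^ ℓ + 1) ?_ t ?_
  · have hm : (X ^ (ℓ + 1) - C (⟨_, hx⟩ : h8xp_ic R) * X ^ ℓ).Monic := by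
      refine Monic.sub_of_left (monic_X_pow _) ?_
      rw [degree_X_pow]
      refine lt_of_le_of_lt (degree_C_mul_X_pow_le ℓ _) ?_
      exact_mod_cast Nat.lt_succ_self ℓ
    refine hm.add_of_left ?_
    rw [degree_eq_natDegree hm.ne_zero, degree_one]
    have : (X ^ (ℓ + 1) - C (⟨_, hx⟩ : h8xp_ic R) * X ^ ℓ).natDegree = ℓ + 1 := by
      rw [natDegree_sub_eq_left_of_natDegree_lt]
      · exact natDegree_X_pow _
      · rw [natDegree_X_pow]
        exact lt_of_le_of_lt (natDegree_C_mul_X_pow_le _ ℓ) (Nat.lt_succ_self ℓ)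
    rw [this]
    exact_mod_cast Nat.succ_pos ℓ
  · simp only [eval₂_sub, eval₂_mul, eval₂_pow, eval₂_add, eval₂_X, eval₂_C, eval₂_one,
      Subring.subtype_apply]
    exact h8xp_rel ht0 ℓ

/-- `t⁻¹ = - t^(ℓ-1) (t - x')` is integral over any ring containing `x' = t + (t⁻¹)^ℓ`
(`ℓ ≥ 1`). -/
theorem h8xp_inv_mem_of_xp {t : F} (ht0 : t ≠ 0) (ℓ : ℕ) (hℓ : 0 < ℓ)
    (hx : t + (t⁻¹) ^ ℓ ∈ h8xp_ic R) : t⁻¹ ∈ h8xp_ic R := by
  have ht := h8xp_t_mem_of_xp R ht0 ℓ hx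
  obtain ⟨m, rfl⟩ : ∃ m, ℓ = m + 1 := ⟨ℓ - 1, by omega⟩
  have h1 : t⁻¹ = -(t ^ m * (t - (t + (t⁻¹) ^ (m + 1)))) := by
    have h2 : t - (t + (t⁻¹) ^ (m + 1)) = -(t⁻¹) ^ (m + 1) := by ring
    have h3 : t ^ m * (t⁻¹) ^ m = 1 := by
      rw [← mul_pow, mul_inv_cancel₀ ht0, one_pow]
    rw [h2, pow_succ]
    linear_combination (-t⁻¹) * h3
  rw [h1]
  exact neg_mem (mul_mem (pow_mem ht m) (sub_mem ht hx))

end Field

section Val

variable {K : Type*} [Field K] (A : ValuationSubring K)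

/-- the roots of `T^(ℓ+1) - c T^ℓ + 1` (`c ∈ A`, `ℓ ≥ 1`) are units of `A`. -/
theorem h8xp_unit_of_root (ℓ : ℕ) (hℓ : 0 < ℓ) {c a : K} (hc : c ∈ A)
    (h : a ^ (ℓ + 1) - c * a ^ ℓ + 1 = 0) : a ≠ 0 ∧ a ∈ A ∧ a⁻¹ ∈ A := by
  obtain ⟨m, rfl⟩ : ∃ m, ℓ = m + 1 := ⟨ℓ - 1, by omega⟩
  have ha0 : a ≠ 0 := by
    rintro rfl
    simp at h
  have h1 : a = c - (a⁻¹) ^ (m + 1) := by
    have h2 : (a⁻¹) ^ (m + 1) * a ^ (m + 1) = 1 := by
      rw [← mul_pow, inv_mul_cancel₀ ha0, one_pow]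
    have h3 : a ^ (m + 1 + 1) = a * a ^ (m + 1) := by ring
    rw [h3] at h
    linear_combination (a⁻¹) ^ (m + 1) * h + (c - a) * h2
  have h4 : a⁻¹ = -(a ^ m * (a - c)) := by
    have h3 : a ^ (m + 1 + 1) = a * (a * a ^ m) := by ring
    have h5 : a ^ (m + 1) = a * a ^ m := by ring
    rw [h3, h5] at h
    have h6 : a⁻¹ * a = 1 := inv_mul_cancel₀ ha0
    linear_combination a⁻¹ * h + (-(a * a ^ m) + c * a ^ m) * h6
  refine ⟨ha0, ?_, ?_⟩
  · rcases A.mem_or_inv_mem a with h5 | h5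
    · exact h5
    · rw [h1]
      exact sub_mem hc (pow_mem h5 _)
  · rcases A.mem_or_inv_mem a with h5 | h5
    · rw [h4]
      exact neg_mem (mul_mem (pow_mem h5 _) (sub_mem h5 hc))
    · exact h5

/-- a unit of `A` has valuation one. -/
theorem h8xp_valuation_eq_one {a : K} (ha : a ∈ A) (ha' : a⁻¹ ∈ A) (ha0 : a ≠ 0) :
    A.valuation a = 1 := by
  have h1 : A.valuation a ≤ 1 := (A.valuation_le_one_iff a).2 ha
  have h2 : A.valuation a⁻¹ ≤ 1 := (A.valuation_le_one_iff a⁻¹).2 ha'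
  have h3 : A.valuation a * A.valuation a⁻¹ = 1 := by
    rw [← map_mul, mul_inv_cancel₀ ha0, map_one]
  refine le_antisymm h1 ?_
  calc (1 : _) = A.valuation a * A.valuation a⁻¹ := h3.symm
    _ ≤ A.valuation a * 1 := by gcongr
    _ = A.valuation a := mul_one _

/-- unit minus nonunit is nonzero: the roots of `T^(ℓ+1) - c T^ℓ + 1` are simple when
`ℓ ∈ 𝔪_A`. -/
theorem h8xp_pow_sub_ne_zero (ℓ : ℕ) (hℓ : (ℓ : K) ∈ A.nonunits) {a : K} (ha : a ∈ A)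
    (ha' : a⁻¹ ∈ A) (ha0 : a ≠ 0) : a ^ (ℓ + 1) - (ℓ : K) ≠ 0 := by
  intro h
  have h1 : A.valuation (a ^ (ℓ + 1)) = 1 := by
    rw [map_pow, h8xp_valuation_eq_one A ha ha' ha0, one_pow]
  have h2 : A.valuation (ℓ : K) < 1 := (ValuationSubring.mem_nonunits_iff A).1 hℓ
  rw [sub_eq_zero] at h
  rw [h, ] at h1
  exact absurd h1 (ne_of_lt h2)

/-- the Wronskian of `P = X^(ℓ+1) + 1`, `Q = X^ℓ` at `a`. -/
theorem h8xp_wronskian (ℓ : ℕ) (hℓ : 0 < ℓ) (a : K) :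
    (X ^ ℓ : K[X]).eval a * (derivative (X ^ (ℓ + 1) + 1 : K[X])).eval a -
      (X ^ (ℓ + 1) + 1 : K[X]).eval a * (derivative (X ^ ℓ : K[X])).eval a =
      a ^ (ℓ - 1) * (a ^ (ℓ + 1) - (ℓ : K)) := by
  obtain ⟨m, rfl⟩ : ∃ m, ℓ = m + 1 := ⟨ℓ - 1, by omega⟩
  simp only [derivative_add, derivative_X_pow, derivative_one, add_zero, eval_mul, eval_pow,
    eval_X, eval_add, eval_one, eval_natCast, Nat.add_sub_cancel, map_natCast]
  push_cast
  ring

theorem h8xp_wronskian_ne_zero (ℓ : ℕ) (hℓ0 : 0 < ℓ) (hℓ : (ℓ : K) ∈ A.nonunits) {a : K}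
    (ha : a ∈ A) (ha' : a⁻¹ ∈ A) (ha0 : a ≠ 0) :
    (X ^ ℓ : K[X]).eval a * (derivative (X ^ (ℓ + 1) + 1 : K[X])).eval a -
      (X ^ (ℓ + 1) + 1 : K[X]).eval a * (derivative (X ^ ℓ : K[X])).eval a ≠ 0 := by
  rw [h8xp_wronskian ℓ hℓ0]
  exact mul_ne_zero (pow_ne_zero _ ha0) (h8xp_pow_sub_ne_zero A ℓ hℓ ha ha' ha0)

end Val

section Fin

variable {F : Type*} [CommRing F]

/-- **FIN transfer.**  If `B` is spanned over `S₀[j]` by a finite set `s ⊆ B`, `j ∈ B`, and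
`S₀[x] ⊆ B ⊆ ic (S₀[x])`, then `B` is spanned over `S₀[x]` by a finite subset of `B`. -/
theorem h8xp_fin_transfer (S₀ : Set F) (j x : F) (B : Subring F) (s : Finset F)
    (hjB : j ∈ B) (hsB : ∀ b ∈ s, b ∈ B)
    (hxB : Subring.closure (S₀ ∪ {x}) ≤ B)
    (hB : B ≤ h8xp_ic (Subring.closure (S₀ ∪ {x})))
    (hspan : ∀ f ∈ B, f ∈ Submodule.span (Subring.closure (S₀ ∪ {j})) (s : Set F)) :
    ∃ s' : Finset F, (∀ b ∈ s', b ∈ B) ∧
      ∀ f ∈ B, f ∈ Submodule.span (Subring.closure (S₀ ∪ {x})) (s' : Set F) := by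
  classical
  set R' : Subring F := Subring.closure (S₀ ∪ {x}) with hR'
  set S : Set F := insert j (s : Set F) with hS
  have hSfin : S.Finite := (Finset.finite_toSet s).insert j
  have hSB : ∀ y ∈ S, y ∈ B := by
    rintro y (rfl | hy)
    · exact hjB
    · exact hsB y hy
  have hSint : ∀ y ∈ S, IsIntegral R' y := fun y hy => h8xp_mem_ic.1 (hB (hSB y hy))
  have hfg : (Algebra.adjoin R' S).toSubmodule.FG := fg_adjoin_of_finite hSfin hSint
  obtain ⟨s', hs'⟩ := hfg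
  have hadjB : ∀ y ∈ Algebra.adjoin R' S, y ∈ B := by
    intro y hy
    induction hy using Algebra.adjoin_induction with
    | mem y hy => exact hSB y hy
    | algebraMap r => exact hxB r.2
    | add y z _ _ hy hz => exact add_mem hy hz
    | mul y z _ _ hy hz => exact mul_mem hy hz
  have hRadj : Subring.closure (S₀ ∪ {j}) ≤ (Algebra.adjoin R' S).toSubring := by
    refine Subring.closure_le.2 ?_
    rintro z (hz | hz)
    · exact (Algebra.adjoin R' S).algebraMap_mem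
        (⟨z, Subring.subset_closure (Or.inl hz)⟩ : R')
    · rw [Set.mem_singleton_iff] at hz
      rw [hz]
      exact Algebra.subset_adjoin (Set.mem_insert j _)
  have hspanadj : ∀ f ∈ Submodule.span (Subring.closure (S₀ ∪ {j})) (s : Set F),
      f ∈ Algebra.adjoin R' S := by
    intro f h1
    induction h1 using Submodule.span_induction with
    | mem y hy => exact Algebra.subset_adjoin (Set.mem_insert_of_mem j hy)
    | zero => exact zero_mem _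
    | add y z _ _ hy hz => exact add_mem hy hz
    | smul r y _ hy => exact mul_mem (hRadj r.2) hy
  have hBadj : ∀ f ∈ B, f ∈ Algebra.adjoin R' S := fun f hf => hspanadj f (hspan f hf)
  refine ⟨s', ?_, ?_⟩
  · intro b hb
    apply hadjB
    have : b ∈ Submodule.span R' (s' : Set F) := Submodule.subset_span hb
    rw [hs'] at this
    exact this
  · intro f hf
    rw [hs']
    exact hBadj f hf

/-- `B` is spanned over the subring `R` by finitely many of its elements (explicit sums; no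
module instances). -/
def h8xp_FinSpan (R B : Subring F) : Prop :=
  ∃ s : Finset F, (∀ b ∈ s, b ∈ B) ∧
    ∀ f ∈ B, ∃ c : F → F, (∀ b, c b ∈ R) ∧ f = ∑ b ∈ s, c b * b

theorem h8xp_mem_span_iff (R : Subring F) (s : Finset F) (f : F) :
    f ∈ Submodule.span R (s : Set F) ↔ ∃ c : F → F, (∀ b, c b ∈ R) ∧ f = ∑ b ∈ s, c b * b := by
  constructor
  · intro h
    obtain ⟨c, -, hc⟩ := Submodule.mem_span_finset.1 h
    exact ⟨fun b => (c b : F), fun b => (c b).2, hc.symm⟩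
  · rintro ⟨c, hc, rfl⟩
    refine Submodule.sum_mem _ fun b hb => ?_
    have h1 : c b * b = (⟨c b, hc b⟩ : R) • b := rfl
    rw [h1]
    exact Submodule.smul_mem _ _ (Submodule.subset_span hb)

theorem h8xp_finSpan_iff (R B : Subring F) :
    h8xp_FinSpan R B ↔ ∃ s : Finset F, (∀ b ∈ s, b ∈ B) ∧
      ∀ f ∈ B, f ∈ Submodule.span R (s : Set F) := by
  unfold h8xp_FinSpan
  simp only [h8xp_mem_span_iff]

/-- **FIN transfer**, explicit form. -/
theorem h8xp_finSpan_transfer (S₀ : Set F) (j x : F) (B : Subring F)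
    (hjB : j ∈ B) (hxB : Subring.closure (S₀ ∪ {x}) ≤ B)
    (hB : B ≤ h8xp_ic (Subring.closure (S₀ ∪ {x})))
    (h : h8xp_FinSpan (Subring.closure (S₀ ∪ {j})) B) :
    h8xp_FinSpan (Subring.closure (S₀ ∪ {x})) B := by
  rw [h8xp_finSpan_iff] at h ⊢
  obtain ⟨s, hs, hspan⟩ := h
  exact h8xp_fin_transfer S₀ j x B s hjB hs hxB hB hspan

end Fin

end Fermat.Agent.Red.SM.XP
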