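import Fermat.Agent.Red.SM.TID2An
import Fermat.Agent.S28.H52Formal

/-!
# P-RED / SM-TID (ℓ = 3): the formal Hauptmodul `t₂ = Δ(q)/Δ(q²) ∈ ℚ((q))`

* `t2 = deltaSeries * (deltaSub 2)⁻¹ = q⁻¹ - 24 + 276 q - …`;
* `t2_identity : jq * t2 ^ 2 = (t2 + C 256) ^ 3`;
* `t2_fricke : qExpand ℚ 2 jq * t2 = (t2 + C 16) ^ 3`;
* `t2_isMonicOfOrder : IsMonicOfOrder t2 (-1)`, `t2_coeff_int`.
-/

set_option autoImplicit false

open ModularCurve UpperHalfPlane Complex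
open scoped MatrixGroups Manifold

noncomputable section

namespace Fermat.Agent.Red.SM.TID

open Fermat.Agent.S28

/-- the formal Hauptmodul of `Γ₀(2)`: `Δ(q)/Δ(q²)`. -/
def t2 : LaurentSeries ℚ := deltaSeries * (deltaSub 2)⁻¹

theorem cEmb_t2 : cEmb t2 = t2C := by
  rw [t2, t2C, map_mul, map_inv₀]

/-- the `q`-expansion of the analytic `t₂` is (the image of) the formal `t₂`. -/
theorem hasTExp_t2An : HasTExp 1 t2An (cEmb t2) := by
  rw [cEmb_t2]
  exact hasTExp_t2An_C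

theorem cEmb_injective : Function.Injective cEmb :=
  (cEmb : LaurentSeries ℚ →+* LaurentSeries ℂ).injective

theorem cEmb_C (r : ℚ) : cEmb (HahnSeries.C r) = HahnSeries.C ((r : ℚ) : ℂ) := by
  rw [cEmb, HahnSeries.C_apply, coeffMap_single, HahnSeries.C_apply]
  rfl

theorem t2_intMonic : h52_IntMonic t2 (-1) := by
  have h := h52_intMonic_deltaSeries.mul (h52_intMonic_deltaSub 2 (by norm_num)).inv
  have e : (1 : ℤ) + -((2 : ℕ) : ℤ) = -1 := by norm_num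
  rw [e] at h
  exact h

/-- `t₂ = q⁻¹ + …`. -/
theorem t2_isMonicOfOrder : IsMonicOfOrder t2 (-1) :=
  t2_intMonic.isMonicOfOrder

/-- `t₂` has integer coefficients. -/
theorem t2_coeff_int (n : ℤ) : ∃ m : ℤ, t2.coeff n = m :=
  t2_intMonic.coeff_int n

theorem t2_ne_zero : t2 ≠ 0 := t2_intMonic.ne_zero

/-- **`j · t₂² = (t₂ + 256)³`** in `ℚ((q))`. -/
theorem t2_identity : jq * t2 ^ 2 = (t2 + HahnSeries.C 256) ^ 3 := by
  apply cEmb_injective
  rw [map_mul, map_pow, map_pow, map_add, cEmb_C]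
  have h1 : HasTExp 1 (fun τ => jAn τ * t2An τ ^ 2) (cEmb jq * cEmb t2 ^ 2) :=
    (hasTExp_jAn.mul one_pos (hasTExp_t2An.pow one_pos 2)).congr (fun _ => rfl)
  have h2 : HasTExp 1 (fun τ => (t2An τ + 256) ^ 3)
      ((cEmb t2 + HahnSeries.C (256 : ℂ)) ^ 3) :=
    ((hasTExp_t2An.add (HasTExp.const 1 256)).pow one_pos 3).congr (fun _ => rfl)
  have h3 := h1.congr t2An_identity
  have e : (((256 : ℚ)) : ℂ) = 256 := by norm_num
  rw [e]
  exact HasTExp.unique one_pos h3 h2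

/-- **`j(q²) · t₂ = (t₂ + 16)³`** in `ℚ((q))`. -/
theorem t2_fricke' : jSub 2 * t2 = (t2 + HahnSeries.C 16) ^ 3 := by
  apply cEmb_injective
  rw [map_mul, map_pow, map_add, cEmb_C]
  have h1 : HasTExp 1 (fun τ => jAt 2 τ * t2An τ) (cEmb (jSub 2) * cEmb t2) :=
    ((hasTExp_jAt 2 two_pos).mul one_pos hasTExp_t2An).congr (fun _ => rfl)
  have h2 : HasTExp 1 (fun τ => (t2An τ + 16) ^ 3)
      ((cEmb t2 + HahnSeries.C (16 : ℂ)) ^ 3) :=
    ((hasTExp_t2An.add (HasTExp.const 1 16)).pow one_pos 3).congr (fun _ => rfl)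
  have h3 := h1.congr t2An_fricke
  have e : (((16 : ℚ)) : ℂ) = 16 := by norm_num
  rw [e]
  exact HasTExp.unique one_pos h3 h2

theorem jSub_two : jSub 2 = qExpand ℚ 2 jq := by
  rw [jSub, dif_neg (by norm_num)]

/-- **`j(q²) · t₂ = (t₂ + 16)³`**, with `j(q²) = qExpand ℚ 2 jq`. -/
theorem t2_fricke : qExpand ℚ 2 jq * t2 = (t2 + HahnSeries.C 16) ^ 3 := by
  rw [← jSub_two]
  exact t2_fricke'

end Fermat.Agent.Red.SM.TID
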