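import Fermat.Agent.Red.SM.CoreSkeleton
import Fermat.Agent.Red.GV.Bar
import Fermat.Agent.S18.ResAlgClosed

/-!
# P-RED / R-SM : instantiation skeleton (row SM-INST, sub-lead helper4)

`SMCore` (`Red/SM/CoreSkeleton.lean`, helper13) is the abstract smoothness theorem.  This file
freezes, in the vocabulary of `Fermat.Agent.S37` (`K = Kbar`, `F = FF M`), the statements of the
instantiation rows and proves the assembly

  `ifaceSmooth_of_rows : SMCore → (rows) → S37.IfaceSmooth`.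

Everything except the final assembly is a `def … : Prop` / `structure … : Prop`; nothing is
assumed.

## Charts and base coordinates (SM-DECIDE, D2)

* `modelInf`, every `ℓ` : `x = 1/j`;
* `modelFin`, `5 ≤ ℓ`   : `x = j`;
* `modelFin`, `ℓ = 3` (`4 ∣ M`) : `x = xp 3 t`, `t = t₂`, `j t² = (t + 256)³`;
* `modelFin`, `ℓ = 2` (`9 ∣ M`) : `x = xp 2 t`, `t = t₃`, `j t³ = (t + 27)(t + 243)³`,

where `xp ℓ t = t + t⁻ˡ`.

## Rows (owner)

* `RowAlg`      (helper4)               : `halg` for `x = j, 1/j`, and for `xp ℓ t`;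
* `RowFin`      (SM-FIN, helper59/85)   : `CoreFin` for `x = j, 1/j`;
* `RowGauss`    (SM-GVPACK, helper81)   : `CoreGauss + CoreRed` for `x = j, 1/j`;
* `RowBranchInf`, `RowBranchFin` (SM-RAM / SM-BRJ, helper31 + SM-DICT helper25);
* `RowTID`      (SM-TID, helper29/80)   : existence of `t`;
* `RowXP`       (SM-XP helper8; Gauss/Red part helper81; branch part helper31) : the chart of
  `xp ℓ t` is `modelFin` and satisfies the four hypotheses.
-/

set_option autoImplicit false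

open ModularCurve AlgebraicCurve

noncomputable section

namespace Fermat.Agent.Red.SM.Inst

open Fermat.Agent.S37 Fermat.Agent.Red.SM

/-! ## The dictionary `CoreSkeleton ↔ S37` (all by `rfl`) -/

theorem coreAdj_eq (M : ℕ) (A : ValuationSubring Kbar) (x : FF M) :
    coreAdj A x = ringAdj M A x := rfl

theorem coreChart_eq (M : ℕ) (A : ValuationSubring Kbar) (x : FF M) :
    coreChart A x = modelAt M A x := rfl

theorem coreMax_eq (M : ℕ) (A : ValuationSubring Kbar) (R : Subring (FF M)) :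
    coreMax A R = maxExt A R := rfl

/-! ## The hypotheses of `SMCore` at a chart -/

/-- `halg`: `FF M` is algebraic over `Kbar[x]`. -/
def AlgAt {M : ℕ} (x : FF M) : Prop :=
  ∀ y : FF M, IsAlgebraic (Algebra.adjoin Kbar {x}) y

/-- (H3) + (H4): a Gauss valuation subring and its reduction map exist for the chart of `x`. -/
def GaussRedAt {M : ℕ} (A : ValuationSubring Kbar) (x : FF M) : Prop :=
  ∃ (V : ValuationSubring (FF M)) (ρ : V →+* LaurentSeries (IsLocalRing.ResidueField A)),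
    CoreGauss A x V ∧ CoreRed A x V ρ

/-- (H5): branch data exist for `x`. -/
def BranchAt {M : ℕ} (A : ValuationSubring Kbar) (x : FF M) : Prop :=
  ∃ S : Finset Kbar, CoreBranch A x S

/-- all hypotheses of `SMCore` for the chart `modelAt M A x`. -/
structure ChartOK {M : ℕ} (A : ValuationSubring Kbar) (x : FF M) : Prop where
  alg : AlgAt x
  fin : CoreFin A x
  gauss : GaussRedAt A x
  branch : BranchAt A x

/-- the residue field of `A` over `ℓ` has characteristic `ℓ`. -/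
theorem charP_residueField {ℓ : ℕ} (hℓ : ℓ.Prime) (A : ValuationSubring Kbar)
    (hA : A.LiesOverPrime ℓ) : CharP (IsLocalRing.ResidueField A) ℓ :=
  haveI : Fact ℓ.Prime := ⟨hℓ⟩
  Fermat.Agent.Red.GV.Base.h80_charP A (IsLocalRing.residue A) ℓ
    (Fermat.Agent.Red.GV.isResidueMap_residue A ℓ hA)

/-- **`SMCore` in `S37` vocabulary.** -/
theorem dedekind_of_chartOK (hcore : SMCore) {ℓ : ℕ} (hℓ : ℓ.Prime) {M : ℕ}
    {A : ValuationSubring Kbar} (hA : A.LiesOverPrime ℓ) {x : FF M} (h : ChartOK A x) :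
    IsDedekindDomain (modelAt M A x ⧸ maxExt A (modelAt M A x)) := by
  haveI : Fact ℓ.Prime := ⟨hℓ⟩
  haveI : CharP (IsLocalRing.ResidueField A) ℓ := charP_residueField hℓ A hA
  haveI : IsAlgClosed (IsLocalRing.ResidueField A) :=
    Fermat.Agent.S18.h72_residueField_isAlgClosed A
  obtain ⟨V, ρ, hV, hρ⟩ := h.gauss
  obtain ⟨S, hS⟩ := h.branch
  exact hcore Kbar A ℓ (FF M) x h.alg h.fin V hV ρ hρ S hS

/-! ## The base coordinate for `ℓ = 2, 3` -/

/-- `x' = t + t⁻ˡ`. -/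
def xp (ℓ : ℕ) {M : ℕ} (t : FF M) : FF M := t + t⁻¹ ^ ℓ

/-- the defining identity of `t = t₂` (`ℓ = 3`) resp. `t = t₃` (`ℓ = 2`). -/
def TRel (ℓ M : ℕ) [NeZero M] (t : FF M) : Prop :=
  (ℓ = 3 ∧ jB M * t ^ 2 = (t + cst M 256) ^ 3) ∨
  (ℓ = 2 ∧ jB M * t ^ 3 = (t + cst M 27) * (t + cst M 243) ^ 3)

/-- **TID data**: `t ∈ FF M` satisfies the identity and has an integral `q`-expansion
`q⁻¹ + …`. -/
structure IsTCoord (ℓ M : ℕ) [NeZero M] (t : FF M) : Prop where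
  rel : TRel ℓ M t
  exp : ∃ y : LaurentSeries ℤ, coeffMap (Int.castRingHom Kbar) y = (t : LaurentSeries Kbar) ∧
    (∀ n : ℤ, n < -1 → y.coeff n = 0) ∧ y.coeff (-1) = 1

/-! ## The rows -/

/-- **ALG** (helper4): `FF M` is algebraic over `Kbar[j]` and over `Kbar[1/j]`. -/
def RowAlg : Prop :=
  ∀ (M : ℕ) [NeZero M], AlgAt (jB M) ∧ AlgAt (jB M)⁻¹

/-- **SM-FIN**: both `j`-charts are finitely generated modules. -/
def RowFin : Prop :=
  ∀ ℓ : ℕ, ℓ.Prime → ∀ (M : ℕ) [NeZero M], ¬ ℓ ∣ M →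
    ∀ A : ValuationSubring Kbar, A.LiesOverPrime ℓ →
      CoreFin A (jB M) ∧ CoreFin A (jB M)⁻¹

/-- **SM-GVPACK**: Gauss valuation and reduction for both `j`-charts. -/
def RowGauss : Prop :=
  ∀ ℓ : ℕ, ℓ.Prime → ∀ (M : ℕ) [NeZero M], ¬ ℓ ∣ M →
    ∀ A : ValuationSubring Kbar, A.LiesOverPrime ℓ →
      GaussRedAt A (jB M) ∧ GaussRedAt A (jB M)⁻¹

/-- **SM-RAM (b)**: branch data of `1/j`, every `ℓ`
(`S = {0}` for `ℓ = 2, 3`, `S = {0, 1/1728}` for `ℓ ≥ 5`). -/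
def RowBranchInf : Prop :=
  ∀ ℓ : ℕ, ℓ.Prime → ∀ (M : ℕ) [NeZero M], ¬ ℓ ∣ M → auxLevel ℓ ∣ M →
    ∀ A : ValuationSubring Kbar, A.LiesOverPrime ℓ → BranchAt A (jB M)⁻¹

/-- **SM-RAM (a)**: branch data of `j` for `ℓ ≥ 5` (`S = {0, 1728}`). -/
def RowBranchFin : Prop :=
  ∀ ℓ : ℕ, ℓ.Prime → 5 ≤ ℓ → ∀ (M : ℕ) [NeZero M], ¬ ℓ ∣ M → auxLevel ℓ ∣ M →
    ∀ A : ValuationSubring Kbar, A.LiesOverPrime ℓ → BranchAt A (jB M)

/-- **SM-TID**: the coordinate `t` exists at every good level for `ℓ = 2, 3`. -/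
def RowTID : Prop :=
  ∀ ℓ : ℕ, ℓ = 2 ∨ ℓ = 3 → ∀ (M : ℕ) [NeZero M], auxLevel ℓ ∣ M → ∃ t : FF M, IsTCoord ℓ M t

/-- **SM-XP (ii)**: the chart of `x' = t + t⁻ˡ` is the finite chart. -/
def RowXPChart : Prop :=
  ∀ ℓ : ℕ, ℓ.Prime → ∀ (M : ℕ) [NeZero M], ¬ ℓ ∣ M → auxLevel ℓ ∣ M →
    ∀ A : ValuationSubring Kbar, A.LiesOverPrime ℓ → ∀ t : FF M, IsTCoord ℓ M t →
      modelAt M A (xp ℓ t) = modelFin M A

/-- **SM-XP (alg)**: `FF M` is algebraic over `Kbar[x']`. -/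
def RowXPAlg : Prop :=
  ∀ (ℓ M : ℕ) [NeZero M] (t : FF M), IsTCoord ℓ M t → AlgAt (xp ℓ t)

/-- **SM-XP (iv)**: finiteness over `A[x']` from finiteness over `A[j]`. -/
def RowXPFin : Prop :=
  ∀ ℓ : ℕ, ℓ.Prime → ∀ (M : ℕ) [NeZero M], ¬ ℓ ∣ M → auxLevel ℓ ∣ M →
    ∀ A : ValuationSubring Kbar, A.LiesOverPrime ℓ → ∀ t : FF M, IsTCoord ℓ M t →
      CoreFin A (jB M) → CoreFin A (xp ℓ t)

/-- **SM-GVPACK for `x'`**: Gauss valuation and reduction for the chart of `x'`. -/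
def RowXPGauss : Prop :=
  ∀ ℓ : ℕ, ℓ.Prime → ∀ (M : ℕ) [NeZero M], ¬ ℓ ∣ M → auxLevel ℓ ∣ M →
    ∀ A : ValuationSubring Kbar, A.LiesOverPrime ℓ → ∀ t : FF M, IsTCoord ℓ M t →
      GaussRedAt A (xp ℓ t)

/-- **SM-RAM (c), (d)**: branch data of `x'` (`S = {x'(-64)}` resp. `{x'(-27)}`). -/
def RowXPBranch : Prop :=
  ∀ ℓ : ℕ, ℓ.Prime → ∀ (M : ℕ) [NeZero M], ¬ ℓ ∣ M → auxLevel ℓ ∣ M →
    ∀ A : ValuationSubring Kbar, A.LiesOverPrime ℓ → ∀ t : FF M, IsTCoord ℓ M t →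
      BranchAt A (xp ℓ t)

/-! ## The assembly -/

theorem prime_cases {ℓ : ℕ} (hℓ : ℓ.Prime) : ℓ = 2 ∨ ℓ = 3 ∨ 5 ≤ ℓ := by
  have h2 := hℓ.two_le
  rcases Nat.lt_or_ge ℓ 5 with h | h
  · interval_cases ℓ
    · exact Or.inl rfl
    · exact Or.inr (Or.inl rfl)
    · exact absurd hℓ (by decide)
  · exact Or.inr (Or.inr h)

/-- **SM-ASM from the rows.** -/
theorem ifaceSmooth_of_rows (hcore : SMCore) (hAlg : RowAlg) (hFin : RowFin)
    (hGauss : RowGauss) (hBrInf : RowBranchInf) (hBrFin : RowBranchFin) (hTID : RowTID)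
    (hXC : RowXPChart) (hXA : RowXPAlg) (hXF : RowXPFin) (hXG : RowXPGauss)
    (hXB : RowXPBranch) : IfaceSmooth := by
  intro ℓ hℓ M _ hM haux A hA
  refine ⟨?_, ?_⟩
  · -- the finite chart
    have h5 : (ℓ = 2 ∨ ℓ = 3) ∨ 5 ≤ ℓ := by
      rcases prime_cases hℓ with h | h | h
      · exact Or.inl (Or.inl h)
      · exact Or.inl (Or.inr h)
      · exact Or.inr h
    rcases h5 with h23 | h5
    · obtain ⟨t, ht⟩ := hTID ℓ h23 M haux
      have hc := hXC ℓ hℓ M hM haux A hA t ht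
      have hok : ChartOK A (xp ℓ t) :=
        ⟨hXA ℓ M t ht, hXF ℓ hℓ M hM haux A hA t ht (hFin ℓ hℓ M hM A hA).1,
          hXG ℓ hℓ M hM haux A hA t ht, hXB ℓ hℓ M hM haux A hA t ht⟩
      have hd := dedekind_of_chartOK hcore hℓ hA hok
      rw [hc] at hd
      exact hd
    · have hok : ChartOK A (jB M) :=
        ⟨(hAlg M).1, (hFin ℓ hℓ M hM A hA).1, (hGauss ℓ hℓ M hM A hA).1,
          hBrFin ℓ hℓ h5 M hM haux A hA⟩
      exact dedekind_of_chartOK hcore hℓ hA hok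
  · -- the chart at infinity
    have hok : ChartOK A (jB M)⁻¹ :=
      ⟨(hAlg M).2, (hFin ℓ hℓ M hM A hA).2, (hGauss ℓ hℓ M hM A hA).2,
        hBrInf ℓ hℓ M hM haux A hA⟩
    exact dedekind_of_chartOK hcore hℓ hA hok

end Fermat.Agent.Red.SM.Inst
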