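import Fermat.Agent.Red.SM.InstSkeleton

/-!
# P-RED, R-SM (SM-TID glue, helper8): from formal `t`-series over `ℚ` to `Inst.RowTID`

The SM-TID owners (helper29: `t₂`, helper80: `t₃`) deliver formal series in `LaurentSeries ℚ`:
membership in `modularFunctionFieldFull 2` (resp. `3`), the identity with `jq`, integrality of
the coefficients and the leading term `q⁻¹`.  This file converts such data into the row
`Inst.RowTID` (existence of `t : FF M` with `IsTCoord ℓ M t` at every good level).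

* `h8tid_Formal2 t`, `h8tid_Formal3 t` : the formal data.
* `h8tid_isTCoord_two`, `h8tid_isTCoord_three` : the element of `FF M`.
* `h8tid_rowTID : (∃ t, h8tid_Formal2 t) → (∃ t, h8tid_Formal3 t) → Inst.RowTID`.
-/

set_option autoImplicit false

open ModularCurve AlgebraicCurve

noncomputable section

namespace Fermat.Agent.Red.SM.TIDGlue

open Fermat.Agent.S37 Fermat.Agent.Red.SM Fermat.Agent.Red.SM.Inst

/-- formal data of `t₂` (`ℓ = 3`). -/
structure h8tid_Formal2 (t : LaurentSeries ℚ) : Prop where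
  mem : t ∈ modularFunctionFieldFull 2
  rel : jq * t ^ 2 = (t + HahnSeries.C 256) ^ 3
  int : ∀ n : ℤ, ∃ m : ℤ, t.coeff n = m
  mono : IsMonicOfOrder t (-1)

/-- formal data of `t₃` (`ℓ = 2`). -/
structure h8tid_Formal3 (t : LaurentSeries ℚ) : Prop where
  mem : t ∈ modularFunctionFieldFull 3
  rel : jq * t ^ 3 = (t + HahnSeries.C 27) * (t + HahnSeries.C 243) ^ 3
  int : ∀ n : ℤ, ∃ m : ℤ, t.coeff n = m
  mono : IsMonicOfOrder t (-1)

/-- the floor of the coefficients. -/
def h8tid_floor (t : LaurentSeries ℚ) : LaurentSeries ℤ :=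
  t.map (⟨fun x : ℚ => ⌊x⌋, Int.floor_zero⟩ : ZeroHom ℚ ℤ)

theorem h8tid_floor_coeff (t : LaurentSeries ℚ) (n : ℤ) :
    (h8tid_floor t).coeff n = ⌊t.coeff n⌋ := rfl

/-- an integral series over `ℚ` is the image of a series over `ℤ`. -/
theorem h8tid_exists_int (L : Type*) [Field L] [Algebra ℚ L] (t : LaurentSeries ℚ)
    (hint : ∀ n : ℤ, ∃ m : ℤ, t.coeff n = m) (hmono : IsMonicOfOrder t (-1)) :
    ∃ y : LaurentSeries ℤ, coeffMap (Int.castRingHom L) y = coeffEmb L t ∧
      (∀ n : ℤ, n < -1 → y.coeff n = 0) ∧ y.coeff (-1) = 1 := by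
  refine ⟨h8tid_floor t, ?_, ?_, ?_⟩
  · ext n
    rw [coeffMap_coeff, coeffEmb_coeff, h8tid_floor_coeff]
    obtain ⟨m, hm⟩ := hint n
    rw [hm, Int.floor_intCast]
    simp
  · intro n hn
    rw [h8tid_floor_coeff, HahnSeries.coeff_eq_zero_of_lt_order (by rw [hmono.1]; exact hn)]
    exact Int.floor_zero
  · rw [h8tid_floor_coeff, hmono.coeff_self]
    exact Int.floor_one

section Level

variable (M : ℕ) [NeZero M]

omit [NeZero M] in
theorem h8tid_coe_cst (a : Kbar) : ((cst M a : FF M) : LaurentSeries Kbar) = HahnSeries.C a :=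
  Fermat.Agent.Red.GV.coe_cst M a

theorem h8tid_coeffEmb_C (a : ℚ) :
    coeffEmb Kbar (HahnSeries.C a) = HahnSeries.C (algebraMap ℚ Kbar a) := by
  ext n
  rw [coeffEmb_coeff]
  simp only [HahnSeries.C_apply, HahnSeries.coeff_single]
  split_ifs <;> simp

/-- the element of `FF M` defined by a series in `modularFunctionFieldFull d`, `d ∣ M`. -/
def h8tid_elt {d : ℕ} [NeZero d] (hd : d ∣ M) (t : LaurentSeries ℚ)
    (ht : t ∈ modularFunctionFieldFull d) : FF M :=
  ⟨coeffEmb Kbar t, coeffEmb_mem_laurentBaseChange Kbar (full_degeneracy_le hd ht)⟩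

theorem h8tid_coe_elt {d : ℕ} [NeZero d] (hd : d ∣ M) (t : LaurentSeries ℚ)
    (ht : t ∈ modularFunctionFieldFull d) :
    ((h8tid_elt M hd t ht : FF M) : LaurentSeries Kbar) = coeffEmb Kbar t := rfl

theorem h8tid_coe_jB : ((jB M : FF M) : LaurentSeries Kbar) = coeffEmb Kbar jq := rfl

/-- `ℓ = 3`. -/
theorem h8tid_isTCoord_two (h2 : 2 ∣ M) (t : LaurentSeries ℚ) (h : h8tid_Formal2 t) :
    IsTCoord 3 M (h8tid_elt M h2 t h.mem) := by
  refine ⟨Or.inl ⟨rfl, ?_⟩, ?_⟩
  · apply Subtype.ext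
    have h1 := congrArg (coeffEmb Kbar) h.rel
    rw [map_mul, map_pow, map_pow, map_add, h8tid_coeffEmb_C] at h1
    have h256 : algebraMap ℚ Kbar 256 = 256 := by norm_num
    rw [h256] at h1
    show ((jB M : FF M) : LaurentSeries Kbar) * ((h8tid_elt M h2 t h.mem : FF M) :
      LaurentSeries Kbar) ^ 2 = (((h8tid_elt M h2 t h.mem : FF M) : LaurentSeries Kbar) +
        ((cst M 256 : FF M) : LaurentSeries Kbar)) ^ 3
    rw [h8tid_coe_cst, h8tid_coe_elt, h8tid_coe_jB]
    exact h1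
  · exact h8tid_exists_int Kbar t h.int h.mono

/-- `ℓ = 2`. -/
theorem h8tid_isTCoord_three (h3 : 3 ∣ M) (t : LaurentSeries ℚ) (h : h8tid_Formal3 t) :
    IsTCoord 2 M (h8tid_elt M h3 t h.mem) := by
  refine ⟨Or.inr ⟨rfl, ?_⟩, ?_⟩
  · apply Subtype.ext
    have h1 := congrArg (coeffEmb Kbar) h.rel
    rw [map_mul, map_pow, map_mul, map_pow, map_add, map_add, h8tid_coeffEmb_C,
      h8tid_coeffEmb_C] at h1
    have h27 : algebraMap ℚ Kbar 27 = 27 := by norm_num
    have h243 : algebraMap ℚ Kbar 243 = 243 := by norm_num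
    rw [h27, h243] at h1
    show ((jB M : FF M) : LaurentSeries Kbar) * ((h8tid_elt M h3 t h.mem : FF M) :
      LaurentSeries Kbar) ^ 3 = (((h8tid_elt M h3 t h.mem : FF M) : LaurentSeries Kbar) +
        ((cst M 27 : FF M) : LaurentSeries Kbar)) *
        (((h8tid_elt M h3 t h.mem : FF M) : LaurentSeries Kbar) +
        ((cst M 243 : FF M) : LaurentSeries Kbar)) ^ 3
    rw [h8tid_coe_cst, h8tid_coe_cst, h8tid_coe_elt, h8tid_coe_jB]
    exact h1
  · exact h8tid_exists_int Kbar t h.int h.mono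

end Level

/-- **SM-TID glue.**  The row `RowTID` from the formal data over `ℚ`. -/
theorem h8tid_rowTID (h2 : ∃ t, h8tid_Formal2 t) (h3 : ∃ t, h8tid_Formal3 t) : RowTID := by
  intro ℓ hℓ M _ haux
  rcases hℓ with rfl | rfl
  · obtain ⟨t, ht⟩ := h3
    have h9 : 9 ∣ M := by simpa [auxLevel] using haux
    have h3' : 3 ∣ M := Dvd.dvd.trans (by norm_num) h9
    exact ⟨_, h8tid_isTCoord_three M h3' t ht⟩
  · obtain ⟨t, ht⟩ := h2
    have h4 : 4 ∣ M := by simpa [auxLevel] using haux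
    have h2' : 2 ∣ M := Dvd.dvd.trans (by norm_num) h4
    exact ⟨_, h8tid_isTCoord_two M h2' t ht⟩

end Fermat.Agent.Red.SM.TIDGlue
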