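import Fermat.Agent.S24.Final
import Fermat.Agent.S24.ModFinal
import Fermat.Agent.S24.FICore
import Fermat.Agent.S24.FIWrap
import Fermat.Agent.S24.OrbitPlaces
import Fermat.Agent.S24.DegLe
import Fermat.Agent.S24.EmbPoint
import Fermat.Agent.S24.EmbCusp
import Fermat.Agent.S37.Defs

/-!
# P-RED, R-SM: characteristic zero input — `F_M / F_{M₀}` is unramified outside the cusps

* `h31_ifaceFin`, `h31_ifaceFib`, `h31_FI` : the S24 facts as standalone theorems.
* `h31_exists_emb_of_place` : every place over `t = 0` is induced by a member of an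
  `EmbFamily` (the squeeze `|X| ≤ Σ e_v = n ≤ |X|`), hence `ord_v t ∣ h`.
* `ord_jsub_eq` (U1) : at a level without elliptic points every place over `j = c` has
  ramification index `3`, `2`, `1` for `c = 0`, `c = 1728`, `c ≠ 0, 1728`.
* `nuTwo_eq_zero_of_dvd`, `nuThree_eq_zero_of_dvd` (U2) : levels divisible by `4` or `9` have no
  elliptic points.
* `unram_good` (U3) : for `M₀ ∣ M`, both without elliptic points, every place of `F_M` which is
  not a pole of `j` is unramified over `F_{M₀}`.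
-/

set_option autoImplicit false

open ModularCurve AlgebraicCurve CongruenceSubgroup IntermediateField
open scoped MatrixGroups

noncomputable section

namespace Fermat.Agent.Red.SM

open Fermat.Agent.S24

/-! ## The S24 facts, standalone -/

theorem h31_FIgen (N : ℕ) : ∀ f : FF N, Transcendental Kbar f →
    FiniteDimensional Kbar⟮f⟯ (FF N) → FIStatement Kbar (FF N) f :=
  fi_general_of_zeros
    (fun y hy hfin => @FICore.fi_zeros Kbar (FF N) _ _ _ _ _ y hy hfin)

theorem h31_FI (N : ℕ) [NeZero N] : FIStatement Kbar (FF N) (jBar N) :=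
  h31_FIgen N (jBar N) (transcendental_jBar N) (finrank_le_index N).1

theorem h31_M1c (N : ℕ) : M1cStatement N := fun t n hfi hdeg inst g h hh E hn =>
  @card_zeroPlaces_eq_card_orbits Kbar (FF N) _ _ _ t n hfi hdeg _ _ _ inst _ g h hh E hn

theorem h31_ifaceFin (N : ℕ) [NeZero N] : IfaceFin N :=
  ifaceFin_of N (transcendental_jBar N) (finrank_le_index N) (h31_FI N) (h31_M1c N)
    (exists_embFamily_generic N)

theorem h31_ifaceFib (N : ℕ) [NeZero N] : IfaceFib N :=
  ifaceFib_of N (finrank_le_index N) (h31_FI N) (h31_M1c N) (exists_embFamily_generic N)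
    (exists_embFamily_I N) (exists_embFamily_rho N) (exists_embFamily_cusp N)

theorem h31_degOne (N : ℕ) [NeZero N] (v : Place Kbar (FF N)) : v.deg = 1 :=
  glue_degOne N (h31_ifaceFin N) v

/-- the fundamental identity over `j = c`, with `[F : K(j)] = ψ(N)`. -/
theorem h31_sum_ord (N : ℕ) [NeZero N] (c : Kbar) :
    ∃ s : Finset (Place Kbar (FF N)),
      (∀ v, v ∈ s ↔ 0 < v.ord (jBar N - cst N c)) ∧
      ∑ v ∈ s, v.ord (jBar N - cst N c) = (dedekindPsi N : ℤ) := by
  obtain ⟨s, hs, hsum⟩ := (h31_FI N).1 c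
  exact ⟨s, hs, by rw [hsum, (h31_ifaceFin N).2.2]⟩

/-! ## Every place over `t = 0` is induced by a member of the family -/

theorem h31_exists_emb_of_place {K F : Type*} [Field K] [Field F] [Algebra K F]
    (t : F) (n : ℕ)
    (hFI : ∃ s : Finset (Place K F), (∀ v, v ∈ s ↔ 0 < v.ord t) ∧ ∑ v ∈ s, v.ord t = (n : ℤ))
    (hdeg : ∀ v : Place K F, v.deg = 1)
    {G : Type*} [Group G] {X : Type*} [Fintype X] [MulAction G X] (g : G) (h : ℕ) (hh : 0 < h)
    (E : EmbFamily K F t X g h) (hn : n ≤ Fintype.card X)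
    (v : Place K F) (hv : 0 < v.ord t) :
    ∃ (x : X) (m : ℕ), 0 < m ∧ ∀ f : F, f ≠ 0 → (E.ι x f).order = m * v.ord f := by
  classical
  obtain ⟨s, hs, hsum⟩ := hFI
  have hB : ∀ x : X, ∃ (v : Place K F) (m : ℕ), 0 < m ∧
      ∀ f : F, f ≠ 0 → (E.ι x f).order = m * v.ord f := fun x =>
    exists_place_of_emb t E.θ (E.ι x) (E.map_const x)
      (by rw [E.order_t x]; exact_mod_cast hh)
  choose vp m hm hvm using hB
  have hhZ : (0 : ℤ) < h := by exact_mod_cast hh
  have hmZ : ∀ x, (0 : ℤ) < m x := fun x => by exact_mod_cast hm x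
  have ht0 : X → t ≠ 0 := by
    intro x ht
    have h1 := E.order_t x
    have h2 : E.ι x t = 0 := (map_eq_zero (E.ι x)).2 ht
    rw [h2, HahnSeries.order_zero] at h1
    omega
  have hht : ∀ x, (h : ℤ) = m x * (vp x).ord t := by
    intro x
    rw [← hvm x t (ht0 x), E.order_t x]
  have hpos : ∀ x, 0 < (vp x).ord t := by
    intro x
    have h1 : (0 : ℤ) < m x * (vp x).ord t := by rw [← hht x]; exact hhZ
    exact pos_of_mul_pos_right h1 (hmZ x).le
  have hmem : ∀ x, vp x ∈ s := fun x => (hs _).2 (hpos x)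
  let fib : Place K F → Finset X := fun v => Finset.univ.filter (fun x => vp x = v)
  have hfib_mem : ∀ v x, x ∈ fib v ↔ vp x = v := by
    intro v x
    simp only [fib, Finset.mem_filter, Finset.mem_univ, true_and]
  have hfib_le : ∀ v ∈ s, ((fib v).card : ℤ) ≤ v.ord t := by
    intro v hv
    have h1 := card_le_ord_of_induce_same_place t v ((hs v).1 hv) E.θ (Y := {y // y ∈ fib v})
      (fun y => E.ι y.1) (fun y a => E.map_const y.1 a) (fun y y' => E.map_t y.1 y'.1)
      (fun y y' hyy' => Subtype.ext (E.inj hyy')) (hdeg v)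
      (fun y => ⟨m y.1, hm y.1, fun f hf => by
        have hy' : vp y.1 = v := (hfib_mem v y.1).1 y.2
        have h5 := hvm y.1 f hf
        rw [hy'] at h5
        exact h5⟩)
    simpa using h1
  have hcard : Fintype.card X = ∑ v ∈ s, (fib v).card := by
    rw [← Finset.card_univ]
    exact Finset.card_eq_sum_card_fiberwise (fun x _ => hmem x)
  have hcardZ : (Fintype.card X : ℤ) = ∑ v ∈ s, ((fib v).card : ℤ) := by
    rw [hcard]
    push_cast
    rfl
  have hle : (Fintype.card X : ℤ) ≤ n := by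
    rw [hcardZ, ← hsum]
    exact Finset.sum_le_sum hfib_le
  have hnX : n = Fintype.card X := by omega
  have hfib_eq : ∀ v ∈ s, ((fib v).card : ℤ) = v.ord t := by
    have hz : ∑ v ∈ s, (v.ord t - ((fib v).card : ℤ)) = 0 := by
      rw [Finset.sum_sub_distrib, hsum, ← hcardZ, hnX]
      simp
    have h1 := (Finset.sum_eq_zero_iff_of_nonneg
      (fun v hv => sub_nonneg.2 (hfib_le v hv))).1 hz
    intro v hv
    have := h1 v hv
    omega
  have hvs : v ∈ s := (hs v).2 hv
  have hcardpos : 0 < (fib v).card := by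
    have := hfib_eq v hvs
    omega
  obtain ⟨x, hx⟩ := Finset.card_pos.1 hcardpos
  have hxv : vp x = v := (hfib_mem v x).1 hx
  exact ⟨x, m x, hm x, fun f hf => by rw [← hxv]; exact hvm x f hf⟩

/-- the ramification index over `t = 0` divides `h`. -/
theorem h31_ord_dvd {K F : Type*} [Field K] [Field F] [Algebra K F]
    (t : F) (n : ℕ)
    (hFI : ∃ s : Finset (Place K F), (∀ v, v ∈ s ↔ 0 < v.ord t) ∧ ∑ v ∈ s, v.ord t = (n : ℤ))
    (hdeg : ∀ v : Place K F, v.deg = 1)
    {G : Type*} [Group G] {X : Type*} [Fintype X] [MulAction G X] (g : G) (h : ℕ) (hh : 0 < h)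
    (E : EmbFamily K F t X g h) (hn : n ≤ Fintype.card X)
    (v : Place K F) (hv : 0 < v.ord t) : v.ord t ∣ (h : ℤ) := by
  obtain ⟨x, m, -, hxm⟩ := h31_exists_emb_of_place t n hFI hdeg g h hh E hn v hv
  have ht0 : t ≠ 0 := by
    intro ht
    rw [ht, Place.ord_zero] at hv
    exact lt_irrefl _ hv
  have h1 := hxm t ht0
  rw [E.order_t x] at h1
  exact ⟨m, by rw [h1, mul_comm]⟩

/-! ## (U1): ramification over the `j`-line at a level without elliptic points -/

theorem h31_le_card (N : ℕ) [NeZero N] [Fintype (SL(2, ℤ) ⧸ Gamma0 N)] :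
    dedekindPsi N ≤ Fintype.card (SL(2, ℤ) ⧸ Gamma0 N) := by
  rw [← Nat.card_eq_fintype_card, card_coset_Gamma0]

/-- for every place `v` over `j = c`: `ord_v (j - c)` divides `h`, where `h = 3, 2, 1` for
`c = 0`, `c = 1728`, otherwise. -/
theorem h31_ord_jsub_dvd (N : ℕ) [NeZero N] (c : Kbar) (v : Place Kbar (FF N))
    (hv : 0 < v.ord (jBar N - cst N c)) :
    v.ord (jBar N - cst N c) ∣ ((if c = 0 then 3 else if c = 1728 then 2 else 1 : ℕ) : ℤ) := by
  haveI : Finite (SL(2, ℤ) ⧸ Gamma0 N) := finite_coset_Gamma0 N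
  haveI : Fintype (SL(2, ℤ) ⧸ Gamma0 N) := Fintype.ofFinite _
  by_cases h0 : c = 0
  · subst h0
    obtain ⟨E⟩ := exists_embFamily_rho N
    rw [if_pos rfl]
    exact h31_ord_dvd _ (dedekindPsi N) (h31_sum_ord N 0) (h31_degOne N) _ 3 (by norm_num) E
      (h31_le_card N) v hv
  · by_cases h1 : c = 1728
    · subst h1
      obtain ⟨E⟩ := exists_embFamily_I N
      rw [if_neg h0, if_pos rfl]
      exact h31_ord_dvd _ (dedekindPsi N) (h31_sum_ord N 1728) (h31_degOne N) _ 2 (by norm_num) E
        (h31_le_card N) v hv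
    · obtain ⟨E⟩ := exists_embFamily_generic N c h0 h1
      rw [if_neg h0, if_neg h1]
      exact h31_ord_dvd _ (dedekindPsi N) (h31_sum_ord N c) (h31_degOne N) _ 1 (by norm_num) E
        (h31_le_card N) v hv

/-- counting: if `h * #s = Σ_{v ∈ s} e_v` and `e_v ≤ h` for all `v ∈ s`, then `e_v = h`. -/
theorem h31_eq_of_sum {ι : Type*} (s : Finset ι) (e : ι → ℤ) (h : ℤ)
    (hle : ∀ v ∈ s, e v ≤ h) (hsum : ∑ v ∈ s, e v = h * s.card) (v : ι) (hv : v ∈ s) :
    e v = h := by
  have hz : ∑ v ∈ s, (h - e v) = 0 := by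
    rw [Finset.sum_sub_distrib, hsum, Finset.sum_const, nsmul_eq_mul]
    ring
  have h1 := (Finset.sum_eq_zero_iff_of_nonneg (fun v hv => sub_nonneg.2 (hle v hv))).1 hz v hv
  omega

theorem h31_card_placesOver (N : ℕ) [NeZero N] (c : Kbar) (s : Finset (Place Kbar (FF N)))
    (hs : ∀ v, v ∈ s ↔ 0 < v.ord (jBar N - cst N c)) :
    Nat.card (PlacesOver N c) = s.card := by
  classical
  have e : PlacesOver N c ≃ {v // v ∈ s} :=
    Equiv.subtypeEquivRight fun v => (hs v).symm
  rw [Nat.card_congr e, Nat.card_eq_fintype_card, Fintype.card_coe]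

/-- **(U1)** at a level without elliptic points, every place over `j = c` has ramification
index `3` (`c = 0`), `2` (`c = 1728`), `1` (otherwise). -/
theorem ord_jsub_eq (N : ℕ) [NeZero N] (h2 : nuTwo N = 0) (h3 : nuThree N = 0)
    (v : Place Kbar (FF N)) (c : Kbar) (hv : 0 < v.ord (jBar N - cst N c)) :
    v.ord (jBar N - cst N c) = ((if c = 0 then 3 else if c = 1728 then 2 else 1 : ℕ) : ℤ) := by
  have hdvd := h31_ord_jsub_dvd N c v hv
  obtain ⟨s, hs, hsum⟩ := h31_sum_ord N c
  have hcard := h31_card_placesOver N c s hs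
  obtain ⟨-, hfib2, hfib3, -⟩ := h31_ifaceFib N
  by_cases h0 : c = 0
  · subst h0
    simp only [if_true] at hdvd ⊢
    refine h31_eq_of_sum s (fun v => v.ord (jBar N - cst N 0)) 3 (fun w hw => ?_) ?_ v
      ((hs v).2 hv)
    · have := h31_ord_jsub_dvd N 0 w ((hs w).1 hw)
      simp only [if_true] at this
      exact Int.le_of_dvd (by norm_num) this
    · rw [hsum, ← hcard]
      have : 3 * Nat.card (PlacesOver N 0) = dedekindPsi N := by rw [hfib3, h3]; ring
      exact_mod_cast this.symm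
  · by_cases h1 : c = 1728
    · subst h1
      simp only [if_neg h0, if_true] at hdvd ⊢
      refine h31_eq_of_sum s (fun v => v.ord (jBar N - cst N 1728)) 2 (fun w hw => ?_) ?_ v
        ((hs v).2 hv)
      · have := h31_ord_jsub_dvd N 1728 w ((hs w).1 hw)
        simp only [if_neg h0, if_true] at this
        exact Int.le_of_dvd (by norm_num) this
      · rw [hsum, ← hcard]
        have : 2 * Nat.card (PlacesOver N 1728) = dedekindPsi N := by rw [hfib2, h2]; ring
        exact_mod_cast this.symm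
    · simp only [if_neg h0, if_neg h1] at hdvd ⊢
      have h4 := Int.le_of_dvd (by norm_num) hdvd
      push_cast at h4 ⊢
      omega

/-! ## (U2): levels divisible by `4` or `9` have no elliptic points -/

theorem h31_natCard_eq_zero_of_forall {α : Type*} (p : α → Prop) (h : ∀ a, ¬ p a) :
    Nat.card {a // p a} = 0 := by
  haveI : IsEmpty {a // p a} := ⟨fun a => h a.1 a.2⟩
  exact Nat.card_of_isEmpty

theorem nuTwo_eq_zero_of_four_dvd {M : ℕ} (h : 4 ∣ M) : nuTwo M = 0 := by
  refine h31_natCard_eq_zero_of_forall _ fun x hx => ?_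
  have h1 := congrArg (ZMod.castHom h (ZMod 4)) hx
  simp only [map_add, map_pow, map_one, map_zero] at h1
  generalize (ZMod.castHom h (ZMod 4)) x = y at h1
  revert y
  decide

theorem nuThree_eq_zero_of_two_dvd {M : ℕ} (h : 2 ∣ M) : nuThree M = 0 := by
  refine h31_natCard_eq_zero_of_forall _ fun x hx => ?_
  have h1 := congrArg (ZMod.castHom h (ZMod 2)) hx
  simp only [map_add, map_pow, map_one, map_zero] at h1
  generalize (ZMod.castHom h (ZMod 2)) x = y at h1
  revert y
  decide

theorem nuTwo_eq_zero_of_three_dvd {M : ℕ} (h : 3 ∣ M) : nuTwo M = 0 := by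
  refine h31_natCard_eq_zero_of_forall _ fun x hx => ?_
  have h1 := congrArg (ZMod.castHom h (ZMod 3)) hx
  simp only [map_add, map_pow, map_one, map_zero] at h1
  generalize (ZMod.castHom h (ZMod 3)) x = y at h1
  revert y
  decide

theorem nuThree_eq_zero_of_nine_dvd {M : ℕ} (h : 9 ∣ M) : nuThree M = 0 := by
  refine h31_natCard_eq_zero_of_forall _ fun x hx => ?_
  have h1 := congrArg (ZMod.castHom h (ZMod 9)) hx
  simp only [map_add, map_pow, map_one, map_zero] at h1
  generalize (ZMod.castHom h (ZMod 9)) x = y at h1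
  revert y
  decide

/-- a level divisible by `auxLevel ℓ` (`= 4` or `9`) has no elliptic points. -/
theorem nu_eq_zero_of_auxLevel_dvd {ℓ M : ℕ} (h : Fermat.Agent.S37.auxLevel ℓ ∣ M) :
    nuTwo M = 0 ∧ nuThree M = 0 := by
  unfold Fermat.Agent.S37.auxLevel at h
  split_ifs at h
  · exact ⟨nuTwo_eq_zero_of_three_dvd (dvd_trans (by norm_num) h),
      nuThree_eq_zero_of_nine_dvd h⟩
  · exact ⟨nuTwo_eq_zero_of_four_dvd h,
      nuThree_eq_zero_of_two_dvd (dvd_trans (by norm_num) h)⟩

/-! ## (U3): `F_M / F_{M₀}` is unramified outside the cusps -/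

open Fermat.Agent.S37 (degen)

theorem h31_degen_jBar {M₀ M : ℕ} [NeZero M₀] [NeZero M] (h : M₀ ∣ M) :
    degen h (jBar M₀) = jBar M := by
  apply Subtype.ext
  rw [Fermat.Agent.S37.coe_degen]
  rfl

theorem h31_degen_jsub {M₀ M : ℕ} [NeZero M₀] [NeZero M] (h : M₀ ∣ M) (c : Kbar) :
    degen h (jBar M₀ - cst M₀ c) = jBar M - cst M c := by
  rw [map_sub, h31_degen_jBar, AlgHom.commutes]

/-- **(U3)** for `M₀ ∣ M`, both without elliptic points, every place of `F_M` which is not a
pole of `j` is unramified over `F_{M₀}`. -/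
theorem unram_good {M₀ M : ℕ} [NeZero M₀] [NeZero M] (h : M₀ ∣ M)
    (hint : (degen h).toRingHom.IsIntegral)
    (h2 : nuTwo M₀ = 0) (h3 : nuThree M₀ = 0) (h2' : nuTwo M = 0) (h3' : nuThree M = 0)
    (w : Place Kbar (FF M)) (hw : 0 ≤ w.ord (jBar M)) :
    Place.ramificationIndexAlong (degen h) w = 1 := by
  obtain ⟨c, hc⟩ := glue_center M (h31_ifaceFin M) w hw
  have h1 := Place.ord_restrictAlong (degen h) hint w (jBar M₀ - cst M₀ c)
  rw [h31_degen_jsub] at h1
  have hM := ord_jsub_eq M h2' h3' w c hc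
  set e : ℕ := Place.ramificationIndexAlong (degen h) w with he
  set k : ℕ := (if c = 0 then 3 else if c = 1728 then 2 else 1 : ℕ) with hk
  have hkpos : 0 < k := by
    rw [hk]
    split_ifs <;> norm_num
  have hpos₀ : 0 < (w.restrictAlong (degen h) hint).ord (jBar M₀ - cst M₀ c) := by
    have h4 : (0 : ℤ) < (e : ℤ) * (w.restrictAlong (degen h) hint).ord (jBar M₀ - cst M₀ c) := by
      rw [← h1]
      exact hc
    exact pos_of_mul_pos_right h4 (by positivity)
  have hM₀ := ord_jsub_eq M₀ h2 h3 (w.restrictAlong (degen h) hint) c hpos₀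
  rw [hM, hM₀] at h1
  have h5 : (k : ℤ) * 1 = (k : ℤ) * e := by rw [mul_one, mul_comm]; exact h1
  have h6 : (1 : ℤ) = e := mul_left_cancel₀ (by exact_mod_cast hkpos.ne') h5
  exact_mod_cast h6.symm

/-- (U3) at good levels: `auxLevel ℓ ∣ M`. -/
theorem unram_auxLevel (ℓ M : ℕ) [NeZero M] (h : Fermat.Agent.S37.auxLevel ℓ ∣ M)
    [NeZero (Fermat.Agent.S37.auxLevel ℓ)]
    (hint : (degen h).toRingHom.IsIntegral)
    (w : Place Kbar (FF M)) (hw : 0 ≤ w.ord (jBar M)) :
    Place.ramificationIndexAlong (degen h) w = 1 :=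
  unram_good h hint (nu_eq_zero_of_auxLevel_dvd (dvd_refl _)).1
    (nu_eq_zero_of_auxLevel_dvd (dvd_refl _)).2 (nu_eq_zero_of_auxLevel_dvd h).1
    (nu_eq_zero_of_auxLevel_dvd h).2 w hw

end Fermat.Agent.Red.SM
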