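import Fermat.Agent.Red.SM.TIDMem55
import Fermat.Agent.Red.SM.InstSkeleton
import Fermat.Agent.Red.SM.Unram
import Fermat.Agent.Red.SM.TIDGlue

/-!
# P-RED / SM-TID (second seat, helper55): `RowTID` from the two identities (hypothesis form)

Given formal series `t₂, t₃ ∈ ℚ((q))` with integral coefficients, leading term `q⁻¹`, and

* `j t₂² = (t₂ + 256)³`, `j(q²) t₂ = (t₂ + 16)³`,
* `j t₃³ = (t₃ + 27)(t₃ + 243)³`, `j(q³) t₃ = (t₃ + 27)(t₃ + 3)³`,

we prove `Inst.RowTID`: membership in `FF M` is the degree argument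
`Kbar(j) ⊆ FF N₀ ⊆ Kbar(t)`, `[Kbar(t) : Kbar(j)] ≤ ψ(N₀) = [FF N₀ : Kbar(j)]`.
-/

set_option autoImplicit false

open ModularCurve AlgebraicCurve IntermediateField Polynomial

noncomputable section

namespace Fermat.Agent.Red.SM.TID55

open Fermat.Agent.S37 Fermat.Agent.Red.SM Fermat.Agent.Red.SM.Inst

/-- integrality and leading term `q⁻¹`. -/
def h55t_IntMonic (t : LaurentSeries ℚ) : Prop :=
  ∃ y : LaurentSeries ℤ, coeffMap (Int.castRingHom ℚ) y = t ∧
    (∀ n : ℤ, n < -1 → y.coeff n = 0) ∧ y.coeff (-1) = 1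

/-- the level-2 data (`ℓ = 3`). -/
structure h55t_Data2 (t : LaurentSeries ℚ) : Prop where
  ident : jq * t ^ 2 = (t + HahnSeries.C 256) ^ 3
  fricke : qExpand ℚ 2 jq * t = (t + HahnSeries.C 16) ^ 3
  int : h55t_IntMonic t

/-- the level-3 data (`ℓ = 2`). -/
structure h55t_Data3 (t : LaurentSeries ℚ) : Prop where
  ident : jq * t ^ 3 = (t + HahnSeries.C 27) * (t + HahnSeries.C 243) ^ 3
  fricke : qExpand ℚ 3 jq * t = (t + HahnSeries.C 27) * (t + HahnSeries.C 3) ^ 3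
  int : h55t_IntMonic t

theorem h55t_C_eq (a : Kbar) :
    (HahnSeries.C a : LaurentSeries Kbar) = algebraMap Kbar (LaurentSeries Kbar) a := by
  rw [algebraMap_laurentSeries_eq_single]
  rfl

theorem h55t_coeffEmb_C (a : ℚ) :
    coeffEmb Kbar (HahnSeries.C a) = algebraMap Kbar (LaurentSeries Kbar) (algebraMap ℚ Kbar a) := by
  rw [← h55t_C_eq]
  show coeffMap (algebraMap ℚ Kbar) (HahnSeries.single 0 a) = HahnSeries.single 0 _
  rw [coeffMap_single]

theorem h55t_C_ofNat (n : ℕ) [n.AtLeastTwo] :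
    (HahnSeries.C (OfNat.ofNat n : Kbar) : LaurentSeries Kbar)
      = algebraMap Kbar (LaurentSeries Kbar) (algebraMap ℚ Kbar (OfNat.ofNat n)) := by
  rw [h55t_C_eq, map_ofNat (algebraMap ℚ Kbar)]

theorem h55t_ne_zero {t : LaurentSeries ℚ} (h : h55t_IntMonic t) : coeffEmb Kbar t ≠ 0 := by
  obtain ⟨y, rfl, -, h1⟩ := h
  intro h0
  have := congrArg (fun s : LaurentSeries Kbar => s.coeff (-1)) h0
  simp only [coeffEmb_coeff, coeffMap_coeff, h1, HahnSeries.coeff_zero] at this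
  simp at this

theorem h55t_exp {t : LaurentSeries ℚ} (h : h55t_IntMonic t) :
    ∃ y : LaurentSeries ℤ, coeffMap (Int.castRingHom Kbar) y = coeffEmb Kbar t ∧
      (∀ n : ℤ, n < -1 → y.coeff n = 0) ∧ y.coeff (-1) = 1 := by
  obtain ⟨y, rfl, h0, h1⟩ := h
  refine ⟨y, ?_, h0, h1⟩
  ext k
  simp [coeffEmb_coeff, coeffMap_coeff]

/-- the base-changed field `FF N` is contained in an intermediate field `L` as soon as the
generators `j(q^d)`, `d ∣ N`, are. -/
theorem h55t_ff_le (N : ℕ) [NeZero N] (L : IntermediateField Kbar (LaurentSeries Kbar))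
    (hgen : ∀ (d : ℕ) [NeZero d], d ∣ N → coeffEmb Kbar (qExpand ℚ d jq) ∈ L) :
    modularFunctionFieldBar N ≤ L := by
  have key : ∀ x : LaurentSeries ℚ, x ∈ IntermediateField.adjoin ℚ (divisorExpansions N) →
      coeffEmb Kbar x ∈ L := by
    intro x hx
    induction hx using IntermediateField.adjoin_induction with
    | mem y hy =>
        obtain ⟨d, hd0, hdN, rfl⟩ := hy
        exact hgen d hdN
    | algebraMap r =>
        have : coeffEmb Kbar (algebraMap ℚ (LaurentSeries ℚ) r)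
            = algebraMap Kbar (LaurentSeries Kbar) (algebraMap ℚ Kbar r) := by
          rw [algebraMap_laurentSeries_eq_single, algebraMap_laurentSeries_eq_single]
          exact coeffMap_single _ _ _
        rw [this]
        exact L.algebraMap_mem _
    | add y z _ _ hy hz => rw [map_add]; exact L.add_mem hy hz
    | inv y _ hy => rw [map_inv₀]; exact L.inv_mem hy
    | mul y z _ _ hy hz => rw [map_mul]; exact L.mul_mem hy hz
  show IntermediateField.adjoin Kbar (⇑(coeffEmb Kbar) ''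
    ((modularFunctionFieldFull N : IntermediateField ℚ (LaurentSeries ℚ)) :
      Set (LaurentSeries ℚ))) ≤ L
  rw [IntermediateField.adjoin_le_iff]
  rintro _ ⟨x, hx, rfl⟩
  exact key x hx

theorem h55t_dedekindPsi_two : dedekindPsi 2 = 3 := by
  have h := Fermat.Agent.S21.C1.dedekindPsi_prime_pow Nat.prime_two (k := 1) one_pos
  simpa using h

theorem h55t_dedekindPsi_three : dedekindPsi 3 = 4 := by
  have h := Fermat.Agent.S21.C1.dedekindPsi_prime_pow Nat.prime_three (k := 1) one_pos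
  simpa using h

/-! ## The identities over `Kbar` -/

theorem h55t_ident2 {t : LaurentSeries ℚ} (h : h55t_Data2 t) :
    coeffEmb Kbar jq * coeffEmb Kbar t ^ 2
      = (coeffEmb Kbar t + algebraMap Kbar (LaurentSeries Kbar) (algebraMap ℚ Kbar 256)) ^ 3 := by
  have := congrArg (coeffEmb Kbar) h.ident
  rw [map_mul, map_pow, map_pow, map_add, h55t_coeffEmb_C] at this
  exact this

theorem h55t_fricke2 {t : LaurentSeries ℚ} (h : h55t_Data2 t) :
    coeffEmb Kbar (qExpand ℚ 2 jq) * coeffEmb Kbar t ^ 1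
      = (coeffEmb Kbar t + algebraMap Kbar (LaurentSeries Kbar) (algebraMap ℚ Kbar 16)) ^ 3 := by
  have := congrArg (coeffEmb Kbar) h.fricke
  rw [map_mul, map_pow, map_add, h55t_coeffEmb_C] at this
  rw [pow_one]
  exact this

theorem h55t_ident3 {t : LaurentSeries ℚ} (h : h55t_Data3 t) :
    coeffEmb Kbar jq * coeffEmb Kbar t ^ 3
      = (coeffEmb Kbar t + algebraMap Kbar (LaurentSeries Kbar) (algebraMap ℚ Kbar 27))
        * (coeffEmb Kbar t + algebraMap Kbar (LaurentSeries Kbar) (algebraMap ℚ Kbar 243)) ^ 3 := by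
  have := congrArg (coeffEmb Kbar) h.ident
  rw [map_mul, map_pow, map_mul, map_pow, map_add, map_add, h55t_coeffEmb_C,
    h55t_coeffEmb_C] at this
  exact this

theorem h55t_fricke3 {t : LaurentSeries ℚ} (h : h55t_Data3 t) :
    coeffEmb Kbar (qExpand ℚ 3 jq) * coeffEmb Kbar t ^ 1
      = (coeffEmb Kbar t + algebraMap Kbar (LaurentSeries Kbar) (algebraMap ℚ Kbar 27))
        * (coeffEmb Kbar t + algebraMap Kbar (LaurentSeries Kbar) (algebraMap ℚ Kbar 3)) ^ 3 := by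
  have := congrArg (coeffEmb Kbar) h.fricke
  rw [map_mul, map_mul, map_pow, map_add, map_add, h55t_coeffEmb_C,
    h55t_coeffEmb_C] at this
  rw [pow_one]
  exact this

/-! ## Membership -/

theorem h55t_mem_two {t : LaurentSeries ℚ} (h : h55t_Data2 t) :
    coeffEmb Kbar t ∈ modularFunctionFieldBar 2 := by
  have hT0 : coeffEmb Kbar t ≠ 0 := h55t_ne_zero h.int
  have hJ : coeffEmb Kbar jq ∈ modularFunctionFieldBar 2 := Fermat.Agent.S24.coeffEmb_jq_mem 2
  have hle : modularFunctionFieldBar 2 ≤ Kbar⟮coeffEmb Kbar t⟯ := by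
    apply h55t_ff_le
    intro d _ hd
    have hd' : d = 1 ∨ d = 2 := by
      have := Nat.le_of_dvd (by norm_num) hd
      interval_cases d
      · exact absurd rfl (NeZero.ne (0 : ℕ))
      · exact Or.inl rfl
      · exact Or.inr rfl
    rcases hd' with rfl | rfl
    · rw [qExpand_one_apply]
      exact h55t_cubic_mem_adjoin _ _ hT0 _ 2 (h55t_ident2 h)
    · exact h55t_cubic_mem_adjoin _ _ hT0 _ 1 (h55t_fricke2 h)
  obtain ⟨-, hfd, hrk⟩ := h31_ifaceFin 2
  have hfd' : FiniteDimensional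
      (Kbar⟮(⟨coeffEmb Kbar jq, hJ⟩ : modularFunctionFieldBar 2)⟯) (modularFunctionFieldBar 2) :=
    hfd
  have hrk' : Module.finrank
      (Kbar⟮(⟨coeffEmb Kbar jq, hJ⟩ : modularFunctionFieldBar 2)⟯) (modularFunctionFieldBar 2)
      = 3 := by
    rw [← h55t_dedekindPsi_two]; exact hrk
  exact @h55t_mem_cubic Kbar (LaurentSeries Kbar) _ _ _ (modularFunctionFieldBar 2)
    (coeffEmb Kbar jq) (coeffEmb Kbar t) hJ hle _ (h55t_ident2 h) hfd' hrk'

theorem h55t_mem_three {t : LaurentSeries ℚ} (h : h55t_Data3 t) :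
    coeffEmb Kbar t ∈ modularFunctionFieldBar 3 := by
  have hT0 : coeffEmb Kbar t ≠ 0 := h55t_ne_zero h.int
  have hJ : coeffEmb Kbar jq ∈ modularFunctionFieldBar 3 := Fermat.Agent.S24.coeffEmb_jq_mem 3
  have hle : modularFunctionFieldBar 3 ≤ Kbar⟮coeffEmb Kbar t⟯ := by
    apply h55t_ff_le
    intro d _ hd
    have hd' : d = 1 ∨ d = 3 := by
      have := Nat.le_of_dvd (by norm_num) hd
      interval_cases d
      · exact absurd rfl (NeZero.ne (0 : ℕ))
      · exact Or.inl rfl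
      · exact absurd hd (by norm_num)
      · exact Or.inr rfl
    rcases hd' with rfl | rfl
    · rw [qExpand_one_apply]
      exact h55t_quartic_mem_adjoin _ _ hT0 _ _ 3 (h55t_ident3 h)
    · exact h55t_quartic_mem_adjoin _ _ hT0 _ _ 1 (h55t_fricke3 h)
  obtain ⟨-, hfd, hrk⟩ := h31_ifaceFin 3
  have hfd' : FiniteDimensional
      (Kbar⟮(⟨coeffEmb Kbar jq, hJ⟩ : modularFunctionFieldBar 3)⟯) (modularFunctionFieldBar 3) :=
    hfd
  have hrk' : Module.finrank
      (Kbar⟮(⟨coeffEmb Kbar jq, hJ⟩ : modularFunctionFieldBar 3)⟯) (modularFunctionFieldBar 3)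
      = 4 := by
    rw [← h55t_dedekindPsi_three]; exact hrk
  exact @h55t_mem_quartic Kbar (LaurentSeries Kbar) _ _ _ (modularFunctionFieldBar 3)
    (coeffEmb Kbar jq) (coeffEmb Kbar t) hJ hle _ _ (h55t_ident3 h) hfd' hrk'

/-! ## `IsTCoord` and `RowTID` -/

theorem h55t_isTCoord_three {t : LaurentSeries ℚ} (h : h55t_Data2 t) (M : ℕ) [NeZero M]
    (hM : 2 ∣ M) : ∃ T : FF M, IsTCoord 3 M T := by
  have hmem : coeffEmb Kbar t ∈ modularFunctionFieldBar M := ffBar_le hM (h55t_mem_two h)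
  refine ⟨⟨coeffEmb Kbar t, hmem⟩, ⟨Or.inl ⟨rfl, ?_⟩, h55t_exp h.int⟩⟩
  apply Subtype.ext
  have hc : ((cst M 256 : FF M) : LaurentSeries Kbar)
      = algebraMap Kbar (LaurentSeries Kbar) (algebraMap ℚ Kbar 256) := by
    rw [Fermat.Agent.Red.GV.coe_cst M 256]
    exact h55t_C_ofNat 256
  show ((jB M : FF M) : LaurentSeries Kbar) * (coeffEmb Kbar t) ^ 2
    = (coeffEmb Kbar t + ((cst M 256 : FF M) : LaurentSeries Kbar)) ^ 3
  rw [hc]
  exact h55t_ident2 h

theorem h55t_isTCoord_two {t : LaurentSeries ℚ} (h : h55t_Data3 t) (M : ℕ) [NeZero M]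
    (hM : 3 ∣ M) : ∃ T : FF M, IsTCoord 2 M T := by
  have hmem : coeffEmb Kbar t ∈ modularFunctionFieldBar M := ffBar_le hM (h55t_mem_three h)
  refine ⟨⟨coeffEmb Kbar t, hmem⟩, ⟨Or.inr ⟨rfl, ?_⟩, h55t_exp h.int⟩⟩
  apply Subtype.ext
  have hc27 : ((cst M 27 : FF M) : LaurentSeries Kbar)
      = algebraMap Kbar (LaurentSeries Kbar) (algebraMap ℚ Kbar 27) := by
    rw [Fermat.Agent.Red.GV.coe_cst M 27]
    exact h55t_C_ofNat 27
  have hc243 : ((cst M 243 : FF M) : LaurentSeries Kbar)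
      = algebraMap Kbar (LaurentSeries Kbar) (algebraMap ℚ Kbar 243) := by
    rw [Fermat.Agent.Red.GV.coe_cst M 243]
    exact h55t_C_ofNat 243
  show ((jB M : FF M) : LaurentSeries Kbar) * (coeffEmb Kbar t) ^ 3
    = (coeffEmb Kbar t + ((cst M 27 : FF M) : LaurentSeries Kbar))
      * (coeffEmb Kbar t + ((cst M 243 : FF M) : LaurentSeries Kbar)) ^ 3
  rw [hc27, hc243]
  exact h55t_ident3 h

/-- **`RowTID` from the four identities.** -/
theorem h55t_rowTID {t₂ t₃ : LaurentSeries ℚ} (h₂ : h55t_Data2 t₂) (h₃ : h55t_Data3 t₃) :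
    RowTID := by
  intro ℓ hℓ M _ haux
  rcases hℓ with rfl | rfl
  · -- `ℓ = 2`, `9 ∣ M`
    have h9 : (9 : ℕ) ∣ M := by simpa [auxLevel] using haux
    exact h55t_isTCoord_two h₃ M (dvd_trans (by norm_num) h9)
  · -- `ℓ = 3`, `4 ∣ M`
    have h4 : (4 : ℕ) ∣ M := by simpa [auxLevel] using haux
    exact h55t_isTCoord_three h₂ M (dvd_trans (by norm_num) h4)

/-- integrality in the form used by `TIDGlue` (integral coefficients + `IsMonicOfOrder`). -/
theorem h55t_intMonic_of {t : LaurentSeries ℚ} (hint : ∀ n : ℤ, ∃ m : ℤ, t.coeff n = m)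
    (hmono : IsMonicOfOrder t (-1)) : h55t_IntMonic t := by
  obtain ⟨y, hy, h0, h1⟩ := Fermat.Agent.Red.SM.TIDGlue.h8tid_exists_int ℚ t hint hmono
  refine ⟨y, ?_, h0, h1⟩
  rw [hy]
  ext k
  rw [coeffEmb_coeff]
  rfl

/-- **`RowTID` without any membership hypothesis**: the identities with `j`, the Fricke twins,
integrality and the leading term suffice. -/
theorem h55t_rowTID_of {t₂ t₃ : LaurentSeries ℚ}
    (id₂ : jq * t₂ ^ 2 = (t₂ + HahnSeries.C 256) ^ 3)
    (fr₂ : qExpand ℚ 2 jq * t₂ = (t₂ + HahnSeries.C 16) ^ 3)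
    (int₂ : ∀ n : ℤ, ∃ m : ℤ, t₂.coeff n = m) (mono₂ : IsMonicOfOrder t₂ (-1))
    (id₃ : jq * t₃ ^ 3 = (t₃ + HahnSeries.C 27) * (t₃ + HahnSeries.C 243) ^ 3)
    (fr₃ : qExpand ℚ 3 jq * t₃ = (t₃ + HahnSeries.C 27) * (t₃ + HahnSeries.C 3) ^ 3)
    (int₃ : ∀ n : ℤ, ∃ m : ℤ, t₃.coeff n = m) (mono₃ : IsMonicOfOrder t₃ (-1)) : RowTID :=
  h55t_rowTID ⟨id₂, fr₂, h55t_intMonic_of int₂ mono₂⟩ ⟨id₃, fr₃, h55t_intMonic_of int₃ mono₃⟩

end Fermat.Agent.Red.SM.TID55
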