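import Fermat.Agent.Red.SM.TID3Q
import Fermat.Agent.Red.SM.TIDRow55

/-!
# P-RED / R-SM, leaf SM-TID (case `ℓ = 2`): the `t₃`-half of `RowTID`

`t3_data : h55t_Data3 t3` (identity, Fricke twin, integrality, leading term), hence
`t3_isTCoord : 3 ∣ M → ∃ T : FF M, IsTCoord 2 M T`, and `RowTID` from the level-2 data alone.
-/

set_option autoImplicit false

open ModularCurve

noncomputable section

namespace Fermat.Agent.Red.SM.TID

open Fermat.Agent.S37 Fermat.Agent.Red.SM Fermat.Agent.Red.SM.Inst Fermat.Agent.Red.SM.TID55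

/-- integrality and the leading term of `t₃`. -/
theorem t3_intMonic : h55t_IntMonic t3 :=
  ⟨t3Z, rfl, fun _ hn => t3Z_coeff_of_lt hn, t3Z_coeff_neg_one⟩

/-- **the level-3 data** (`ℓ = 2`). -/
theorem t3_data : h55t_Data3 t3 :=
  ⟨t3_identity, t3_fricke', t3_intMonic⟩

/-- `t₃ ∈ FF 3`. -/
theorem t3_mem_bar : coeffEmb Kbar t3 ∈ modularFunctionFieldBar 3 :=
  h55t_mem_three t3_data

/-- **`RowTID`, case `ℓ = 2`**: the coordinate `t₃` at every level divisible by `3`. -/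
theorem t3_isTCoord (M : ℕ) [NeZero M] (hM : 3 ∣ M) : ∃ T : FF M, IsTCoord 2 M T :=
  h55t_isTCoord_two t3_data M hM

/-- `RowTID` from the level-2 data alone. -/
theorem rowTID_of_data2 {t₂ : LaurentSeries ℚ} (h₂ : h55t_Data2 t₂) : RowTID :=
  h55t_rowTID h₂ t3_data

/-- `RowTID` from the four formal facts about `t₂`. -/
theorem rowTID_of_t2 {t₂ : LaurentSeries ℚ}
    (id₂ : jq * t₂ ^ 2 = (t₂ + HahnSeries.C 256) ^ 3)
    (fr₂ : qExpand ℚ 2 jq * t₂ = (t₂ + HahnSeries.C 16) ^ 3)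
    (int₂ : ∀ n : ℤ, ∃ m : ℤ, t₂.coeff n = m) (mono₂ : IsMonicOfOrder t₂ (-1)) : RowTID :=
  rowTID_of_data2 ⟨id₂, fr₂, h55t_intMonic_of int₂ mono₂⟩

end Fermat.Agent.Red.SM.TID
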