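import Fermat.Agent.Red.SM.Unram

/-!
# P-RED / SM-INST: `halg` — `FF M` is algebraic over `ℚ̄[x]`

The hypothesis `halg` of `SMCore` (`∀ y : FF M, IsAlgebraic (Algebra.adjoin Kbar {x}) y`):

* `h81a_halg_of_isAlgebraic_j` — for any `x` such that `j` is algebraic over `ℚ̄[x]`;
* `h81a_halg_jB`, `h81a_halg_jB_inv` — for `x = j` and `x = 1/j`;
* `h81a_halg_of_rel` — for `x` such that a `t` with `j · Q(t) = P(t)`, `Q(t) ≠ 0`, is algebraic
  over `ℚ̄[x]`;
* `h81a_isAlgebraic_xp` — `t` is algebraic over `ℚ̄[x']`, `x' = t + (1/t)^n`;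
* `h81a_halg_xp` — for `x' = t + (1/t)^n` with `j · Q(t) = P(t)`, `Q(t) ≠ 0`.

Author: helper81.  All names carry the prefix `h81a_`.
-/

set_option autoImplicit false

open ModularCurve AlgebraicCurve IntermediateField Polynomial
open scoped IntermediateField.algebraAdjoinAdjoin

noncomputable section

namespace Fermat.Agent.Red.SM.HAlg

open Fermat.Agent.S37

/-! ## General field theory -/

section General

variable {K E : Type*} [Field K] [Field E] [Algebra K E]

/-- algebraicity over the subalgebra `K[x]` and over the subfield `K(x)` agree. -/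
theorem h81a_isAlgebraic_adjoin_iff (x y : E) :
    IsAlgebraic (Algebra.adjoin K {x}) y ↔ IsAlgebraic K⟮x⟯ y :=
  IsFractionRing.isAlgebraic_iff (Algebra.adjoin K {x}) K⟮x⟯ E

/-- if `j` is algebraic over `K(x)` and `y` is algebraic over `K(j)`, then `y` is algebraic over
`K(x)`. -/
theorem h81a_isAlgebraic_trans (x j y : E) (hj : IsAlgebraic K⟮x⟯ j)
    (hy : IsAlgebraic K⟮j⟯ y) : IsAlgebraic K⟮x⟯ y := by
  -- the algebraic closure of `K(x)` in `E`
  let Ω : IntermediateField K⟮x⟯ E := algebraicClosure K⟮x⟯ E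
  have hjΩ : j ∈ Ω := (mem_algebraicClosure_iff (F := K⟮x⟯) (E := E)).2 hj
  have hle : K⟮j⟯ ≤ Ω.restrictScalars K := by
    rw [IntermediateField.adjoin_le_iff]
    intro z hz
    rw [Set.mem_singleton_iff] at hz
    subst hz
    exact hjΩ
  -- `y` is algebraic over `Ω`
  obtain ⟨p, hp0, hp⟩ := hy
  let ι : K⟮j⟯ →+* Ω := (IntermediateField.inclusion hle).toRingHom
  have hι : ∀ c : K⟮j⟯, ((ι c : Ω) : E) = (c : E) := fun c => rfl
  have hyΩ : IsAlgebraic Ω y := by
    refine ⟨p.map ι, (Polynomial.map_ne_zero_iff ι.injective).2 hp0, ?_⟩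
    rw [Polynomial.aeval_def, Polynomial.eval₂_map]
    rw [Polynomial.aeval_def] at hp
    have : (algebraMap Ω E).comp ι = algebraMap K⟮j⟯ E := RingHom.ext fun c => hι c
    rw [this]
    exact hp
  have hΩ : Algebra.IsAlgebraic K⟮x⟯ Ω := algebraicClosure.isAlgebraic K⟮x⟯ E
  exact IsAlgebraic.restrictScalars K⟮x⟯ hyΩ

/-- `t` is algebraic over `K[t + (1/t)^n]`. -/
theorem h81a_isAlgebraic_xp (t : E) (ht : t ≠ 0) (n : ℕ) :
    IsAlgebraic (Algebra.adjoin K {t + (t⁻¹) ^ n}) t := by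
  set x : E := t + (t⁻¹) ^ n with hx
  let R := Algebra.adjoin K {x}
  let xR : R := ⟨x, Algebra.subset_adjoin (Set.mem_singleton x)⟩
  refine ⟨X ^ (n + 1) - C xR * X ^ n + 1, ?_, ?_⟩
  · intro h0
    have h1 := congrArg (fun p : R[X] => p.coeff (n + 1)) h0
    simp only [coeff_add, coeff_sub, coeff_X_pow, coeff_C_mul, coeff_one, coeff_zero] at h1
    simp at h1
  · simp only [map_add, map_sub, map_mul, map_pow, aeval_X, aeval_C, map_one]
    have hxR : algebraMap R E xR = x := rfl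
    rw [hxR, hx]
    have htn : t ^ n ≠ 0 := pow_ne_zero n ht
    have h1 : t ^ n * (t⁻¹) ^ n = 1 := by
      rw [← mul_pow, mul_inv_cancel₀ ht, one_pow]
    calc t ^ (n + 1) - (t + (t⁻¹) ^ n) * t ^ n + 1
        = 1 - t ^ n * (t⁻¹) ^ n := by ring
      _ = 0 := by rw [h1, sub_self]

end General

/-! ## The function field of `X₀(M)` -/

section FF

variable (M : ℕ) [NeZero M]

/-- `FF M` is algebraic over `ℚ̄(j)`. -/
theorem h81a_isAlgebraic_over_j (y : FF M) : IsAlgebraic Kbar⟮jB M⟯ y := by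
  have hfd : FiniteDimensional Kbar⟮Fermat.Agent.S24.jBar M⟯ (FF M) := (h31_ifaceFin M).2.1
  exact (IsIntegral.of_finite Kbar⟮Fermat.Agent.S24.jBar M⟯ y).isAlgebraic

/-- **`halg` for a coordinate `x` over which `j` is algebraic.** -/
theorem h81a_halg_of_isAlgebraic_j (x : FF M)
    (hj : IsAlgebraic (Algebra.adjoin Kbar {x}) (jB M)) :
    ∀ y : FF M, IsAlgebraic (Algebra.adjoin Kbar {x}) y := by
  intro y
  rw [h81a_isAlgebraic_adjoin_iff] at hj ⊢
  exact h81a_isAlgebraic_trans x (jB M) y hj (h81a_isAlgebraic_over_j M y)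

/-- **`halg` for `x = j`.** -/
theorem h81a_halg_jB : ∀ y : FF M, IsAlgebraic (Algebra.adjoin Kbar {jB M}) y :=
  h81a_halg_of_isAlgebraic_j M (jB M)
    (isAlgebraic_algebraMap
      (⟨jB M, Algebra.subset_adjoin (Set.mem_singleton _)⟩ : Algebra.adjoin Kbar {jB M}))

/-- **`halg` for `x = 1/j`.** -/
theorem h81a_halg_jB_inv : ∀ y : FF M, IsAlgebraic (Algebra.adjoin Kbar {(jB M)⁻¹}) y := by
  refine h81a_halg_of_isAlgebraic_j M (jB M)⁻¹ ?_
  have h1 : IsAlgebraic (Algebra.adjoin Kbar {(jB M)⁻¹}) (jB M)⁻¹ :=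
    isAlgebraic_algebraMap
      (⟨(jB M)⁻¹, Algebra.subset_adjoin (Set.mem_singleton _)⟩ :
        Algebra.adjoin Kbar {(jB M)⁻¹})
  have h2 := h1.inv
  rwa [inv_inv] at h2

set_option synthInstance.maxHeartbeats 400000 in
/-- **`halg` for a coordinate `x` over which some `t` with `j · Q(t) = P(t)`, `Q(t) ≠ 0`, is
algebraic.** -/
theorem h81a_halg_of_rel (x t : FF M) (ht : IsAlgebraic (Algebra.adjoin Kbar {x}) t)
    (P Q : Kbar[X]) (hQ : aeval t Q ≠ 0) (hrel : jB M * aeval t Q = aeval t P) :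
    ∀ y : FF M, IsAlgebraic (Algebra.adjoin Kbar {x}) y := by
  refine h81a_halg_of_isAlgebraic_j M x ?_
  have hj : jB M = aeval t P * (aeval t Q)⁻¹ := by
    rw [← hrel, mul_assoc, mul_inv_cancel₀ hQ, mul_one]
  have hpoly : ∀ p : Kbar[X], IsAlgebraic (Algebra.adjoin Kbar {x}) (aeval t p) := by
    intro p
    induction p using Polynomial.induction_on with
    | C a =>
      rw [aeval_C]
      have : algebraMap Kbar (FF M) a =
          algebraMap (Algebra.adjoin Kbar {x}) (FF M) (algebraMap Kbar _ a) := rfl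
      rw [this]
      exact isAlgebraic_algebraMap _
    | add p q hp hq => rw [map_add]; exact hp.add hq
    | monomial n a h =>
      rw [pow_succ, ← mul_assoc, map_mul, aeval_X]
      exact h.mul ht
  rw [hj]
  exact (hpoly P).mul (hpoly Q).inv

/-- **`halg` for `x' = t + (1/t)^n`**, `t` with `j · Q(t) = P(t)`, `Q(t) ≠ 0`. -/
theorem h81a_halg_xp (t : FF M) (ht : t ≠ 0) (n : ℕ)
    (P Q : Kbar[X]) (hQ : aeval t Q ≠ 0) (hrel : jB M * aeval t Q = aeval t P) :
    ∀ y : FF M, IsAlgebraic (Algebra.adjoin Kbar {t + (t⁻¹) ^ n}) y :=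
  h81a_halg_of_rel M _ t (h81a_isAlgebraic_xp t ht n) P Q hQ hrel

end FF

end Fermat.Agent.Red.SM.HAlg
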