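import Fermat.Agent.Red.SM.CoreT

/-!
# P-RED / R-SM : `SMCoreV`, the typeclass form of the core for a `ValuationSubring`

Sub-architect: helper13.  Mathlib only.

`SMCoreV` is `SMCoreT` specialised to `A : ValuationSubring K` (so that the landed root lemmas
`Red/SM/RootRed.lean`, `Red/SM/Roots.lean`, which are stated for valuation subrings, apply
verbatim).  **This is the statement consumed by the adapter** `SMCoreV → SMCore`; the producer may
prove `SMCoreV` directly, or the more general `SMCoreT` (then use `smCoreV_of_T`).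
-/

set_option autoImplicit false

open Polynomial

noncomputable section

namespace Fermat.Agent.Red.SM

/-- **SM-CORE, typeclass form over a valuation subring.** -/
def SMCoreV : Prop :=
  ∀ (K : Type) [Field K] [IsAlgClosed K] [CharZero K] (A : ValuationSubring K)
    (p : ℕ) [Fact p.Prime] [CharP (IsLocalRing.ResidueField A) p]
    [IsAlgClosed (IsLocalRing.ResidueField A)]
    (B : Type) [CommRing B] [IsDomain B] [Algebra (Polynomial A) B]
    [FaithfulSMul (Polynomial A) B] [Module.Finite (Polynomial A) B] [IsIntegrallyClosed B]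
    (ρ : B →+* LaurentSeries (IsLocalRing.ResidueField A))
    (_hρker : ∀ b : B, ρ b = 0 ↔ b ∈ coreJ A B)
    (_hρC : ∀ a : A, ρ (algebraMap (Polynomial A) B (Polynomial.C a)) =
      HahnSeries.C (IsLocalRing.residue A a))
    (_hρX : ∃ n : ℤ, ((n : ℤ) : IsLocalRing.ResidueField A) ≠ 0 ∧
      (ρ (algebraMap (Polynomial A) B Polynomial.X)).coeff n ≠ 0)
    (_htf : ∀ (c α : A) (b : B), α ≠ 0 →
      algebraMap (Polynomial A) B (Polynomial.C α) * b ∈
        Ideal.span {algebraMap (Polynomial A) B (Polynomial.X - Polynomial.C c)} →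
      b ∈ Ideal.span {algebraMap (Polynomial A) B (Polynomial.X - Polynomial.C c)})
    (S : Finset A)
    (_hS : ∀ c ∈ S, ∀ c' ∈ S, c - c' ∈ IsLocalRing.maximalIdeal A → c = c')
    (_hunr : ∀ c : A, c ∉ S → ∀ φ : B →+* A,
      (∀ q : Polynomial A, φ (algebraMap (Polynomial A) B q) = q.eval c) →
      ∀ y z w : B, φ y = 0 → φ z = 0 → φ w ≠ 0 →
        algebraMap (Polynomial A) B (Polynomial.X - Polynomial.C c) * w ≠ y * z),
    IsDedekindDomain (B ⧸ coreJ A B)

/-- the general typeclass form implies the valuation subring form. -/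
theorem smCoreV_of_T (h : SMCoreT) : SMCoreV :=
  fun K _ _ _ A p _ _ _ B _ _ _ _ _ _ ρ hρker hρC hρX htf S hS hunr =>
    h A K p B ρ hρker hρC hρX htf S hS hunr

end Fermat.Agent.Red.SM
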