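import Fermat.Agent.Red.SM.CoreAdapter35
import Fermat.Agent.Red.SM.CoreV

/-!
# P-RED / R-SM : the adapter `SMCoreV → SMCore`

helper13.  `SMCoreV` (typeclass form over a valuation subring, `Red/SM/CoreV.lean`) is what the
CORE chain proves (`Red/SM/H74Chain.lean`: `h74_smCoreV`).  The adapter is helper35's proof of
`h35a_smCore_of_T` verbatim, applied to `SMCoreV` instead of `SMCoreT`.
-/

set_option autoImplicit false
set_option linter.style.haveILetI false

open Polynomial

noncomputable section

namespace Fermat.Agent.Red.SM

/-- **SM-CORE adapter, valuation subring form**: `SMCoreV` implies the Subring form `SMCore`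
(same proof as `h35a_smCore_of_T`, helper35). -/
theorem h13_smCore_of_V (hT : SMCoreV) : SMCore := by
  intro K _ _ _ A p _ _ _ F _ _ x _halg hfin V hV ρ hρ S hS
  classical
  letI := h35a_alg A x
  haveI := h35a_faithful A x V hV ρ hρ
  haveI := h35a_finite A x hfin
  haveI := h35a_isIntegrallyClosed A x
  have key := hT K A p (coreChart A x) (ρ.comp (Subring.inclusion hV.le))
    (fun b => by
      rw [h35a_coreJ_eq]
      exact h35a_ker A x V hV ρ hρ b)
    (fun a => by
      have h1 : Subring.inclusion hV.le (algebraMap (Polynomial A) (coreChart A x) (C a))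
          = ⟨algebraMap K F (a : K), (hV.cst_mem_iff a).mpr a.2⟩ := by
        apply Subtype.ext
        show ((h35a_hom A x (C a) : coreChart A x) : F) = _
        rw [h35a_hom_coe, h35a_coreEval_C]
      rw [RingHom.comp_apply, h1, hρ.cst (a : K) a.2])
    (by
      obtain ⟨hx, n, hn, hcoef⟩ := hρ.deriv
      refine ⟨n, hn, ?_⟩
      have h1 : Subring.inclusion hV.le (algebraMap (Polynomial A) (coreChart A x) X)
          = ⟨x, hx⟩ := by
        apply Subtype.ext
        show ((h35a_hom A x X : coreChart A x) : F) = _
        rw [h35a_hom_coe, h35a_coreEval_X]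
      rw [RingHom.comp_apply, h1]
      exact hcoef)
    (fun c α b hα hmem => by
      rw [Ideal.mem_span_singleton'] at hmem ⊢
      obtain ⟨b', hb'⟩ := hmem
      have hα0 : (α : K) ≠ 0 := fun h => hα (Subtype.ext h)
      have heq : algebraMap K F (α : K) * (b : F) = (x - algebraMap K F (c : K)) * (b' : F) := by
        have h1 := congrArg Subtype.val hb'
        have h2 : ((algebraMap (Polynomial A) (coreChart A x) (X - C c) : coreChart A x) : F)
            = x - algebraMap K F (c : K) := by
          show ((h35a_hom A x (X - C c) : coreChart A x) : F) = _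
          rw [h35a_hom_coe, map_sub, h35a_coreEval_X, h35a_coreEval_C]
        have h3 : ((algebraMap (Polynomial A) (coreChart A x) (C α) : coreChart A x) : F)
            = algebraMap K F (α : K) := by
          show ((h35a_hom A x (C α) : coreChart A x) : F) = _
          rw [h35a_hom_coe, h35a_coreEval_C]
        rw [Subring.coe_mul, Subring.coe_mul, h2, h3] at h1
        rw [← h1, mul_comm]
      obtain ⟨f, hf, hbf⟩ := h35a_tf A x V hV ρ hρ c c.2 α α.2 hα0 b b' b.2 b'.2 heq
      refine ⟨⟨f, hf⟩, ?_⟩
      apply Subtype.ext
      have h2 : ((algebraMap (Polynomial A) (coreChart A x) (X - C c) : coreChart A x) : F)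
          = x - algebraMap K F (c : K) := by
        show ((h35a_hom A x (X - C c) : coreChart A x) : F) = _
        rw [h35a_hom_coe, map_sub, h35a_coreEval_X, h35a_coreEval_C]
      rw [Subring.coe_mul, h2, hbf, mul_comm])
    (S.subtype (fun c => c ∈ A))
    (fun c hc c' hc' hcc => by
      rw [Finset.mem_subtype] at hc hc'
      apply Subtype.ext
      refine hS.incong _ hc _ hc' ?_
      have : ((c - c' : A) : K) ∈ A.nonunits := ValuationSubring.coe_mem_nonunits_iff.mpr hcc
      exact this)
    (fun c hc φ hφ y z w hy hz hw => by
      rw [Finset.mem_subtype] at hc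
      exact h35a_unram A x S hS c hc φ hφ y z w hy hz hw)
  rw [h35a_coreJ_eq] at key
  exact key

end Fermat.Agent.Red.SM
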