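import Fermat.Agent.Red.SM.EtAbs

/-!
# P-RED / SM-TRANSFER-A: lifted basis, global Nakayama, reduction of the discriminant

Mathlib-only.  Packaging of the internals of `Red/SM/EtAbs*.lean`, without any hypothesis on the
generic discriminant and without separability.

* `h53_content_of_free` : Gauss content property for a free module over a valuation ring.
* `h53_transfer_A` (abstract form) and `h53_transfer_A_val` (valuation ring form): existence of
  `n`, `e : Fin n → B`, `s`, `D` and of the two bases `bE` (generic fibre), `bQ` (special fibre).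
-/

set_option autoImplicit false
set_option linter.style.haveILetI false
set_option linter.unusedSectionVars false
set_option linter.unusedVariables false

open scoped nonZeroDivisors

namespace Fermat.Agent.Red.SM.EtAbs

section Content

variable {A R : Type*} [CommRing A] [IsDomain A] [ValuationRing A]
  [CommRing R] [Algebra A R]

/-- the coordinates of an element of `𝔪_A R` are in `𝔪_A`. -/
theorem h53_repr_mem_of_mem_map {ι : Type*} (b : Module.Basis ι A R) {y : R}
    (hy : y ∈ (IsLocalRing.maximalIdeal A).map (algebraMap A R)) (j : ι) :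
    b.repr y j ∈ IsLocalRing.maximalIdeal A := by
  have hy' : y ∈ (IsLocalRing.maximalIdeal A • ⊤ : Submodule A R) := by
    rw [Ideal.smul_top_eq_map]; exact hy
  refine Submodule.smul_induction_on hy' ?_ ?_
  · intro m hm r _
    rw [map_smul, Finsupp.smul_apply, smul_eq_mul]
    exact Ideal.mul_mem_right _ _ hm
  · intro x y hx hy
    rw [map_add, Finsupp.add_apply]
    exact Ideal.add_mem _ hx hy

/-- **Gauss content** for a free module over a valuation ring: every nonzero element is a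
constant times an element which is nonzero modulo `𝔪_A`. -/
theorem h53_content_of_free [Module.Free A R] (x : R) (hx : x ≠ 0) :
    ∃ a : A, a ≠ 0 ∧ ∃ x₀ : R,
      x₀ ∉ (IsLocalRing.maximalIdeal A).map (algebraMap A R) ∧ x = a • x₀ := by
  classical
  let b := Module.Free.chooseBasis A R
  let supp := (b.repr x).support
  let c : supp → A := fun j => b.repr x j
  have hc : c ≠ 0 := by
    intro h
    apply hx
    apply b.repr.injective
    ext j
    by_cases hj : j ∈ supp
    · have := congrFun h ⟨j, hj⟩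
      simpa [c] using this
    · simpa [supp, Finsupp.notMem_support_iff] using hj
  have h0 : (0 : A) ∉ nonZeroDivisors A := fun h => nonZeroDivisors.ne_zero h rfl
  have hC1 : ∀ z : A, z ≠ 0 → ∃ a ∈ nonZeroDivisors A, ∃ z₀ : A,
      z₀ ∉ IsLocalRing.maximalIdeal A ∧ z = a * z₀ := fun z hz =>
    ⟨z, mem_nonZeroDivisors_of_ne_zero hz, 1,
      fun h => (IsLocalRing.mem_maximalIdeal _).1 h isUnit_one, (mul_one z).symm⟩
  have hC2 : ∀ a ∈ nonZeroDivisors A, ∀ a' ∈ nonZeroDivisors A,
      a ∣ a' ∨ ∃ d ∈ IsLocalRing.maximalIdeal A, a = a' * d := by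
    intro a _ a' _
    rcases ValuationRing.dvd_total a a' with h | ⟨γ, rfl⟩
    · exact Or.inl h
    · by_cases hγ : IsUnit γ
      · left
        obtain ⟨u, rfl⟩ := hγ
        exact ⟨(↑u⁻¹ : A), by rw [mul_assoc, Units.mul_inv, mul_one]⟩
      · exact Or.inr ⟨γ, (IsLocalRing.mem_maximalIdeal γ).2 hγ, rfl⟩
  obtain ⟨a, ha, c₀, hc₀, ⟨j₀, hj₀⟩⟩ :=
    h53_family_content (IsLocalRing.maximalIdeal A) (nonZeroDivisors A) h0 hC1 hC2 c hc
  have ha0 : a ≠ 0 := nonZeroDivisors.ne_zero ha
  let x₀ : R := ∑ j : supp, c₀ j • b j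
  have hxx₀ : x = a • x₀ := by
    have h1 : x = ∑ j : supp, c j • b j := by
      conv_lhs => rw [← b.linearCombination_repr x, Finsupp.linearCombination_apply,
        Finsupp.sum]
      exact (Finset.sum_coe_sort supp (fun j => b.repr x j • b j)).symm
    rw [h1, Finset.smul_sum]
    refine Finset.sum_congr rfl fun j _ => ?_
    rw [hc₀ j, mul_smul]
  refine ⟨a, ha0, x₀, fun hmem => hj₀ ?_, hxx₀⟩
  have h2 := h53_repr_mem_of_mem_map b hmem j₀.1
  have h3 : b.repr x₀ j₀.1 = c₀ j₀ := by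
    simp only [x₀, map_sum, map_smul, Module.Basis.repr_self, Finsupp.coe_finsetSum,
      Finsupp.coe_smul, Finset.sum_apply, Pi.smul_apply, smul_eq_mul]
    rw [Finset.sum_eq_single j₀]
    · simp
    · intro j _ hj
      have : j.1 ≠ j₀.1 := fun h => hj (Subtype.ext h)
      simp [this]
    · intro h; exact absurd (Finset.mem_univ j₀) h
  rwa [h3] at h2

end Content

section Transfer

variable {R B : Type*} [CommRing R] [IsDomain R] [CommRing B] [IsDomain B] [Algebra R B]
  [FaithfulSMul R B] [Module.Finite R B]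
  (K₀ K₁ : Type*) [Field K₀] [Field K₁] [Algebra R K₀] [IsFractionRing R K₀]
  [Algebra B K₁] [IsFractionRing B K₁] [Algebra K₀ K₁] [Algebra R K₁]
  [IsScalarTower R K₀ K₁] [IsScalarTower R B K₁]

/-- the conclusion of TRANSFER-A for given `n`, `e`, `s`, `D`. -/
structure h53_TransferData (I : Ideal R) (n : ℕ) (e : Fin n → B) (s D : R) : Prop where
  /-- `s ≡ 1` modulo `I`. -/
  s_sub_one : s - 1 ∈ I
  /-- `e` is linearly independent over `R`. -/
  linearIndependent : LinearIndependent R e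
  /-- `s B ⊆ span e`. -/
  span : ∀ b : B, ∃ c : Fin n → R, s • b = ∑ i, c i • e i
  /-- `e` is a basis of the generic fibre. -/
  generic : ∃ bE : Module.Basis (Fin n) K₀ K₁, (∀ i, bE i = algebraMap B K₁ (e i)) ∧
    algebraMap R K₀ D = algebraMap R K₀ s ^ n * Algebra.discr K₀ bE ∧
    ∀ b : B, ∃ M : Matrix (Fin n) (Fin n) R, ∀ i j,
      algebraMap R K₀ s * Algebra.leftMulMatrix bE (algebraMap B K₁ b) i j =
        algebraMap R K₀ (M i j)
  /-- `e` reduces to a basis of the special fibre, and `D` reduces to its discriminant. -/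
  special : ∃ bQ : Module.Basis (Fin n) (R ⧸ I) (B ⧸ I.map (algebraMap R B)),
    (∀ i, bQ i = Ideal.Quotient.mk _ (e i)) ∧
    Ideal.Quotient.mk I D = Algebra.discr (R ⧸ I) bQ
  /-- traces are compatible with reduction. -/
  trace : ∃ τ : B → R,
    (∀ b, algebraMap R K₀ (τ b) =
      algebraMap R K₀ s * Algebra.trace K₀ K₁ (algebraMap B K₁ b)) ∧
    (∀ b, Ideal.Quotient.mk I (τ b) =
      Algebra.trace (R ⧸ I) (B ⧸ I.map (algebraMap R B)) (Ideal.Quotient.mk _ b)) ∧
    D = Matrix.det (Matrix.of fun i j => τ (e i * e j))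

/-- **TRANSFER-A**, abstract form. -/
theorem h53_transfer_A (I : Ideal R) [I.IsPrime] [IsPrincipalIdealRing (R ⧸ I)]
    [IsDomain (B ⧸ I.map (algebraMap R B))]
    (S₀ : Submonoid R) (h0 : (0 : R) ∉ S₀)
    (hC1 : ∀ x : R, x ≠ 0 → ∃ a ∈ S₀, ∃ x₀ : R, x₀ ∉ I ∧ x = a * x₀)
    (hC2 : ∀ a ∈ S₀, ∀ a' ∈ S₀, a ∣ a' ∨ ∃ c ∈ I, a = a' * c) :
    ∃ (n : ℕ) (e : Fin n → B) (s D : R), h53_TransferData K₀ K₁ I n e s D := by
  classical
  obtain ⟨n, e, he1, he2⟩ := h53_exists_lift_basis (B := B) I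
  have hI1 : (1 : R) ∉ I := fun h => ‹I.IsPrime›.ne_top ((Ideal.eq_top_iff_one I).2 h)
  have hli := h53_linearIndependent I S₀ h0 hC1 hC2 e he2
  obtain ⟨s, hs, hspan⟩ := h53_exists_s I e he1
  have hsI : s ∉ I := fun h => hI1 (by
    have := I.sub_mem h hs
    simpa using this)
  have hs0 : s ≠ 0 := fun h => hsI (h ▸ I.zero_mem)
  obtain ⟨bE, hbE⟩ := h53_exists_basis K₀ K₁ e hli s hs0 hspan
  obtain ⟨bQ, hbQ⟩ := h53_exists_basis_quot I e he1 he2
  obtain ⟨τ, hτ1, hτ2⟩ := h53_exists_trace K₀ K₁ I bE bQ e hbE hbQ s hs hspan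
  obtain ⟨hD1, hD2⟩ := h53_discr_compat K₀ K₁ I s τ hτ1 hτ2 e
  have hbE' : (fun i => algebraMap B K₁ (e i)) = ⇑bE := funext fun i => (hbE i).symm
  have hbQ' : (fun i => Ideal.Quotient.mk (I.map (algebraMap R B)) (e i)) = ⇑bQ :=
    funext fun i => (hbQ i).symm
  rw [hbE', Fintype.card_fin] at hD1
  rw [hbQ'] at hD2
  refine ⟨n, e, s, Matrix.det (Matrix.of fun i j => τ (e i * e j)),
    ⟨hs, hli, hspan, ⟨bE, hbE, hD1, fun b => ?_⟩, ⟨bQ, hbQ, hD2⟩, ⟨τ, hτ1, hτ2, rfl⟩⟩⟩
  choose M hM using fun j => hspan (b * e j)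
  refine ⟨Matrix.of fun i j => M j i, fun i j => ?_⟩
  rw [Algebra.leftMulMatrix_eq_repr_mul, hbE j, ← map_mul, Matrix.of_apply]
  exact h53_repr_generic K₀ K₁ bE e hbE s (b * e j) (M j) (hM j) i

end Transfer

section TransferVal

variable {A R B : Type*} [CommRing A] [IsDomain A] [ValuationRing A]
  [CommRing R] [IsDomain R] [Algebra A R] [FaithfulSMul A R] [Module.Free A R]
  [CommRing B] [IsDomain B] [Algebra R B] [FaithfulSMul R B] [Module.Finite R B]
  (K₀ K₁ : Type*) [Field K₀] [Field K₁] [Algebra R K₀] [IsFractionRing R K₀]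
  [Algebra B K₁] [IsFractionRing B K₁] [Algebra K₀ K₁] [Algebra R K₁]
  [IsScalarTower R K₀ K₁] [IsScalarTower R B K₁]

/-- the content property (C1) for a free algebra over a valuation ring. -/
theorem h53_hC1_of_free (x : R) (hx : x ≠ 0) :
    ∃ a ∈ h53_constants A R, ∃ x₀ : R,
      x₀ ∉ (IsLocalRing.maximalIdeal A).map (algebraMap A R) ∧ x = a * x₀ := by
  obtain ⟨a, ha, x₀, hx₀, rfl⟩ := h53_content_of_free (A := A) x hx
  exact ⟨algebraMap A R a, ⟨a, mem_nonZeroDivisors_of_ne_zero ha, rfl⟩, x₀, hx₀,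
    Algebra.smul_def a x₀⟩

/-- **TRANSFER-A** over a valuation ring `A`: `R` a free `A`-algebra (e.g. `A[X]`, `A[X, 1/X]`)
with `R / 𝔪_A R` a principal ideal domain, `B ⊇ R` finite with `B / 𝔪_A B` a domain. -/
theorem h53_transfer_A_val
    [((IsLocalRing.maximalIdeal A).map (algebraMap A R)).IsPrime]
    [IsPrincipalIdealRing (R ⧸ (IsLocalRing.maximalIdeal A).map (algebraMap A R))]
    [IsDomain (B ⧸ ((IsLocalRing.maximalIdeal A).map (algebraMap A R)).map (algebraMap R B))] :
    ∃ (n : ℕ) (e : Fin n → B) (s D : R),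
      h53_TransferData K₀ K₁ ((IsLocalRing.maximalIdeal A).map (algebraMap A R)) n e s D :=
  h53_transfer_A K₀ K₁ _ (h53_constants A R) h53_zero_not_mem_constants
    (h53_hC1_of_free (A := A)) h53_constants_total

end TransferVal

end Fermat.Agent.Red.SM.EtAbs
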