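import Mathlib
import Fermat.Agent.S24.LaurentDeriv
import Fermat.Agent.Red.SM.TransferA

/-!
# P-RED / R-SM, SM-CORE: frozen statements (sub-lead helper74)

Abstract setting: `K` an algebraically closed field of characteristic `0`, `A` a valuation subring
of `K` with residue field `k = IsLocalRing.ResidueField A`, `B` a domain which is a finite,
faithful `A[X]`-algebra (`x` = image of `X`), integrally closed.

* `h74_I A`       : the ideal `𝔪_A A[X]`.
* `h74_P A φ`     : the ideal `𝔪_A B` (for `φ : A[X] →+* B`).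
* `h74_Pt A φ c`  : the `A`-points of `B` over `x = c`: ring homomorphisms `ψ : B → A` with
                    `ψ (φ q) = q(c)` for all `q : A[X]`.
* `h74_cnt A φ c` : the number of maximal ideals of `B` containing `𝔪_A B` and `x - c`.

Statements (all `Prop`-valued definitions; the proofs are in `Red/SM/Core*.lean`):

* `h74_Tame`    : the char-0 tame discriminant bound (leaf SM-TAME, helper33), local basis form.
* `h74_Special` : special fibre: `D mod 𝔪 ≠ 0`, and the discriminant count implies Dedekind.
* `h74_PointLift` : `h74_cnt c ≤ #(A-points over c)`.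
* `h74_Generic` : generic fibre: `ord_c D + #(A-points over c) ≤ n` for all `c : A`.
* `h74_SmCore`  : the abstract smoothness theorem (ring hom form, consumed by SM-INST/SM-ASM).
-/

set_option autoImplicit false
set_option linter.unusedSectionVars false
set_option linter.style.haveILetI false

open Polynomial

noncomputable section

namespace Fermat.Agent.Red.SM.Core

open Fermat.Agent.Red.SM.EtAbs

section Defs

variable {K : Type*} [Field K] (A : ValuationSubring K) {B : Type*} [CommRing B]

/-- the ideal `𝔪_A A[X]`. -/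
def h74_I : Ideal A[X] := (IsLocalRing.maximalIdeal A).map (algebraMap A A[X])

/-- the ideal `𝔪_A B`. -/
def h74_P (φ : A[X] →+* B) : Ideal B := (h74_I A).map φ

/-- the `A`-points of `B` over `x = c`. -/
def h74_Pt (φ : A[X] →+* B) (c : A) : Type _ :=
  {ψ : B →+* A // ∀ q : A[X], ψ (φ q) = q.eval c}

/-- the number of maximal ideals of `B` containing `𝔪_A B` and `x - c`. -/
noncomputable def h74_cnt (φ : A[X] →+* B) (c : A) : ℕ :=
  Nat.card {𝔫 : Ideal B // 𝔫.IsMaximal ∧ h74_P A φ ≤ 𝔫 ∧ φ (X - C c) ∈ 𝔫}

end Defs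

/-- **SM-TAME** (local basis form over `K[X]`, char `0`): for an integrally closed domain `C`,
finite and faithful over `K[X]`, a linearly independent family `e` with `s • C ⊆ span e`, and
`a : K` with `s(a) ≠ 0`: finitely many maximal ideals contain `X - a`, and
`ord_a disc(e) + #{maximal ideals ∋ X - a} ≤ n`. -/
def h74_Tame.{u, v} : Prop :=
  ∀ (K : Type u) [Field K] [IsAlgClosed K] [CharZero K]
    (C : Type v) [CommRing C] [IsDomain C] [IsIntegrallyClosed C]
    [Algebra K[X] C] [Module.Finite K[X] C] [FaithfulSMul K[X] C]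
    (n : ℕ) (e : Fin n → C) (s : K[X]) (_hli : LinearIndependent K[X] e)
    (_hs : ∀ y : C, ∃ c : Fin n → K[X], s • y = ∑ i, c i • e i)
    (a : K) (_ha : s.eval a ≠ 0),
    Finite {P : Ideal C // P.IsMaximal ∧ algebraMap K[X] C (X - Polynomial.C a) ∈ P} ∧
    (Algebra.discr K[X] e).rootMultiplicity a +
      Nat.card {P : Ideal C // P.IsMaximal ∧ algebraMap K[X] C (X - Polynomial.C a) ∈ P} ≤ n

section Glue

attribute [local instance] FractionRing.liftAlgebra FractionRing.isScalarTower_liftAlgebra

/-- **G-SPEC** (special fibre).  From the reduction data of TRANSFER-A and the embedding `ρ` of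
the special fibre into `k((q))`: `D mod 𝔪_A ≠ 0`, and the discriminant count at every point of the
special fibre implies that `B / 𝔪_A B` is a Dedekind domain. -/
def h74_Special.{u, v} : Prop :=
  ∀ (K : Type u) [Field K] (A : ValuationSubring K) [IsAlgClosed (IsLocalRing.ResidueField A)]
    (p : ℕ) (_hp : p.Prime) (_hchar : CharP (IsLocalRing.ResidueField A) p)
    (B : Type v) [CommRing B] [IsDomain B] [Algebra A[X] B] [FaithfulSMul A[X] B]
    [Module.Finite A[X] B]
    (ρ : B →+* LaurentSeries (IsLocalRing.ResidueField A))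
    (_hρker : RingHom.ker ρ = h74_P A (algebraMap A[X] B))
    (_hρC : ∀ a : A, ρ (algebraMap A[X] B (C a)) = HahnSeries.C (IsLocalRing.residue A a))
    (_hρx : Fermat.Agent.S24.laurentD (IsLocalRing.ResidueField A)
      (ρ (algebraMap A[X] B X)) ≠ 0)
    (n : ℕ) (e : Fin n → B) (s D : A[X])
    (_hTD : h53_TransferData (FractionRing A[X]) (FractionRing B) (h74_I A) n e s D),
    D.map (IsLocalRing.residue A) ≠ 0 ∧
    ((∀ c : A, (D.map (IsLocalRing.residue A)).rootMultiplicity (IsLocalRing.residue A c) +
        h74_cnt A (algebraMap A[X] B) c ≤ n) →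
      IsDedekindDomain (B ⧸ h74_P A (algebraMap A[X] B)))

/-- **G-PL** (point lift count).  Every maximal ideal of `B` containing `x - c` is the kernel of
the reduction of an `A`-point over `c`; hence `h74_cnt c ≤ #(A-points over c)`. -/
def h74_PointLift.{u, v} : Prop :=
  ∀ (K : Type u) [Field K] [IsAlgClosed K] (A : ValuationSubring K)
    (B : Type v) [CommRing B] [IsDomain B] [Algebra A[X] B] [FaithfulSMul A[X] B]
    [Module.Finite A[X] B]
    (n : ℕ) (e : Fin n → B) (s : A[X]) (_hs1 : s - 1 ∈ h74_I A)
    (_hli : LinearIndependent A[X] e)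
    (_hspan : ∀ b : B, ∃ c : Fin n → A[X], s • b = ∑ i, c i • e i)
    (c : A) (_hfin : Finite (h74_Pt A (algebraMap A[X] B) c)),
    h74_cnt A (algebraMap A[X] B) c ≤ Nat.card (h74_Pt A (algebraMap A[X] B) c)

/-- **G-GEN** (generic fibre).  For every `c : A` the set of `A`-points over `c` is finite and
`ord_c D + #(A-points over c) ≤ n`. -/
def h74_Generic.{u, v} : Prop :=
  ∀ (K : Type u) [Field K] [IsAlgClosed K] [CharZero K] (A : ValuationSubring K)
    (B : Type v) [CommRing B] [IsDomain B] [IsIntegrallyClosed B]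
    [Algebra A[X] B] [FaithfulSMul A[X] B] [Module.Finite A[X] B]
    (n : ℕ) (e : Fin n → B) (s D : A[X])
    (_hTD : h53_TransferData (FractionRing A[X]) (FractionRing B) (h74_I A) n e s D)
    (c : A),
    Finite (h74_Pt A (algebraMap A[X] B) c) ∧
    (D.map A.subtype).rootMultiplicity (c : K) +
      Nat.card (h74_Pt A (algebraMap A[X] B) c) ≤ n

end Glue

/-- **SM-CORE** (ring hom form).  `K` algebraically closed of characteristic `0`, `A ⊆ K` a
valuation subring with algebraically closed residue field `k` of characteristic `p`; `B` an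
integrally closed domain, `φ : A[X] → B` injective and finite; `ρ : B → k((q))` with kernel
`𝔪_A B`, constant on `A`, with `d(ρ x)/dq ≠ 0`; `N` an upper bound for the rank of `B` over `A[X]`;
`S ⊆ A` a finite set of pairwise incongruent "branch values" such that over every `c ∉ S` there
are `N` distinct `A`-points of `B`.  Then `B / 𝔪_A B` is a Dedekind domain. -/
def h74_SmCore.{u, v} : Prop :=
  ∀ (K : Type u) [Field K] [IsAlgClosed K] [CharZero K] (A : ValuationSubring K)
    [IsAlgClosed (IsLocalRing.ResidueField A)]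
    (p : ℕ) (_hp : p.Prime) (_hchar : CharP (IsLocalRing.ResidueField A) p)
    (B : Type v) [CommRing B] [IsDomain B] [IsIntegrallyClosed B]
    (φ : A[X] →+* B) (_hφinj : Function.Injective φ) (_hφfin : φ.Finite)
    (ρ : B →+* LaurentSeries (IsLocalRing.ResidueField A))
    (_hρker : RingHom.ker ρ = h74_P A φ)
    (_hρC : ∀ a : A, ρ (φ (C a)) = HahnSeries.C (IsLocalRing.residue A a))
    (_hρx : Fermat.Agent.S24.laurentD (IsLocalRing.ResidueField A) (ρ (φ X)) ≠ 0)
    (N : ℕ)
    (_hN : ∀ (m : ℕ) (e : Fin m → B),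
      (∀ c : Fin m → A[X], ∑ i, φ (c i) * e i = 0 → ∀ i, c i = 0) → m ≤ N)
    (S : Finset A)
    (_hS : ∀ c ∈ S, ∀ c' ∈ S, c - c' ∈ IsLocalRing.maximalIdeal A → c = c')
    (_hbr : ∀ c : A, c ∉ S → ∃ ψ : Fin N → h74_Pt A φ c, Function.Injective ψ),
    IsDedekindDomain (B ⧸ h74_P A φ)

end Fermat.Agent.Red.SM.Core


/-! ## The Subring form `SMCore` (helper13; consumed by `Red/SM/Assembly.lean`, produced by
`Red/SM/GVPack.lean` etc.).  Restored after an accidental overwrite of this file. -/

namespace Fermat.Agent.Red.SM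

variable {K F : Type} [Field K] [Field F] [Algebra K F]

/-- the subring `A[x] ⊆ F` (unfolds to `S37.ringAdj`). -/
def coreAdj (A : ValuationSubring K) (x : F) : Subring F :=
  Subring.closure ((fun a : K => algebraMap K F a) '' (A : Set K) ∪ {x})

/-- the chart: elements of `F` integral over `A[x]` (unfolds to `S37.modelAt`). -/
def coreChart (A : ValuationSubring K) (x : F) : Subring F :=
  (integralClosure (coreAdj (F := F) A x) F).toSubring

/-- the ideal `𝔪_A · R` of a subring `R ⊆ F` (unfolds to `S37.maxExt`). -/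
def coreMax (A : ValuationSubring K) (R : Subring F) : Ideal R :=
  Ideal.span {y : R | ∃ a : K, a ∈ A.nonunits ∧ (y : F) = algebraMap K F a}

/-- evaluation `A[X] → F`, `X ↦ x`. -/
def coreEval (A : ValuationSubring K) (x : F) : Polynomial A →+* F :=
  Polynomial.eval₂RingHom ((algebraMap K F).comp A.subtype) x

/-- **(H2) FIN**: the chart is a finitely generated module over `A[x]`, generators in the
chart. -/
def CoreFin (A : ValuationSubring K) (x : F) : Prop :=
  ∃ S : Finset F, (∀ s ∈ S, s ∈ coreChart A x) ∧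
    ∀ b ∈ coreChart A x, ∃ c : F → Polynomial A, b = ∑ s ∈ S, coreEval A x (c s) * s

/-- **(H3) GAUSS**: `V` is a valuation subring of `F` containing the chart, with
`V ∩ K = A`, value group that of `A`, and the `q`-expansion principle (QEP). -/
structure CoreGauss (A : ValuationSubring K) (x : F) (V : ValuationSubring F) : Prop where
  le : coreChart A x ≤ V.toSubring
  cst_mem_iff : ∀ a : K, algebraMap K F a ∈ V ↔ a ∈ A
  scale : ∀ f : F, f ≠ 0 →
    ∃ c : K, c ≠ 0 ∧ algebraMap K F c * f ∈ V ∧ (algebraMap K F c * f)⁻¹ ∈ V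
  qep : ∀ f : F, f ∈ V → ∀ a : K, a ∈ A → a ≠ 0 →
    algebraMap K F a * f ∈ coreChart A x → f ∈ coreChart A x

/-- **(H4) SEP**: a reduction map `ρ : V → k((q))` with kernel `𝔪_V`, the residue map on
constants, such that some coefficient `n` of `ρ x` with `n ≠ 0` in `k` is nonzero
(so `d(ρ x)/dq ≠ 0`). -/
structure CoreRed (A : ValuationSubring K) (x : F) (V : ValuationSubring F)
    (ρ : V →+* LaurentSeries (IsLocalRing.ResidueField A)) : Prop where
  ker : ∀ f : V, ρ f = 0 ↔ (f : F) ∈ V.nonunits
  cst : ∀ (a : K) (ha : a ∈ A) (h : algebraMap K F a ∈ V),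
    ρ ⟨algebraMap K F a, h⟩ = HahnSeries.C (IsLocalRing.residue A ⟨a, ha⟩)
  deriv : ∃ (hx : x ∈ V) (n : ℤ), ((n : ℤ) : IsLocalRing.ResidueField A) ≠ 0 ∧
    (ρ ⟨x, hx⟩).coeff n ≠ 0

/-- **(H5) BRANCH**: outside the finite set `S ⊆ K` of branch values, pairwise incongruent
modulo `𝔪_A`, the coordinate `x` is unramified over every `c ∈ A`: for every valuation
subring `W ⊇ K` of `F` with `x - c ∈ 𝔪_W`, the element `x - c` is not a product of two
elements of `𝔪_W`. -/
structure CoreBranch (A : ValuationSubring K) (x : F) (S : Finset K) : Prop where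
  incong : ∀ c ∈ S, ∀ c' ∈ S, c - c' ∈ A.nonunits → c = c'
  unram : ∀ c : K, c ∈ A → c ∉ S → ∀ W : ValuationSubring F,
    (∀ a : K, algebraMap K F a ∈ W) → x - algebraMap K F c ∈ W.nonunits →
    ∀ y ∈ W.nonunits, ∀ z ∈ W.nonunits, x - algebraMap K F c ≠ y * z

/-- **SM-CORE** (abstract smoothness theorem, DELTA route).  `K` algebraically closed of
characteristic `0`, `A` a valuation subring with residue field `k` (algebraically closed, of
characteristic `p`), `F / K` a field, `x ∈ F` with `F` algebraic over `K(x)`.  If the chart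
`B = ` integral closure of `A[x]` in `F` satisfies FIN, GAUSS, SEP, BRANCH, then `B / 𝔪_A B` is
a Dedekind domain. -/
def SMCore : Prop :=
  ∀ (K : Type) [Field K] [IsAlgClosed K] [CharZero K] (A : ValuationSubring K)
    (p : ℕ) [Fact p.Prime] [CharP (IsLocalRing.ResidueField A) p]
    [IsAlgClosed (IsLocalRing.ResidueField A)]
    (F : Type) [Field F] [Algebra K F] (x : F)
    (_halg : ∀ y : F, IsAlgebraic (Algebra.adjoin K {x}) y)
    (_hfin : CoreFin A x)
    (V : ValuationSubring F) (_hV : CoreGauss A x V)
    (ρ : V →+* LaurentSeries (IsLocalRing.ResidueField A)) (_hρ : CoreRed A x V ρ)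
    (S : Finset K) (_hS : CoreBranch A x S),
    IsDedekindDomain (coreChart A x ⧸ coreMax A (coreChart A x))

end Fermat.Agent.Red.SM

end
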