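import Mathlib

/-!
# P-RED / R-SM : the typeclass form `SMCoreT` of the abstract core (frozen interface)

Sub-architect: helper13.  Mathlib only.

`SMCoreT` is the internal ("P1") form of the abstract smoothness theorem: the chart `B` is a
type with an `A[X]`-algebra structure (`X ↦ x`).  It is the statement which is proved from the
landed leaves (TRANSFER-A/B, SEP, ROOTRED, PointLift, TAME, DELTA).  The Subring form `SMCore`
of `CoreSkeleton.lean` follows from it by an adapter.

Notation: `𝔪 = IsLocalRing.maximalIdeal A`, `k = IsLocalRing.ResidueField A`,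
`I = 𝔪 A[X]`, `J = I B = 𝔪 B`.
-/

set_option autoImplicit false

open Polynomial

noncomputable section

namespace Fermat.Agent.Red.SM

/-- the ideal `𝔪_A B` of an `A[X]`-algebra `B`. -/
def coreJ (A : Type) [CommRing A] [IsLocalRing A] (B : Type) [CommRing B]
    [Algebra (Polynomial A) B] : Ideal B :=
  ((IsLocalRing.maximalIdeal A).map (Polynomial.C : A →+* Polynomial A)).map
    (algebraMap (Polynomial A) B)

/-- **SM-CORE, typeclass form.**
`A` a valuation ring with algebraically closed fraction field `K` of characteristic `0` and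
algebraically closed residue field `k` of characteristic `p`; `B` an integrally closed domain,
finite and faithful over `A[X]`, with
* `ρ : B → k((q))` of kernel `𝔪_A B`, the residue map on constants, `d(ρ X)/dq ≠ 0`;
* `B / (X - c)` torsion-free over `A` for every `c ∈ A`;
* a finite set `S ⊆ A` of branch values, pairwise incongruent modulo `𝔪_A`, such that every
  `A`-point `φ : B → A` over `c ∉ S` is unramified (`(X - c) w ≠ y z` for `y, z ∈ ker φ`,
  `w ∉ ker φ`).
Then `B / 𝔪_A B` is a Dedekind domain. -/
def SMCoreT : Prop :=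
  ∀ (A : Type) [CommRing A] [IsDomain A] [ValuationRing A]
    (K : Type) [Field K] [Algebra A K] [IsFractionRing A K] [IsAlgClosed K] [CharZero K]
    (p : ℕ) [Fact p.Prime] [CharP (IsLocalRing.ResidueField A) p]
    [IsAlgClosed (IsLocalRing.ResidueField A)]
    (B : Type) [CommRing B] [IsDomain B] [Algebra (Polynomial A) B]
    [FaithfulSMul (Polynomial A) B] [Module.Finite (Polynomial A) B] [IsIntegrallyClosed B]
    (ρ : B →+* LaurentSeries (IsLocalRing.ResidueField A))
    (_hρker : ∀ b : B, ρ b = 0 ↔ b ∈ coreJ A B)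
    (_hρC : ∀ a : A, ρ (algebraMap (Polynomial A) B (Polynomial.C a)) =
      HahnSeries.C (IsLocalRing.residue A a))
    (_hρX : ∃ n : ℤ, ((n : ℤ) : IsLocalRing.ResidueField A) ≠ 0 ∧
      (ρ (algebraMap (Polynomial A) B Polynomial.X)).coeff n ≠ 0)
    (_htf : ∀ (c α : A) (b : B), α ≠ 0 →
      algebraMap (Polynomial A) B (Polynomial.C α) * b ∈
        Ideal.span {algebraMap (Polynomial A) B (Polynomial.X - Polynomial.C c)} →
      b ∈ Ideal.span {algebraMap (Polynomial A) B (Polynomial.X - Polynomial.C c)})
    (S : Finset A)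
    (_hS : ∀ c ∈ S, ∀ c' ∈ S, c - c' ∈ IsLocalRing.maximalIdeal A → c = c')
    (_hunr : ∀ c : A, c ∉ S → ∀ φ : B →+* A,
      (∀ q : Polynomial A, φ (algebraMap (Polynomial A) B q) = q.eval c) →
      ∀ y z w : B, φ y = 0 → φ z = 0 → φ w ≠ 0 →
        algebraMap (Polynomial A) B (Polynomial.X - Polynomial.C c) * w ≠ y * z),
    IsDedekindDomain (B ⧸ coreJ A B)

end Fermat.Agent.Red.SM
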