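import Fermat.Agent.Red.SM.CoreSpecial53
import Fermat.Agent.Red.SM.CoreSkeleton
import Fermat.Agent.Red.SM.CoreT

/-!
# P-RED / R-SM, SM-CORE glue: the special fibre, in the two frozen vocabularies (helper53)

* `h53s_special : Fermat.Agent.Red.SM.Core.h74_Special`  (row SM-CORE-SPEC, helper74's skeleton).
* `h53s_transferData` : TRANSFER-A instantiated at `R = A[X]`, `I = 𝔪_A A[X]` in the setting of
  `SMCoreT` (the instances `IsPrime`, `IsPrincipalIdealRing`, `IsDomain` are produced here).
* `h53s_special_T` : (G-A) of `SMCoreT` (helper13's typeclass form): `n, e, s, D` with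
  `h53_TransferData`, `D mod 𝔪 ≠ 0`, and the discriminant count implies
  `IsDedekindDomain (B ⧸ coreJ A B)`.
-/

set_option autoImplicit false
set_option linter.style.haveILetI false
set_option linter.unusedSectionVars false
set_option linter.unusedVariables false

open Polynomial

noncomputable section

namespace Fermat.Agent.Red.SM.Spec53

open Fermat.Agent.Red.SM.EtAbs Fermat.Agent.Red.SM.Core

universe u v

attribute [local instance] FractionRing.liftAlgebra FractionRing.isScalarTower_liftAlgebra

/-- **G-SPEC** in the vocabulary of `CoreSkeleton.lean`. -/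
theorem h53s_special : h74_Special.{u, v} := by
  intro K _ A _ p hp hchar B _ _ _ _ _ ρ hρker hρC hρx n e s D hTD
  obtain ⟨bQ, -, hD⟩ := hTD.special
  exact h53s_special_val (A := A) p hp hchar ρ hρker hρC hρx n D ⟨bQ, hD⟩

end Fermat.Agent.Red.SM.Spec53
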