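import Fermat.Agent.S24.LaurentDeriv

/-!
# P-RED / SM-SEP: separability from a derivation

* `h84_isSeparable_of_derivation` (abstract core): `L/K0` fields of characteristic `p`,
  `D : L → L` additive with the Leibniz rule, `t ∈ L` with `D t ≠ 0`,
  `D (K0) ⊆ K0 · D t` and `ker (D | K0) ⊆ K0 ^ p`.  Then every element of `L` which is
  algebraic over `K0` is separable over `K0`.
* `h84_isSeparable_ratfunc`: the same for `K0 = k(x)`, `k` perfect, `D` trivial on `k`, `D x ≠ 0`.
* `h84_isSeparable_laurent`: the same for `L = k((q))`, `D = d/dq`.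
* `h84_discr_ne_zero_of_embedding` (consumer form): a domain `B`, free of finite rank over
  `k[X]`, with an injective ring hom `φ : B → k((q))` which is the identity on constants and
  with `d φ(X) / dq ≠ 0`, has nonzero discriminant over `k[X]`.
* `h84_laurentD_ne_zero_of_coeff`: `dx/dq ≠ 0` if `x_n ≠ 0` for some `n` with `(n : k) ≠ 0`.

(helper84)
-/

set_option autoImplicit false

open Polynomial

namespace Fermat.Agent.Red.SM

section Core

variable {K0 L : Type*} [Field K0] [Field L] [Algebra K0 L]

theorem h84_D_pow (D : L →+ L) (hD : ∀ a b, D (a * b) = a * D b + b * D a) (z : L) (n : ℕ) :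
    D (z ^ n) = (n : L) * z ^ (n - 1) * D z := by
  have h1 : D 1 = 0 := by
    have := hD 1 1
    simp only [mul_one, one_mul] at this
    have h2 : D 1 + D 1 = D 1 + 0 := by rw [add_zero]; exact this.symm
    exact add_left_cancel h2
  induction n with
  | zero => simp [h1]
  | succ n ih =>
    rw [pow_succ, hD, ih]
    rcases n with _ | n
    · simp
    · simp only [Nat.add_sub_cancel, Nat.cast_add, Nat.cast_one]
      rw [pow_succ]
      ring

theorem h84_D_pow_char (p : ℕ) [CharP L p] (D : L →+ L)
    (hD : ∀ a b, D (a * b) = a * D b + b * D a) (z : L) : D (z ^ p) = 0 := by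
  rw [h84_D_pow D hD, CharP.cast_eq_zero, zero_mul, zero_mul]

/-- **Abstract core.** -/
theorem h84_isSeparable_of_derivation (p : ℕ) [hp : Fact p.Prime] [CharP K0 p]
    (D : L →+ L) (hD : ∀ a b, D (a * b) = a * D b + b * D a)
    (t : L) (ht : D t ≠ 0)
    (h2 : ∀ a : K0, ∃ a' : K0, D (algebraMap K0 L a) = algebraMap K0 L a' * D t)
    (h3 : ∀ a : K0, D (algebraMap K0 L a) = 0 → ∃ c : K0, c ^ p = a)
    (y : L) (hy : IsAlgebraic K0 y) : IsSeparable K0 y := by
  have : CharP L p := charP_of_injective_algebraMap (algebraMap K0 L).injective p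
  have hint : IsIntegral K0 y := hy.isIntegral
  have hirr : Irreducible (minpoly K0 y) := minpoly.irreducible hint
  rcases Polynomial.separable_or p hirr with hsep | ⟨-, g, hg, hgf⟩
  · exact hsep
  exfalso
  have hppos : 0 < p := hp.out.pos
  have hgmonic : g.Monic := by
    have := minpoly.monic hint
    rw [← hgf] at this
    exact (monic_expand_iff hppos).1 this
  choose dmap hdmap using h2
  have hinj : Function.Injective (algebraMap K0 L) := (algebraMap K0 L).injective
  have hdmap_zero : ∀ a, D (algebraMap K0 L a) = 0 → dmap a = 0 := by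
    intro a ha
    have := hdmap a
    rw [ha] at this
    have h0 : algebraMap K0 L (dmap a) = 0 := by
      rcases mul_eq_zero.1 this.symm with h | h
      · exact h
      · exact absurd h ht
    exact hinj (by rw [h0, map_zero])
  have hD1 : D 1 = 0 := by
    have := h84_D_pow D hD (1 : L) 0
    simpa using this
  -- the derived polynomial
  let H : K0[X] := ∑ i ∈ Finset.range (g.natDegree + 1), monomial i (dmap (g.coeff i))
  have hHcoeff : ∀ i, H.coeff i = if i ≤ g.natDegree then dmap (g.coeff i) else 0 := by
    intro i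
    simp only [H, finsetSum_coeff, coeff_monomial]
    by_cases hi : i ≤ g.natDegree
    · rw [if_pos hi, Finset.sum_eq_single i]
      · simp
      · intro j _ hji; simp [hji]
      · intro hni; exact absurd (Finset.mem_range.2 (Nat.lt_succ_of_le hi)) hni
    · rw [if_neg hi]
      refine Finset.sum_eq_zero fun j hj => ?_
      have : j ≠ i := by
        have := Finset.mem_range.1 hj
        omega
      simp [this]
  -- `aeval (y^p) H = 0`
  have hroot : aeval (y ^ p) g = 0 := by
    rw [← expand_aeval, hgf, minpoly.aeval]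
  have hHroot : aeval (y ^ p) H = 0 := by
    have h1 : D (aeval (y ^ p) g) = 0 := by rw [hroot, map_zero]
    rw [aeval_eq_sum_range, map_sum] at h1
    have h2 : ∀ i ∈ Finset.range (g.natDegree + 1),
        D (g.coeff i • (y ^ p) ^ i) = (algebraMap K0 L (dmap (g.coeff i)) * (y ^ p) ^ i) * D t := by
      intro i _
      rw [Algebra.smul_def, hD, hdmap]
      have : D ((y ^ p) ^ i) = 0 := by
        rw [← pow_mul, mul_comm, pow_mul]
        exact h84_D_pow_char p D hD _
      rw [this]
      ring
    rw [Finset.sum_congr rfl h2, ← Finset.sum_mul] at h1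
    rcases mul_eq_zero.1 h1 with h | h
    · simp only [H, map_sum, aeval_monomial]
      exact h
    · exact absurd h ht
  have hHroot' : aeval y (expand K0 p H) = 0 := by rw [expand_aeval]; exact hHroot
  -- degree bound
  have hgdeg : 0 < g.natDegree := by
    rcases Nat.eq_zero_or_pos g.natDegree with h0 | h0
    · exfalso
      have : g = 1 := by
        have hC := eq_C_of_natDegree_eq_zero h0
        have hlc : g.leadingCoeff = 1 := hgmonic
        rw [leadingCoeff, h0] at hlc
        rw [hC, hlc, C_1]
      exact hg.not_isUnit (this ▸ isUnit_one)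
    · exact h0
  have hHdeg : H.natDegree < g.natDegree := by
    have htop : H.coeff g.natDegree = 0 := by
      rw [hHcoeff, if_pos le_rfl]
      apply hdmap_zero
      have : g.coeff g.natDegree = 1 := hgmonic
      rw [this, map_one, hD1]
    have hle : H.natDegree ≤ g.natDegree := by
      rw [natDegree_le_iff_coeff_eq_zero]
      intro N hN
      rw [hHcoeff, if_neg (by omega)]
    rcases Nat.lt_or_ge H.natDegree g.natDegree with h | h
    · exact h
    · exfalso
      have heq : H.natDegree = g.natDegree := le_antisymm hle h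
      have hH0 : H ≠ 0 := by
        intro h0
        rw [h0, natDegree_zero] at heq
        omega
      have := leadingCoeff_ne_zero.2 hH0
      rw [leadingCoeff, heq] at this
      exact this htop
  have hH0 : H = 0 := by
    by_contra hne
    have hne' : expand K0 p H ≠ 0 := fun h =>
      hne (expand_injective hppos (by rw [h, map_zero]))
    have h1 := minpoly.degree_le_of_ne_zero K0 y hne' hHroot'
    have h2 := natDegree_le_natDegree h1
    rw [← hgf, natDegree_expand, natDegree_expand] at h2
    have : H.natDegree * p < g.natDegree * p := Nat.mul_lt_mul_of_pos_right hHdeg hppos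
    omega
  -- all coefficients of `g` are `p`-th powers
  have hcoef : ∀ i, ∃ c : K0, c ^ p = g.coeff i := by
    intro i
    by_cases hi : i ≤ g.natDegree
    · apply h3
      have h1 : dmap (g.coeff i) = 0 := by
        have := hHcoeff i
        rw [hH0, coeff_zero, if_pos hi] at this
        exact this.symm
      rw [hdmap, h1, map_zero, zero_mul]
    · refine ⟨0, ?_⟩
      rw [zero_pow hp.out.ne_zero, coeff_eq_zero_of_natDegree_lt (by omega)]
  choose c hc using hcoef
  let G : K0[X] := ∑ i ∈ Finset.range (g.natDegree + 1), monomial i (c i)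
  have hG : map (frobenius K0 p) G = g := by
    ext i
    simp only [G, Polynomial.map_sum, map_monomial, finsetSum_coeff, coeff_monomial,
      frobenius_def, hc]
    by_cases hi : i ≤ g.natDegree
    · rw [Finset.sum_eq_single i]
      · simp
      · intro j _ hji; simp [hji]
      · intro hni; exact absurd (Finset.mem_range.2 (Nat.lt_succ_of_le hi)) hni
    · rw [coeff_eq_zero_of_natDegree_lt (by omega)]
      refine Finset.sum_eq_zero fun j hj => ?_
      have : j ≠ i := by
        have := Finset.mem_range.1 hj
        omega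
      simp [this]
  have hpow : minpoly K0 y = G ^ p := by
    rw [← hgf, ← hG, ← map_expand, map_frobenius_expand]
  rw [hpow] at hirr
  exact not_irreducible_pow hp.out.ne_one hirr

end Core

section RatFunc

variable {k : Type*} [Field k]

/-- a polynomial divisible by ... -/
theorem h84_derivative_eq_zero_of_dvd {r : k[X]} (h : r ∣ derivative r) : derivative r = 0 := by
  rcases Nat.eq_zero_or_pos r.natDegree with h0 | h0
  · rw [eq_C_of_natDegree_eq_zero h0, derivative_C]
  · exact eq_zero_of_dvd_of_natDegree_lt h (natDegree_derivative_lt h0.ne')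

/-- **Polynomial lemma.**  If `(r / s)' = 0` then `r / s` is a `p`-th power. -/
theorem h84_exists_pow_of_derivative (p : ℕ) [hp : Fact p.Prime] [CharP k p] [PerfectField k]
    (r s : k[X]) (hs : s ≠ 0) (h : derivative r * s = r * derivative s) :
    ∃ r₂ s₂ : k[X], s₂ ≠ 0 ∧ r * s₂ ^ p = r₂ ^ p * s := by
  classical
  have : ExpChar k p := ExpChar.prime hp.out
  have : PerfectRing k p := PerfectField.toPerfectRing p
  by_cases hr : r = 0
  · exact ⟨0, 1, one_ne_zero, by rw [hr, zero_mul, zero_pow hp.out.ne_zero, zero_mul]⟩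
  set g := EuclideanDomain.gcd r s with hgdef
  have hg0 : g ≠ 0 := fun h0 => hs (EuclideanDomain.gcd_eq_zero_iff.1 h0).2
  obtain ⟨r₁, hr₁⟩ := EuclideanDomain.gcd_dvd_left r s
  obtain ⟨s₁, hs₁⟩ := EuclideanDomain.gcd_dvd_right r s
  rw [← hgdef] at hr₁ hs₁
  have hcop : IsCoprime r₁ s₁ := by
    obtain ⟨A, B, hb⟩ : ∃ A B : k[X], g = r * A + s * B :=
      ⟨_, _, EuclideanDomain.gcd_eq_gcd_ab r s⟩
    refine ⟨A, B, ?_⟩
    have : g * (A * r₁ + B * s₁) = g * 1 := by
      rw [mul_one]
      calc g * (A * r₁ + B * s₁) = (g * r₁) * A + (g * s₁) * B := by ring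
        _ = g := by rw [← hr₁, ← hs₁, ← hb]
    exact mul_left_cancel₀ hg0 this
  have hrel : derivative r₁ * s₁ = r₁ * derivative s₁ := by
    have h1 : g ^ 2 * (derivative r₁ * s₁) = g ^ 2 * (r₁ * derivative s₁) := by
      have h2 := h
      rw [hr₁, hs₁, derivative_mul, derivative_mul] at h2
      linear_combination h2
    exact mul_left_cancel₀ (pow_ne_zero 2 hg0) h1
  have hr1' : derivative r₁ = 0 := by
    apply h84_derivative_eq_zero_of_dvd
    exact hcop.dvd_of_dvd_mul_right ⟨derivative s₁, hrel⟩
  have hs1' : derivative s₁ = 0 := by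
    apply h84_derivative_eq_zero_of_dvd
    refine hcop.symm.dvd_of_dvd_mul_left ⟨derivative r₁, ?_⟩
    rw [mul_comm s₁, hrel]
  have hs₁0 : s₁ ≠ 0 := by
    rintro rfl
    exact hs (by rw [hs₁, mul_zero])
  refine ⟨(contract p r₁).map ((frobeniusEquiv k p).symm : k →+* k),
    (contract p s₁).map ((frobeniusEquiv k p).symm : k →+* k), ?_, ?_⟩
  · intro h0
    have := polynomial_expand_eq k p (contract p s₁)
    rw [expand_contract p hs1' hp.out.ne_zero] at this
    rw [this] at hs₁0
    exact hs₁0 (by rw [h0, zero_pow hp.out.ne_zero])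
  · rw [← polynomial_expand_eq k p, ← polynomial_expand_eq k p,
      expand_contract p hs1' hp.out.ne_zero, expand_contract p hr1' hp.out.ne_zero]
    conv_lhs => rw [hr₁]
    conv_rhs => rw [hs₁]
    ring

variable {L K0 : Type*} [Field L] [Algebra k L] [Field K0] [Algebra k[X] K0]
  [IsFractionRing k[X] K0] [Algebra K0 L]

theorem h84_D_aeval (D : L →+ L) (hD : ∀ a b, D (a * b) = a * D b + b * D a)
    (hDC : ∀ c : k, D (algebraMap k L c) = 0) (x : L) (r : k[X]) :
    D (aeval x r) = aeval x (derivative r) * D x := by
  induction r using Polynomial.induction_on' with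
  | add a b ha hb => rw [map_add, map_add, derivative_add, map_add, ha, hb, add_mul]
  | monomial n c =>
    rw [aeval_monomial, hD, hDC, mul_zero, add_zero, h84_D_pow D hD, derivative_monomial,
      aeval_monomial, map_mul, map_natCast]
    ring

theorem h84_D_div (D : L →+ L) (hD : ∀ a b, D (a * b) = a * D b + b * D a) (u v : L)
    (hv : v ≠ 0) : D (u / v) = (D u - (u / v) * D v) / v := by
  have h1 : D u = (u / v) * D v + v * D (u / v) := by
    conv_lhs => rw [← div_mul_cancel₀ u hv]
    rw [hD]
  rw [h1]
  field_simp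
  ring

/-- separability over the field of rational functions in `x`, when `D x ≠ 0`. -/
theorem h84_isSeparable_ratfunc (p : ℕ) [hp : Fact p.Prime] [CharP k p] [PerfectField k]
    (D : L →+ L) (hD : ∀ a b, D (a * b) = a * D b + b * D a)
    (hDC : ∀ c : k, D (algebraMap k L c) = 0) (x : L) (hx : D x ≠ 0)
    (hcompat : ∀ r : k[X], algebraMap K0 L (algebraMap k[X] K0 r) = aeval x r)
    (y : L) (hy : IsAlgebraic K0 y) : IsSeparable K0 y := by
  have : CharP K0 p := charP_of_injective_algebraMap (IsFractionRing.injective k[X] K0) p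
  have hinjL : Function.Injective (algebraMap K0 L) := (algebraMap K0 L).injective
  -- the formula for `D` on `K0`
  have key : ∀ (r s : k[X]), s ≠ 0 →
      D (algebraMap K0 L (algebraMap k[X] K0 r / algebraMap k[X] K0 s)) =
        algebraMap K0 L ((algebraMap k[X] K0 (derivative r * s - r * derivative s)) /
          (algebraMap k[X] K0 s) ^ 2) * D x := by
    intro r s hs
    have hs' : algebraMap k[X] K0 s ≠ 0 := by
      rw [Ne, map_eq_zero_iff _ (IsFractionRing.injective k[X] K0)]
      exact hs
    have hs'' : aeval x s ≠ 0 := by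
      rw [← hcompat]
      rw [Ne, map_eq_zero_iff _ hinjL]
      exact hs'
    rw [map_div₀, hcompat, hcompat, h84_D_div D hD _ _ hs'', h84_D_aeval D hD hDC,
      h84_D_aeval D hD hDC, map_div₀, map_pow, hcompat, hcompat, map_sub, map_mul, map_mul]
    field_simp
  refine h84_isSeparable_of_derivation p D hD x hx ?_ ?_ y hy
  · intro a
    obtain ⟨r, s, hs, rfl⟩ := IsFractionRing.div_surjective k[X] a
    exact ⟨_, key r s (nonZeroDivisors.ne_zero hs)⟩
  · intro a ha
    obtain ⟨r, s, hs, rfl⟩ := IsFractionRing.div_surjective k[X] a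
    have hs0 : s ≠ 0 := nonZeroDivisors.ne_zero hs
    have hs' : algebraMap k[X] K0 s ≠ 0 := by
      rw [Ne, map_eq_zero_iff _ (IsFractionRing.injective k[X] K0)]
      exact hs0
    rw [key r s hs0] at ha
    have h1 : algebraMap k[X] K0 (derivative r * s - r * derivative s) = 0 := by
      rcases mul_eq_zero.1 ha with h | h
      · have h2 := (map_eq_zero_iff _ hinjL).1 h
        rcases div_eq_zero_iff.1 h2 with h3 | h3
        · exact h3
        · exact absurd (pow_eq_zero_iff (two_ne_zero)|>.1 h3) hs'
      · exact absurd h hx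
    have h2 : derivative r * s = r * derivative s := by
      have := (map_eq_zero_iff _ (IsFractionRing.injective k[X] K0)).1 h1
      exact sub_eq_zero.1 this
    obtain ⟨r₂, s₂, hs₂, hrs⟩ := h84_exists_pow_of_derivative p r s hs0 h2
    have hs₂' : algebraMap k[X] K0 s₂ ≠ 0 := by
      rw [Ne, map_eq_zero_iff _ (IsFractionRing.injective k[X] K0)]
      exact hs₂
    refine ⟨algebraMap k[X] K0 r₂ / algebraMap k[X] K0 s₂, ?_⟩
    rw [div_pow, div_eq_div_iff (pow_ne_zero p hs₂') hs', ← map_pow, ← map_pow, ← map_mul,
      ← map_mul, hrs]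

end RatFunc

section Laurent

open Fermat.Agent.S24 (laurentD laurentD_mul laurentD_C)

open scoped nonZeroDivisors

variable {k : Type*} [Field k]

theorem h84_algebraMap_laurent (c : k) :
    algebraMap k (LaurentSeries k) c = HahnSeries.C c := by
  rw [HahnSeries.algebraMap_apply']
  simp

theorem h84_aeval_laurent (x : LaurentSeries k) (r : k[X]) :
    aeval x r = eval₂ (HahnSeries.C : k →+* LaurentSeries k) x r := by
  rw [aeval_def]
  congr 1
  ext c : 1
  exact h84_algebraMap_laurent c

/-- `dx/dq ≠ 0` as soon as some coefficient `x_n` with `n ≠ 0` in `k` is nonzero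
(e.g. `x = q⁻¹ + ⋯`). -/
theorem h84_laurentD_ne_zero_of_coeff {x : LaurentSeries k} (n : ℤ) (hn : (n : k) ≠ 0)
    (hx : x.coeff n ≠ 0) : laurentD k x ≠ 0 := by
  intro h
  have h1 := Fermat.Agent.S24.coeff_laurentD k x (n - 1)
  rw [h, HahnSeries.coeff_zero, sub_add_cancel] at h1
  have h2 : ((n - 1 : ℤ) : k) + 1 = (n : k) := by push_cast; ring
  rw [h2] at h1
  exact mul_ne_zero hn hx h1.symm

/-- separability of elements of `k((q))` over the rational functions in `x`, `dx/dq ≠ 0`. -/
theorem h84_isSeparable_laurent (p : ℕ) [hp : Fact p.Prime] [CharP k p] [PerfectField k]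
    {K0 : Type*} [Field K0] [Algebra k[X] K0] [IsFractionRing k[X] K0]
    [Algebra K0 (LaurentSeries k)] (x : LaurentSeries k) (hx : laurentD k x ≠ 0)
    (hcompat : ∀ r : k[X], algebraMap K0 (LaurentSeries k) (algebraMap k[X] K0 r)
      = eval₂ (HahnSeries.C : k →+* LaurentSeries k) x r)
    (y : LaurentSeries k) (hy : IsAlgebraic K0 y) : IsSeparable K0 y :=
  h84_isSeparable_ratfunc p (laurentD k) (laurentD_mul k)
    (fun c => by rw [h84_algebraMap_laurent]; exact laurentD_C k c) x hx
    (fun r => by rw [hcompat, h84_aeval_laurent]) y hy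

attribute [local instance] FractionRing.liftAlgebra FractionRing.isScalarTower_liftAlgebra

/-- **Consumer form.**  A domain `B`, free of finite rank over `k[X]` and embedded in `k((q))`
compatibly with the constants, such that the image `x` of `X` has `dx/dq ≠ 0`, has nonzero
discriminant over `k[X]`. -/
theorem h84_discr_ne_zero_of_embedding (p : ℕ) [hp : Fact p.Prime] [CharP k p] [PerfectField k]
    {B : Type*} [CommRing B] [IsDomain B] [Algebra k[X] B]
    (φ : B →+* LaurentSeries k) (hφ : Function.Injective φ)
    (hφC : ∀ c : k, φ (algebraMap k[X] B (C c)) = HahnSeries.C c)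
    (hx : laurentD k (φ (algebraMap k[X] B X)) ≠ 0)
    {ι : Type*} [Fintype ι] [DecidableEq ι] (b : Module.Basis ι k[X] B) :
    Algebra.discr k[X] b ≠ 0 := by
  have hfin : Module.Finite k[X] B := Module.Finite.of_basis b
  have hfree : Module.Free k[X] B := Module.Free.of_basis b
  have hfaith : FaithfulSMul k[X] B := inferInstance
  have hint : Algebra.IsIntegral k[X] B := inferInstance
  let K₀ := FractionRing k[X]
  let L₀ := FractionRing B
  let b' : Module.Basis ι K₀ L₀ := b.localizationLocalization K₀ (k[X])⁰ L₀
  have hfd : Module.Finite K₀ L₀ := Module.Finite.of_basis b'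
  have hdisc : Algebra.discr K₀ b' = algebraMap k[X] K₀ (Algebra.discr k[X] b) :=
    Algebra.discr_localizationLocalization k[X] (k[X])⁰ L₀ b
  -- the embedding of `L₀`
  let φ' : L₀ →+* LaurentSeries k := IsFractionRing.lift hφ
  have hφ' : ∀ z : B, φ' (algebraMap B L₀ z) = φ z := fun z => IsFractionRing.lift_algebraMap hφ z
  let _ : Algebra K₀ (LaurentSeries k) := (φ'.comp (algebraMap K₀ L₀)).toAlgebra
  let Φ : L₀ →ₐ[K₀] LaurentSeries k := { φ' with commutes' := fun _ => rfl }
  have hΦinj : Function.Injective Φ := φ'.injective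
  set x : LaurentSeries k := φ (algebraMap k[X] B X) with hxdef
  have hcompat : ∀ r : k[X],
      algebraMap K₀ (LaurentSeries k) (algebraMap k[X] K₀ r)
        = eval₂ (HahnSeries.C : k →+* LaurentSeries k) x r := by
    intro r
    rw [← h84_aeval_laurent]
    have h1 : algebraMap K₀ (LaurentSeries k) (algebraMap k[X] K₀ r)
        = φ (algebraMap k[X] B r) := by
      change φ' (algebraMap K₀ L₀ (algebraMap k[X] K₀ r)) = _
      rw [← IsScalarTower.algebraMap_apply k[X] K₀ L₀,
        IsScalarTower.algebraMap_apply k[X] B L₀, hφ']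
    rw [h1]
    have h2 : (φ.comp (algebraMap k[X] B)) = (aeval x : k[X] →ₐ[k] LaurentSeries k).toRingHom := by
      apply Polynomial.ringHom_ext
      · intro c
        simp only [RingHom.coe_comp, Function.comp_apply, hφC, AlgHom.toRingHom_eq_coe,
          RingHom.coe_coe, aeval_C]
        exact (h84_algebraMap_laurent c).symm
      · simp only [RingHom.coe_comp, Function.comp_apply, AlgHom.toRingHom_eq_coe,
          RingHom.coe_coe, aeval_X, hxdef]
    exact congrArg (fun f : k[X] →+* LaurentSeries k => f r) h2
  have hsep : Algebra.IsSeparable K₀ L₀ := by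
    refine ⟨fun z => ?_⟩
    have hz : IsAlgebraic K₀ (Φ z) := IsAlgebraic.algHom Φ (Algebra.IsAlgebraic.isAlgebraic (R := K₀) z)
    have := h84_isSeparable_laurent p x hx hcompat (Φ z) hz
    unfold IsSeparable at this ⊢
    rwa [minpoly.algHom_eq Φ hΦinj] at this
  intro h0
  have := Algebra.discr_not_zero_of_basis K₀ b'
  rw [hdisc, h0, map_zero] at this
  exact this rfl

end Laurent

end Fermat.Agent.Red.SM
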