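import Fermat.Agent.Red.GV.BarCoord
import Fermat.Agent.Red.ModelO.ValCrit
import Fermat.Agent.Red.SM.SepDeriv
import Fermat.Agent.Red.SM.CoreSkeleton

/-!
# P-RED / SM-GVPACK: the Gauss package of a chart (hypotheses (H3), (H4) of SM-CORE)

`A` a valuation subring of `ℚ̄` over `ℓ`, `ℓ ∤ N`, `k = A / 𝔪_A`, `R` one of the charts
`modelFin N A`, `modelInf N A`, `modelAt N A t` (`t` a base coordinate).

* `h81g_rho A N R hR : R →+* k((q))` — the reduction of `q`-expansions on `R ≤ gaussV`.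
* `h81g_ker_eq_maxExt` — `ker ρ = maxExt A R = 𝔪_A R` (from the kernel property of GV).
* `h81g_isPrime_maxExt`, `h81g_isDomain` — `R / 𝔪_A R` is a domain.
* `h81g_rhoBar : R ⧸ maxExt A R →+* k((q))`, injective.
* `h81g_resHom : k →+* R ⧸ maxExt A R`, `h81g_rhoBar_resHom` — constants.
* `h81g_laurentD_rho_jB_ne_zero`, `h81g_laurentD_rho_jB_inv_ne_zero`,
  `h81g_laurentD_rho_coord_ne_zero` — the reduction of the base coordinate has nonzero
  `q`-derivative.

Author: helper81.  All names carry the prefix `h81g_`.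
-/

set_option autoImplicit false

open ModularCurve AlgebraicCurve

noncomputable section

namespace Fermat.Agent.Red.SM.GVPack

open Fermat.Agent.S37 Fermat.Agent.Red.GV Fermat.Agent.Red.GV.Asm
open Fermat.Agent.S24 (laurentD laurentD_mul laurentD_one)
open Fermat.Agent.Red.SM (h84_laurentD_ne_zero_of_coeff)

variable (A : ValuationSubring Kbar) (N : ℕ)

/-! ## The reduction map on a chart -/

/-- the reduction map of the Gauss valuation, restricted to a subring of the Gauss ring. -/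
def h81g_rho (R : Subring (FF N)) (hR : R ≤ gaussV A N) :
    R →+* LaurentSeries (IsLocalRing.ResidueField A) :=
  (gaussR A N).comp (Subring.inclusion hR)

theorem h81g_rho_apply (R : Subring (FF N)) (hR : R ≤ gaussV A N) (x : R) :
    h81g_rho A N R hR x = gaussR A N ⟨(x : FF N), hR x.2⟩ :=
  rfl

/-- the reduction of a constant of `A`. -/
theorem h81g_rho_cst (R : Subring (FF N)) (hR : R ≤ gaussV A N) (a : Kbar) (ha : a ∈ A)
    (x : R) (hx : (x : FF N) = cst N a) :
    h81g_rho A N R hR x = HahnSeries.C (IsLocalRing.residue A ⟨a, ha⟩) := by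
  rw [h81g_rho_apply]
  have h := gaussRed_algebraMap A (IsLocalRing.residue A) N ⟨a, ha⟩
  rw [← h]
  congr 1
  exact Subtype.ext hx

/-- the reduction of an element with `A`-integral `q`-expansion. -/
theorem h81g_rho_of_embA (R : Subring (FF N)) (hR : R ≤ gaussV A N) (x : R)
    (y : LaurentSeries A) (hy : embA A y = ((x : FF N) : LaurentSeries Kbar)) :
    h81g_rho A N R hR x = redA (IsLocalRing.residue A) y := by
  rw [h81g_rho_apply]
  exact gaussRed_of_embA A (IsLocalRing.residue A) N ⟨(x : FF N), hR x.2⟩ y hy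

/-! ## The kernel -/

/-- the kernel property of a chart: an element of `R` with vanishing reduction is a constant of
`𝔪_A` times an element of `R`. -/
def h81g_KerProp (R : Subring (FF N)) : Prop :=
  ∀ x : gaussV A N, (x : FF N) ∈ R → gaussR A N x = 0 →
    ∃ (c : Kbar) (x' : FF N), c ≠ 0 ∧ c ∈ A.nonunits ∧ x' ∈ R ∧ (x : FF N) = cst N c * x'

variable {A N}

theorem h81g_maxExt_le_ker {ℓ : ℕ} (hA : A.LiesOverPrime ℓ) (R : Subring (FF N))
    (hR : R ≤ gaussV A N) : maxExt A R ≤ RingHom.ker (h81g_rho A N R hR) := by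
  refine Ideal.span_le.2 ?_
  rintro x ⟨a, ha, hxa⟩
  rw [SetLike.mem_coe, RingHom.mem_ker, h81g_rho_apply]
  have h := gaussR_cst_of_nonunit A N hA a ha (by rw [← hxa]; exact hR x.2)
  rw [← h]
  congr 1
  exact Subtype.ext hxa

theorem h81g_ker_le_maxExt (R : Subring (FF N)) (hR : R ≤ gaussV A N)
    (hcst : ∀ a : Kbar, a ∈ A → cst N a ∈ R) (hker : h81g_KerProp A N R) :
    RingHom.ker (h81g_rho A N R hR) ≤ maxExt A R := by
  intro x hx
  rw [RingHom.mem_ker, h81g_rho_apply] at hx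
  obtain ⟨c, x', -, hc, hx', hxx'⟩ := hker ⟨(x : FF N), hR x.2⟩ x.2 hx
  have hcA : c ∈ A := mem_of_mem_nonunits A c hc
  have hmem : (⟨cst N c, hcst c hcA⟩ : R) ∈ maxExt A R :=
    Ideal.subset_span ⟨c, hc, rfl⟩
  have hxe : x = (⟨cst N c, hcst c hcA⟩ : R) * ⟨x', hx'⟩ := Subtype.ext hxx'
  rw [hxe]
  exact Ideal.mul_mem_right _ _ hmem

/-- **`ker ρ = 𝔪_A R`.** -/
theorem h81g_ker_eq_maxExt {ℓ : ℕ} (hA : A.LiesOverPrime ℓ) (R : Subring (FF N))
    (hR : R ≤ gaussV A N) (hcst : ∀ a : Kbar, a ∈ A → cst N a ∈ R)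
    (hker : h81g_KerProp A N R) :
    RingHom.ker (h81g_rho A N R hR) = maxExt A R :=
  le_antisymm (h81g_ker_le_maxExt R hR hcst hker) (h81g_maxExt_le_ker hA R hR)

/-- `𝔪_A R` is a prime ideal. -/
theorem h81g_isPrime_maxExt {ℓ : ℕ} (hA : A.LiesOverPrime ℓ) (R : Subring (FF N))
    (hR : R ≤ gaussV A N) (hcst : ∀ a : Kbar, a ∈ A → cst N a ∈ R)
    (hker : h81g_KerProp A N R) : (maxExt A R).IsPrime := by
  rw [← h81g_ker_eq_maxExt hA R hR hcst hker]
  exact RingHom.ker_isPrime _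

/-- the special fibre of the chart is a domain. -/
theorem h81g_isDomain {ℓ : ℕ} (hA : A.LiesOverPrime ℓ) (R : Subring (FF N))
    (hR : R ≤ gaussV A N) (hcst : ∀ a : Kbar, a ∈ A → cst N a ∈ R)
    (hker : h81g_KerProp A N R) : IsDomain (R ⧸ maxExt A R) := by
  have := h81g_isPrime_maxExt hA R hR hcst hker
  exact Ideal.Quotient.isDomain _

/-! ## The embedding of the special fibre into `k((q))` -/

/-- the reduction map on the special fibre of the chart. -/
def h81g_rhoBar {ℓ : ℕ} (hA : A.LiesOverPrime ℓ) (R : Subring (FF N)) (hR : R ≤ gaussV A N) :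
    (R ⧸ maxExt A R) →+* LaurentSeries (IsLocalRing.ResidueField A) :=
  Ideal.Quotient.lift (maxExt A R) (h81g_rho A N R hR)
    (fun _ hx => RingHom.mem_ker.1 (h81g_maxExt_le_ker hA R hR hx))

theorem h81g_rhoBar_mk {ℓ : ℕ} (hA : A.LiesOverPrime ℓ) (R : Subring (FF N))
    (hR : R ≤ gaussV A N) (x : R) :
    h81g_rhoBar hA R hR (Ideal.Quotient.mk (maxExt A R) x) = h81g_rho A N R hR x :=
  Ideal.Quotient.lift_mk _ _ _

theorem h81g_rhoBar_injective {ℓ : ℕ} (hA : A.LiesOverPrime ℓ) (R : Subring (FF N))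
    (hR : R ≤ gaussV A N) (hcst : ∀ a : Kbar, a ∈ A → cst N a ∈ R)
    (hker : h81g_KerProp A N R) : Function.Injective (h81g_rhoBar hA R hR) := by
  rw [injective_iff_map_eq_zero]
  intro y hy
  obtain ⟨x, rfl⟩ := Ideal.Quotient.mk_surjective y
  rw [h81g_rhoBar_mk] at hy
  rw [Ideal.Quotient.eq_zero_iff_mem]
  exact h81g_ker_le_maxExt R hR hcst hker (RingHom.mem_ker.2 hy)

/-! ## Constants -/

/-- the constants of `A` in the chart. -/
def h81g_cstHom (R : Subring (FF N)) (hcst : ∀ a : Kbar, a ∈ A → cst N a ∈ R) : A →+* R :=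
  ((algebraMap Kbar (FF N)).comp A.subtype).codRestrict R (fun a => hcst (a : Kbar) a.2)

theorem h81g_coe_cstHom (R : Subring (FF N)) (hcst : ∀ a : Kbar, a ∈ A → cst N a ∈ R)
    (a : A) : ((h81g_cstHom R hcst a : R) : FF N) = cst N (a : Kbar) :=
  rfl

/-- the structure map `k → R / 𝔪_A R`. -/
def h81g_resHom (R : Subring (FF N)) (hcst : ∀ a : Kbar, a ∈ A → cst N a ∈ R) :
    IsLocalRing.ResidueField A →+* (R ⧸ maxExt A R) :=
  Ideal.Quotient.lift (IsLocalRing.maximalIdeal A)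
    ((Ideal.Quotient.mk (maxExt A R)).comp (h81g_cstHom R hcst))
    (fun a ha => by
      rw [RingHom.comp_apply, Ideal.Quotient.eq_zero_iff_mem]
      refine Ideal.subset_span ⟨(a : Kbar), ?_, rfl⟩
      rw [ValuationSubring.coe_mem_nonunits_iff]
      exact ha)

theorem h81g_resHom_residue (R : Subring (FF N)) (hcst : ∀ a : Kbar, a ∈ A → cst N a ∈ R)
    (a : A) :
    h81g_resHom R hcst (IsLocalRing.residue A a) =
      Ideal.Quotient.mk (maxExt A R) (h81g_cstHom R hcst a) :=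
  Ideal.Quotient.lift_mk _ _ _

/-- `ρ̄` is the identity on constants. -/
theorem h81g_rhoBar_resHom {ℓ : ℕ} (hA : A.LiesOverPrime ℓ) (R : Subring (FF N))
    (hR : R ≤ gaussV A N) (hcst : ∀ a : Kbar, a ∈ A → cst N a ∈ R)
    (c : IsLocalRing.ResidueField A) :
    h81g_rhoBar hA R hR (h81g_resHom R hcst c) = HahnSeries.C c := by
  obtain ⟨a, rfl⟩ := IsLocalRing.residue_surjective c
  rw [h81g_resHom_residue, h81g_rhoBar_mk]
  exact h81g_rho_cst A N R hR (a : Kbar) a.2 _ rfl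

/-! ## Derivatives -/

/-- the derivative of the inverse of a series with nonzero derivative is nonzero. -/
theorem h81g_laurentD_inv_ne_zero {L : Type*} [Field L] (x : LaurentSeries L)
    (hx : laurentD L x ≠ 0) : laurentD L x⁻¹ ≠ 0 := by
  intro h
  have hx0 : x ≠ 0 := by
    rintro rfl
    exact hx (map_zero _)
  have h1 : laurentD L (x * x⁻¹) = 0 := by
    rw [mul_inv_cancel₀ hx0]
    exact laurentD_one L
  rw [laurentD_mul, h, mul_zero, zero_add] at h1
  rcases mul_eq_zero.1 h1 with h2 | h2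
  · exact inv_ne_zero hx0 h2
  · exact hx h2

/-- `d j̄ / dq ≠ 0`. -/
theorem h81g_laurentD_jqModC_ne_zero (k : Type*) [Field k] :
    laurentD k (jqModC k) ≠ 0 := by
  refine h84_laurentD_ne_zero_of_coeff (-1) ?_ ?_
  · simp
  · rw [ModularCurve.coeff_jqModC_neg_one]
    exact one_ne_zero

/-- `d (1/j̄) / dq ≠ 0`. -/
theorem h81g_laurentD_jqModC_inv_ne_zero (k : Type*) [Field k] :
    laurentD k (jqModC k)⁻¹ ≠ 0 :=
  h81g_laurentD_inv_ne_zero _ (h81g_laurentD_jqModC_ne_zero k)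

/-! ## Instantiation: the three kinds of charts -/

theorem h81g_cst_mem_modelAt (t : FF N) (a : Kbar) (ha : a ∈ A) : cst N a ∈ modelAt N A t :=
  Fermat.Agent.Red.ModelO.h85_cst_mem_modelAt N A t ha

/-- a base coordinate with `A`-integral expansion `tA` whose reduction has a nonzero coefficient
in a degree prime to the residue characteristic has nonzero derivative. -/
theorem h81g_laurentD_rho_coord_ne_zero (R : Subring (FF N)) (hR : R ≤ gaussV A N) (x : R)
    (tA : LaurentSeries A) (htA : embA A tA = ((x : FF N) : LaurentSeries Kbar))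
    (n : ℤ) (hn : (n : IsLocalRing.ResidueField A) ≠ 0)
    (hcoeff : (redA (IsLocalRing.residue A) tA).coeff n ≠ 0) :
    laurentD (IsLocalRing.ResidueField A) (h81g_rho A N R hR x) ≠ 0 := by
  rw [h81g_rho_of_embA A N R hR x tA htA]
  exact h84_laurentD_ne_zero_of_coeff n hn hcoeff

section Inst

variable [NeZero N] {ℓ : ℕ}

theorem h81g_kerProp_fin (hℓ : ℓ.Prime) (hN : ¬ ℓ ∣ N) (hA : A.LiesOverPrime ℓ) :
    h81g_KerProp A N (modelFin N A) :=
  fun x hx h0 => exists_eq_cst_mul_of_gaussR_eq_zero_fin A N hℓ hN hA x hx h0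

theorem h81g_kerProp_inf (hℓ : ℓ.Prime) (hN : ¬ ℓ ∣ N) (hA : A.LiesOverPrime ℓ) :
    h81g_KerProp A N (modelInf N A) :=
  fun x hx h0 => exists_eq_cst_mul_of_gaussR_eq_zero_inf A N hℓ hN hA x hx h0

theorem h81g_kerProp_coord (hℓ : ℓ.Prime) (hN : ¬ ℓ ∣ N) (hA : A.LiesOverPrime ℓ)
    (t : FF N) (tA : LaurentSeries A) (htA : embA A tA = (t : LaurentSeries Kbar))
    (hred : redA (IsLocalRing.residue A) tA ≠ 0) (a : ℕ) (R : Polynomial A)
    (hrel : jB N * t ^ a = evalF N A t R) :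
    h81g_KerProp A N (modelAt N A t) :=
  fun x hx h0 =>
    exists_eq_cst_mul_of_gaussR_eq_zero_modelAt A N hℓ hN hA t tA htA hred a R hrel x hx h0

/-- **finite chart**: `ker ρ = 𝔪_A · modelFin`. -/
theorem h81g_ker_fin (hℓ : ℓ.Prime) (hN : ¬ ℓ ∣ N) (hA : A.LiesOverPrime ℓ) :
    RingHom.ker (h81g_rho A N (modelFin N A) (modelFin_le_gaussV A N hℓ hN hA)) =
      maxExt A (modelFin N A) :=
  h81g_ker_eq_maxExt hA _ _ (h81g_cst_mem_modelAt _) (h81g_kerProp_fin hℓ hN hA)

/-- **chart at infinity**: `ker ρ = 𝔪_A · modelInf`. -/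
theorem h81g_ker_inf (hℓ : ℓ.Prime) (hN : ¬ ℓ ∣ N) (hA : A.LiesOverPrime ℓ) :
    RingHom.ker (h81g_rho A N (modelInf N A) (modelInf_le_gaussV A N hℓ hN hA)) =
      maxExt A (modelInf N A) :=
  h81g_ker_eq_maxExt hA _ _ (h81g_cst_mem_modelAt _) (h81g_kerProp_inf hℓ hN hA)

/-- **chart of a base coordinate `t`**: `ker ρ = 𝔪_A · modelAt t`. -/
theorem h81g_ker_coord (hℓ : ℓ.Prime) (hN : ¬ ℓ ∣ N) (hA : A.LiesOverPrime ℓ)
    (t : FF N) (tA : LaurentSeries A) (htA : embA A tA = (t : LaurentSeries Kbar))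
    (hred : redA (IsLocalRing.residue A) tA ≠ 0) (a : ℕ) (R : Polynomial A)
    (hrel : jB N * t ^ a = evalF N A t R) :
    RingHom.ker (h81g_rho A N (modelAt N A t) (modelAt_le_gaussV A N hℓ hN hA t tA htA)) =
      maxExt A (modelAt N A t) :=
  h81g_ker_eq_maxExt hA _ _ (h81g_cst_mem_modelAt _)
    (h81g_kerProp_coord hℓ hN hA t tA htA hred a R hrel)

/-- the special fibre of the finite chart is a domain. -/
theorem h81g_isDomain_fin (hℓ : ℓ.Prime) (hN : ¬ ℓ ∣ N) (hA : A.LiesOverPrime ℓ) :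
    IsDomain (modelFin N A ⧸ maxExt A (modelFin N A)) :=
  h81g_isDomain hA _ (modelFin_le_gaussV A N hℓ hN hA) (h81g_cst_mem_modelAt _)
    (h81g_kerProp_fin hℓ hN hA)

/-- the special fibre of the chart at infinity is a domain. -/
theorem h81g_isDomain_inf (hℓ : ℓ.Prime) (hN : ¬ ℓ ∣ N) (hA : A.LiesOverPrime ℓ) :
    IsDomain (modelInf N A ⧸ maxExt A (modelInf N A)) :=
  h81g_isDomain hA _ (modelInf_le_gaussV A N hℓ hN hA) (h81g_cst_mem_modelAt _)
    (h81g_kerProp_inf hℓ hN hA)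

/-- the special fibre of the chart of a base coordinate is a domain. -/
theorem h81g_isDomain_coord (hℓ : ℓ.Prime) (hN : ¬ ℓ ∣ N) (hA : A.LiesOverPrime ℓ)
    (t : FF N) (tA : LaurentSeries A) (htA : embA A tA = (t : LaurentSeries Kbar))
    (hred : redA (IsLocalRing.residue A) tA ≠ 0) (a : ℕ) (R : Polynomial A)
    (hrel : jB N * t ^ a = evalF N A t R) :
    IsDomain (modelAt N A t ⧸ maxExt A (modelAt N A t)) :=
  h81g_isDomain hA _ (modelAt_le_gaussV A N hℓ hN hA t tA htA) (h81g_cst_mem_modelAt _)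
    (h81g_kerProp_coord hℓ hN hA t tA htA hred a R hrel)

/-! ### The reduction of the base coordinate -/

/-- `ρ(j) = j̄`. -/
theorem h81g_rho_jB (R : Subring (FF N)) (hR : R ≤ gaussV A N) (x : R)
    (hx : (x : FF N) = jB N) :
    h81g_rho A N R hR x = jqModC (IsLocalRing.ResidueField A) := by
  rw [h81g_rho_apply, ← gaussR_jB A N]
  congr 1
  exact Subtype.ext hx

/-- `ρ(1/j) = 1/j̄`. -/
theorem h81g_rho_jB_inv (R : Subring (FF N)) (hR : R ≤ gaussV A N) (x : R)
    (hx : (x : FF N) = (jB N)⁻¹) :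
    h81g_rho A N R hR x = (jqModC (IsLocalRing.ResidueField A))⁻¹ := by
  have hj : jB N ∈ gaussV A N := jB_mem_gaussV A N
  have hjx : (jB N) * (x : FF N) = 1 := by
    rw [hx]
    refine mul_inv_cancel₀ ?_
    intro h0
    have h1 := gaussR_jB A N
    have h2 : (⟨jB N, hj⟩ : gaussV A N) = 0 := Subtype.ext h0
    rw [h2, map_zero] at h1
    exact jqModC_ne_zero_of_nontrivial _ h1.symm
  have h3 : gaussR A N ⟨jB N, hj⟩ * gaussR A N ⟨(x : FF N), hR x.2⟩ = 1 := by
    rw [← map_mul, ← map_one (gaussR A N)]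
    congr 1
    exact Subtype.ext hjx
  rw [gaussR_jB] at h3
  rw [h81g_rho_apply]
  exact eq_inv_of_mul_eq_one_right h3

theorem h81g_laurentD_rho_jB_ne_zero (R : Subring (FF N)) (hR : R ≤ gaussV A N) (x : R)
    (hx : (x : FF N) = jB N) :
    laurentD (IsLocalRing.ResidueField A) (h81g_rho A N R hR x) ≠ 0 := by
  rw [h81g_rho_jB R hR x hx]
  exact h81g_laurentD_jqModC_ne_zero _

theorem h81g_laurentD_rho_jB_inv_ne_zero (R : Subring (FF N)) (hR : R ≤ gaussV A N) (x : R)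
    (hx : (x : FF N) = (jB N)⁻¹) :
    laurentD (IsLocalRing.ResidueField A) (h81g_rho A N R hR x) ≠ 0 := by
  rw [h81g_rho_jB_inv R hR x hx]
  exact h81g_laurentD_jqModC_inv_ne_zero _

end Inst

/-! ## More on derivatives -/

/-- a series with nonzero derivative has a nonzero coefficient in a degree which is nonzero in
the base field. -/
theorem h81g_exists_coeff_of_laurentD_ne_zero {L : Type*} [Field L] (z : LaurentSeries L)
    (hz : laurentD L z ≠ 0) : ∃ n : ℤ, ((n : ℤ) : L) ≠ 0 ∧ z.coeff n ≠ 0 := by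
  by_contra hcon
  apply hz
  ext m
  rw [Fermat.Agent.S24.coeff_laurentD, HahnSeries.coeff_zero]
  by_contra hne
  apply hcon
  refine ⟨m + 1, ?_, ?_⟩
  · intro h0
    apply hne
    have : ((m : ℤ) : L) + 1 = ((m + 1 : ℤ) : L) := by push_cast; ring
    rw [this, h0, zero_mul]
  · intro h0
    apply hne
    rw [h0, mul_zero]

theorem h81g_laurentD_pow_succ {L : Type*} [Field L] (u : LaurentSeries L) (n : ℕ) :
    laurentD L (u ^ (n + 1)) = ((n + 1 : ℕ) : LaurentSeries L) * u ^ n * laurentD L u := by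
  induction n with
  | zero => simp
  | succ n ih =>
    rw [pow_succ u (n + 1), laurentD_mul, ih]
    push_cast
    ring

/-- in characteristic `ℓ` the derivative of an `ℓ`-th power vanishes. -/
theorem h81g_laurentD_pow_char {L : Type*} [Field L] (ℓ : ℕ) [CharP L ℓ] (hℓ : ℓ ≠ 0)
    (u : LaurentSeries L) : laurentD L (u ^ ℓ) = 0 := by
  obtain ⟨n, rfl⟩ := Nat.exists_eq_succ_of_ne_zero hℓ
  rw [Nat.succ_eq_add_one, h81g_laurentD_pow_succ]
  have h0 : ((n + 1 : ℕ) : LaurentSeries L) = 0 := by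
    rw [← map_natCast (HahnSeries.C : L →+* LaurentSeries L), CharP.cast_eq_zero, map_zero]
  rw [h0, zero_mul, zero_mul]

/-! ## The structures `CoreGauss`, `CoreRed` of SM-CORE -/

section Core

variable (A N)
variable [NeZero N] {ℓ : ℕ} (hℓ : ℓ.Prime) (hN : ¬ ℓ ∣ N) (hA : A.LiesOverPrime ℓ)

/-- the Gauss valuation subring of `FF N` attached to `A`. -/
def h81g_V : ValuationSubring (FF N) :=
  haveI : Fact ℓ.Prime := ⟨hℓ⟩
  gaussRing A (IsLocalRing.residue A) N ℓ (isResidueMap_residue A ℓ hA) hN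

theorem h81g_V_toSubring : (h81g_V A N hℓ hN hA).toSubring = gaussV A N :=
  rfl

theorem h81g_mem_V_iff (x : FF N) : x ∈ h81g_V A N hℓ hN hA ↔ x ∈ gaussV A N :=
  Iff.rfl

/-- the reduction map on the Gauss valuation subring (as a map on `V.toSubring`). -/
def h81g_rhoV' : ↥(h81g_V A N hℓ hN hA).toSubring →+*
    LaurentSeries (IsLocalRing.ResidueField A) :=
  (gaussR A N).comp (Subring.inclusion (le_of_eq rfl))

/-- the reduction map on the Gauss valuation subring. -/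
def h81g_rhoV : ↥(h81g_V A N hℓ hN hA) →+* LaurentSeries (IsLocalRing.ResidueField A) :=
  h81g_rhoV' A N hℓ hN hA

theorem h81g_rhoV_apply (f : FF N) (hf : f ∈ h81g_V A N hℓ hN hA) :
    h81g_rhoV A N hℓ hN hA ⟨f, hf⟩ = gaussR A N ⟨f, hf⟩ :=
  rfl

variable {A N}

/-- **(H3) for a chart which is the finite chart.** -/
theorem h81g_coreGauss_of_eq_fin (x : FF N) (hx : modelAt N A x = modelFin N A) :
    CoreGauss A x (h81g_V A N hℓ hN hA) where
  le := by
    intro y hy
    have hy' : y ∈ modelAt N A x := hy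
    rw [hx] at hy'
    exact modelFin_le_gaussV A N hℓ hN hA hy'
  cst_mem_iff := fun a => cst_mem_gaussV_iff A N hA a
  scale := fun f hf => exists_cst_mul_unit A N hℓ hN hA f hf
  qep := by
    intro f hf a ha ha0 h
    have h' : cst N a * f ∈ modelAt N A x := h
    rw [hx] at h'
    have h2 := mem_modelFin_of_cst_mul A N hℓ hN hA f hf a ha ha0 h'
    rw [← hx] at h2
    exact h2

/-- **(H3) for a chart which is the chart at infinity.** -/
theorem h81g_coreGauss_of_eq_inf (x : FF N) (hx : modelAt N A x = modelInf N A) :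
    CoreGauss A x (h81g_V A N hℓ hN hA) where
  le := by
    intro y hy
    have hy' : y ∈ modelAt N A x := hy
    rw [hx] at hy'
    exact modelInf_le_gaussV A N hℓ hN hA hy'
  cst_mem_iff := fun a => cst_mem_gaussV_iff A N hA a
  scale := fun f hf => exists_cst_mul_unit A N hℓ hN hA f hf
  qep := by
    intro f hf a ha ha0 h
    have h' : cst N a * f ∈ modelAt N A x := h
    rw [hx] at h'
    have h2 := mem_modelInf_of_cst_mul A N hℓ hN hA f hf a ha ha0 h'
    rw [← hx] at h2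
    exact h2

/-- **(H3), finite chart, `x = j`.** -/
theorem h81g_coreGauss_fin : CoreGauss A (jB N) (h81g_V A N hℓ hN hA) :=
  h81g_coreGauss_of_eq_fin hℓ hN hA (jB N) rfl

/-- **(H3), chart at infinity, `x = 1/j`.** -/
theorem h81g_coreGauss_inf : CoreGauss A (jB N)⁻¹ (h81g_V A N hℓ hN hA) :=
  h81g_coreGauss_of_eq_inf hℓ hN hA (jB N)⁻¹ rfl

/-- **(H4) from the nonvanishing of the derivative of the reduction of `x`.** -/
theorem h81g_coreRed (x : FF N) (hx : x ∈ gaussV A N)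
    (hD : laurentD (IsLocalRing.ResidueField A) (gaussR A N ⟨x, hx⟩) ≠ 0) :
    CoreRed A x (h81g_V A N hℓ hN hA) (h81g_rhoV A N hℓ hN hA) where
  ker := by
    intro f
    have : Fact ℓ.Prime := ⟨hℓ⟩
    exact gaussRed_eq_zero_iff_mem_nonunits A (IsLocalRing.residue A) N ℓ
      (isResidueMap_residue A ℓ hA) hN ⟨(f : FF N), f.2⟩
  cst := by
    intro a ha h
    exact gaussRed_algebraMap A (IsLocalRing.residue A) N ⟨a, ha⟩
  deriv := by
    obtain ⟨n, hn, hc⟩ := h81g_exists_coeff_of_laurentD_ne_zero _ hD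
    exact ⟨hx, n, hn, hc⟩

/-- **(H4), `x = j`.** -/
theorem h81g_coreRed_fin :
    CoreRed A (jB N) (h81g_V A N hℓ hN hA) (h81g_rhoV A N hℓ hN hA) := by
  refine h81g_coreRed hℓ hN hA (jB N) (jB_mem_gaussV A N) ?_
  rw [gaussR_jB]
  exact h81g_laurentD_jqModC_ne_zero _

/-- **(H4), `x = 1/j`.** -/
theorem h81g_coreRed_inf :
    CoreRed A (jB N)⁻¹ (h81g_V A N hℓ hN hA) (h81g_rhoV A N hℓ hN hA) := by
  have hmem : (jB N)⁻¹ ∈ gaussV A N := jB_inv_mem_gaussV A N hℓ hN hA
  refine h81g_coreRed hℓ hN hA (jB N)⁻¹ hmem ?_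
  have h := h81g_rho_jB_inv (A := A) (N := N) (gaussV A N) le_rfl ⟨(jB N)⁻¹, hmem⟩ rfl
  rw [h81g_rho_apply] at h
  rw [h]
  exact h81g_laurentD_jqModC_inv_ne_zero _

/-- **(H4), `x' = t + (1/t)^ℓ`** (hypothesis form in `t`): `t` and `1/t` are Gauss-integral and
the reduction of `t` has nonzero derivative. -/
theorem h81g_coreRed_xp (t : FF N) (ht : t ∈ gaussV A N) (hti : t⁻¹ ∈ gaussV A N)
    (hD : laurentD (IsLocalRing.ResidueField A) (gaussR A N ⟨t, ht⟩) ≠ 0) :
    CoreRed A (t + (t⁻¹) ^ ℓ) (h81g_V A N hℓ hN hA) (h81g_rhoV A N hℓ hN hA) := by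
  have : Fact ℓ.Prime := ⟨hℓ⟩
  have : CharP (IsLocalRing.ResidueField A) ℓ :=
    Fermat.Agent.Red.GV.Base.h80_charP A (IsLocalRing.residue A) ℓ (isResidueMap_residue A ℓ hA)
  have hmem : t + (t⁻¹) ^ ℓ ∈ gaussV A N := add_mem ht (pow_mem hti ℓ)
  refine h81g_coreRed hℓ hN hA _ hmem ?_
  have h1 : (⟨t + (t⁻¹) ^ ℓ, hmem⟩ : gaussV A N) = ⟨t, ht⟩ + ⟨t⁻¹, hti⟩ ^ ℓ := rfl
  rw [h1, map_add, map_pow, map_add, h81g_laurentD_pow_char ℓ hℓ.ne_zero, add_zero]
  exact hD

/-- **(H4), `x' = t + (1/t)^ℓ`**, from an `A`-integral expansion `tA` of `t` whose reduction has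
a nonzero coefficient in a degree prime to `ℓ`. -/
theorem h81g_coreRed_xp_of_embA (t : FF N) (hti : t⁻¹ ∈ gaussV A N)
    (tA : LaurentSeries A) (htA : embA A tA = (t : LaurentSeries Kbar))
    (n : ℤ) (hn : (n : IsLocalRing.ResidueField A) ≠ 0)
    (hcoeff : (redA (IsLocalRing.residue A) tA).coeff n ≠ 0) :
    CoreRed A (t + (t⁻¹) ^ ℓ) (h81g_V A N hℓ hN hA) (h81g_rhoV A N hℓ hN hA) := by
  have ht : t ∈ gaussV A N := mem_gaussSubring_of_embA A (IsLocalRing.residue A) N t tA htA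
  refine h81g_coreRed_xp hℓ hN hA t ht hti ?_
  rw [gaussRed_of_embA A (IsLocalRing.residue A) N ⟨t, ht⟩ tA htA]
  exact h84_laurentD_ne_zero_of_coeff n hn hcoeff

end Core

end Fermat.Agent.Red.SM.GVPack
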