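import Mathlib

/-!
# P-RED / SM: roots of a polynomial over a valuation ring and of its reduction

Mathlib-only leaf (item (i) of the hypothesis check of the DELTA design).

`K` algebraically closed, `A` a valuation subring of `K`, `π : A →+* k` a ring homomorphism to a
field with kernel the non-units of `A`, `D : A[X]` with `D mod 𝔪 ≠ 0`.  Then the multiplicity of
`ā ∈ k` as a root of `D mod 𝔪` is the number of roots `a` of `D` in `K` (with multiplicity) which
lie in `A` and reduce to `ā`.
-/

set_option autoImplicit false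
set_option linter.unusedSectionVars false
set_option linter.style.haveILetI false

open Polynomial

namespace Fermat.Agent.Red.SM.RootRed

variable {K : Type*} [Field K] (A : ValuationSubring K) {k : Type*} [Field k] (π : A →+* k)

/-- the roots of `D` in `K` which lie in `A` and reduce to `abar`, with multiplicity. -/
noncomputable def rootsOver (D : A[X]) (abar : k) : Multiset K := by
  classical
  exact (D.map A.subtype).roots.filter (fun a => ∃ h : a ∈ A, π ⟨a, h⟩ = abar)

theorem map_subtype_injective : Function.Injective (Polynomial.map A.subtype) :=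
  Polynomial.map_injective _ Subtype.val_injective

theorem map_subtype_ne_zero {D : A[X]} (hD : D ≠ 0) : D.map A.subtype ≠ 0 :=
  (Polynomial.map_ne_zero_iff Subtype.val_injective).mpr hD

theorem ne_zero_of_map_ne_zero {D : A[X]} (hD : D.map π ≠ 0) : D ≠ 0 := by
  rintro rfl
  exact hD (Polynomial.map_zero _)

/-- peeling off a root in `A`. -/
theorem exists_eq_mul_of_root_mem {D : A[X]} {a : K} (ha : a ∈ A)
    (hroot : (D.map A.subtype).IsRoot a) : ∃ E : A[X], D = (X - C ⟨a, ha⟩) * E := by
  have h1 : D.IsRoot ⟨a, ha⟩ := by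
    have h2 : (D.map A.subtype).eval (A.subtype ⟨a, ha⟩) = 0 := hroot
    rw [Polynomial.eval_map_apply] at h2
    exact Subtype.val_injective (by simpa using h2)
  exact Polynomial.dvd_iff_isRoot.mpr h1

/-- peeling off a root outside `A`: the cofactor of `b X - 1`, `b = a⁻¹`, has coefficients
in `A`. -/
theorem exists_eq_mul_of_root_notMem {D : A[X]} {a : K} (ha : a ∉ A)
    (hroot : (D.map A.subtype).IsRoot a) :
    ∃ (b : A) (E : A[X]), (b : K) = a⁻¹ ∧ (b : K) ∈ A.nonunits ∧ D = (C b * X - 1) * E := by
  have ha0 : a ≠ 0 := fun h => ha (h ▸ A.zero_mem)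
  have hb : a⁻¹ ∈ A := (A.mem_or_inv_mem a).resolve_left ha
  have hbn : a⁻¹ ∈ A.nonunits := by
    rw [ValuationSubring.mem_nonunits_iff_or]
    right
    rwa [inv_inv]
  obtain ⟨G, hG⟩ := Polynomial.dvd_iff_isRoot.mpr hroot
  -- `E_K = a * G`
  obtain ⟨EK, hEK⟩ : ∃ EK : K[X], EK = C a * G := ⟨_, rfl⟩
  have hDK : D.map A.subtype = (C a⁻¹ * X - 1) * EK := by
    rw [hG, hEK]
    have : (C a⁻¹ * X - 1 : K[X]) * (C a * G) = (C (a⁻¹ * a) * X - C a) * G := by
      rw [C_mul]; ring
    rw [this, inv_mul_cancel₀ ha0, C_1, one_mul]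
  have hcoeff0 : EK.coeff 0 = - (D.map A.subtype).coeff 0 := by
    rw [hDK, sub_mul, one_mul, mul_assoc, coeff_sub, coeff_C_mul, coeff_X_mul_zero, mul_zero,
      zero_sub, neg_neg]
  have hcoeffS : ∀ m, EK.coeff (m + 1) = a⁻¹ * EK.coeff m - (D.map A.subtype).coeff (m + 1) := by
    intro m
    rw [hDK, sub_mul, one_mul, mul_assoc, coeff_sub, coeff_C_mul, coeff_X_mul]
    ring
  have hmem : ∀ m, EK.coeff m ∈ A := by
    intro m
    induction m with
    | zero =>
      rw [hcoeff0, coeff_map]
      exact neg_mem (Subtype.mem _)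
    | succ m ih =>
      rw [hcoeffS, coeff_map]
      exact sub_mem (mul_mem hb ih) (Subtype.mem _)
  have hlift : EK ∈ Polynomial.lifts A.subtype := by
    rw [Polynomial.lifts_iff_coeff_lifts]
    intro m
    exact ⟨⟨EK.coeff m, hmem m⟩, rfl⟩
  obtain ⟨E, hE⟩ := hlift
  refine ⟨⟨a⁻¹, hb⟩, E, rfl, hbn, ?_⟩
  apply map_subtype_injective A
  rw [hDK, Polynomial.map_mul, Polynomial.map_sub, Polynomial.map_mul, Polynomial.map_C,
    Polynomial.map_X, Polynomial.map_one, ← hE]
  rfl

variable (hπ : ∀ a : A, π a = 0 ↔ (a : K) ∈ A.nonunits)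

include hπ in
/-- **ROOT-RED.**  The multiplicity of `abar` as a root of `D mod 𝔪` is the number of roots of
`D` in `A` reducing to `abar`. -/
theorem rootMultiplicity_map_eq_card [IsAlgClosed K] (abar : k) :
    ∀ (n : ℕ) (D : A[X]), D.natDegree = n → D.map π ≠ 0 →
      (D.map π).rootMultiplicity abar = Multiset.card (rootsOver A π D abar) := by
  classical
  intro n
  induction n with
  | zero =>
    intro D hdeg hD
    obtain ⟨c, rfl⟩ := Polynomial.natDegree_eq_zero.mp hdeg
    have hc : π c ≠ 0 := by
      intro h
      apply hD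
      rw [Polynomial.map_C, h, C_0]
    rw [Polynomial.map_C, Polynomial.rootMultiplicity_C, rootsOver, Polynomial.map_C,
      Polynomial.roots_C]
    simp
  | succ n ih =>
    intro D hdeg hD
    have hD0 : D ≠ 0 := ne_zero_of_map_ne_zero A π hD
    have hDK0 : D.map A.subtype ≠ 0 := map_subtype_ne_zero A hD0
    have hdegK : (D.map A.subtype).degree ≠ 0 := by
      rw [Polynomial.degree_map_eq_of_injective Subtype.val_injective,
        Polynomial.degree_eq_natDegree hD0, hdeg]
      exact_mod_cast Nat.succ_ne_zero n
    obtain ⟨a, ha⟩ := IsAlgClosed.exists_root (D.map A.subtype) hdegK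
    by_cases haA : a ∈ A
    · obtain ⟨E, hE⟩ := exists_eq_mul_of_root_mem A haA ha
      have hEdeg : E.natDegree = n := by
        have hE0 : E ≠ 0 := by
          rintro rfl
          exact hD0 (by rw [hE, mul_zero])
        have := congrArg Polynomial.natDegree hE
        rw [Polynomial.natDegree_mul (Polynomial.X_sub_C_ne_zero _) hE0,
          Polynomial.natDegree_X_sub_C, hdeg] at this
        omega
      have hmapE : D.map π = (X - C (π ⟨a, haA⟩)) * E.map π := by
        rw [hE, Polynomial.map_mul, Polynomial.map_sub, Polynomial.map_X, Polynomial.map_C]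
      have hE' : E.map π ≠ 0 := by
        intro h
        apply hD
        rw [hmapE, h, mul_zero]
      have hmapK : D.map A.subtype = (X - C a) * E.map A.subtype := by
        rw [hE, Polynomial.map_mul, Polynomial.map_sub, Polynomial.map_X, Polynomial.map_C]
        rfl
      have hroots : (D.map A.subtype).roots = a ::ₘ (E.map A.subtype).roots := by
        rw [hmapK, Polynomial.roots_mul (by rw [← hmapK]; exact hDK0), Polynomial.roots_X_sub_C]
        rfl
      rw [hmapE, Polynomial.rootMultiplicity_mul (by rw [← hmapE]; exact hD),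
        ih E hEdeg hE', rootsOver, rootsOver, hroots, Multiset.filter_cons]
      by_cases hab : π ⟨a, haA⟩ = abar
      · have h1 : (∃ h : a ∈ A, π ⟨a, h⟩ = abar) := ⟨haA, hab⟩
        rw [if_pos h1, hab, Polynomial.rootMultiplicity_X_sub_C_self]
        simp [add_comm]
      · have h1 : ¬ (∃ h : a ∈ A, π ⟨a, h⟩ = abar) := by
          rintro ⟨_, h⟩
          exact hab h
        rw [if_neg h1, Polynomial.rootMultiplicity_X_sub_C, if_neg (fun h => hab h.symm)]
        simp
    · obtain ⟨b, E, hb, hbn, hE⟩ := exists_eq_mul_of_root_notMem A haA ha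
      have ha0 : a ≠ 0 := fun h => haA (h ▸ A.zero_mem)
      have hb0 : (b : K) ≠ 0 := by rw [hb]; exact inv_ne_zero ha0
      have hπb : π b = 0 := (hπ b).mpr hbn
      have hE0 : E ≠ 0 := by
        rintro rfl
        exact hD0 (by rw [hE, mul_zero])
      have hmapK : D.map A.subtype = C (b : K) * ((X - C a) * E.map A.subtype) := by
        rw [hE, Polynomial.map_mul, Polynomial.map_sub, Polynomial.map_mul, Polynomial.map_X,
          Polynomial.map_C, Polynomial.map_one]
        have : (C (A.subtype b) * X - 1 : K[X]) = C (b : K) * (X - C a) := by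
          show (C (b : K) * X - 1 : K[X]) = C (b : K) * (X - C a)
          rw [mul_sub, ← C_mul, hb, inv_mul_cancel₀ ha0, C_1]
        rw [this, mul_assoc]
      have hEdeg : E.natDegree = n := by
        have h1 := congrArg Polynomial.natDegree hmapK
        rw [Polynomial.natDegree_map_eq_of_injective Subtype.val_injective, hdeg,
          Polynomial.natDegree_C_mul hb0,
          Polynomial.natDegree_mul (Polynomial.X_sub_C_ne_zero _)
            (map_subtype_ne_zero A hE0),
          Polynomial.natDegree_X_sub_C,
          Polynomial.natDegree_map_eq_of_injective Subtype.val_injective] at h1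
        omega
      have hmapE : D.map π = - E.map π := by
        rw [hE, Polynomial.map_mul, Polynomial.map_sub, Polynomial.map_mul, Polynomial.map_X,
          Polynomial.map_C, Polynomial.map_one, hπb, C_0, zero_mul, zero_sub, neg_one_mul]
      have hE' : E.map π ≠ 0 := by
        intro h
        apply hD
        rw [hmapE, h, neg_zero]
      have hroots : (D.map A.subtype).roots = a ::ₘ (E.map A.subtype).roots := by
        rw [hmapK, Polynomial.roots_C_mul _ hb0,
          Polynomial.roots_mul (mul_ne_zero (Polynomial.X_sub_C_ne_zero _)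
            (map_subtype_ne_zero A hE0)), Polynomial.roots_X_sub_C]
        rfl
      have h1 : ¬ (∃ h : a ∈ A, π ⟨a, h⟩ = abar) := fun ⟨h, _⟩ => haA h
      have hneg : - E.map π = C (-1 : k) * E.map π := by
        rw [C_neg, C_1, neg_one_mul]
      have hmul0 : C (-1 : k) * E.map π ≠ 0 := by
        rw [← hneg]
        exact neg_ne_zero.mpr hE'
      rw [hmapE, hneg, Polynomial.rootMultiplicity_mul hmul0, Polynomial.rootMultiplicity_C,
        zero_add, ih E hEdeg hE', rootsOver, rootsOver, hroots,
        Multiset.filter_cons, if_neg h1, zero_add]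

include hπ in
/-- **ROOT-RED**, final form. -/
theorem rootMultiplicity_map [IsAlgClosed K] (D : A[X]) (hD : D.map π ≠ 0) (abar : k) :
    (D.map π).rootMultiplicity abar = Multiset.card (rootsOver A π D abar) :=
  rootMultiplicity_map_eq_card A π hπ abar _ D rfl hD

include hπ in
/-- if all roots of `D` in `A` reducing to `abar` are equal to `a₀`, then the multiplicity of
`abar` in `D mod 𝔪` is the multiplicity of `a₀` in `D`. -/
theorem rootMultiplicity_map_of_unique [IsAlgClosed K] (D : A[X]) (hD : D.map π ≠ 0) (a₀ : A)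
    (h : ∀ a : A, (D.map A.subtype).IsRoot (a : K) → π a = π a₀ → a = a₀) :
    (D.map π).rootMultiplicity (π a₀) = (D.map A.subtype).rootMultiplicity (a₀ : K) := by
  classical
  rw [rootMultiplicity_map A π hπ D hD, rootsOver, ← Polynomial.count_roots,
    Multiset.count_eq_card_filter_eq]
  congr 1
  refine Multiset.filter_congr fun a ha => ?_
  have hDK0 : D.map A.subtype ≠ 0 := map_subtype_ne_zero A (ne_zero_of_map_ne_zero A π hD)
  have hroot : (D.map A.subtype).IsRoot a := (Polynomial.mem_roots hDK0).mp ha
  constructor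
  · rintro ⟨hA, hred⟩
    have := h ⟨a, hA⟩ hroot hred
    exact (congrArg Subtype.val this).symm
  · intro h'
    refine ⟨h' ▸ a₀.2, ?_⟩
    congr 1
    exact Subtype.ext h'.symm

include hπ in
/-- if no root of `D` in `A` reduces to `abar`, then `abar` is not a root of `D mod 𝔪`. -/
theorem rootMultiplicity_map_eq_zero [IsAlgClosed K] (D : A[X]) (hD : D.map π ≠ 0) (abar : k)
    (h : ∀ a : A, (D.map A.subtype).IsRoot (a : K) → π a ≠ abar) :
    (D.map π).rootMultiplicity abar = 0 := by
  classical
  rw [rootMultiplicity_map A π hπ D hD, rootsOver, Multiset.card_eq_zero,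
    Multiset.filter_eq_nil]
  rintro a ha ⟨hA, hred⟩
  have hDK0 : D.map A.subtype ≠ 0 := map_subtype_ne_zero A (ne_zero_of_map_ne_zero A π hD)
  exact h ⟨a, hA⟩ ((Polynomial.mem_roots hDK0).mp ha) hred

end Fermat.Agent.Red.SM.RootRed
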