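import Mathlib
import Fermat.Agent.Red.SM.CoreSkeleton
import Fermat.Agent.Red.SM.RootRed

/-!
# P-RED / R-SM, SM-CORE: assembly (helper74)

`h74_sm_core : h74_Special → h74_PointLift → h74_Generic → h74_SmCore`.
-/

set_option autoImplicit false
set_option linter.unusedSectionVars false
set_option linter.style.haveILetI false

open Polynomial

noncomputable section

namespace Fermat.Agent.Red.SM.Core

open Fermat.Agent.Red.SM.EtAbs

section Aux

variable {K : Type*} [Field K] (A : ValuationSubring K) {B : Type*} [CommRing B]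

theorem h74_residue_eq_zero_iff (a : A) :
    IsLocalRing.residue A a = 0 ↔ (a : K) ∈ A.nonunits := by
  rw [IsLocalRing.residue_eq_zero_iff, ValuationSubring.mem_nonunits_iff_exists_mem_maximalIdeal]
  constructor
  · intro h
    exact ⟨a.2, h⟩
  · rintro ⟨_, h⟩
    exact h

theorem h74_C_mem_I {a : A} (ha : a ∈ IsLocalRing.maximalIdeal A) : (C a : A[X]) ∈ h74_I A :=
  Ideal.mem_map_of_mem _ ha

theorem h74_I_isPrime : (h74_I A).IsPrime := by
  haveI : (IsLocalRing.maximalIdeal A).IsPrime := (IsLocalRing.maximalIdeal.isMaximal A).isPrime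
  show (Ideal.map (C : A →+* A[X]) (IsLocalRing.maximalIdeal A)).IsPrime
  exact Ideal.isPrime_map_C_of_isPrime

/-- the count only depends on the residue class of `c`. -/
theorem h74_cnt_congr (φ : A[X] →+* B) {c c' : A}
    (h : c - c' ∈ IsLocalRing.maximalIdeal A) : h74_cnt A φ c = h74_cnt A φ c' := by
  unfold h74_cnt
  refine Nat.card_congr (Equiv.subtypeEquivRight fun 𝔫 => ?_)
  have hdiff : φ (X - C c') - φ (X - C c) = φ (C (c - c')) := by
    rw [← map_sub]
    congr 1
    rw [C_sub]
    ring
  have hmem : φ (C (c - c')) ∈ h74_P A φ := Ideal.mem_map_of_mem _ (h74_C_mem_I A h)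
  constructor
  · rintro ⟨h1, h2, h3⟩
    refine ⟨h1, h2, ?_⟩
    have : φ (X - C c') = φ (X - C c) + φ (C (c - c')) := by rw [← hdiff]; ring
    rw [this]
    exact 𝔫.add_mem h3 (h2 hmem)
  · rintro ⟨h1, h2, h3⟩
    refine ⟨h1, h2, ?_⟩
    have : φ (X - C c) = φ (X - C c') - φ (C (c - c')) := by rw [← hdiff]; ring
    rw [this]
    exact 𝔫.sub_mem h3 (h2 hmem)

end Aux

attribute [local instance] FractionRing.liftAlgebra FractionRing.isScalarTower_liftAlgebra

/-- **SM-CORE**, assembly. -/
theorem h74_sm_core.{u, v} (hS : h74_Special.{u, v}) (hP : h74_PointLift.{u, v})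
    (hG : h74_Generic.{u, v}) : h74_SmCore.{u, v} := by
  classical
  intro K _ _ _ A _ p hp hchar B _ _ _ φ hφinj hφfin ρ hρker hρC hρx N hN S hSinc hbr
  letI : Algebra A[X] B := φ.toAlgebra
  have halg : algebraMap A[X] B = φ := rfl
  haveI : FaithfulSMul A[X] B := (faithfulSMul_iff_algebraMap_injective _ _).mpr hφinj
  haveI : Module.Finite A[X] B := hφfin
  -- the instances of TRANSFER-A
  haveI hIprime : ((IsLocalRing.maximalIdeal A).map (algebraMap A A[X])).IsPrime :=
    h74_I_isPrime A
  haveI hPID : IsPrincipalIdealRing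
      (A[X] ⧸ (IsLocalRing.maximalIdeal A).map (algebraMap A A[X])) := by
    have h1 : IsPrincipalIdealRing (IsLocalRing.ResidueField A)[X] := inferInstance
    exact @IsPrincipalIdealRing.of_surjective (IsLocalRing.ResidueField A)[X] _ _ _ _ _ _ h1
      (Ideal.polynomialQuotientEquivQuotientPolynomial (IsLocalRing.maximalIdeal A)).toRingHom
      (Ideal.polynomialQuotientEquivQuotientPolynomial (IsLocalRing.maximalIdeal A)).surjective
  haveI hdom : IsDomain (B ⧸ ((IsLocalRing.maximalIdeal A).map (algebraMap A A[X])).map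
      (algebraMap A[X] B)) := by
    rw [Ideal.Quotient.isDomain_iff_prime]
    have : ((IsLocalRing.maximalIdeal A).map (algebraMap A A[X])).map (algebraMap A[X] B)
        = RingHom.ker ρ := hρker.symm
    rw [this]
    exact RingHom.ker_isPrime ρ
  obtain ⟨n, e, s, D, hTD⟩ := h53_transfer_A_val (A := A) (R := A[X]) (B := B)
    (FractionRing A[X]) (FractionRing B)
  have hTD' : h53_TransferData (FractionRing A[X]) (FractionRing B) (h74_I A) n e s D := hTD
  obtain ⟨hD0, hDed⟩ := hS K A p hp hchar B ρ hρker hρC hρx n e s D hTD'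
  refine hDed fun c => ?_
  -- rank bound
  have hnN : n ≤ N := by
    refine hN n e fun c hc => ?_
    have hli := hTD'.linearIndependent
    rw [Fintype.linearIndependent_iff] at hli
    refine hli c ?_
    rw [← hc]
    refine Finset.sum_congr rfl fun i _ => ?_
    rw [Algebra.smul_def]
    rfl
  -- the generic bound
  have hgen : ∀ a : A, Finite (h74_Pt A (algebraMap A[X] B) a) ∧
      (D.map A.subtype).rootMultiplicity (a : K) +
        Nat.card (h74_Pt A (algebraMap A[X] B) a) ≤ n :=
    fun a => hG K A B n e s D hTD' a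
  have hDK0 : D.map A.subtype ≠ 0 :=
    RootRed.map_subtype_ne_zero A (RootRed.ne_zero_of_map_ne_zero A (IsLocalRing.residue A) hD0)
  -- roots of `D` in `A` are branch values
  have hroot : ∀ a : A, (D.map A.subtype).IsRoot (a : K) → a ∈ S := by
    intro a ha
    by_contra haS
    obtain ⟨ψ, hψ⟩ := hbr a haS
    obtain ⟨hfin, hle⟩ := hgen a
    have h1 : N ≤ Nat.card (h74_Pt A (algebraMap A[X] B) a) := by
      have h0 : Nat.card (Fin N) ≤ Nat.card (h74_Pt A (algebraMap A[X] B) a) :=
        Nat.card_le_card_of_injective ψ hψ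
      rwa [Nat.card_fin] at h0
    have h2 : 0 < (D.map A.subtype).rootMultiplicity (a : K) :=
      (Polynomial.rootMultiplicity_pos hDK0).mpr ha
    omega
  -- the representative `c₀`
  obtain ⟨c₀, hc₀, huniq⟩ : ∃ c₀ : A, c - c₀ ∈ IsLocalRing.maximalIdeal A ∧
      ∀ a : A, (D.map A.subtype).IsRoot (a : K) →
        IsLocalRing.residue A a = IsLocalRing.residue A c₀ → a = c₀ := by
    by_cases hex : ∃ c' ∈ S, c - c' ∈ IsLocalRing.maximalIdeal A
    · obtain ⟨c', hc'S, hc'⟩ := hex
      refine ⟨c', hc', fun a ha hres => ?_⟩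
      refine hSinc a (hroot a ha) c' hc'S ?_
      rw [← IsLocalRing.residue_eq_zero_iff, map_sub, hres, sub_self]
    · refine ⟨c, by rw [sub_self]; exact Ideal.zero_mem _, fun a ha hres => ?_⟩
      exfalso
      refine hex ⟨a, hroot a ha, ?_⟩
      rw [← IsLocalRing.residue_eq_zero_iff, map_sub, hres, sub_self]
  have hres : IsLocalRing.residue A c = IsLocalRing.residue A c₀ := by
    have := (IsLocalRing.residue_eq_zero_iff (c - c₀)).mpr hc₀
    rw [map_sub, sub_eq_zero] at this
    exact this
  have hmult : (D.map (IsLocalRing.residue A)).rootMultiplicity (IsLocalRing.residue A c)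
      = (D.map A.subtype).rootMultiplicity (c₀ : K) := by
    rw [hres]
    exact RootRed.rootMultiplicity_map_of_unique A (IsLocalRing.residue A)
      (h74_residue_eq_zero_iff A) D hD0 c₀ huniq
  have hcnt : h74_cnt A (algebraMap A[X] B) c = h74_cnt A (algebraMap A[X] B) c₀ :=
    h74_cnt_congr A _ hc₀
  obtain ⟨hfin, hle⟩ := hgen c₀
  have hpl := hP K A B n e s hTD'.s_sub_one hTD'.linearIndependent hTD'.span c₀ hfin
  rw [hmult, hcnt]
  omega

end Fermat.Agent.Red.SM.Core

end
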