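import Mathlib
import Fermat.Agent.Red.SM.Core
import Fermat.Agent.Red.SM.CoreV
import Fermat.Agent.Red.SM.SepDeriv

/-!
# P-RED / R-SM, SM-CORE (I-b): the chain `h74_Special → h74_GenericV → SMCoreV` (helper74)

* `h74_Unr A B c` : the unramifiedness hypothesis of `SMCoreV` at `c`.
* `h74_GenericV`  : the generic-fibre input of the chain, in terms of the polynomial `D` of
  TRANSFER-A only (no `B_K` in the statement):
  (1) `ord_c D + #{maximal ideals of B over 𝔪_A, x - c} ≤ n` for all `c : A`;
  (2) `ord_c D = 0` if `B` is unramified over `c`.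
* `h74_smCoreV : h74_Special → h74_GenericV → SMCoreV`.
-/

set_option autoImplicit false
set_option linter.unusedSectionVars false
set_option linter.style.haveILetI false

open Polynomial

noncomputable section

namespace Fermat.Agent.Red.SM.Core

open Fermat.Agent.Red.SM.EtAbs

/-- the unramifiedness hypothesis of `SMCoreV` at `c`. -/
def h74_Unr {K : Type*} [Field K] (A : ValuationSubring K) (B : Type*) [CommRing B]
    [Algebra A[X] B] (c : A) : Prop :=
  ∀ φ : B →+* A, (∀ q : A[X], φ (algebraMap A[X] B q) = q.eval c) →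
    ∀ y z w : B, φ y = 0 → φ z = 0 → φ w ≠ 0 →
      algebraMap A[X] B (X - C c) * w ≠ y * z

/-- the torsion-freeness hypothesis of `SMCoreV`. -/
def h74_Tf {K : Type*} [Field K] (A : ValuationSubring K) (B : Type*) [CommRing B]
    [Algebra A[X] B] : Prop :=
  ∀ (c α : A) (b : B), α ≠ 0 →
    algebraMap A[X] B (C α) * b ∈ Ideal.span {algebraMap A[X] B (X - C c)} →
    b ∈ Ideal.span {algebraMap A[X] B (X - C c)}

section Glue

attribute [local instance] FractionRing.liftAlgebra FractionRing.isScalarTower_liftAlgebra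

/-- **G-GEN-V** (generic fibre input of the chain). -/
def h74_GenericV : Prop :=
  ∀ (K : Type) [Field K] [IsAlgClosed K] [CharZero K] (A : ValuationSubring K)
    (B : Type) [CommRing B] [IsDomain B] [IsIntegrallyClosed B]
    [Algebra A[X] B] [FaithfulSMul A[X] B] [Module.Finite A[X] B]
    (_htf : h74_Tf A B)
    (n : ℕ) (e : Fin n → B) (s D : A[X])
    (_hTD : h53_TransferData (FractionRing A[X]) (FractionRing B) (h74_I A) n e s D),
    (∀ c : A, (D.map A.subtype).rootMultiplicity (c : K) +
        h74_cnt A (algebraMap A[X] B) c ≤ n) ∧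
    (∀ c : A, h74_Unr A B c → (D.map A.subtype).rootMultiplicity (c : K) = 0)

end Glue

attribute [local instance] FractionRing.liftAlgebra FractionRing.isScalarTower_liftAlgebra

/-- **SM-CORE (I-b)**: the chain. -/
theorem h74_smCoreV (hS : h74_Special.{0, 0}) (hGV : h74_GenericV) :
    Fermat.Agent.Red.SM.SMCoreV := by
  classical
  intro K _ _ _ A p hpF hchar _ B _ _ _ _ _ _ ρ hρker hρC hρX htf S hSinc hunr
  have hp : p.Prime := hpF.out
  -- the ideal
  have hJ : Fermat.Agent.Red.SM.coreJ A B = h74_P A (algebraMap A[X] B) := rfl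
  have hρker' : RingHom.ker ρ = h74_P A (algebraMap A[X] B) := by
    ext b
    rw [RingHom.mem_ker, hρker b, hJ]
  have hρx : Fermat.Agent.S24.laurentD (IsLocalRing.ResidueField A)
      (ρ (algebraMap A[X] B X)) ≠ 0 := by
    obtain ⟨m, hm, hcoeff⟩ := hρX
    exact Fermat.Agent.Red.SM.h84_laurentD_ne_zero_of_coeff m hm hcoeff
  -- the instances of TRANSFER-A
  haveI hIprime : ((IsLocalRing.maximalIdeal A).map (algebraMap A A[X])).IsPrime :=
    h74_I_isPrime A
  haveI hPID : IsPrincipalIdealRing
      (A[X] ⧸ (IsLocalRing.maximalIdeal A).map (algebraMap A A[X])) := by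
    have h1 : IsPrincipalIdealRing (IsLocalRing.ResidueField A)[X] := inferInstance
    exact @IsPrincipalIdealRing.of_surjective (IsLocalRing.ResidueField A)[X] _ _ _ _ _ _ h1
      (Ideal.polynomialQuotientEquivQuotientPolynomial (IsLocalRing.maximalIdeal A)).toRingHom
      (Ideal.polynomialQuotientEquivQuotientPolynomial (IsLocalRing.maximalIdeal A)).surjective
  haveI hdom : IsDomain (B ⧸ ((IsLocalRing.maximalIdeal A).map (algebraMap A A[X])).map
      (algebraMap A[X] B)) := by
    rw [Ideal.Quotient.isDomain_iff_prime]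
    have : ((IsLocalRing.maximalIdeal A).map (algebraMap A A[X])).map (algebraMap A[X] B)
        = RingHom.ker ρ := hρker'.symm
    rw [this]
    exact RingHom.ker_isPrime ρ
  obtain ⟨n, e, s, D, hTD⟩ := h53_transfer_A_val (A := A) (R := A[X]) (B := B)
    (FractionRing A[X]) (FractionRing B)
  have hTD' : h53_TransferData (FractionRing A[X]) (FractionRing B) (h74_I A) n e s D := hTD
  obtain ⟨hD0, hDed⟩ := hS K A p hp hchar B ρ hρker' hρC hρx n e s D hTD'
  obtain ⟨hbound, hunram⟩ := hGV K A B htf n e s D hTD'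
  show IsDedekindDomain (B ⧸ h74_P A (algebraMap A[X] B))
  refine hDed fun c => ?_
  have hDK0 : D.map A.subtype ≠ 0 :=
    RootRed.map_subtype_ne_zero A (RootRed.ne_zero_of_map_ne_zero A (IsLocalRing.residue A) hD0)
  -- roots of `D` in `A` are branch values
  have hroot : ∀ a : A, (D.map A.subtype).IsRoot (a : K) → a ∈ S := by
    intro a ha
    by_contra haS
    have h1 := hunram a (hunr a haS)
    have h2 : 0 < (D.map A.subtype).rootMultiplicity (a : K) :=
      (Polynomial.rootMultiplicity_pos hDK0).mpr ha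
    omega
  -- the representative `c₀`
  obtain ⟨c₀, hc₀, huniq⟩ : ∃ c₀ : A, c - c₀ ∈ IsLocalRing.maximalIdeal A ∧
      ∀ a : A, (D.map A.subtype).IsRoot (a : K) →
        IsLocalRing.residue A a = IsLocalRing.residue A c₀ → a = c₀ := by
    by_cases hex : ∃ c' ∈ S, c - c' ∈ IsLocalRing.maximalIdeal A
    · obtain ⟨c', hc'S, hc'⟩ := hex
      refine ⟨c', hc', fun a ha hres => ?_⟩
      refine hSinc a (hroot a ha) c' hc'S ?_
      rw [← IsLocalRing.residue_eq_zero_iff, map_sub, hres, sub_self]
    · refine ⟨c, by rw [sub_self]; exact Ideal.zero_mem _, fun a ha hres => ?_⟩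
      exfalso
      refine hex ⟨a, hroot a ha, ?_⟩
      rw [← IsLocalRing.residue_eq_zero_iff, map_sub, hres, sub_self]
  have hres : IsLocalRing.residue A c = IsLocalRing.residue A c₀ := by
    have := (IsLocalRing.residue_eq_zero_iff (c - c₀)).mpr hc₀
    rw [map_sub, sub_eq_zero] at this
    exact this
  have hmult : (D.map (IsLocalRing.residue A)).rootMultiplicity (IsLocalRing.residue A c)
      = (D.map A.subtype).rootMultiplicity (c₀ : K) := by
    rw [hres]
    exact RootRed.rootMultiplicity_map_of_unique A (IsLocalRing.residue A)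
      (h74_residue_eq_zero_iff A) D hD0 c₀ huniq
  have hcnt : h74_cnt A (algebraMap A[X] B) c = h74_cnt A (algebraMap A[X] B) c₀ :=
    h74_cnt_congr A _ hc₀
  rw [hmult, hcnt]
  exact hbound c₀

end Fermat.Agent.Red.SM.Core

end
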