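import Fermat.Agent.Red.SM.InstSkeleton
import Fermat.Agent.S24.DegLe

/-!
# P-RED / R-SM, instantiation: the rows `RowAlg` and `RowXPAlg` (helper4)

`FF M` is algebraic over `Kbar[x]` for each of the base coordinates `x = j`, `1/j`,
`x' = t + t⁻ˡ`.

* `algAt_of_isAlgebraic` : transitivity (`x₁` algebraic over `Kbar[x]`, `FF M` algebraic over
  `Kbar[x₁]`);
* `rowAlg : RowAlg`, `rowXPAlg : RowXPAlg`.
-/

set_option autoImplicit false

open ModularCurve AlgebraicCurve IntermediateField Polynomial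

noncomputable section

namespace Fermat.Agent.Red.SM.Inst

open Fermat.Agent.S37 Fermat.Agent.Red.SM

variable {M : ℕ}

/-- transitivity. -/
theorem algAt_of_isAlgebraic {x x₁ : FF M} (h : AlgAt x₁)
    (hx : IsAlgebraic (Algebra.adjoin Kbar {x}) x₁) : AlgAt x := by
  intro y
  refine IsAlgebraic.adjoin_of_forall_isAlgebraic (R := Kbar) (S := FF M) (A := FF M)
    (s := {x₁}) (t := {x}) ?_ (h y)
  rintro z ⟨hz, -⟩
  rw [Set.mem_singleton_iff] at hz
  rw [hz]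
  exact hx

/-- the generator is algebraic over `Kbar[x]`. -/
theorem isAlgebraic_self (x : FF M) : IsAlgebraic (Algebra.adjoin Kbar {x}) x :=
  isAlgebraic_algebraMap
    (⟨x, Algebra.self_mem_adjoin_singleton Kbar x⟩ : Algebra.adjoin Kbar {x})

/-- constants are algebraic over `Kbar[x]`. -/
theorem isAlgebraic_cst (x : FF M) (c : Kbar) : IsAlgebraic (Algebra.adjoin Kbar {x}) (cst M c) :=
  isAlgebraic_algebraMap
    (⟨cst M c, Subalgebra.algebraMap_mem _ c⟩ : Algebra.adjoin Kbar {x})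

/-- finite-dimensionality over `Kbar(x)` gives `AlgAt x`. -/
theorem algAt_of_finiteDimensional (x : FF M) [FiniteDimensional Kbar⟮x⟯ (FF M)] : AlgAt x := by
  intro y
  have h1 : IsAlgebraic Kbar⟮x⟯ y := Algebra.IsAlgebraic.isAlgebraic y
  open scoped IntermediateField.algebraAdjoinAdjoin in
  exact (IsFractionRing.isAlgebraic_iff (Algebra.adjoin Kbar {x}) Kbar⟮x⟯ (FF M)).mpr h1

theorem algAt_jB (M : ℕ) [NeZero M] : AlgAt (jB M) := by
  haveI : FiniteDimensional Kbar⟮jB M⟯ (FF M) := (Fermat.Agent.S24.finrank_le_index M).1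
  exact algAt_of_finiteDimensional (jB M)

theorem algAt_jB_inv (M : ℕ) [NeZero M] : AlgAt (jB M)⁻¹ := by
  refine algAt_of_isAlgebraic (algAt_jB M) ?_
  have h := (isAlgebraic_self (jB M)⁻¹).inv
  rwa [inv_inv] at h

/-- **ALG.** -/
theorem rowAlg : RowAlg := fun M _ => ⟨algAt_jB M, algAt_jB_inv M⟩

/-! ## The coordinate `x' = t + t⁻ˡ` -/

theorem cst_ne_zero {c : Kbar} (hc : c ≠ 0) : cst M c ≠ 0 := by
  intro h
  apply hc
  have : algebraMap Kbar (FF M) c = algebraMap Kbar (FF M) 0 := by rw [map_zero]; exact h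
  exact (algebraMap Kbar (FF M)).injective this

theorem tRel_ne_zero {ℓ : ℕ} [NeZero M] {t : FF M} (h : TRel ℓ M t) : t ≠ 0 := by
  rintro rfl
  rcases h with ⟨-, h⟩ | ⟨-, h⟩
  · rw [zero_pow (by norm_num), mul_zero, zero_add] at h
    exact pow_ne_zero 3 (cst_ne_zero (M := M) (by norm_num : (256 : Kbar) ≠ 0)) h.symm
  · rw [zero_pow (by norm_num), mul_zero, zero_add, zero_add] at h
    exact mul_ne_zero (cst_ne_zero (M := M) (by norm_num : (27 : Kbar) ≠ 0))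
      (pow_ne_zero 3 (cst_ne_zero (M := M) (by norm_num : (243 : Kbar) ≠ 0))) h.symm

/-- `j` is algebraic over `Kbar[t]`. -/
theorem isAlgebraic_jB_of_tRel {ℓ : ℕ} [NeZero M] {t : FF M} (h : TRel ℓ M t) :
    IsAlgebraic (Algebra.adjoin Kbar {t}) (jB M) := by
  have ht0 := tRel_ne_zero h
  have ht := isAlgebraic_self t
  rcases h with ⟨-, h⟩ | ⟨-, h⟩
  · have hj : jB M = (t + cst M 256) ^ 3 * (t ^ 2)⁻¹ := by
      rw [← h, mul_assoc, mul_inv_cancel₀ (pow_ne_zero 2 ht0), mul_one]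
    rw [hj]
    exact ((ht.add (isAlgebraic_cst t 256)).pow 3).mul (ht.pow 2).inv
  · have hj : jB M = (t + cst M 27) * (t + cst M 243) ^ 3 * (t ^ 3)⁻¹ := by
      rw [← h, mul_assoc, mul_inv_cancel₀ (pow_ne_zero 3 ht0), mul_one]
    rw [hj]
    exact ((ht.add (isAlgebraic_cst t 27)).mul ((ht.add (isAlgebraic_cst t 243)).pow 3)).mul
      (ht.pow 3).inv

/-- `t` is a root of `T^(ℓ+1) - x' T^ℓ + 1`. -/
theorem xp_rel (ℓ : ℕ) {t : FF M} (ht : t ≠ 0) : t ^ (ℓ + 1) - xp ℓ t * t ^ ℓ + 1 = 0 := by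
  unfold xp
  have h1 : t⁻¹ ^ ℓ * t ^ ℓ = 1 := by
    rw [← mul_pow, inv_mul_cancel₀ ht, one_pow]
  rw [add_mul, h1, pow_succ]
  ring

/-- `t` is integral over `Kbar[x']`. -/
theorem isIntegral_t_xp (ℓ : ℕ) {t : FF M} (ht : t ≠ 0) :
    IsIntegral (Algebra.adjoin Kbar {xp ℓ t}) t := by
  set R := Algebra.adjoin Kbar {xp ℓ t}
  set x' : R := ⟨xp ℓ t, Algebra.self_mem_adjoin_singleton Kbar _⟩ with hx'
  have hdeg : (C x' * X ^ ℓ - 1 : R[X]).degree < ((ℓ + 1 : ℕ) : WithBot ℕ) := by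
    refine lt_of_le_of_lt (degree_sub_le _ _) ?_
    rw [max_lt_iff]
    constructor
    · refine lt_of_le_of_lt (degree_C_mul_X_pow_le ℓ x') ?_
      exact_mod_cast Nat.lt_succ_self ℓ
    · rw [degree_one]
      exact_mod_cast Nat.succ_pos ℓ
  have hmonic : (X ^ (ℓ + 1) - (C x' * X ^ ℓ - 1) : R[X]).Monic := monic_X_pow_sub hdeg
  refine ⟨_, hmonic, ?_⟩
  have hx : algebraMap R (FF M) x' = xp ℓ t := rfl
  simp only [eval₂_sub, eval₂_mul, eval₂_pow, eval₂_X, eval₂_C, eval₂_one]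
  have h := xp_rel ℓ ht
  rw [← h]
  change _ - (algebraMap R (FF M) x' * _ - 1) = _
  rw [hx]
  ring

theorem algAt_xp_of_tRel {ℓ : ℕ} [NeZero M] {t : FF M} (h : TRel ℓ M t) : AlgAt (xp ℓ t) := by
  have h1 : AlgAt t := algAt_of_isAlgebraic (algAt_jB M) (isAlgebraic_jB_of_tRel h)
  have hdom : Nontrivial (Algebra.adjoin Kbar {xp ℓ t}) := inferInstance
  exact algAt_of_isAlgebraic h1 (isIntegral_t_xp ℓ (tRel_ne_zero h)).isAlgebraic

/-- **SM-XP (alg).** -/
theorem rowXPAlg : RowXPAlg := fun _ _ _ _ ht => algAt_xp_of_tRel ht.rel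

end Fermat.Agent.Red.SM.Inst
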