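import Fermat.Agent.Red.SM.Ram
import Fermat.Agent.Red.SM.InstSkeleton

/-!
# P-RED, R-SM (task SM-RAM): the branch rows of `InstSkeleton`

* `rowBranchInf : RowBranchInf`   (`x = 1/j`, every `ℓ`),
* `rowBranchFin : RowBranchFin`   (`x = j`, `ℓ ≥ 5`),
* `rowXPBranch : RowXPBranch`     (`x = t + t⁻ˡ`, `ℓ = 2, 3`),
* `h31_rowAlg : RowAlg`, `h31_rowXPAlg : RowXPAlg` (algebraicity).
-/

set_option autoImplicit false

open ModularCurve AlgebraicCurve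

noncomputable section

namespace Fermat.Agent.Red.SM.Inst

open Fermat.Agent.S37 Fermat.Agent.Red.SM

/-- **SM-RAM (b)**. -/
theorem rowBranchInf : RowBranchInf := by
  intro ℓ hℓ M _ _ haux A hA
  obtain ⟨h2, h3⟩ := nu_eq_zero_of_auxLevel_dvd haux
  exact exists_coreBranch_jinv M A h2 h3 hℓ hA

/-- **SM-RAM (a)**. -/
theorem rowBranchFin : RowBranchFin := by
  intro ℓ hℓ h5 M _ _ haux A hA
  obtain ⟨h2, h3⟩ := nu_eq_zero_of_auxLevel_dvd haux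
  exact ⟨_, coreBranch_j M A h2 h3 hℓ hA (by omega) (by omega)⟩

/-- the identity `x' t^ℓ = t^(ℓ+1) + 1` for `x' = t + t⁻ˡ`. -/
theorem h31_xp_rel (ℓ : ℕ) {M : ℕ} (t : FF M) (ht : t ≠ 0) :
    xp ℓ t * t ^ ℓ = t ^ (ℓ + 1) + 1 := by
  unfold xp
  rw [add_mul, ← mul_pow, inv_mul_cancel₀ ht, one_pow, pow_succ']

/-- **SM-RAM (c), (d)**. -/
theorem rowXPBranch : RowXPBranch := by
  intro ℓ _ M _ _ haux A hA t ht
  obtain ⟨h2, h3⟩ := nu_eq_zero_of_auxLevel_dvd haux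
  rcases ht.rel with ⟨rfl, hrel⟩ | ⟨rfl, hrel⟩
  · have ht0 := h31_t2_ne_zero M t hrel
    exact ⟨_, coreBranch_xp_t2 M A h2 h3 hA t (xp 3 t) hrel (h31_xp_rel 3 t ht0)⟩
  · have ht0 := h31_t3_ne_zero M t hrel
    exact ⟨_, coreBranch_xp_t3 M A h2 h3 hA t (xp 2 t) hrel (h31_xp_rel 2 t ht0)⟩

/-- **ALG**. -/
theorem h31_rowAlg : RowAlg := fun M _ => ⟨halg_j M, halg_jinv M⟩

/-- **SM-XP (alg)**. -/
theorem h31_rowXPAlg : RowXPAlg := by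
  intro ℓ M _ t ht
  rcases ht.rel with ⟨rfl, hrel⟩ | ⟨rfl, hrel⟩
  · exact halg_xp M 2 t (xp 3 t) (transcendental_t2 M t hrel)
      (h31_xp_rel 3 t (h31_t2_ne_zero M t hrel))
  · exact halg_xp M 1 t (xp 2 t) (transcendental_t3 M t hrel)
      (h31_xp_rel 2 t (h31_t3_ne_zero M t hrel))

end Fermat.Agent.Red.SM.Inst
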