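import Fermat.Agent.Red.SM.UnramT
import Fermat.Agent.Red.SM.XPrimeAbs

/-!
# P-RED, R-SM (task SM-XP): the base coordinate `x' = t + t^(-ℓ)` of the finite chart

`t = t₂` (`ℓ = 3`, `j t² = (t + 256)³`) resp. `t = t₃` (`ℓ = 2`, `j t³ = (t + 27)(t + 243)³`);
the identities are hypotheses.  `A` is a valuation subring of `ℚ̄` over `ℓ`.

* (i) `h8xp_t2_mem_modelFin`, `h8xp_t2_inv_mem_modelFin`, `h8xp_t3_mem_modelFin`,
  `h8xp_t3_inv_mem_modelFin` : `t`, `t⁻¹ ∈ modelFin M A`.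
* (ii) `h8xp_modelAt_xp_t2`, `h8xp_modelAt_xp_t3` : `modelAt M A x' = modelFin M A`;
  `h8xp_transcendental_xp` : `x'` is transcendental over `ℚ̄`.
* (iii) `h8xp_center` : at a place `v` over `x' = c`, `c ∈ A`, `t` takes a value `a ∈ Aˣ` with
  `a^(ℓ+1) - c a^ℓ + 1 = 0`, and `ord_v (x' - c) = ord_v (t - a)`;
  `h8xp_ord_t2`, `h8xp_ord_t3` : `ord_v (x' - c) = 1` unless `c = c_br`.
* (iv) `h8xp_fin_t2`, `h8xp_fin_t3` : finiteness of `modelFin` over `A[j]` implies finiteness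
  over `A[x']`.
-/

set_option autoImplicit false

open ModularCurve AlgebraicCurve Polynomial

noncomputable section

namespace Fermat.Agent.Red.SM.XP

open Fermat.Agent.S37 Fermat.Agent.Red.SM

/-- the base coordinate `x' = t + t^(-ℓ)`. -/
def h8xp_xp {M : ℕ} (t : FF M) (ℓ : ℕ) : FF M := t + (t⁻¹) ^ ℓ

section Charts

variable (M : ℕ) (A : ValuationSubring Kbar)

theorem h8xp_modelAt_eq_ic (x : FF M) : modelAt M A x = h8xp_ic (ringAdj M A x) := rfl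

theorem h8xp_cst_mem_ringAdj (x : FF M) {a : Kbar} (ha : a ∈ A) : cst M a ∈ ringAdj M A x :=
  Subring.subset_closure (Or.inl ⟨a, ha, rfl⟩)

theorem h8xp_ringAdj_le_modelAt (x : FF M) : ringAdj M A x ≤ modelAt M A x :=
  h8xp_le_ic _

theorem h8xp_cst_mem_modelAt (x : FF M) {a : Kbar} (ha : a ∈ A) : cst M a ∈ modelAt M A x :=
  h8xp_ringAdj_le_modelAt M A x (h8xp_cst_mem_ringAdj M A x ha)

theorem h8xp_self_mem_modelAt (x : FF M) : x ∈ modelAt M A x :=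
  h8xp_ringAdj_le_modelAt M A x (Subring.subset_closure (Or.inr rfl))

/-- `modelAt x ≤ modelAt y` as soon as `x ∈ modelAt y`. -/
theorem h8xp_modelAt_le {x y : FF M} (h : x ∈ modelAt M A y) : modelAt M A x ≤ modelAt M A y :=
  h8xp_ic_closure_le _ h

theorem h8xp_modelAt_eq_of_mem {x y : FF M} (hx : x ∈ modelAt M A y) (hy : y ∈ modelAt M A x) :
    modelAt M A x = modelAt M A y :=
  le_antisymm (h8xp_modelAt_le M A hx) (h8xp_modelAt_le M A hy)

end Charts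

/-! ### Units of `A` -/

section Units

variable {K : Type*} [Field K] (A : ValuationSubring K)

/-- a natural number prime to the residue characteristic is a unit of `A`. -/
theorem h8xp_inv_natCast_mem {ℓ n : ℕ} (hA : (ℓ : K) ∈ A.nonunits) (hn : Nat.Coprime n ℓ) :
    ((n : K))⁻¹ ∈ A := by
  obtain ⟨u, w, huw⟩ := (Nat.isCoprime_iff_coprime.2 hn)
  have h1 : (u : K) * (n : K) + (w : K) * (ℓ : K) = 1 := by exact_mod_cast congrArg (Int.cast : ℤ → K) huw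
  have hu : A.valuation (u : K) ≤ 1 := (A.valuation_le_one_iff _).2 (intCast_mem A u)
  have hw : A.valuation (w : K) ≤ 1 := (A.valuation_le_one_iff _).2 (intCast_mem A w)
  have hn1 : A.valuation (n : K) ≤ 1 := (A.valuation_le_one_iff _).2 (natCast_mem A n)
  have hℓ : A.valuation (ℓ : K) < 1 := (ValuationSubring.mem_nonunits_iff A).1 hA
  have hn2 : A.valuation (n : K) = 1 := by
    refine le_antisymm hn1 (not_lt.1 fun hlt => ?_)
    have h2 : A.valuation ((u : K) * (n : K) + (w : K) * (ℓ : K)) < 1 := by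
      refine lt_of_le_of_lt (Valuation.map_add _ _ _) (max_lt ?_ ?_)
      · rw [map_mul]
        exact lt_of_le_of_lt (mul_le_of_le_one_left' hu) hlt
      · rw [map_mul]
        exact lt_of_le_of_lt (mul_le_of_le_one_left' hw) hℓ
    rw [h1, map_one] at h2
    exact lt_irrefl _ h2
  rw [← A.valuation_le_one_iff, map_inv₀, hn2, inv_one]

end Units

/-! ### (i) `t` and `t⁻¹` are in `modelFin` -/

section Integral

variable (M : ℕ) [NeZero M] (A : ValuationSubring Kbar) (t : FF M)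

theorem h8xp_jB_mem_modelFin : jB M ∈ modelFin M A := h8xp_self_mem_modelAt M A (jB M)

theorem h8xp_ofNat_mem (n : ℕ) [n.AtLeastTwo] : (OfNat.ofNat n : Kbar) ∈ A := by
  rw [← Nat.cast_ofNat (R := Kbar)]
  exact natCast_mem A n

theorem h8xp_t2_ne_zero (ht : jB M * t ^ 2 = (t + cst M 256) ^ 3) : t ≠ 0 :=
  h31_t2_ne_zero M t ht

theorem h8xp_t3_ne_zero (ht : jB M * t ^ 3 = (t + cst M 27) * (t + cst M 243) ^ 3) : t ≠ 0 :=
  h31_t3_ne_zero M t ht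

/-- `t₂` in any chart containing `j`. -/
theorem h8xp_t2_mem_modelAt (x : FF M) (hj : jB M ∈ modelAt M A x)
    (ht : jB M * t ^ 2 = (t + cst M 256) ^ 3) : t ∈ modelAt M A x :=
  h8xp_t2_mem (ringAdj M A x) hj (h8xp_cst_mem_modelAt M A x (h8xp_ofNat_mem A 256)) ht

/-- `t₂⁻¹` in any chart containing `j`, `ℓ = 3`. -/
theorem h8xp_t2_inv_mem_modelAt (hA : A.LiesOverPrime 3) (x : FF M)
    (hj : jB M ∈ modelAt M A x) (ht : jB M * t ^ 2 = (t + cst M 256) ^ 3) :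
    t⁻¹ ∈ modelAt M A x := by
  have h1 : ((256 : ℕ) : Kbar)⁻¹ ∈ A := h8xp_inv_natCast_mem A hA (by norm_num)
  have h2 : (256 : Kbar)⁻¹ ∈ A := by simpa using h1
  refine h8xp_t2_inv_mem (ringAdj M A x) (c := cst M 256) (u := cst M (256 : Kbar)⁻¹) hj
    (h8xp_cst_mem_modelAt M A x h2) ?_ (h8xp_t2_ne_zero M t ht) ht
  rw [← map_mul, mul_inv_cancel₀ (by norm_num), map_one]

/-- (i), `ℓ = 3`. -/
theorem h8xp_t2_mem_modelFin (ht : jB M * t ^ 2 = (t + cst M 256) ^ 3) : t ∈ modelFin M A :=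
  h8xp_t2_mem_modelAt M A t (jB M) (h8xp_jB_mem_modelFin M A) ht

/-- (i), `ℓ = 3`. -/
theorem h8xp_t2_inv_mem_modelFin (hA : A.LiesOverPrime 3)
    (ht : jB M * t ^ 2 = (t + cst M 256) ^ 3) : t⁻¹ ∈ modelFin M A :=
  h8xp_t2_inv_mem_modelAt M A t hA (jB M) (h8xp_jB_mem_modelFin M A) ht

/-- `t₃` in any chart containing `j`. -/
theorem h8xp_t3_mem_modelAt (x : FF M) (hj : jB M ∈ modelAt M A x)
    (ht : jB M * t ^ 3 = (t + cst M 27) * (t + cst M 243) ^ 3) : t ∈ modelAt M A x :=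
  h8xp_t3_mem (ringAdj M A x) hj (h8xp_cst_mem_modelAt M A x (h8xp_ofNat_mem A 27))
    (h8xp_cst_mem_modelAt M A x (h8xp_ofNat_mem A 243)) ht

/-- `t₃⁻¹` in any chart containing `j`, `ℓ = 2`. -/
theorem h8xp_t3_inv_mem_modelAt (hA : A.LiesOverPrime 2) (x : FF M)
    (hj : jB M ∈ modelAt M A x)
    (ht : jB M * t ^ 3 = (t + cst M 27) * (t + cst M 243) ^ 3) : t⁻¹ ∈ modelAt M A x := by
  have h1 : ((27 : ℕ) : Kbar)⁻¹ ∈ A := h8xp_inv_natCast_mem A hA (by norm_num)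
  have h2 : (27 : Kbar)⁻¹ ∈ A := by simpa using h1
  have h3 : ((243 : ℕ) : Kbar)⁻¹ ∈ A := h8xp_inv_natCast_mem A hA (by norm_num)
  have h4 : (243 : Kbar)⁻¹ ∈ A := by simpa using h3
  refine h8xp_t3_inv_mem (ringAdj M A x) (a := cst M 27) (b := cst M 243)
    (u := cst M (27 : Kbar)⁻¹) (w := cst M (243 : Kbar)⁻¹) hj
    (h8xp_cst_mem_modelAt M A x h2) (h8xp_cst_mem_modelAt M A x h4) ?_ ?_
    (h8xp_t3_ne_zero M t ht) ht
  · rw [← map_mul, mul_inv_cancel₀ (by norm_num), map_one]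
  · rw [← map_mul, mul_inv_cancel₀ (by norm_num), map_one]

/-- (i), `ℓ = 2`. -/
theorem h8xp_t3_mem_modelFin (ht : jB M * t ^ 3 = (t + cst M 27) * (t + cst M 243) ^ 3) :
    t ∈ modelFin M A :=
  h8xp_t3_mem_modelAt M A t (jB M) (h8xp_jB_mem_modelFin M A) ht

/-- (i), `ℓ = 2`. -/
theorem h8xp_t3_inv_mem_modelFin (hA : A.LiesOverPrime 2)
    (ht : jB M * t ^ 3 = (t + cst M 27) * (t + cst M 243) ^ 3) : t⁻¹ ∈ modelFin M A :=
  h8xp_t3_inv_mem_modelAt M A t hA (jB M) (h8xp_jB_mem_modelFin M A) ht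

/-! ### (ii) `modelAt x' = modelFin` -/

omit [NeZero M] in
/-- `t ∈ modelAt x'`. -/
theorem h8xp_t_mem_modelAt_xp (ht0 : t ≠ 0) (ℓ : ℕ) : t ∈ modelAt M A (h8xp_xp t ℓ) :=
  h8xp_t_mem_of_xp (ringAdj M A (h8xp_xp t ℓ)) ht0 ℓ (h8xp_self_mem_modelAt M A (h8xp_xp t ℓ))

omit [NeZero M] in
/-- `t⁻¹ ∈ modelAt x'`. -/
theorem h8xp_inv_mem_modelAt_xp (ht0 : t ≠ 0) (ℓ : ℕ) (hℓ : 0 < ℓ) :
    t⁻¹ ∈ modelAt M A (h8xp_xp t ℓ) :=
  h8xp_inv_mem_of_xp (ringAdj M A (h8xp_xp t ℓ)) ht0 ℓ hℓ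
    (h8xp_self_mem_modelAt M A (h8xp_xp t ℓ))

/-- `j ∈ modelAt x'`, `ℓ = 3`. -/
theorem h8xp_jB_mem_modelAt_xp_t2 (ht : jB M * t ^ 2 = (t + cst M 256) ^ 3) (ℓ : ℕ)
    (hℓ : 0 < ℓ) : jB M ∈ modelAt M A (h8xp_xp t ℓ) := by
  have ht0 := h8xp_t2_ne_zero M t ht
  have hj : jB M = (t + cst M 256) ^ 3 * (t⁻¹) ^ 2 := by
    rw [← ht, mul_assoc, ← mul_pow, mul_inv_cancel₀ ht0, one_pow, mul_one]
  rw [hj]
  exact mul_mem (pow_mem (add_mem (h8xp_t_mem_modelAt_xp M A t ht0 ℓ)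
    (h8xp_cst_mem_modelAt M A _ (h8xp_ofNat_mem A 256))) 3)
    (pow_mem (h8xp_inv_mem_modelAt_xp M A t ht0 ℓ hℓ) 2)

/-- `j ∈ modelAt x'`, `ℓ = 2`. -/
theorem h8xp_jB_mem_modelAt_xp_t3
    (ht : jB M * t ^ 3 = (t + cst M 27) * (t + cst M 243) ^ 3) (ℓ : ℕ) (hℓ : 0 < ℓ) :
    jB M ∈ modelAt M A (h8xp_xp t ℓ) := by
  have ht0 := h8xp_t3_ne_zero M t ht
  have hj : jB M = (t + cst M 27) * (t + cst M 243) ^ 3 * (t⁻¹) ^ 3 := by
    rw [← ht, mul_assoc, ← mul_pow, mul_inv_cancel₀ ht0, one_pow, mul_one]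
  rw [hj]
  exact mul_mem (mul_mem (add_mem (h8xp_t_mem_modelAt_xp M A t ht0 ℓ)
    (h8xp_cst_mem_modelAt M A _ (h8xp_ofNat_mem A 27)))
    (pow_mem (add_mem (h8xp_t_mem_modelAt_xp M A t ht0 ℓ)
    (h8xp_cst_mem_modelAt M A _ (h8xp_ofNat_mem A 243))) 3))
    (pow_mem (h8xp_inv_mem_modelAt_xp M A t ht0 ℓ hℓ) 3)

/-- `x' ∈ modelFin`, `ℓ = 3`. -/
theorem h8xp_xp_mem_modelFin_t2 (hA : A.LiesOverPrime 3)
    (ht : jB M * t ^ 2 = (t + cst M 256) ^ 3) (n : ℕ) : h8xp_xp t n ∈ modelFin M A :=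
  add_mem (h8xp_t2_mem_modelFin M A t ht) (pow_mem (h8xp_t2_inv_mem_modelFin M A t hA ht) n)

/-- `x' ∈ modelFin`, `ℓ = 2`. -/
theorem h8xp_xp_mem_modelFin_t3 (hA : A.LiesOverPrime 2)
    (ht : jB M * t ^ 3 = (t + cst M 27) * (t + cst M 243) ^ 3) (n : ℕ) :
    h8xp_xp t n ∈ modelFin M A :=
  add_mem (h8xp_t3_mem_modelFin M A t ht) (pow_mem (h8xp_t3_inv_mem_modelFin M A t hA ht) n)

/-- **(ii), `ℓ = 3`.**  `modelFin` is the integral closure of `A[x']`, `x' = t₂ + t₂⁻³`. -/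
theorem h8xp_modelAt_xp_t2 (hA : A.LiesOverPrime 3)
    (ht : jB M * t ^ 2 = (t + cst M 256) ^ 3) :
    modelAt M A (h8xp_xp t 3) = modelFin M A :=
  h8xp_modelAt_eq_of_mem M A (h8xp_xp_mem_modelFin_t2 M A t hA ht 3)
    (h8xp_jB_mem_modelAt_xp_t2 M A t ht 3 (by norm_num))

/-- **(ii), `ℓ = 2`.**  `modelFin` is the integral closure of `A[x']`, `x' = t₃ + t₃⁻²`. -/
theorem h8xp_modelAt_xp_t3 (hA : A.LiesOverPrime 2)
    (ht : jB M * t ^ 3 = (t + cst M 27) * (t + cst M 243) ^ 3) :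
    modelAt M A (h8xp_xp t 2) = modelFin M A :=
  h8xp_modelAt_eq_of_mem M A (h8xp_xp_mem_modelFin_t3 M A t hA ht 2)
    (h8xp_jB_mem_modelAt_xp_t3 M A t ht 2 (by norm_num))

end Integral

/-! ### (ii) `x'` is transcendental -/

section Transc

variable {M : ℕ} (t : FF M)

theorem h8xp_xp_mul_pow (ht0 : t ≠ 0) (ℓ : ℕ) : h8xp_xp t ℓ * t ^ ℓ = t ^ (ℓ + 1) + 1 := by
  have h := h8xp_rel ht0 ℓ
  unfold h8xp_xp
  linear_combination (-1 : FF M) * h

set_option synthInstance.maxHeartbeats 400000 in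
/-- `x' = t + t^(-ℓ)` is transcendental over `ℚ̄` when `t` is. -/
theorem h8xp_transcendental_xp (htr : Transcendental Kbar t) (ℓ : ℕ) :
    Transcendental Kbar (h8xp_xp t ℓ) := by
  intro halg
  have ht0 : t ≠ 0 := fun h => htr (h ▸ isAlgebraic_zero)
  have h1 : IsIntegral Kbar (h8xp_xp t ℓ) := halg.isIntegral
  obtain ⟨c, hc⟩ := minpoly.mem_range_of_degree_eq_one Kbar (h8xp_xp t ℓ)
    (IsAlgClosed.degree_eq_one_of_irreducible Kbar (minpoly.irreducible h1))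
  have h2 := h8xp_xp_mul_pow t ht0 ℓ
  rw [← hc] at h2
  apply htr
  refine ⟨X ^ (ℓ + 1) + 1 - C c * X ^ ℓ, ?_, ?_⟩
  · intro h0
    have h3 := congrArg (fun p : Kbar[X] => p.coeff (ℓ + 1)) h0
    simp only [coeff_sub, coeff_add, coeff_X_pow, coeff_one, coeff_C_mul, coeff_zero] at h3
    simp at h3
  · simp only [map_sub, map_add, map_pow, aeval_X, map_one, map_mul, aeval_C]
    rw [← h2]
    ring

end Transc

/-! ### (iii) the fibre of `t ↦ x'` over `c ∈ A` -/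

section Fibre

variable (M : ℕ) [NeZero M] (A : ValuationSubring Kbar) (t : FF M)

omit [NeZero M] in
/-- at a place where `x'` is regular, `t` is a unit. -/
theorem h8xp_adic_t_eq_one (ht0 : t ≠ 0) (ℓ : ℕ) (hℓ : 0 < ℓ) (v : Place Kbar (FF M))
    (hx : v.adicValuation (h8xp_xp t ℓ) ≤ 1) : v.adicValuation t = 1 := by
  have hne : v.adicValuation t ≠ 0 := (Valuation.ne_zero_iff _).2 ht0
  have hpos : 0 < v.adicValuation t := zero_lt_iff.2 hne
  rcases lt_trichotomy (v.adicValuation t) 1 with h | h | h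
  · exfalso
    have h1 : 1 < v.adicValuation (t⁻¹) := by
      rw [map_inv₀]
      exact (one_lt_inv₀ hpos).2 h
    have h2 : 1 < v.adicValuation ((t⁻¹) ^ ℓ) := by
      rw [map_pow]
      exact one_lt_pow' h1 hℓ.ne'
    have h3 : v.adicValuation (h8xp_xp t ℓ) = v.adicValuation ((t⁻¹) ^ ℓ) :=
      Valuation.map_add_eq_of_lt_right _ (h.trans h2)
    rw [h3] at hx
    exact absurd hx (not_le.2 h2)
  · exact h
  · exfalso
    have h1 : v.adicValuation (t⁻¹) < 1 := by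
      rw [map_inv₀]
      exact inv_lt_one_of_one_lt₀ h
    have h2 : v.adicValuation ((t⁻¹) ^ ℓ) < 1 := by
      rw [map_pow]
      exact pow_lt_one' h1 hℓ.ne'
    have h3 : v.adicValuation (h8xp_xp t ℓ) = v.adicValuation t :=
      Valuation.map_add_eq_of_lt_left _ (h2.trans h)
    rw [h3] at hx
    exact absurd hx (not_le.2 h)

set_option synthInstance.maxHeartbeats 400000 in
/-- **(iii)**  Let `c ∈ A` and `v` a place over `x' = c`.  Then `t` takes at `v` a value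
`a ∈ Aˣ`, root of `T^(ℓ+1) - c T^ℓ + 1`, and `t ↦ x'` is unramified at `v`:
`ord_v (x' - c) = ord_v (t - a)`. -/
theorem h8xp_center (ℓ : ℕ) (hℓ : 0 < ℓ) (hA : A.LiesOverPrime ℓ)
    (htr : Transcendental Kbar t) (v : Place Kbar (FF M)) (c : Kbar) (hc : c ∈ A)
    (hv : 0 < v.ord (h8xp_xp t ℓ - cst M c)) :
    ∃ a : Kbar, a ≠ 0 ∧ a ∈ A ∧ a⁻¹ ∈ A ∧ a ^ (ℓ + 1) - c * a ^ ℓ + 1 = 0 ∧
      0 < v.ord (t - cst M a) ∧ v.ord (h8xp_xp t ℓ - cst M c) = v.ord (t - cst M a) := by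
  have ht0 : t ≠ 0 := fun h => htr (h ▸ isAlgebraic_zero)
  have hx1 : v.adicValuation (h8xp_xp t ℓ) ≤ 1 := h31_adic_le_one_of_center v _ c hv
  have ht1 : v.adicValuation t = 1 := h8xp_adic_t_eq_one M t ht0 ℓ hℓ v hx1
  have hord0 : v.ord t = 0 := (h31_ord_eq_zero_of_adic v ht1).2
  have := (Fermat.Agent.S24.finrank_le_index M).1
  obtain ⟨a, ha⟩ := Fermat.Agent.S24.DiffPlace.exists_ord_sub_const_pos (Fermat.Agent.S24.jBar M)
    (Algebra.IsAlgebraic.of_finite _ _) v htr (le_of_eq hord0.symm)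
  have ha0 : a ≠ 0 := by
    rintro rfl
    rw [map_zero, sub_zero] at ha
    omega
  have hcst : ∀ y : Kbar, cst M y = algebraMap Kbar (FF M) y := fun _ => rfl
  -- the value of `x' t^ℓ = t^(ℓ+1) + 1` at `v`
  have hrel := h8xp_xp_mul_pow t ht0 ℓ
  have hE1 : v.adicValuation ((h8xp_xp t ℓ - cst M c) * t ^ ℓ) < 1 := by
    rw [map_mul, map_pow, ht1, one_pow, mul_one]
    exact Fermat.Agent.S24.asm_adicValuation_lt_one_of_ord_pos v hv
  have hE2 : v.adicValuation (cst M c * (t ^ ℓ - cst M (a ^ ℓ))) < 1 := by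
    rw [map_mul]
    have h1 := h31_adic_aeval_sub_lt v t a ha (X ^ ℓ : Kbar[X])
    simp only [map_pow, aeval_X, eval_pow, eval_X] at h1
    have h2 : v.adicValuation (t ^ ℓ - cst M (a ^ ℓ)) < 1 := by
      rw [hcst, (algebraMap Kbar (FF M)).map_pow]
      exact h1
    exact lt_of_le_of_lt (mul_le_of_le_one_left' (v.adicValuation_algebraMap_le_one c)) h2
  have hE3 : v.adicValuation (t ^ (ℓ + 1) + 1 - cst M (a ^ (ℓ + 1) + 1)) < 1 := by
    have h1 := h31_adic_aeval_sub_lt v t a ha (X ^ (ℓ + 1) + 1 : Kbar[X])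
    simp only [map_pow, aeval_X, eval_pow, eval_X, map_add, map_one, eval_add, eval_one] at h1
    rw [hcst, (algebraMap Kbar (FF M)).map_add, (algebraMap Kbar (FF M)).map_pow,
      (algebraMap Kbar (FF M)).map_one]
    exact h1
  have hconst : cst M (c * a ^ ℓ - (a ^ (ℓ + 1) + 1)) =
      (t ^ (ℓ + 1) + 1 - cst M (a ^ (ℓ + 1) + 1)) -
        ((h8xp_xp t ℓ - cst M c) * t ^ ℓ + cst M c * (t ^ ℓ - cst M (a ^ ℓ))) := by
    simp only [hcst]
    rw [(algebraMap Kbar (FF M)).map_sub, (algebraMap Kbar (FF M)).map_mul,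
      (algebraMap Kbar (FF M)).map_add, (algebraMap Kbar (FF M)).map_pow,
      (algebraMap Kbar (FF M)).map_pow, (algebraMap Kbar (FF M)).map_one]
    linear_combination hrel
  have hlt : v.adicValuation (cst M (c * a ^ ℓ - (a ^ (ℓ + 1) + 1))) < 1 := by
    rw [hconst]
    refine lt_of_le_of_lt (Valuation.map_sub _ _ _) (max_lt hE3 ?_)
    exact lt_of_le_of_lt (Valuation.map_add _ _ _) (max_lt hE1 hE2)
  have heq : c * a ^ ℓ - (a ^ (ℓ + 1) + 1) = 0 := by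
    by_contra hne
    rw [Fermat.Agent.S24.asm_adicValuation_algebraMap v hne] at hlt
    exact lt_irrefl _ hlt
  have hroot : a ^ (ℓ + 1) - c * a ^ ℓ + 1 = 0 := by linear_combination (-1 : Kbar) * heq
  obtain ⟨-, haA, haA'⟩ := h8xp_unit_of_root A ℓ hℓ hc hroot
  refine ⟨a, ha0, haA, haA', hroot, ha, ?_⟩
  have hPQ : h8xp_xp t ℓ * aeval t (X ^ ℓ : Kbar[X]) = aeval t (X ^ (ℓ + 1) + 1 : Kbar[X]) := by
    simpa using hrel
  have hQ : (X ^ ℓ : Kbar[X]).eval a ≠ 0 := by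
    simpa using pow_ne_zero ℓ ha0
  have hW := h8xp_wronskian_ne_zero A ℓ hℓ hA haA haA' ha0
  have h := h31_ord_tower_simple v t (h8xp_xp t ℓ) (X ^ (ℓ + 1) + 1) (X ^ ℓ) hPQ a ha hQ hW
  have hval : (X ^ (ℓ + 1) + 1 : Kbar[X]).eval a / (X ^ ℓ : Kbar[X]).eval a = c := by
    simp only [eval_add, eval_pow, eval_X, eval_one]
    rw [div_eq_iff (pow_ne_zero ℓ ha0)]
    linear_combination (-1 : Kbar) * heq
  rw [hval] at h
  exact h

end Fibre

/-! ### Branch values -/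

section Branch

variable (M : ℕ) [NeZero M] (A : ValuationSubring Kbar) (t : FF M)

/-- the branch value `c_br = x'(-64)` of `x' = t₂ + t₂⁻³`. -/
def h8xp_cbr2 : Kbar := -64 + ((-64 : Kbar)⁻¹) ^ 3

/-- the branch value `c_br = x'(-27)` of `x' = t₃ + t₃⁻²`. -/
def h8xp_cbr3 : Kbar := -27 + ((-27 : Kbar)⁻¹) ^ 2

theorem h8xp_cbr2_mem (hA : A.LiesOverPrime 3) : h8xp_cbr2 ∈ A := by
  have h1 : ((64 : ℕ) : Kbar)⁻¹ ∈ A := h8xp_inv_natCast_mem A hA (by norm_num)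
  have h2 : (-64 : Kbar)⁻¹ ∈ A := by
    have : (-64 : Kbar)⁻¹ = -(((64 : ℕ) : Kbar)⁻¹) := by
      rw [inv_neg]
      norm_num
    rw [this]
    exact neg_mem h1
  exact add_mem (neg_mem (h8xp_ofNat_mem A 64)) (pow_mem h2 3)

theorem h8xp_cbr3_mem (hA : A.LiesOverPrime 2) : h8xp_cbr3 ∈ A := by
  have h1 : ((27 : ℕ) : Kbar)⁻¹ ∈ A := h8xp_inv_natCast_mem A hA (by norm_num)
  have h2 : (-27 : Kbar)⁻¹ ∈ A := by
    have : (-27 : Kbar)⁻¹ = -(((27 : ℕ) : Kbar)⁻¹) := by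
      rw [inv_neg]
      norm_num
    rw [this]
    exact neg_mem h1
  exact add_mem (neg_mem (h8xp_ofNat_mem A 27)) (pow_mem h2 2)

/-- a root `a ≠ 0` of `T^(ℓ+1) - c T^ℓ + 1` determines `c = a + a^(-ℓ)`. -/
theorem h8xp_c_eq_of_root {ℓ : ℕ} {a c : Kbar} (ha0 : a ≠ 0)
    (h : a ^ (ℓ + 1) - c * a ^ ℓ + 1 = 0) : c = a + (a⁻¹) ^ ℓ := by
  have h1 : (a⁻¹) ^ ℓ * a ^ ℓ = 1 := by
    rw [← mul_pow, inv_mul_cancel₀ ha0, one_pow]
  have h2 : a ^ (ℓ + 1) = a * a ^ ℓ := by ring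
  rw [h2] at h
  linear_combination (-(a⁻¹) ^ ℓ) * h + (a - c) * h1

/-- **(iii), `ℓ = 3`.**  Ramification of `F_M` over the `x'`-line, `x' = t₂ + t₂⁻³`, over the
points `c ∈ A`: the ramification index is `1`, except over `c_br`, where it is at most `2`. -/
theorem h8xp_ord_t2 (hA : A.LiesOverPrime 3) (h2 : nuTwo M = 0) (h3 : nuThree M = 0)
    (ht : jB M * t ^ 2 = (t + cst M 256) ^ 3) (v : Place Kbar (FF M)) (c : Kbar) (hc : c ∈ A)
    (hv : 0 < v.ord (h8xp_xp t 3 - cst M c)) :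
    (c ≠ h8xp_cbr2 → v.ord (h8xp_xp t 3 - cst M c) = 1) ∧
      (v.ord (h8xp_xp t 3 - cst M c) = 1 ∨ v.ord (h8xp_xp t 3 - cst M c) = 2) := by
  obtain ⟨a, ha0, -, -, hroot, hpos, hord⟩ := h8xp_center M A t 3 (by norm_num) hA
    (transcendental_t2 M t ht) v c hc hv
  have h := ord_t2_sub_eq M t h2 h3 ht v a ha0 hpos
  rw [hord]
  have hc' := h8xp_c_eq_of_root ha0 hroot
  constructor
  · intro hne
    have ha : a ≠ -64 := by
      rintro rfl
      exact hne hc'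
    rw [h, if_neg ha]
  · by_cases ha : a = -64
    · right
      rw [h, if_pos ha]
    · left
      rw [h, if_neg ha]

/-- **(iii), `ℓ = 2`.**  Ramification of `F_M` over the `x'`-line, `x' = t₃ + t₃⁻²`, over the
points `c ∈ A`: the ramification index is `1`, except over `c_br`, where it is at most `3`. -/
theorem h8xp_ord_t3 (hA : A.LiesOverPrime 2) (h2 : nuTwo M = 0) (h3 : nuThree M = 0)
    (ht : jB M * t ^ 3 = (t + cst M 27) * (t + cst M 243) ^ 3) (v : Place Kbar (FF M))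
    (c : Kbar) (hc : c ∈ A) (hv : 0 < v.ord (h8xp_xp t 2 - cst M c)) :
    (c ≠ h8xp_cbr3 → v.ord (h8xp_xp t 2 - cst M c) = 1) ∧
      (v.ord (h8xp_xp t 2 - cst M c) = 1 ∨ v.ord (h8xp_xp t 2 - cst M c) = 3) := by
  obtain ⟨a, ha0, -, -, hroot, hpos, hord⟩ := h8xp_center M A t 2 (by norm_num) hA
    (transcendental_t3 M t ht) v c hc hv
  have h := ord_t3_sub_eq M t h2 h3 ht v a ha0 hpos
  rw [hord]
  have hc' := h8xp_c_eq_of_root ha0 hroot
  constructor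
  · intro hne
    have ha : a ≠ -27 := by
      rintro rfl
      exact hne hc'
    rw [h, if_neg ha]
  · by_cases ha : a = -27
    · right
      rw [h, if_pos ha]
    · left
      rw [h, if_neg ha]

end Branch

/-! ### (iv) transfer of finiteness -/

section Finite

variable (M : ℕ) [NeZero M] (A : ValuationSubring Kbar) (t : FF M)

/-- **(iv)** FIN transfer, general form (see `h8xp_FinSpan`, `h8xp_finSpan_iff`). -/
theorem h8xp_fin_of_modelAt_eq (x : FF M) (hx : modelAt M A x = modelFin M A)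
    (h : h8xp_FinSpan (ringAdj M A (jB M)) (modelFin M A)) :
    h8xp_FinSpan (ringAdj M A x) (modelFin M A) :=
  h8xp_finSpan_transfer ((fun a : Kbar => cst M a) '' (A : Set Kbar)) (jB M) x (modelFin M A)
    (h8xp_jB_mem_modelFin M A) (hx ▸ h8xp_ringAdj_le_modelAt M A x) (le_of_eq hx.symm) h

/-- **(iv), `ℓ = 3`.** -/
theorem h8xp_fin_t2 (hA : A.LiesOverPrime 3) (ht : jB M * t ^ 2 = (t + cst M 256) ^ 3)
    (h : h8xp_FinSpan (ringAdj M A (jB M)) (modelFin M A)) :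
    h8xp_FinSpan (ringAdj M A (h8xp_xp t 3)) (modelFin M A) :=
  h8xp_fin_of_modelAt_eq M A _ (h8xp_modelAt_xp_t2 M A t hA ht) h

/-- **(iv), `ℓ = 2`.** -/
theorem h8xp_fin_t3 (hA : A.LiesOverPrime 2)
    (ht : jB M * t ^ 3 = (t + cst M 27) * (t + cst M 243) ^ 3)
    (h : h8xp_FinSpan (ringAdj M A (jB M)) (modelFin M A)) :
    h8xp_FinSpan (ringAdj M A (h8xp_xp t 2)) (modelFin M A) :=
  h8xp_fin_of_modelAt_eq M A _ (h8xp_modelAt_xp_t3 M A t hA ht) h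

end Finite

end Fermat.Agent.Red.SM.XP
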