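import Fermat.Agent.Red.SM.InstSkeleton
import Fermat.Agent.Red.SM.XPrime

/-!
# P-RED, R-SM (task SM-XP): the rows `RowXPChart` and `RowXPFin`

* `h8xp_coreEval_mem`, `h8xp_exists_coreEval` : the image of `coreEval A x` is `coreAdj A x`.
* `h8xp_coreFin_iff` : `CoreFin A x ↔ h8xp_FinSpan (coreAdj A x) (coreChart A x)`.
* `rowXPChart : Inst.RowXPChart`, `rowXPFin : Inst.RowXPFin`.
-/

set_option autoImplicit false

open ModularCurve AlgebraicCurve Polynomial

noncomputable section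

namespace Fermat.Agent.Red.SM.XP

open Fermat.Agent.S37 Fermat.Agent.Red.SM Fermat.Agent.Red.SM.Inst

section Abs

variable {K F : Type} [Field K] [Field F] [Algebra K F] (A : ValuationSubring K) (x : F)

theorem h8xp_coreEval_C (a : A) : coreEval A x (C a) = algebraMap K F (a : K) := by
  simp [coreEval]

theorem h8xp_coreEval_X : coreEval A x X = x := by
  simp [coreEval]

theorem h8xp_coreEval_mem (q : Polynomial A) : coreEval A x q ∈ coreAdj A x := by
  induction q using Polynomial.induction_on with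
  | C a =>
    rw [h8xp_coreEval_C]
    exact Subring.subset_closure (Or.inl ⟨(a : K), a.2, rfl⟩)
  | add p q hp hq => rw [map_add]; exact add_mem hp hq
  | monomial n a h =>
    rw [pow_succ, ← mul_assoc, map_mul, h8xp_coreEval_X]
    exact mul_mem h (Subring.subset_closure (Or.inr rfl))

theorem h8xp_exists_coreEval {y : F} (hy : y ∈ coreAdj A x) :
    ∃ q : Polynomial A, coreEval A x q = y := by
  have hle : coreAdj A x ≤ (coreEval A x).range := by
    refine Subring.closure_le.2 ?_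
    rintro z (⟨a, ha, rfl⟩ | rfl)
    · exact ⟨C ⟨a, ha⟩, h8xp_coreEval_C A x ⟨a, ha⟩⟩
    · exact ⟨X, h8xp_coreEval_X A z⟩
  exact hle hy

/-- `CoreFin` in the instance-free form of `XPrimeAbs`. -/
theorem h8xp_coreFin_iff : CoreFin A x ↔ h8xp_FinSpan (coreAdj A x) (coreChart A x) := by
  constructor
  · rintro ⟨S, hS, h⟩
    refine ⟨S, hS, fun f hf => ?_⟩
    obtain ⟨c, hc⟩ := h f hf
    exact ⟨fun b => coreEval A x (c b), fun b => h8xp_coreEval_mem A x (c b), hc⟩
  · rintro ⟨S, hS, h⟩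
    refine ⟨S, hS, fun f hf => ?_⟩
    obtain ⟨c, hc, hf'⟩ := h f hf
    choose q hq using fun b => h8xp_exists_coreEval A x (hc b)
    refine ⟨q, ?_⟩
    rw [hf']
    exact Finset.sum_congr rfl fun b _ => by rw [hq]

end Abs

section Rows

variable {M : ℕ} [NeZero M] (A : ValuationSubring Kbar)

omit [NeZero M] in
theorem h8xp_xp_eq (ℓ : ℕ) (t : FF M) : xp ℓ t = h8xp_xp t ℓ := rfl

/-- pointwise form of `RowXPChart`. -/
theorem h8xp_modelAt_xp_of_tRel {ℓ : ℕ} (hA : A.LiesOverPrime ℓ) {t : FF M}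
    (ht : TRel ℓ M t) : modelAt M A (xp ℓ t) = modelFin M A := by
  rcases ht with ⟨rfl, ht⟩ | ⟨rfl, ht⟩
  · exact h8xp_modelAt_xp_t2 M A t hA ht
  · exact h8xp_modelAt_xp_t3 M A t hA ht

/-- pointwise form of `RowXPFin`. -/
theorem h8xp_coreFin_xp_of_tRel {ℓ : ℕ} (hA : A.LiesOverPrime ℓ) {t : FF M}
    (ht : TRel ℓ M t) (h : CoreFin A (jB M)) : CoreFin A (xp ℓ t) := by
  have hc := h8xp_modelAt_xp_of_tRel A hA ht
  rw [h8xp_coreFin_iff] at h ⊢
  have h1 : h8xp_FinSpan (ringAdj M A (jB M)) (modelFin M A) := h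
  have h2 : h8xp_FinSpan (ringAdj M A (xp ℓ t)) (modelFin M A) :=
    h8xp_fin_of_modelAt_eq M A _ hc h1
  have h3 : coreChart A (xp ℓ t) = modelFin M A := hc
  rw [h3]
  exact h2

end Rows

/-- **SM-XP (ii).** -/
theorem rowXPChart : RowXPChart := fun _ _ _ _ _ _ A hA _ ht =>
  h8xp_modelAt_xp_of_tRel A hA ht.rel

/-- **SM-XP (iv).** -/
theorem rowXPFin : RowXPFin := fun _ _ _ _ _ _ A hA _ ht h =>
  h8xp_coreFin_xp_of_tRel A hA ht.rel h

end Fermat.Agent.Red.SM.XP
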