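import Fermat.Agent.Red.SM.InstSkeleton
import Fermat.Agent.Red.SM.GVPack
import Fermat.Agent.Red.SM.RamRows
import Fermat.Agent.Red.SM.XPrimeRows
import Fermat.Agent.Red.SM.InstAlg
import Fermat.Agent.Red.ModelO.FinWrap
import Fermat.Agent.Red.SM.H74Chain
import Fermat.Agent.Red.SM.CoreSpecial53H
import Fermat.Agent.Red.SM.CoreAdapterV

/-!
# P-RED / R-SM : final wiring of `IfaceSmooth` (helper13)

`ifaceSmooth_of_open : h74_GenericV → RowTID → IfaceSmooth`: everything on the R-SM board is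
wired except the two open inputs

* `Core.h74_GenericV` (generic fibre: TAME + point count, `Red/SM/H74Chain.lean`);
* `Inst.RowTID` (the coordinates `t₂`, `t₃` and their identities).
-/

set_option autoImplicit false
set_option linter.style.haveILetI false

open Fermat.Agent.S37 Fermat.Agent.Red.SM.Inst Fermat.Agent.Red.SM.GVPack
  Fermat.Agent.Red.GV ModularCurve

noncomputable section

namespace Fermat.Agent.Red.SM

/-- **SM-GVPACK row** for the two `j`-charts. -/
theorem h13_rowGauss : RowGauss := fun _ hℓ M _ hM A hA =>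
  ⟨⟨h81g_V A M hℓ hM hA, h81g_rhoV A M hℓ hM hA, h81g_coreGauss_fin hℓ hM hA,
      h81g_coreRed_fin hℓ hM hA⟩,
    ⟨h81g_V A M hℓ hM hA, h81g_rhoV A M hℓ hM hA, h81g_coreGauss_inf hℓ hM hA,
      h81g_coreRed_inf hℓ hM hA⟩⟩

/-- `t⁻¹ ∈ modelFin` for a `t`-coordinate. -/
theorem h13_inv_mem_modelFin {ℓ M : ℕ} [NeZero M] (A : ValuationSubring Kbar)
    (hA : A.LiesOverPrime ℓ) {t : FF M} (ht : TRel ℓ M t) : t⁻¹ ∈ modelFin M A := by
  rcases ht with ⟨rfl, ht⟩ | ⟨rfl, ht⟩
  · exact XP.h8xp_t2_inv_mem_modelFin M A t hA ht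
  · exact XP.h8xp_t3_inv_mem_modelFin M A t hA ht

/-- **SM-GVPACK row** for the chart of `x' = t + t⁻ˡ`. -/
theorem h13_rowXPGauss : RowXPGauss := by
  intro ℓ hℓ M _ hM _ A hA t ht
  have hchart : modelAt M A (xp ℓ t) = modelFin M A := XP.rowXPChart ℓ hℓ M hM ‹_› A hA t ht
  obtain ⟨y, hy, _, hy1⟩ := ht.exp
  have hti : t⁻¹ ∈ gaussV A M :=
    modelFin_le_gaussV A M hℓ hM hA (h13_inv_mem_modelFin A hA ht.rel)
  have hchar : CharP (IsLocalRing.ResidueField A) ℓ := charP_residueField hℓ A hA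
  refine ⟨h81g_V A M hℓ hM hA, h81g_rhoV A M hℓ hM hA,
    h81g_coreGauss_of_eq_fin hℓ hM hA (xp ℓ t) hchart, ?_⟩
  refine h81g_coreRed_xp_of_embA hℓ hM hA t hti (coeffMap (Int.castRingHom A) y) ?_ (-1) ?_ ?_
  · rw [← hy]
    show coeffMap A.subtype (coeffMap (Int.castRingHom A) y) = _
    rw [coeffMap_coeffMap]
    exact congrArg (fun f => coeffMap f y) (RingHom.ext_int _ _)
  · intro h
    have h1 : ((1 : ℤ) : IsLocalRing.ResidueField A) = 0 := by
      have h2 : ((-1 : ℤ) : IsLocalRing.ResidueField A) = -((1 : ℤ) : IsLocalRing.ResidueField A) := by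
        push_cast; ring
      rw [h2, neg_eq_zero] at h
      exact h
    rw [Int.cast_one] at h1
    exact one_ne_zero h1
  · show (coeffMap (IsLocalRing.residue A) (coeffMap (Int.castRingHom A) y)).coeff (-1) ≠ 0
    rw [coeffMap_coeff, coeffMap_coeff, hy1, map_one, map_one]
    exact one_ne_zero

/-- **R-SM, final wiring.**  `IfaceSmooth` from the two open inputs `h74_GenericV` and
`RowTID`. -/
theorem ifaceSmooth_of_open (hG : Core.h74_GenericV) (hTID : RowTID) : IfaceSmooth :=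
  ifaceSmooth_of_rows
    (h13_smCore_of_V (Core.h74_smCoreV Spec53.h53s_special hG))
    rowAlg Fermat.Agent.Red.ModelO.h85_rowFin h13_rowGauss rowBranchInf rowBranchFin hTID
    XP.rowXPChart rowXPAlg XP.rowXPFin h13_rowXPGauss rowXPBranch

end Fermat.Agent.Red.SM
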