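import Mathlib

/-!
# P-RED / SM: finite-dimensional algebras over an algebraically closed field (helper2)

* `h2_finrank_quot_nilradical` : `dim_k (R / nil R) = #MaxSpec R`.
* `h2_finrank_of_isReduced` : `dim_k R = #MaxSpec R` for reduced `R`.
-/

set_option autoImplicit false
set_option linter.style.haveILetI false

namespace Fermat.Agent.Red.SM

open Module

theorem h2_finrank_quot_maximal (k R : Type*) [Field k] [IsAlgClosed k] [CommRing R]
    [Algebra k R] [Module.Finite k R] (I : Ideal R) [hI : I.IsMaximal] :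
    finrank k (R ⧸ I) = 1 := by
  letI : Field (R ⧸ I) := Ideal.Quotient.field I
  haveI : Module.Finite k (R ⧸ I) := Module.Finite.of_surjective
    (Ideal.Quotient.mkₐ k I).toLinearMap (Ideal.Quotient.mkₐ_surjective k I)
  haveI : Algebra.IsIntegral k (R ⧸ I) := Algebra.IsIntegral.of_finite k (R ⧸ I)
  have hbij : Function.Bijective (algebraMap k (R ⧸ I)) :=
    IsAlgClosed.algebraMap_bijective_of_isIntegral
  have e : k ≃ₗ[k] (R ⧸ I) := LinearEquiv.ofBijective (Algebra.linearMap k (R ⧸ I)) hbij
  rw [← LinearEquiv.finrank_eq e, finrank_self]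

theorem h2_finrank_quot_nilradical (k R : Type*) [Field k] [IsAlgClosed k] [CommRing R]
    [Algebra k R] [Module.Finite k R] :
    finrank k (R ⧸ nilradical R) = Nat.card (MaximalSpectrum R) := by
  haveI : IsArtinianRing R := IsArtinianRing.of_finite k R
  haveI : Fintype (MaximalSpectrum R) := Fintype.ofFinite _
  have e : (R ⧸ nilradical R) ≃ₗ[k] (∀ I : MaximalSpectrum R, R ⧸ I.asIdeal) :=
    ((IsArtinianRing.quotNilradicalEquivPi R).restrictScalars k).toLinearEquiv
  haveI : ∀ I : MaximalSpectrum R, Module.Finite k (R ⧸ I.asIdeal) := fun I =>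
    Module.Finite.of_surjective
      (Ideal.Quotient.mkₐ k I.asIdeal).toLinearMap (Ideal.Quotient.mkₐ_surjective k I.asIdeal)
  rw [LinearEquiv.finrank_eq e, Module.finrank_pi_fintype]
  have h1 : ∀ I : MaximalSpectrum R, finrank k (R ⧸ I.asIdeal) = 1 := fun I =>
    haveI := I.isMaximal
    h2_finrank_quot_maximal k R I.asIdeal
  simp only [h1, Finset.sum_const, Finset.card_univ, smul_eq_mul, mul_one]
  exact (Nat.card_eq_fintype_card).symm

end Fermat.Agent.Red.SM
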