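import Mathlib

/-!
# P-RED / SM: the fibre of a finite free `k[X]`-algebra at `X = a` (helper2)

`B` is a `k[X]`-algebra, free with basis `b`.  `h2_fib k B a` is the ideal `(X - a) B` and
`h2_coordEquiv b a : B ⧸ (X - a) B ≃ₗ[k] (ι → k)` the coordinate isomorphism.
-/

set_option autoImplicit false
set_option linter.style.haveILetI false
set_option linter.unusedSectionVars false
set_option linter.unusedSimpArgs false

open Polynomial Module

noncomputable section

namespace Fermat.Agent.Red.SM

section Coord

variable (k : Type*) [Field k] (B : Type*) [CommRing B] [Algebra k B] [Algebra k[X] B]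
  [IsScalarTower k k[X] B]

/-- the ideal `(X - a) B`. -/
def h2_fib (a : k) : Ideal B := Ideal.span {algebraMap k[X] B (X - C a)}

variable {k B}
variable {ι : Type*} [Fintype ι] [DecidableEq ι] (b : Basis ι k[X] B) (a : k)

theorem h2_mem_fib_iff {y : B} :
    y ∈ h2_fib k B a ↔ ∃ z : B, y = (X - C a : k[X]) • z := by
  rw [h2_fib, Ideal.mem_span_singleton']
  constructor
  · rintro ⟨z, rfl⟩
    exact ⟨z, by rw [Algebra.smul_def, mul_comm]⟩
  · rintro ⟨z, rfl⟩
    exact ⟨z, by rw [Algebra.smul_def, mul_comm]⟩

/-- the coordinates of `y` in the basis `b`, evaluated at `a`. -/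
def h2_coord : B →ₗ[k] (ι → k) where
  toFun y i := (b.repr y i).eval a
  map_add' x y := by
    ext i
    simp
  map_smul' c y := by
    ext i
    have h : c • y = (C c : k[X]) • y := by
      rw [← Polynomial.algebraMap_eq, algebraMap_smul]
    simp [h]

@[simp]
theorem h2_coord_apply (y : B) (i : ι) : h2_coord b a y i = (b.repr y i).eval a := rfl

theorem h2_coord_eq_zero_iff {y : B} : h2_coord b a y = 0 ↔ y ∈ h2_fib k B a := by
  rw [h2_mem_fib_iff]
  constructor
  · intro h
    have h1 : ∀ i, (X - C a) ∣ b.repr y i := by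
      intro i
      rw [Polynomial.dvd_iff_isRoot, Polynomial.IsRoot.def]
      have := congrFun h i
      simpa using this
    choose q hq using h1
    refine ⟨∑ i, q i • b i, ?_⟩
    conv_lhs => rw [← b.sum_repr y]
    rw [Finset.smul_sum]
    refine Finset.sum_congr rfl fun i _ => ?_
    rw [hq i, mul_smul]
  · rintro ⟨z, rfl⟩
    ext i
    simp

theorem h2_coord_surjective : Function.Surjective (h2_coord b a) := by
  intro v
  refine ⟨∑ i, (C (v i) : k[X]) • b i, ?_⟩
  ext i
  simp only [h2_coord_apply, map_sum, map_smul, Finsupp.coe_finsetSum, Finsupp.coe_smul,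
    Finset.sum_apply, Pi.smul_apply, smul_eq_mul, Basis.repr_self]
  rw [Polynomial.eval_finsetSum]
  simp only [Polynomial.eval_mul, Polynomial.eval_C]
  rw [Finset.sum_eq_single i]
  · simp
  · intro j _ hji
    simp [Finsupp.single_apply, hji]
  · intro h
    exact absurd (Finset.mem_univ i) h

theorem h2_ker_coord : LinearMap.ker (h2_coord b a) = (h2_fib k B a).restrictScalars k := by
  ext y
  rw [LinearMap.mem_ker, h2_coord_eq_zero_iff, Submodule.restrictScalars_mem]

/-- the coordinate isomorphism `B ⧸ (X - a) B ≃ kⁿ`. -/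
def h2_coordEquiv : (B ⧸ h2_fib k B a) ≃ₗ[k] (ι → k) :=
  ((Submodule.Quotient.restrictScalarsEquiv k (h2_fib k B a)).symm.trans
    (Submodule.quotEquivOfEq _ _ (h2_ker_coord b a).symm)).trans
    (LinearMap.quotKerEquivOfSurjective (h2_coord b a) (h2_coord_surjective b a))

@[simp]
theorem h2_coordEquiv_mk (y : B) :
    h2_coordEquiv b a (Ideal.Quotient.mk (h2_fib k B a) y) = h2_coord b a y := rfl

include b in
theorem h2_finrank_fib : finrank k (B ⧸ h2_fib k B a) = Fintype.card ι := by
  rw [LinearEquiv.finrank_eq (h2_coordEquiv b a), Module.finrank_fintype_fun_eq_card]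

include b in
theorem h2_finite_fib : Module.Finite k (B ⧸ h2_fib k B a) :=
  Module.Finite.equiv (h2_coordEquiv b a).symm

/-- the basis of the fibre induced by `b`. -/
def h2_fibBasis : Basis ι k (B ⧸ h2_fib k B a) := Basis.ofEquivFun (h2_coordEquiv b a)

theorem h2_fibBasis_repr (q : B ⧸ h2_fib k B a) (i : ι) :
    (h2_fibBasis b a).repr q i = h2_coordEquiv b a q i := rfl

theorem h2_fibBasis_apply (i : ι) :
    h2_fibBasis b a i = Ideal.Quotient.mk (h2_fib k B a) (b i) := by
  apply (h2_coordEquiv b a).injective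
  rw [h2_coordEquiv_mk]
  ext j
  rw [h2_coord_apply, Basis.repr_self]
  have : (h2_coordEquiv b a) ((h2_fibBasis b a) i) j = (h2_fibBasis b a).repr ((h2_fibBasis b a) i) j :=
    rfl
  rw [this, Basis.repr_self]
  by_cases h : i = j
  · subst h; simp
  · simp [Finsupp.single_apply, h]

end Coord

end Fermat.Agent.Red.SM

end
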