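import Mathlib
import Fermat.Agent.Red.SM.DeltaArt
import Fermat.Agent.Red.SM.DeltaCoord

/-!
# P-RED / SM: rank bounds at a point of the base (helper2)

`B` is a finite free `k[X]`-algebra with basis `b`, `k` algebraically closed, `a : k`.

* `h2_pts k B a` : the number of maximal ideals of `B / (X - a) B`.
* `h2_rank_gram_le` : the Gram matrix of the trace form, evaluated at `a`, has rank
  `≤ h2_pts k B a` (the nilradical of the fibre lies in its kernel).
* `h2_rank_hom_le` : for `φ : B → B₁`, the matrix of `φ` evaluated at `a` has rank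
  `≤ (n - h2_pts k B₁ a) + h2_pts k B a`.
-/

set_option autoImplicit false
set_option linter.style.haveILetI false
set_option linter.unusedSectionVars false
set_option linter.unusedSimpArgs false

open Polynomial Module Matrix

noncomputable section

namespace Fermat.Agent.Red.SM

variable (k : Type*) [Field k] (B : Type*) [CommRing B] [Algebra k B] [Algebra k[X] B]
  [IsScalarTower k k[X] B]

/-- the number of points of `B` over `X = a`. -/
def h2_pts (a : k) : ℕ := Nat.card (MaximalSpectrum (B ⧸ h2_fib k B a))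

variable {k B}
variable {ι : Type*} [Fintype ι] [DecidableEq ι] (b : Basis ι k[X] B) (a : k)

include b in
/-- the trace of an element which is nilpotent modulo `X - a` vanishes at `a`. -/
theorem h2_eval_trace_eq_zero (z : B)
    (hz : IsNilpotent (Ideal.Quotient.mk (h2_fib k B a) z)) :
    (Algebra.trace k[X] B z).eval a = 0 := by
  obtain ⟨m, hm⟩ := hz
  rw [← map_pow, Ideal.Quotient.eq_zero_iff_mem, h2_mem_fib_iff] at hm
  obtain ⟨w, hw⟩ := hm
  rw [Algebra.trace_eq_matrix_trace b z]
  set Mz := Algebra.leftMulMatrix b z with hMz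
  set Nz : Matrix ι ι k := Mz.map (Polynomial.evalRingHom a) with hNz
  have h1 : Mz ^ m = (X - C a : k[X]) • Algebra.leftMulMatrix b w := by
    rw [hMz, ← map_pow, hw, map_smul]
  have h2 : Nz ^ m = 0 := by
    have h3 : Nz ^ m = (Mz ^ m).map (Polynomial.evalRingHom a) := by
      have := map_pow (RingHom.mapMatrix (Polynomial.evalRingHom a) : Matrix ι ι k[X] →+* _) Mz m
      rw [RingHom.mapMatrix_apply, RingHom.mapMatrix_apply] at this
      exact this.symm
    rw [h3, h1]
    ext i j
    simp
  have h4 : IsNilpotent Nz.trace := Matrix.isNilpotent_trace_of_isNilpotent ⟨m, h2⟩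
  have h5 : Nz.trace = 0 := h4.eq_zero
  have h6 : Nz.trace = (Mz.trace).eval a := by
    simp only [Matrix.trace, Matrix.diag_apply, hNz, Matrix.map_apply,
      Polynomial.coe_evalRingHom]
    rw [Polynomial.eval_finsetSum]
  rw [← h6, h5]

/-- the Gram matrix of the trace form, evaluated at `a`. -/
def h2_gram : Matrix ι ι k := (Algebra.traceMatrix k[X] b).map (Polynomial.eval a)

theorem h2_gram_mulVec_coord (y : B) (i : ι) :
    (h2_gram b a *ᵥ h2_coord b a y) i = (Algebra.trace k[X] B (b i * y)).eval a := by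
  have hy : b i * y = ∑ j, (b.repr y j) • (b i * b j) := by
    conv_lhs => rw [← b.sum_repr y]
    rw [Finset.mul_sum]
    refine Finset.sum_congr rfl fun j _ => ?_
    rw [mul_smul_comm]
  rw [hy, map_sum, Polynomial.eval_finsetSum]
  simp only [Matrix.mulVec, dotProduct, h2_gram, Matrix.map_apply, h2_coord_apply,
    Algebra.traceMatrix_apply, Algebra.traceForm_apply]
  refine Finset.sum_congr rfl fun j _ => ?_
  rw [map_smul, smul_eq_mul, Polynomial.eval_mul, mul_comm]

variable (k B) in
/-- the nilradical of the fibre, as a `k`-subspace. -/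
def h2_nilSub : Submodule k (B ⧸ h2_fib k B a) :=
  (nilradical (B ⧸ h2_fib k B a)).restrictScalars k

theorem h2_mem_nilSub {q : B ⧸ h2_fib k B a} : q ∈ h2_nilSub k B a ↔ IsNilpotent q := by
  rw [h2_nilSub, Submodule.restrictScalars_mem, mem_nilradical]

include b in
theorem h2_finrank_nilSub [IsAlgClosed k] :
    finrank k (h2_nilSub k B a) + h2_pts k B a = Fintype.card ι := by
  haveI : Module.Finite k (B ⧸ h2_fib k B a) := h2_finite_fib b a
  set r : (B ⧸ h2_fib k B a) →ₗ[k] ((B ⧸ h2_fib k B a) ⧸ nilradical (B ⧸ h2_fib k B a)) :=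
    (Ideal.Quotient.mkₐ k (nilradical (B ⧸ h2_fib k B a))).toLinearMap with hr
  have hsurj : Function.Surjective r := Ideal.Quotient.mkₐ_surjective k _
  have hker : LinearMap.ker r = h2_nilSub k B a := by
    ext q
    rw [LinearMap.mem_ker, h2_mem_nilSub, ← mem_nilradical]
    simp only [hr, AlgHom.toLinearMap_apply, Ideal.Quotient.mkₐ_eq_mk]
    exact Ideal.Quotient.eq_zero_iff_mem
  have h1 := LinearMap.finrank_range_add_finrank_ker r
  rw [LinearMap.range_eq_top.2 hsurj, finrank_top, hker, h2_finrank_fib b a,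
    h2_finrank_quot_nilradical k (B ⧸ h2_fib k B a)] at h1
  rw [h2_pts]
  omega

include b in
theorem h2_pts_le [IsAlgClosed k] : h2_pts k B a ≤ Fintype.card ι := by
  have := h2_finrank_nilSub b a
  omega

/-- the Gram matrix of the trace form at `a` has rank at most the number of points over `a`. -/
theorem h2_rank_gram_le [IsAlgClosed k] : (h2_gram b a).rank ≤ h2_pts k B a := by
  set f : (ι → k) →ₗ[k] (ι → k) := (h2_gram b a).mulVecLin with hf
  have hrank : (h2_gram b a).rank = finrank k (LinearMap.range f) := rfl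
  have h1 := LinearMap.finrank_range_add_finrank_ker f
  rw [Module.finrank_fintype_fun_eq_card] at h1
  have h2 : Submodule.map (h2_coordEquiv b a).toLinearMap (h2_nilSub k B a) ≤
      LinearMap.ker f := by
    rintro v ⟨q, hq, rfl⟩
    obtain ⟨y, rfl⟩ := Ideal.Quotient.mk_surjective q
    rw [SetLike.mem_coe, h2_mem_nilSub] at hq
    rw [LinearMap.mem_ker]
    ext i
    simp only [hf, LinearEquiv.coe_coe, h2_coordEquiv_mk, Matrix.mulVecLin_apply, Pi.zero_apply]
    rw [h2_gram_mulVec_coord]
    apply h2_eval_trace_eq_zero b a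
    rw [map_mul]
    exact Commute.isNilpotent_mul_left (Commute.all _ _) hq
  have h3 : finrank k (Submodule.map (h2_coordEquiv b a).toLinearMap (h2_nilSub k B a)) =
      finrank k (h2_nilSub k B a) :=
    LinearEquiv.finrank_map_eq (h2_coordEquiv b a) (h2_nilSub k B a)
  have h4 := Submodule.finrank_mono h2
  have h5 := h2_finrank_nilSub b a
  rw [hrank]
  omega

section Hom

variable {B₁ : Type*} [CommRing B₁] [Algebra k B₁] [Algebra k[X] B₁] [IsScalarTower k k[X] B₁]
  (b₁ : Basis ι k[X] B₁) (φ : B →ₐ[k[X]] B₁)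

/-- the matrix of `φ`, evaluated at `a`. -/
def h2_homMat : Matrix ι ι k :=
  (LinearMap.toMatrix b b₁ φ.toLinearMap).map (Polynomial.eval a)

theorem h2_homMat_mulVec_coord (y : B) :
    h2_homMat b a b₁ φ *ᵥ h2_coord b a y = h2_coord b₁ a (φ y) := by
  have h := LinearMap.toMatrix_mulVec_repr b b₁ φ.toLinearMap y
  ext i
  have hi := congrFun h i
  simp only [Matrix.mulVec, dotProduct, AlgHom.toLinearMap_apply] at hi
  simp only [Matrix.mulVec, dotProduct, h2_homMat, Matrix.map_apply, h2_coord_apply]
  rw [← hi, Polynomial.eval_finsetSum]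
  refine Finset.sum_congr rfl fun j _ => ?_
  rw [Polynomial.eval_mul]

theorem h2_fib_le_comap : h2_fib k B a ≤ (h2_fib k B₁ a).comap (φ : B →+* B₁) := by
  intro y hy
  rw [h2_mem_fib_iff] at hy
  obtain ⟨z, rfl⟩ := hy
  rw [Ideal.mem_comap, h2_mem_fib_iff]
  exact ⟨φ z, by simp⟩

/-- general linear algebra: `dim range f ≤ dim range (g ∘ f) + dim ker g`. -/
theorem h2_finrank_range_le {U V W : Type*} [AddCommGroup U] [AddCommGroup V] [AddCommGroup W]
    [Module k U] [Module k V] [Module k W] [Module.Finite k V]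
    (f : U →ₗ[k] V) (g : V →ₗ[k] W) :
    finrank k (LinearMap.range f) ≤
      finrank k (LinearMap.range (g ∘ₗ f)) + finrank k (LinearMap.ker g) := by
  set g' : LinearMap.range f →ₗ[k] W := g.domRestrict (LinearMap.range f) with hg'
  have h1 := LinearMap.finrank_range_add_finrank_ker g'
  have h2 : LinearMap.range g' = LinearMap.range (g ∘ₗ f) := by
    ext w
    constructor
    · rintro ⟨⟨v, u, rfl⟩, rfl⟩
      exact ⟨u, rfl⟩
    · rintro ⟨u, rfl⟩
      exact ⟨⟨f u, u, rfl⟩, rfl⟩
  have h3 : finrank k (LinearMap.ker g') ≤ finrank k (LinearMap.ker g) := by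
    have hinj : Function.Injective
        ((LinearMap.range f).subtype.domRestrict (LinearMap.ker g')) := by
      intro x y hxy
      exact Subtype.ext (Subtype.ext hxy)
    have hmem : ∀ x : LinearMap.ker g', ((x : LinearMap.range f) : V) ∈ LinearMap.ker g := by
      intro x
      have := x.2
      rw [LinearMap.mem_ker] at this ⊢
      exact this
    let e : LinearMap.ker g' →ₗ[k] LinearMap.ker g :=
      { toFun := fun x => ⟨((x : LinearMap.range f) : V), hmem x⟩
        map_add' := fun x y => rfl
        map_smul' := fun c x => rfl }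
    have hinj' : Function.Injective e := by
      intro x y hxy
      have := congrArg Subtype.val hxy
      exact Subtype.ext (Subtype.ext this)
    exact LinearMap.finrank_le_finrank_of_injective hinj'
  rw [h2] at h1
  omega

/-- the matrix of `φ` at `a` has rank at most `(n - #points of B₁ over a) + #points of B over a`. -/
theorem h2_rank_hom_le [IsAlgClosed k] :
    (h2_homMat b a b₁ φ).rank + h2_pts k B₁ a ≤ Fintype.card ι + h2_pts k B a := by
  haveI : Module.Finite k (B ⧸ h2_fib k B a) := h2_finite_fib b a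
  haveI : Module.Finite k (B₁ ⧸ h2_fib k B₁ a) := h2_finite_fib b₁ a
  set Q := B ⧸ h2_fib k B a with hQ
  set Q₁ := B₁ ⧸ h2_fib k B₁ a with hQ₁
  -- the induced maps
  set φk : B →ₐ[k] B₁ := φ.restrictScalars k with hφk
  set φbar : Q →ₐ[k] Q₁ := Ideal.quotientMapₐ (h2_fib k B₁ a) φk (h2_fib_le_comap a φ) with hφbar
  have hnil : nilradical Q ≤ (nilradical Q₁).comap (φbar : Q →+* Q₁) := by
    intro q hq
    rw [Ideal.mem_comap, mem_nilradical]
    exact (mem_nilradical.1 hq).map (φbar : Q →+* Q₁)
  set ψ : (Q ⧸ nilradical Q) →ₐ[k] (Q₁ ⧸ nilradical Q₁) :=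
    Ideal.quotientMapₐ (nilradical Q₁) φbar hnil with hψ
  -- the projection from coordinates
  set π' : (ι → k) →ₗ[k] (Q₁ ⧸ nilradical Q₁) :=
    (Ideal.Quotient.mkₐ k (nilradical Q₁)).toLinearMap ∘ₗ
      (h2_coordEquiv b₁ a).symm.toLinearMap with hπ'
  set f : (ι → k) →ₗ[k] (ι → k) := (h2_homMat b a b₁ φ).mulVecLin with hf
  have hrank : (h2_homMat b a b₁ φ).rank = finrank k (LinearMap.range f) := rfl
  have h1 := h2_finrank_range_le f π'
  -- the kernel of π'
  have hker : finrank k (LinearMap.ker π') = finrank k (h2_nilSub k B₁ a) := by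
    have : LinearMap.ker π' =
        Submodule.map (h2_coordEquiv b₁ a).toLinearMap (h2_nilSub k B₁ a) := by
      ext v
      rw [LinearMap.mem_ker, Submodule.mem_map]
      constructor
      · intro hv
        refine ⟨(h2_coordEquiv b₁ a).symm v, ?_, by simp⟩
        rw [h2_mem_nilSub, ← mem_nilradical]
        simp only [hπ', LinearMap.coe_comp, LinearEquiv.coe_coe, Function.comp_apply,
          AlgHom.toLinearMap_apply, Ideal.Quotient.mkₐ_eq_mk] at hv
        exact Ideal.Quotient.eq_zero_iff_mem.1 hv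
      · rintro ⟨q, hq, rfl⟩
        rw [h2_mem_nilSub, ← mem_nilradical] at hq
        simp only [hπ', LinearMap.coe_comp, LinearEquiv.coe_coe, Function.comp_apply,
          AlgHom.toLinearMap_apply, Ideal.Quotient.mkₐ_eq_mk, LinearEquiv.symm_apply_apply]
        exact Ideal.Quotient.eq_zero_iff_mem.2 hq
    rw [this]
    exact LinearEquiv.finrank_map_eq (h2_coordEquiv b₁ a) (h2_nilSub k B₁ a)
  -- the range of π' ∘ f
  have hrange : LinearMap.range (π' ∘ₗ f) ≤ LinearMap.range ψ.toLinearMap := by
    rintro w ⟨v, rfl⟩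
    obtain ⟨y, rfl⟩ := h2_coord_surjective b a v
    refine ⟨Ideal.Quotient.mk _ (Ideal.Quotient.mk _ y), ?_⟩
    simp only [hπ', hf, LinearMap.coe_comp, LinearEquiv.coe_coe, Function.comp_apply,
      AlgHom.toLinearMap_apply, Ideal.Quotient.mkₐ_eq_mk, Matrix.mulVecLin_apply]
    rw [h2_homMat_mulVec_coord, ← h2_coordEquiv_mk, LinearEquiv.symm_apply_apply]
    rfl
  have h2 := Submodule.finrank_mono hrange
  have h3 : finrank k (LinearMap.range ψ.toLinearMap) ≤ finrank k (Q ⧸ nilradical Q) :=
    LinearMap.finrank_range_le _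
  have h4 : finrank k (Q ⧸ nilradical Q) = h2_pts k B a :=
    h2_finrank_quot_nilradical k Q
  have h5 := h2_finrank_nilSub b₁ a
  rw [hrank]
  omega

end Hom

end Fermat.Agent.Red.SM

end
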