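import Mathlib
import Fermat.Agent.Red.SM.DeltaRank

/-!
# P-RED / R-SM / SM-CORE glue (g3) (helper60): unramified values of the coordinate

Mathlib only (plus the fibre vocabulary `h2_fib`, `h2_pts` of `Red/SM/DeltaCoord`, `DeltaRank`).

* `h60g3_exists_valuationSubring` : the dictionary "maximal ideal of a Dedekind domain `C` ↦
  valuation subring of `Frac C`": for a maximal ideal `P ≠ ⊥` and `t ∈ P` there is a valuation
  subring `W ⊇ C` of `F = Frac C` with `t ∈ 𝔪_W`, and if `t ∈ P ^ 2` then `t` is a product of two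
  elements of `𝔪_W`.
* `h60g3_not_mem_sq` : consumer form: if `t` is never a product of two elements of `𝔪_W`
  (`W ⊇ C`, `t ∈ 𝔪_W`), then `t ∉ P ^ 2` for every maximal ideal `P ∋ t`.
* `h60g3_isRadical_span` : in a Dedekind domain, if `t ∉ P ^ 2` for every maximal ideal `P ∋ t`
  then the ideal `(t)` is radical.
* `h60g3_pts_eq_card` : `K` algebraically closed, `C` a Dedekind domain, free over `K[X]` with
  basis `b`, `c : K` with `X - c ∉ P ^ 2` for all maximal `P ∋ X - c`; then the number of points
  of `C` over `c` is the rank: `h2_pts K C c = Fintype.card ι`.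
* `h60g3_rootMultiplicity_discr_eq_zero` : with the TAME bound as a hypothesis, the discriminant
  does not vanish at `c`.
-/

set_option autoImplicit false
set_option linter.style.haveILetI false
set_option linter.unusedSectionVars false
set_option linter.unusedVariables false

open Polynomial Module

noncomputable section

namespace Fermat.Agent.Red.SM

section Dict

variable {C : Type*} [CommRing C] [IsDedekindDomain C]
  {F : Type*} [Field F] [Algebra C F] [IsFractionRing C F]

open IsDedekindDomain in
/-- **Dictionary** maximal ideal ↦ valuation subring. -/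
theorem h60g3_exists_valuationSubring (P : Ideal C) [hP : P.IsMaximal] (hP0 : P ≠ ⊥)
    (t : C) (ht : t ∈ P) :
    ∃ W : ValuationSubring F, (∀ c : C, algebraMap C F c ∈ W) ∧
      algebraMap C F t ∈ W.nonunits ∧
      (t ∈ P ^ 2 → ∃ y ∈ W.nonunits, ∃ z ∈ W.nonunits, algebraMap C F t = y * z) := by
  classical
  let v : HeightOneSpectrum C := ⟨P, hP.isPrime, hP0⟩
  have hnon : ∀ y : F, y ∈ ((v.valuation F).valuationSubring).nonunits ↔
      v.valuation F y < 1 := by
    intro y
    rw [ValuationSubring.mem_nonunits_iff]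
    exact ((Valuation.isEquiv_valuation_valuationSubring (v.valuation F)).lt_one_iff_lt_one).symm
  refine ⟨(v.valuation F).valuationSubring, fun c => ?_, ?_, fun ht2 => ?_⟩
  · rw [Valuation.mem_valuationSubring_iff]
    exact v.valuation_le_one c
  · rw [hnon, v.valuation_lt_one_iff_mem]
    exact ht
  · obtain ⟨π, hπ⟩ := v.intValuation_exists_uniformizer
    have hπF : v.valuation F (algebraMap C F π) = WithZero.exp (-1 : ℤ) := by
      rw [v.valuation_of_algebraMap, hπ]
    have hπ0 : algebraMap C F π ≠ 0 := by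
      intro h
      rw [h, Valuation.map_zero] at hπF
      exact WithZero.exp_ne_zero hπF.symm
    have htF : v.valuation F (algebraMap C F t) ≤ WithZero.exp (-(2 : ℤ)) := by
      rw [v.valuation_of_algebraMap]
      have := (v.intValuation_le_pow_iff_mem t 2).2 ht2
      simpa using this
    refine ⟨algebraMap C F π, ?_, algebraMap C F t / algebraMap C F π, ?_, ?_⟩
    · rw [hnon, hπF]
      rw [← WithZero.exp_zero, WithZero.exp_lt_exp]
      norm_num
    · rw [hnon, map_div₀, hπF]
      have h1 : v.valuation F (algebraMap C F t) / WithZero.exp (-1 : ℤ) ≤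
          WithZero.exp (-(2 : ℤ)) / WithZero.exp (-1 : ℤ) := by
        gcongr
        exact zero_le
      refine lt_of_le_of_lt h1 ?_
      rw [← WithZero.exp_sub, ← WithZero.exp_zero, WithZero.exp_lt_exp]
      norm_num
    · field_simp

/-- consumer form of the dictionary: the valuation-subring form of "unramified" implies the
ideal form. -/
theorem h60g3_not_mem_sq (t : C)
    (hunr : ∀ W : ValuationSubring F, (∀ c : C, algebraMap C F c ∈ W) →
      algebraMap C F t ∈ W.nonunits →
      ∀ y ∈ W.nonunits, ∀ z ∈ W.nonunits, algebraMap C F t ≠ y * z)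
    (P : Ideal C) (hP : P.IsMaximal) (hP0 : P ≠ ⊥) (ht : t ∈ P) : t ∉ P ^ 2 := by
  intro ht2
  obtain ⟨W, hW, htW, h2⟩ := h60g3_exists_valuationSubring (F := F) P hP0 t ht
  obtain ⟨y, hy, z, hz, hyz⟩ := h2 ht2
  exact hunr W hW htW y hy z hz hyz

end Dict

section Radical

variable {C : Type*} [CommRing C] [IsDedekindDomain C]

/-- In a Dedekind domain, if `t ∉ P ^ 2` for every maximal ideal `P ∋ t`, then `(t)` is a
radical ideal. -/
theorem h60g3_isRadical_span (t : C)
    (hunr : ∀ P : Ideal C, P.IsMaximal → t ∈ P → t ∉ P ^ 2) :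
    (Ideal.span {t} : Ideal C).IsRadical := by
  classical
  have hsq : Squarefree (Ideal.span {t} : Ideal C) := by
    intro J hJ
    rw [Ideal.isUnit_iff]
    by_contra hJtop
    obtain ⟨P, hP, hJP⟩ := Ideal.exists_le_maximal J hJtop
    have h1 : (Ideal.span {t} : Ideal C) ≤ J * J := Ideal.le_of_dvd hJ
    have h2 : J * J ≤ P ^ 2 := by
      rw [sq]
      exact Ideal.mul_mono hJP hJP
    have ht2 : t ∈ P ^ 2 := h2 (h1 (Ideal.subset_span rfl))
    have ht : t ∈ P := Ideal.pow_le_self (by norm_num) ht2
    exact hunr P hP ht ht2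
  have hrad : IsRadical (Ideal.span {t} : Ideal C) := hsq.isRadical
  intro y hy
  obtain ⟨n, hn⟩ := hy
  have h3 : (Ideal.span {t} : Ideal C) ∣ (Ideal.span {y} : Ideal C) ^ n := by
    rw [Ideal.span_singleton_pow, Ideal.dvd_iff_le, Ideal.span_singleton_le_iff_mem]
    exact hn
  have h4 := hrad n _ h3
  rw [Ideal.dvd_iff_le, Ideal.span_singleton_le_iff_mem] at h4
  exact h4

end Radical

section Count

variable {K : Type*} [Field K] [IsAlgClosed K]
  {C : Type*} [CommRing C] [IsDedekindDomain C] [Algebra K C] [Algebra K[X] C]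
  [IsScalarTower K K[X] C]
  {ι : Type*} [Fintype ι] [DecidableEq ι]

/-- **Unramified values have `n` points.** -/
theorem h60g3_pts_eq_card (b : Basis ι K[X] C) (c : K)
    (hunr : ∀ P : Ideal C, P.IsMaximal → algebraMap K[X] C (X - Polynomial.C c) ∈ P →
      algebraMap K[X] C (X - Polynomial.C c) ∉ P ^ 2) :
    h2_pts K C c = Fintype.card ι := by
  have hrad : (h2_fib K C c).IsRadical := h60g3_isRadical_span _ hunr
  have hnil : h2_nilSub K C c = ⊥ := by
    rw [eq_bot_iff]
    intro q hq
    rw [h2_mem_nilSub] at hq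
    obtain ⟨y, rfl⟩ := Ideal.Quotient.mk_surjective q
    obtain ⟨n, hn⟩ := hq
    rw [← map_pow, Ideal.Quotient.eq_zero_iff_mem] at hn
    have : y ∈ h2_fib K C c := hrad ⟨n, hn⟩
    rw [Submodule.mem_bot, Ideal.Quotient.eq_zero_iff_mem]
    exact this
  have h := h2_finrank_nilSub b c
  rw [hnil, finrank_bot] at h
  omega

/-- With the TAME bound, the discriminant does not vanish at an unramified value. -/
theorem h60g3_rootMultiplicity_discr_eq_zero (b : Basis ι K[X] C) (c : K)
    (hunr : ∀ P : Ideal C, P.IsMaximal → algebraMap K[X] C (X - Polynomial.C c) ∈ P →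
      algebraMap K[X] C (X - Polynomial.C c) ∉ P ^ 2)
    (htame : (Algebra.discr K[X] b).rootMultiplicity c + h2_pts K C c ≤ Fintype.card ι) :
    (Algebra.discr K[X] b).rootMultiplicity c = 0 := by
  have := h60g3_pts_eq_card b c hunr
  omega

end Count

end Fermat.Agent.Red.SM
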