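import Mathlib

/-!
# P-RED, R-SM, leaf SM-PL (helper8): lifting closed points to integral points

Let `A` be an integrally closed local domain whose fraction field `K` is algebraically closed
(for example a valuation subring of `ℚ̄`), and let `C` be a commutative `A`-algebra which is
integral and torsion-free over `A`.  Then every maximal ideal `𝔫` of `C` is the preimage of the
maximal ideal of `A` under an `A`-algebra homomorphism `C → A` ("every closed point is the
reduction of an integral point").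

* `h8pl_exists_eq_algebraMap` : a root in a domain `D` of a monic polynomial over `A` comes
  from `A`.
* `h8pl_algebraMap_bijective` : a domain `D`, integral over `A`, with `A → D` injective, is `A`.
* `h8pl_exists_prime_le` : a prime `𝔭 ≤ 𝔫` meeting `A` trivially.
* `h8pl_exists_algHom` : the point lift.
* `h8pl_card_le` : `#{maximal ideals of C} ≤ #{A-algebra homs C → A}`.
-/

set_option autoImplicit false

open Polynomial

namespace Fermat.Agent.Red.SM.PointLift

variable {A : Type*} [CommRing A] [IsDomain A]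

/-- A root, in a domain `D` which is an `A`-algebra, of a monic polynomial over `A` is the image
of an element of `A`. -/
theorem h8pl_exists_eq_algebraMap [IsIntegrallyClosed A]
    (K : Type*) [Field K] [Algebra A K] [IsFractionRing A K] [IsAlgClosed K]
    {D : Type*} [CommRing D] [IsDomain D] [Algebra A D]
    (n : ℕ) : ∀ (f : A[X]), f.Monic → f.natDegree = n → ∀ d : D, aeval d f = 0 →
      ∃ a : A, algebraMap A D a = d := by
  induction n with
  | zero =>
    intro f hf hdeg d hd
    have h1 : f = 1 := by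
      have := Polynomial.eq_C_of_natDegree_eq_zero hdeg
      rw [this]
      have hc : f.coeff 0 = 1 := by
        have := hf.coeff_natDegree
        rwa [hdeg] at this
      rw [hc, map_one]
    rw [h1, map_one] at hd
    exact absurd hd one_ne_zero
  | succ n ih =>
    intro f hf hdeg d hd
    -- a root of `f` in `K`
    have hmonic : (f.map (algebraMap A K)).Monic := hf.map _
    have hdegK : (f.map (algebraMap A K)).degree ≠ 0 := by
      rw [Polynomial.degree_map_eq_of_injective (IsFractionRing.injective A K),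
        Polynomial.degree_eq_natDegree hf.ne_zero, hdeg]
      exact_mod_cast Nat.succ_ne_zero n
    obtain ⟨r, hr⟩ := IsAlgClosed.exists_root (f.map (algebraMap A K)) hdegK
    have hrint : IsIntegral A r := by
      refine ⟨f, hf, ?_⟩
      rw [← Polynomial.eval_map]
      exact hr
    obtain ⟨a, ha⟩ := IsIntegrallyClosed.isIntegral_iff.mp hrint
    -- `a` is a root of `f`
    have hroot : f.IsRoot a := by
      have h2 : algebraMap A K (f.eval a) = 0 := by
        have h3 : (f.map (algebraMap A K)).eval (algebraMap A K a) = 0 := by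
          rw [ha]
          exact hr
        rwa [Polynomial.eval_map, Polynomial.eval₂_at_apply] at h3
      exact (IsFractionRing.injective A K) (by rw [h2, map_zero])
    have hfac : (X - C a) * (f /ₘ (X - C a)) = f := Polynomial.mul_divByMonic_eq_iff_isRoot.mpr hroot
    have hgmonic : (f /ₘ (X - C a)).Monic :=
      (Polynomial.monic_X_sub_C a).of_mul_monic_left (by rw [hfac]; exact hf)
    have hgdeg : (f /ₘ (X - C a)).natDegree = n := by
      have := Polynomial.natDegree_divByMonic f (Polynomial.monic_X_sub_C a)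
      rw [this, hdeg, Polynomial.natDegree_X_sub_C]
      rfl
    rw [← hfac, map_mul, map_sub, aeval_X, aeval_C] at hd
    rcases mul_eq_zero.mp hd with h | h
    · exact ⟨a, (sub_eq_zero.mp h).symm⟩
    · exact ih _ hgmonic hgdeg d h

/-- A domain `D` which is integral over `A`, with `A → D` injective, is `A`. -/
theorem h8pl_algebraMap_bijective [IsIntegrallyClosed A]
    (K : Type*) [Field K] [Algebra A K] [IsFractionRing A K] [IsAlgClosed K]
    {D : Type*} [CommRing D] [IsDomain D] [Algebra A D]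
    [Algebra.IsIntegral A D] (hinj : Function.Injective (algebraMap A D)) :
    Function.Bijective (algebraMap A D) := by
  refine ⟨hinj, fun d => ?_⟩
  obtain ⟨f, hf, hfd⟩ := Algebra.IsIntegral.isIntegral (R := A) d
  exact h8pl_exists_eq_algebraMap K f.natDegree f hf rfl d (by rwa [Polynomial.aeval_def])

variable {C : Type*} [CommRing C] [Algebra A C]

/-- Below a maximal ideal `𝔫` of a torsion-free `A`-algebra there is a prime ideal which meets
`A` trivially. -/
theorem h8pl_exists_prime_le (htf : ∀ (a : A) (c : C), a ≠ 0 → a • c = 0 → c = 0)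
    (𝔫 : Ideal C) [h𝔫 : 𝔫.IsPrime] :
    ∃ 𝔭 : Ideal C, 𝔭.IsPrime ∧ 𝔭 ≤ 𝔫 ∧ ∀ a : A, algebraMap A C a ∈ 𝔭 → a = 0 := by
  classical
  -- the multiplicative set `{a • s : a ≠ 0, s ∉ 𝔫}`
  let T : Submonoid C :=
    { carrier := {x | ∃ (a : A) (s : C), a ≠ 0 ∧ s ∉ 𝔫 ∧ x = a • s}
      one_mem' := ⟨1, 1, one_ne_zero, fun h => h𝔫.ne_top ((Ideal.eq_top_iff_one _).mpr h),
        by rw [one_smul]⟩
      mul_mem' := by
        rintro _ _ ⟨a, s, ha, hs, rfl⟩ ⟨b, t, hb, ht, rfl⟩
        refine ⟨a * b, s * t, mul_ne_zero ha hb, fun h => ?_, ?_⟩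
        · rcases h𝔫.mem_or_mem h with h | h
          · exact hs h
          · exact ht h
        · rw [smul_mul_smul_comm] }
  have hdisj : Disjoint ((⊥ : Ideal C) : Set C) (T : Set C) := by
    rw [Set.disjoint_left]
    rintro x hx ⟨a, s, ha, hs, rfl⟩
    have h0 : a • s = 0 := hx
    have : s = 0 := htf a s ha h0
    exact hs (this ▸ 𝔫.zero_mem)
  obtain ⟨𝔭, h𝔭, -, h𝔭T⟩ := Ideal.exists_le_prime_disjoint (⊥ : Ideal C) T hdisj
  rw [Set.disjoint_left] at h𝔭T
  refine ⟨𝔭, h𝔭, fun x hx => ?_, fun a ha => ?_⟩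
  · by_contra hxn
    exact h𝔭T hx ⟨1, x, one_ne_zero, hxn, by rw [one_smul]⟩
  · by_contra ha0
    refine h𝔭T ha ⟨a, 1, ha0, fun h => h𝔫.ne_top ((Ideal.eq_top_iff_one _).mpr h), ?_⟩
    rw [Algebra.smul_def, mul_one]

variable [IsLocalRing A]

/-- **Point lift.**  Every maximal ideal of an integral torsion-free `A`-algebra `C` is the
preimage of the maximal ideal of `A` under an `A`-algebra homomorphism `C → A`. -/
theorem h8pl_exists_algHom [IsIntegrallyClosed A]
    (K : Type*) [Field K] [Algebra A K] [IsFractionRing A K] [IsAlgClosed K]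
    [Algebra.IsIntegral A C]
    (htf : ∀ (a : A) (c : C), a ≠ 0 → a • c = 0 → c = 0)
    (𝔫 : Ideal C) [h𝔫 : 𝔫.IsMaximal] :
    ∃ φ : C →ₐ[A] A, Ideal.comap φ (IsLocalRing.maximalIdeal A) = 𝔫 := by
  obtain ⟨𝔭, h𝔭, h𝔭𝔫, h𝔭A⟩ := h8pl_exists_prime_le htf 𝔫
  have hinj : Function.Injective (algebraMap A (C ⧸ 𝔭)) := by
    rw [injective_iff_map_eq_zero]
    intro a ha
    apply h𝔭A
    rw [IsScalarTower.algebraMap_apply A C (C ⧸ 𝔭)] at ha
    exact Ideal.Quotient.eq_zero_iff_mem.mp ha
  have hint : Algebra.IsIntegral A (C ⧸ 𝔭) :=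
    Algebra.IsIntegral.of_surjective (Ideal.Quotient.mkₐ A 𝔭) Ideal.Quotient.mk_surjective
  have hbij := h8pl_algebraMap_bijective K (D := C ⧸ 𝔭) hinj
  let e : A ≃ₐ[A] (C ⧸ 𝔭) := AlgEquiv.ofBijective (Algebra.ofId A (C ⧸ 𝔭)) hbij
  let φ : C →ₐ[A] A := (e.symm : (C ⧸ 𝔭) →ₐ[A] A).comp (Ideal.Quotient.mkₐ A 𝔭)
  have hφsurj : Function.Surjective φ := by
    intro a
    refine ⟨algebraMap A C a, ?_⟩
    exact φ.commutes a
  have hker : RingHom.ker (φ : C →+* A) ≤ 𝔫 := by
    intro x hx
    apply h𝔭𝔫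
    have h1 : e.symm (Ideal.Quotient.mk 𝔭 x) = 0 := hx
    have h2 : Ideal.Quotient.mk 𝔭 x = 0 := by
      have := congrArg e h1
      rwa [AlgEquiv.apply_symm_apply, map_zero] at this
    exact Ideal.Quotient.eq_zero_iff_mem.mp h2
  refine ⟨φ, ?_⟩
  have hcm : Ideal.comap (φ : C →+* A) (Ideal.map (φ : C →+* A) 𝔫) = 𝔫 := by
    rw [Ideal.comap_map_of_surjective (φ : C →+* A) hφsurj, sup_eq_left]
    exact hker
  have hmax : (Ideal.map (φ : C →+* A) 𝔫).IsMaximal := by
    rcases Ideal.map_eq_top_or_isMaximal_of_surjective (φ : C →+* A) hφsurj h𝔫 with h | h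
    · exfalso
      rw [h, Ideal.comap_top] at hcm
      exact h𝔫.ne_top hcm.symm
    · exact h
  have hm : Ideal.map (φ : C →+* A) 𝔫 = IsLocalRing.maximalIdeal A :=
    IsLocalRing.eq_maximalIdeal hmax
  rw [← hm]
  exact hcm

/-- Every maximal ideal of an integral torsion-free `A`-algebra contains the image of the
maximal ideal of `A`. -/
theorem h8pl_maximalIdeal_le [IsIntegrallyClosed A]
    (K : Type*) [Field K] [Algebra A K] [IsFractionRing A K] [IsAlgClosed K]
    [Algebra.IsIntegral A C]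
    (htf : ∀ (a : A) (c : C), a ≠ 0 → a • c = 0 → c = 0)
    (𝔫 : Ideal C) [h𝔫 : 𝔫.IsMaximal] (a : A) (ha : a ∈ IsLocalRing.maximalIdeal A) :
    algebraMap A C a ∈ 𝔫 := by
  obtain ⟨φ, hφ⟩ := h8pl_exists_algHom K htf 𝔫
  rw [← hφ, Ideal.mem_comap]
  have : φ (algebraMap A C a) = a := φ.commutes a
  show φ (algebraMap A C a) ∈ IsLocalRing.maximalIdeal A
  rw [this]
  exact ha

/-- The number of maximal ideals of `C` is at most the number of `A`-points of `C`. -/
theorem h8pl_card_le [IsIntegrallyClosed A]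
    (K : Type*) [Field K] [Algebra A K] [IsFractionRing A K] [IsAlgClosed K]
    [Algebra.IsIntegral A C]
    (htf : ∀ (a : A) (c : C), a ≠ 0 → a • c = 0 → c = 0) [Finite (C →ₐ[A] A)] :
    Nat.card (MaximalSpectrum C) ≤ Nat.card (C →ₐ[A] A) := by
  classical
  have hex : ∀ 𝔫 : MaximalSpectrum C, ∃ φ : C →ₐ[A] A,
      Ideal.comap φ (IsLocalRing.maximalIdeal A) = 𝔫.asIdeal := fun 𝔫 =>
    haveI := 𝔫.isMaximal
    h8pl_exists_algHom K htf 𝔫.asIdeal
  choose Φ hΦ using hex
  refine Nat.card_le_card_of_injective Φ fun 𝔫 𝔪 h => ?_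
  apply MaximalSpectrum.ext
  rw [← hΦ 𝔫, ← hΦ 𝔪, h]

/-- **Point lift over a value of the coordinate.**  Let `B` be an `A`-algebra, `x ∈ B`,
`a ∈ A`, such that `B ⧸ (x - a)` is integral and torsion-free over `A`.  Every maximal ideal of
`B` containing `x - a` is the preimage of the maximal ideal of `A` under an `A`-algebra
homomorphism `φ : B → A` with `φ x = a`. -/
theorem h8pl_exists_algHom_over [IsIntegrallyClosed A]
    (K : Type*) [Field K] [Algebra A K] [IsFractionRing A K] [IsAlgClosed K]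
    {B : Type*} [CommRing B] [Algebra A B] (x : B) (a : A)
    (hint : ∀ b : B, ∃ f : A[X], f.Monic ∧ aeval b f ∈ Ideal.span {x - algebraMap A B a})
    (htf : ∀ (α : A) (b : B), α ≠ 0 → α • b ∈ Ideal.span {x - algebraMap A B a} →
      b ∈ Ideal.span {x - algebraMap A B a})
    (𝔫 : Ideal B) [h𝔫 : 𝔫.IsMaximal] (hx : x - algebraMap A B a ∈ 𝔫) :
    ∃ φ : B →ₐ[A] A, φ x = a ∧ Ideal.comap φ (IsLocalRing.maximalIdeal A) = 𝔫 := by
  set J : Ideal B := Ideal.span {x - algebraMap A B a} with hJ
  have hJ𝔫 : J ≤ 𝔫 := by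
    rw [hJ, Ideal.span_le, Set.singleton_subset_iff]
    exact hx
  -- the quotient
  have hCint : Algebra.IsIntegral A (B ⧸ J) := by
    refine ⟨fun c => ?_⟩
    obtain ⟨b, rfl⟩ := Ideal.Quotient.mk_surjective c
    obtain ⟨f, hf, hfb⟩ := hint b
    refine ⟨f, hf, ?_⟩
    rw [← Polynomial.aeval_def]
    have h1 : aeval (Ideal.Quotient.mk J b) f = Ideal.Quotient.mk J (aeval b f) := by
      have := Polynomial.aeval_algHom_apply (Ideal.Quotient.mkₐ A J) b f
      exact this
    rw [h1]
    exact Ideal.Quotient.eq_zero_iff_mem.mpr hfb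
  have hCtf : ∀ (α : A) (c : B ⧸ J), α ≠ 0 → α • c = 0 → c = 0 := by
    intro α c hα hc
    obtain ⟨b, rfl⟩ := Ideal.Quotient.mk_surjective c
    have h1 : Ideal.Quotient.mk J (α • b) = 0 := by
      have : Ideal.Quotient.mk J (α • b) = α • Ideal.Quotient.mk J b :=
        map_smul (Ideal.Quotient.mkₐ A J) α b
      rw [this]
      exact hc
    exact Ideal.Quotient.eq_zero_iff_mem.mpr (htf α b hα (Ideal.Quotient.eq_zero_iff_mem.mp h1))
  -- the maximal ideal of the quotient
  have hsurj : Function.Surjective (Ideal.Quotient.mk J) := Ideal.Quotient.mk_surjective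
  have hker : RingHom.ker (Ideal.Quotient.mk J) ≤ 𝔫 := by
    rw [Ideal.mk_ker]
    exact hJ𝔫
  have hcm : Ideal.comap (Ideal.Quotient.mk J) (Ideal.map (Ideal.Quotient.mk J) 𝔫) = 𝔫 := by
    rw [Ideal.comap_map_of_surjective _ hsurj, sup_eq_left]
    exact hker
  have hmax : (Ideal.map (Ideal.Quotient.mk J) 𝔫).IsMaximal := by
    rcases Ideal.map_eq_top_or_isMaximal_of_surjective _ hsurj h𝔫 with h | h
    · exfalso
      rw [h, Ideal.comap_top] at hcm
      exact h𝔫.ne_top hcm.symm
    · exact h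
  obtain ⟨ψ, hψ⟩ := h8pl_exists_algHom K hCtf (Ideal.map (Ideal.Quotient.mk J) 𝔫)
  refine ⟨ψ.comp (Ideal.Quotient.mkₐ A J), ?_, ?_⟩
  · have h1 : Ideal.Quotient.mk J x = Ideal.Quotient.mk J (algebraMap A B a) := by
      rw [Ideal.Quotient.eq, hJ]
      exact Ideal.subset_span rfl
    show ψ (Ideal.Quotient.mk J x) = a
    rw [h1]
    exact ψ.commutes a
  · have h2 : Ideal.comap (ψ.comp (Ideal.Quotient.mkₐ A J)) (IsLocalRing.maximalIdeal A) =
        Ideal.comap (Ideal.Quotient.mk J) (Ideal.comap ψ (IsLocalRing.maximalIdeal A)) := rfl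
    rw [h2, hψ, hcm]

/-- The hypotheses on `A` hold for a valuation subring of an algebraically closed field. -/
theorem h8pl_exists_algHom_valuationSubring {K : Type*} [Field K] [IsAlgClosed K]
    (A : ValuationSubring K) {C : Type*} [CommRing C] [Algebra A C] [Algebra.IsIntegral A C]
    (htf : ∀ (a : A) (c : C), a ≠ 0 → a • c = 0 → c = 0)
    (𝔫 : Ideal C) [h𝔫 : 𝔫.IsMaximal] :
    ∃ φ : C →ₐ[A] A, Ideal.comap φ (IsLocalRing.maximalIdeal A) = 𝔫 :=
  h8pl_exists_algHom K htf 𝔫

end Fermat.Agent.Red.SM.PointLift
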