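import Fermat.Agent.Red.SM.CoreSkeleton
import Fermat.Agent.Red.SM.PointLift

/-!
# P-RED / R-SM, SM-CORE-PL (helper83): the point lift count `h74_PointLift`

Glue between the leaf `PointLift` (helper8) and the frozen statement `h74_PointLift` of
`CoreSkeleton.lean` (helper74): the number of maximal ideals of `B` containing `𝔪_A B` and
`x - c` is at most the number of `A`-points of `B` over `x = c`.
-/

set_option autoImplicit false
set_option linter.style.haveILetI false

open Polynomial

noncomputable section

namespace Fermat.Agent.Red.SM.Core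

universe u v

section

variable {K : Type u} [Field K] (A : ValuationSubring K)

/-- evaluation at `c : A` maps `𝔪_A A[X]` into `𝔪_A`. -/
theorem h83_eval_mem_of_mem_I {q : A[X]} (hq : q ∈ h74_I A) (c : A) :
    q.eval c ∈ IsLocalRing.maximalIdeal A := by
  have hle : h74_I A ≤ Ideal.comap (Polynomial.evalRingHom c) (IsLocalRing.maximalIdeal A) := by
    unfold h74_I
    rw [Ideal.map_le_iff_le_comap]
    intro a ha
    rw [Ideal.mem_comap, Ideal.mem_comap]
    show (Polynomial.evalRingHom c) (algebraMap A A[X] a) ∈ IsLocalRing.maximalIdeal A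
    rw [Polynomial.algebraMap_apply, Polynomial.coe_evalRingHom, Polynomial.eval_C]
    exact ha
  exact hle hq

/-- if `s ≡ 1` modulo `𝔪_A A[X]` then `s(c)` is a unit of `A`. -/
theorem h83_isUnit_eval {s : A[X]} (hs1 : s - 1 ∈ h74_I A) (c : A) : IsUnit (s.eval c) := by
  have h := h83_eval_mem_of_mem_I A hs1 c
  rw [Polynomial.eval_sub, Polynomial.eval_one] at h
  by_contra hu
  have h1 : s.eval c ∈ IsLocalRing.maximalIdeal A := (IsLocalRing.mem_maximalIdeal _).mpr hu
  have h2 : (1 : A) ∈ IsLocalRing.maximalIdeal A := by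
    have := (IsLocalRing.maximalIdeal A).sub_mem h1 h
    rwa [sub_sub_cancel] at this
  exact (IsLocalRing.maximalIdeal.isMaximal A).ne_top ((Ideal.eq_top_iff_one _).mpr h2)

end

/-- **SM-CORE-PL.** -/
theorem h83_pointLift : h74_PointLift.{u, v} := by
  intro K _ _ A B _ _ _ _ _ n e s hs1 hli hspan c hfin
  classical
  -- the `A`-algebra structure of `B`
  letI algAB : Algebra A B := ((algebraMap A[X] B).comp (C : A →+* A[X])).toAlgebra
  haveI : IsScalarTower A A[X] B := IsScalarTower.of_algebraMap_eq fun _ => rfl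
  have halg : ∀ a : A, algebraMap A B a = algebraMap A[X] B (C a) := fun _ => rfl
  set x : B := algebraMap A[X] B X with hx
  have hxc : x - algebraMap A B c = algebraMap A[X] B (X - C c) := by
    rw [map_sub, halg]
  set J : Ideal B := Ideal.span {x - algebraMap A B c} with hJ
  have hmemJ : ∀ b : B, b ∈ J ↔ ∃ y : B, b = algebraMap A[X] B (X - C c) * y := by
    intro b
    rw [hJ, Ideal.mem_span_singleton, hxc]
    exact Iff.rfl
  -- (X - C c) ∣ q - C (q.eval c)
  have hdvd : ∀ q : A[X], algebraMap A[X] B q - algebraMap A B (q.eval c) ∈ J := by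
    intro q
    rw [hmemJ, halg, ← map_sub]
    obtain ⟨r, hr⟩ : (X - C c) ∣ q - C (q.eval c) := by
      rw [Polynomial.dvd_iff_isRoot]
      simp
    exact ⟨algebraMap A[X] B r, by rw [hr, map_mul]⟩
  -- (b) torsion-freeness
  have hu : IsUnit (s.eval c) := h83_isUnit_eval A hs1 c
  have htf : ∀ (α : A) (b : B), α ≠ 0 → α • b ∈ J → b ∈ J := by
    intro α b hα hb
    obtain ⟨y, hy⟩ := (hmemJ _).mp hb
    obtain ⟨d, hd⟩ := hspan b
    obtain ⟨c', hc'⟩ := hspan y
    -- compare coefficients
    have hcoef : ∀ i, C α * d i = (X - C c) * c' i := by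
      have h1 : ∑ i, (C α * d i) • e i = ∑ i, ((X - C c) * c' i) • e i := by
        have e1 : ∑ i, (C α * d i) • e i = (C α) • (s • b) := by
          rw [hd, Finset.smul_sum]
          exact Finset.sum_congr rfl fun i _ => by rw [mul_smul]
        have e2 : ∑ i, ((X - C c) * c' i) • e i = (X - C c) • (s • y) := by
          rw [hc', Finset.smul_sum]
          exact Finset.sum_congr rfl fun i _ => by rw [mul_smul]
        rw [e1, e2, smul_comm (C α) s b, smul_comm (X - C c) s y]
        congr 1
        have e3 : (C α : A[X]) • b = α • b := by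
          rw [Algebra.smul_def, Algebra.smul_def, halg]
        rw [e3, hy, Algebra.smul_def]
      have h2 : ∑ i, (C α * d i - (X - C c) * c' i) • e i = 0 := by
        simp only [sub_smul, Finset.sum_sub_distrib]
        rw [h1, sub_self]
      intro i
      have := (Fintype.linearIndependent_iff.mp hli) _ h2 i
      exact sub_eq_zero.mp this
    have hroot : ∀ i, (X - C c) ∣ d i := by
      intro i
      rw [Polynomial.dvd_iff_isRoot, Polynomial.IsRoot.def]
      have h1 := congrArg (Polynomial.eval c) (hcoef i)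
      rw [Polynomial.eval_mul, Polynomial.eval_C, Polynomial.eval_mul, Polynomial.eval_sub,
        Polynomial.eval_X, Polynomial.eval_C, sub_self, zero_mul] at h1
      rcases mul_eq_zero.mp h1 with h | h
      · exact absurd h hα
      · exact h
    choose d' hd' using hroot
    have hsb : s • b ∈ J := by
      rw [hmemJ]
      refine ⟨∑ i, d' i • e i, ?_⟩
      rw [hd, Finset.mul_sum]
      refine Finset.sum_congr rfl fun i _ => ?_
      rw [hd' i, mul_smul, Algebra.smul_def (X - C c)]
    -- `s = C (s.eval c) + (s - C (s.eval c))`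
    have h3 : algebraMap A B (s.eval c) * b ∈ J := by
      have h4 : algebraMap A B (s.eval c) * b
          = s • b - (algebraMap A[X] B s - algebraMap A B (s.eval c)) * b := by
        rw [Algebra.smul_def]
        ring
      rw [h4]
      exact J.sub_mem hsb (J.mul_mem_right _ (hdvd s))
    obtain ⟨v, hv⟩ := hu
    have h5 : b = algebraMap A B ((v⁻¹ : Aˣ) : A) * (algebraMap A B (s.eval c) * b) := by
      rw [← mul_assoc, ← map_mul, ← hv, Units.inv_mul, map_one, one_mul]
    rw [h5]
    exact J.mul_mem_left _ h3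
  -- (c) integrality modulo `J`
  have hint : ∀ b : B, ∃ f : A[X], f.Monic ∧ aeval b f ∈ J := by
    intro b
    obtain ⟨g, hg, hgb⟩ := (Algebra.IsIntegral.isIntegral (R := A[X]) b : IsIntegral A[X] b)
    refine ⟨g.map (Polynomial.evalRingHom c), hg.map _, ?_⟩
    rw [← Ideal.Quotient.eq_zero_iff_mem]
    have hhom : ((Ideal.Quotient.mk J).comp (algebraMap A B)).comp (Polynomial.evalRingHom c)
        = (Ideal.Quotient.mk J).comp (algebraMap A[X] B) := by
      refine Polynomial.ringHom_ext (fun a => ?_) ?_
      · simp only [RingHom.comp_apply, Polynomial.coe_evalRingHom, Polynomial.eval_C]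
        rfl
      · simp only [RingHom.comp_apply, Polynomial.coe_evalRingHom, Polynomial.eval_X]
        symm
        rw [Ideal.Quotient.eq]
        exact Ideal.subset_span rfl
    have h1 : Ideal.Quotient.mk J (aeval b (g.map (Polynomial.evalRingHom c)))
        = Polynomial.eval₂ ((Ideal.Quotient.mk J).comp (algebraMap A B))
            (Ideal.Quotient.mk J b) (g.map (Polynomial.evalRingHom c)) := by
      rw [Polynomial.aeval_def, Polynomial.hom_eval₂]
    rw [h1, Polynomial.eval₂_map, hhom, ← Polynomial.hom_eval₂, hgb, map_zero]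
  -- (d) the point lift
  have hlift : ∀ 𝔫 : {𝔫 : Ideal B // 𝔫.IsMaximal ∧ h74_P A (algebraMap A[X] B) ≤ 𝔫 ∧
      algebraMap A[X] B (X - C c) ∈ 𝔫},
      ∃ ψ : h74_Pt A (algebraMap A[X] B) c,
        Ideal.comap ψ.1 (IsLocalRing.maximalIdeal A) = 𝔫.1 := by
    rintro ⟨𝔫, h𝔫, -, hx𝔫⟩
    haveI := h𝔫
    obtain ⟨ψ, hψx, hψ⟩ := Fermat.Agent.Red.SM.PointLift.h8pl_exists_algHom_over K x c hint htf 𝔫
      (by rw [hxc]; exact hx𝔫)
    refine ⟨⟨(ψ : B →+* A), fun q => ?_⟩, hψ⟩
    have hhom : (ψ : B →+* A).comp (algebraMap A[X] B) = Polynomial.evalRingHom c := by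
      refine Polynomial.ringHom_ext (fun a => ?_) ?_
      · simp only [RingHom.comp_apply, Polynomial.coe_evalRingHom, Polynomial.eval_C]
        exact ψ.commutes a
      · simp only [RingHom.comp_apply, Polynomial.coe_evalRingHom, Polynomial.eval_X]
        exact hψx
    exact congrArg (fun f : A[X] →+* A => f q) hhom
  choose Ψ hΨ using hlift
  -- (e) the count
  unfold h74_cnt
  refine Nat.card_le_card_of_injective Ψ fun 𝔫 𝔪 h => ?_
  apply Subtype.ext
  rw [← hΨ 𝔫, ← hΨ 𝔪, h]

end Fermat.Agent.Red.SM.Core

end
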