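import Mathlib
import Fermat.Agent.Red.SM.CoreT
import Fermat.Agent.Red.SM.PointLift

/-!
# P-RED / R-SM / SM-CORE, part (G-C) POINTS (helper52)

Context of `SMCoreT` (`Red/SM/CoreT.lean`): `A` a valuation ring with algebraically closed
fraction field `K`, `B` a finite `A[X]`-algebra.  The generic fibre is *any* commutative
`K[X]`-algebra `BK` with a ring homomorphism `i : B →+* BK` such that

* (h1) `i (algebraMap A[X] B q) = algebraMap K[X] BK (q.map (algebraMap A K))`,
* (h2) every `z : BK` has a denominator in `A`,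
* (h3) `i` is injective.

Main results:

* `h52c_exists_point` : every maximal ideal of `B` containing `X - c` is the preimage of `𝔪_A`
  under a ring homomorphism `φ : B →+* A` over `eval c` (point lift, from `PointLift`).
* `h52c_exists_lift` : such a `φ` extends to `ψ : BK →+* K` over `eval c`.
* `h52c_card_le` : (CNT)  `#{𝔫 ⊂ B maximal, X - c ∈ 𝔫} ≤ #{P ⊂ BK maximal, X - c ∈ P}`.
* `h52c_not_mem_sq` : if `BK` is a Dedekind domain and all `A`-points over `c` are unramified
  (the conclusion of `hunr` in `SMCoreT`), then `X - c ∉ P ^ 2` for every maximal ideal `P` of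
  `BK` containing `X - c`.
* conversion lemmas between the counting sets `{Q : Ideal C // Q.IsMaximal ∧ t ∈ Q}`,
  `MaximalSpectrum (C ⧸ span {t})` and maximal ideals of a quotient.
-/

set_option autoImplicit false
set_option linter.style.haveILetI false
set_option linter.unusedSectionVars false

open Polynomial

noncomputable section

namespace Fermat.Agent.Red.SM

/-! ## Conversions between counting sets -/

section Conv

variable {C : Type*} [CommRing C]

/-- maximal ideals containing `t` ↔ maximal spectrum of the quotient by `(t)`. -/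
def h52c_maxEquiv (t : C) :
    {Q : Ideal C // Q.IsMaximal ∧ t ∈ Q} ≃ MaximalSpectrum (C ⧸ Ideal.span {t}) where
  toFun Q := ⟨Q.1.map (Ideal.Quotient.mk (Ideal.span {t})), by
    have hsurj : Function.Surjective (Ideal.Quotient.mk (Ideal.span {t})) :=
      Ideal.Quotient.mk_surjective
    have hle : Ideal.span {t} ≤ Q.1 := by
      rw [Ideal.span_le, Set.singleton_subset_iff]; exact Q.2.2
    have hcm : Ideal.comap (Ideal.Quotient.mk (Ideal.span {t}))
        (Ideal.map (Ideal.Quotient.mk (Ideal.span {t})) Q.1) = Q.1 := by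
      rw [Ideal.comap_map_of_surjective _ hsurj, sup_eq_left]
      rw [← RingHom.ker_eq_comap_bot, Ideal.mk_ker]
      exact hle
    rcases Ideal.map_eq_top_or_isMaximal_of_surjective _ hsurj Q.2.1 with h | h
    · exfalso
      rw [h, Ideal.comap_top] at hcm
      exact Q.2.1.ne_top hcm.symm
    · exact h⟩
  invFun P := ⟨P.asIdeal.comap (Ideal.Quotient.mk (Ideal.span {t})),
    haveI := P.isMaximal
    Ideal.comap_isMaximal_of_surjective _ Ideal.Quotient.mk_surjective, by
    rw [Ideal.mem_comap]
    have : Ideal.Quotient.mk (Ideal.span {t}) t = 0 :=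
      Ideal.Quotient.eq_zero_iff_mem.mpr (Ideal.subset_span rfl)
    rw [this]
    exact P.asIdeal.zero_mem⟩
  left_inv Q := by
    apply Subtype.ext
    have hsurj : Function.Surjective (Ideal.Quotient.mk (Ideal.span {t})) :=
      Ideal.Quotient.mk_surjective
    have hle : Ideal.span {t} ≤ Q.1 := by
      rw [Ideal.span_le, Set.singleton_subset_iff]; exact Q.2.2
    show Ideal.comap (Ideal.Quotient.mk (Ideal.span {t}))
        (Ideal.map (Ideal.Quotient.mk (Ideal.span {t})) Q.1) = Q.1
    rw [Ideal.comap_map_of_surjective _ hsurj, sup_eq_left]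
    rw [← RingHom.ker_eq_comap_bot, Ideal.mk_ker]
    exact hle
  right_inv P := by
    apply MaximalSpectrum.ext
    exact Ideal.map_comap_of_surjective _ Ideal.Quotient.mk_surjective _

/-- the counting set of TAME / `h2_delta_pid` has the cardinality of the maximal spectrum of the
quotient by `(t)` (the shape of `h2_pts`). -/
theorem h52c_card_maxSpec (t : C) :
    Nat.card (MaximalSpectrum (C ⧸ Ideal.span {t})) =
      Nat.card {Q : Ideal C // Q.IsMaximal ∧ t ∈ Q} :=
  (Nat.card_congr (h52c_maxEquiv t)).symm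

/-- maximal ideals of `C ⧸ J` containing the class of `t` ↔ maximal ideals of `C` containing
`J` and `t`. -/
def h52c_quotEquiv (J : Ideal C) (t : C) :
    {Q : Ideal (C ⧸ J) // Q.IsMaximal ∧ Ideal.Quotient.mk J t ∈ Q} ≃
      {n : Ideal C // n.IsMaximal ∧ J ≤ n ∧ t ∈ n} where
  toFun Q := ⟨Q.1.comap (Ideal.Quotient.mk J),
    haveI := Q.2.1
    Ideal.comap_isMaximal_of_surjective _ Ideal.Quotient.mk_surjective, by
    intro y hy
    rw [Ideal.mem_comap, Ideal.Quotient.eq_zero_iff_mem.mpr hy]
    exact Q.1.zero_mem, Q.2.2⟩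
  invFun n := ⟨n.1.map (Ideal.Quotient.mk J), by
    have hsurj : Function.Surjective (Ideal.Quotient.mk J) := Ideal.Quotient.mk_surjective
    have hcm : Ideal.comap (Ideal.Quotient.mk J) (Ideal.map (Ideal.Quotient.mk J) n.1) = n.1 := by
      rw [Ideal.comap_map_of_surjective _ hsurj, sup_eq_left]
      rw [← RingHom.ker_eq_comap_bot, Ideal.mk_ker]
      exact n.2.2.1
    rcases Ideal.map_eq_top_or_isMaximal_of_surjective _ hsurj n.2.1 with h | h
    · exfalso
      rw [h, Ideal.comap_top] at hcm
      exact n.2.1.ne_top hcm.symm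
    · exact h, Ideal.mem_map_of_mem _ n.2.2.2⟩
  left_inv Q := by
    apply Subtype.ext
    exact Ideal.map_comap_of_surjective _ Ideal.Quotient.mk_surjective _
  right_inv n := by
    apply Subtype.ext
    show Ideal.comap (Ideal.Quotient.mk J) (Ideal.map (Ideal.Quotient.mk J) n.1) = n.1
    rw [Ideal.comap_map_of_surjective _ Ideal.Quotient.mk_surjective, sup_eq_left]
    rw [← RingHom.ker_eq_comap_bot, Ideal.mk_ker]
    exact n.2.2.1

theorem h52c_card_quot (J : Ideal C) (t : C) :
    Nat.card {Q : Ideal (C ⧸ J) // Q.IsMaximal ∧ Ideal.Quotient.mk J t ∈ Q} =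
      Nat.card {n : Ideal C // n.IsMaximal ∧ J ≤ n ∧ t ∈ n} :=
  Nat.card_congr (h52c_quotEquiv J t)

end Conv


/-! ## Finiteness of the fibre -/

section Fin

variable {K : Type*} [Field K] {BK : Type*} [CommRing BK] [Algebra K[X] BK]

/-- modulo `X - κ`, a polynomial is its value at `κ`. -/
theorem h52c_algebraMap_sub_mem (κ : K) (q : K[X]) :
    algebraMap K[X] BK q - algebraMap K[X] BK (C (q.eval κ)) ∈
      Ideal.span {algebraMap K[X] BK (X - C κ)} := by
  obtain ⟨r, hr⟩ := Polynomial.X_sub_C_dvd_sub_C_eval (a := κ) (p := q)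
  rw [← map_sub, hr, map_mul]
  exact Ideal.mul_mem_right _ _ (Ideal.subset_span rfl)

/-- the fibre of a finite `K[X]`-algebra over a point is a finite `K`-module, hence has finitely
many maximal ideals. -/
theorem h52c_finite_fibre [Module.Finite K[X] BK] (κ : K) :
    Finite {P : Ideal BK // P.IsMaximal ∧ algebraMap K[X] BK (X - C κ) ∈ P} := by
  classical
  set J : Ideal BK := Ideal.span {algebraMap K[X] BK (X - C κ)} with hJ
  letI algKD : Algebra K (BK ⧸ J) :=
    ((Ideal.Quotient.mk J).comp ((algebraMap K[X] BK).comp C)).toAlgebra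
  have hsmul : ∀ (a : K) (d : BK ⧸ J),
      a • d = Ideal.Quotient.mk J (algebraMap K[X] BK (C a)) * d := fun a d => by
    rw [Algebra.smul_def]; rfl
  haveI : RingHomSurjective (Polynomial.evalRingHom κ) :=
    ⟨fun a => ⟨C a, by simp⟩⟩
  let f : BK →ₛₗ[Polynomial.evalRingHom κ] (BK ⧸ J) :=
    { toFun := fun z => Ideal.Quotient.mk J z
      map_add' := fun x y => map_add _ x y
      map_smul' := fun q z => by
        show Ideal.Quotient.mk J (q • z) = (q.eval κ) • Ideal.Quotient.mk J z
        rw [hsmul, Algebra.smul_def, map_mul]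
        congr 1
        rw [Ideal.Quotient.eq]
        exact h52c_algebraMap_sub_mem κ q }
  haveI : Module.Finite K (BK ⧸ J) :=
    Module.Finite.of_surjective f Ideal.Quotient.mk_surjective
  haveI : IsArtinianRing (BK ⧸ J) := IsArtinianRing.of_finite K (BK ⧸ J)
  exact Finite.of_equiv _ (h52c_maxEquiv (algebraMap K[X] BK (X - C κ))).symm

end Fin


/-! ## Point lift in the packaging of `SMCoreT` -/

section Points

variable {A : Type*} [CommRing A] [IsDomain A] [ValuationRing A]
  {B : Type*} [CommRing B] [Algebra A[X] B] [Module.Finite A[X] B]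

/-- **Point lift** (SMCoreT packaging): every maximal ideal `𝔫` of `B` containing `X - c` is the
preimage of `𝔪_A` under a ring homomorphism `φ : B →+* A` over `eval c`. -/
theorem h52c_exists_point
    (K : Type*) [Field K] [Algebra A K] [IsFractionRing A K] [IsAlgClosed K] (c : A)
    (htf : ∀ (α : A) (b : B), α ≠ 0 →
      algebraMap A[X] B (C α) * b ∈ Ideal.span {algebraMap A[X] B (X - C c)} →
      b ∈ Ideal.span {algebraMap A[X] B (X - C c)})
    (n : Ideal B) [hn : n.IsMaximal] (hxn : algebraMap A[X] B (X - C c) ∈ n) :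
    ∃ φ : B →+* A, (∀ q : A[X], φ (algebraMap A[X] B q) = q.eval c) ∧
      Ideal.comap φ (IsLocalRing.maximalIdeal A) = n := by
  classical
  letI algAB : Algebra A B := ((algebraMap A[X] B).comp C).toAlgebra
  have hAB : ∀ a : A, algebraMap A B a = algebraMap A[X] B (C a) := fun a => rfl
  have hx : algebraMap A[X] B X - algebraMap A B c = algebraMap A[X] B (X - C c) := by
    rw [map_sub, hAB]
  have hint : ∀ b : B, ∃ f : A[X], f.Monic ∧
      aeval b f ∈ Ideal.span {algebraMap A[X] B X - algebraMap A B c} := by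
    intro b
    rw [hx]
    set J : Ideal B := Ideal.span {algebraMap A[X] B (X - C c)} with hJ
    have hcomp : (algebraMap A (B ⧸ J)).comp (Polynomial.evalRingHom c) =
        (Ideal.Quotient.mk J).comp (algebraMap A[X] B) := by
      apply Polynomial.ringHom_ext
      · intro a
        simp only [RingHom.comp_apply, Polynomial.coe_evalRingHom, Polynomial.eval_C]
        rfl
      · simp only [RingHom.comp_apply, Polynomial.coe_evalRingHom, Polynomial.eval_X]
        show Ideal.Quotient.mk J (algebraMap A B c) = _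
        rw [eq_comm, Ideal.Quotient.eq, hx]
        exact Ideal.subset_span rfl
    have hb : IsIntegral A[X] b := Algebra.IsIntegral.isIntegral b
    obtain ⟨f, hf, hfb⟩ :=
      IsIntegral.map_of_comp_eq (Polynomial.evalRingHom c) (Ideal.Quotient.mk J) hcomp hb
    refine ⟨f, hf, ?_⟩
    rw [← Ideal.Quotient.eq_zero_iff_mem]
    have h1 : aeval (Ideal.Quotient.mkₐ A J b) f = Ideal.Quotient.mkₐ A J (aeval b f) :=
      Polynomial.aeval_algHom_apply (Ideal.Quotient.mkₐ A J) b f
    have h2 : Ideal.Quotient.mk J (aeval b f) = aeval (Ideal.Quotient.mk J b) f := h1.symm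
    rw [h2, Polynomial.aeval_def]
    exact hfb
  have htf' : ∀ (α : A) (b : B), α ≠ 0 →
      α • b ∈ Ideal.span {algebraMap A[X] B X - algebraMap A B c} →
      b ∈ Ideal.span {algebraMap A[X] B X - algebraMap A B c} := by
    intro α b hα hb
    rw [hx] at hb ⊢
    rw [Algebra.smul_def, hAB] at hb
    exact htf α b hα hb
  obtain ⟨φ, hφx, hφn⟩ := PointLift.h8pl_exists_algHom_over K (algebraMap A[X] B X) c hint htf'
    n (by rw [hx]; exact hxn)
  refine ⟨φ.toRingHom, ?_, hφn⟩
  have hcomp : (φ.toRingHom.comp (algebraMap A[X] B)) = Polynomial.evalRingHom c := by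
    apply Polynomial.ringHom_ext
    · intro a
      simp only [RingHom.comp_apply, Polynomial.coe_evalRingHom, Polynomial.eval_C]
      exact φ.commutes a
    · simp only [RingHom.comp_apply, Polynomial.coe_evalRingHom, Polynomial.eval_X]
      exact hφx
  intro q
  exact DFunLike.congr_fun hcomp q


/-! ## The generic fibre -/

variable {K : Type*} [Field K] [Algebra A K] [IsFractionRing A K]
  {BK : Type*} [CommRing BK] [Algebra K[X] BK] (i : B →+* BK)

/-- the submonoid of `B` of the images of the nonzero constants. -/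
def h52c_M (A : Type*) [CommRing A] (B : Type*) [CommRing B] [Algebra A[X] B] : Submonoid B :=
  Submonoid.map ((algebraMap A[X] B).comp (C : A →+* A[X])) (nonZeroDivisors A)

/-- under (h1), (h2), (h3) the generic fibre `BK` is the localization of `B` at the nonzero
constants. -/
theorem h52c_isLocalization
    (h1 : ∀ q : A[X], i (algebraMap A[X] B q) = algebraMap K[X] BK (q.map (algebraMap A K)))
    (h2 : ∀ z : BK, ∃ a : A, a ≠ 0 ∧ ∃ b : B,
      algebraMap K[X] BK (C (algebraMap A K a)) * z = i b)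
    (h3 : Function.Injective i) :
    @IsLocalization B _ (h52c_M A B) BK _ i.toAlgebra := by
  letI : Algebra B BK := i.toAlgebra
  have hi : ∀ b : B, algebraMap B BK b = i b := fun b => rfl
  rw [isLocalization_iff]
  refine ⟨?_, ?_, ?_⟩
  · rintro ⟨y, a, ha, rfl⟩
    have ha0 : a ≠ 0 := nonZeroDivisors.ne_zero ha
    show IsUnit (algebraMap B BK (algebraMap A[X] B (C a)))
    rw [hi, h1, Polynomial.map_C]
    apply IsUnit.map
    rw [Polynomial.isUnit_iff]
    refine ⟨algebraMap A K a, ?_, rfl⟩
    exact isUnit_iff_ne_zero.mpr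
      ((map_ne_zero_iff _ (IsFractionRing.injective A K)).mpr ha0)
  · intro z
    obtain ⟨a, ha, b, hb⟩ := h2 z
    refine ⟨⟨b, ⟨algebraMap A[X] B (C a), a, mem_nonZeroDivisors_of_ne_zero ha, rfl⟩⟩, ?_⟩
    show z * algebraMap B BK (algebraMap A[X] B (C a)) = algebraMap B BK b
    rw [hi, hi, h1, Polynomial.map_C, mul_comm]
    exact hb
  · intro x y hxy
    exact ⟨1, by rw [h3 hxy]⟩

/-- **Extension of an `A`-point to the generic fibre.** -/
theorem h52c_exists_lift
    (h1 : ∀ q : A[X], i (algebraMap A[X] B q) = algebraMap K[X] BK (q.map (algebraMap A K)))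
    (h2 : ∀ z : BK, ∃ a : A, a ≠ 0 ∧ ∃ b : B,
      algebraMap K[X] BK (C (algebraMap A K a)) * z = i b)
    (h3 : Function.Injective i)
    (c : A) (φ : B →+* A) (hφ : ∀ q : A[X], φ (algebraMap A[X] B q) = q.eval c) :
    ∃ ψ : BK →+* K, (∀ b : B, ψ (i b) = algebraMap A K (φ b)) ∧
      ∀ q : K[X], ψ (algebraMap K[X] BK q) = q.eval (algebraMap A K c) := by
  letI : Algebra B BK := i.toAlgebra
  have hi : ∀ b : B, algebraMap B BK b = i b := fun b => rfl
  haveI : IsLocalization (h52c_M A B) BK := h52c_isLocalization i h1 h2 h3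
  have hg : ∀ y : h52c_M A B, IsUnit (((algebraMap A K).comp φ) y) := by
    rintro ⟨y, a, ha, rfl⟩
    have ha0 : a ≠ 0 := nonZeroDivisors.ne_zero ha
    show IsUnit (algebraMap A K (φ (algebraMap A[X] B (C a))))
    rw [hφ, Polynomial.eval_C]
    exact isUnit_iff_ne_zero.mpr
      ((map_ne_zero_iff _ (IsFractionRing.injective A K)).mpr ha0)
  set ψ : BK →+* K := IsLocalization.lift hg with hψ
  have hψi : ∀ b : B, ψ (i b) = algebraMap A K (φ b) := fun b => by
    rw [← hi, hψ, IsLocalization.lift_eq]; rfl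
  have hψA : ∀ a : A, ψ (algebraMap K[X] BK (C (algebraMap A K a))) = algebraMap A K a := by
    intro a
    have := hψi (algebraMap A[X] B (C a))
    rw [h1, Polynomial.map_C, hφ, Polynomial.eval_C] at this
    exact this
  refine ⟨ψ, hψi, ?_⟩
  have hcomp : ψ.comp (algebraMap K[X] BK) = Polynomial.evalRingHom (algebraMap A K c) := by
    apply Polynomial.ringHom_ext
    · intro κ
      simp only [RingHom.comp_apply, Polynomial.coe_evalRingHom, Polynomial.eval_C]
      obtain ⟨a, a', ha', hκ⟩ := IsFractionRing.div_surjective (A := A) κ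
      have ha'0 : algebraMap A K a' ≠ 0 :=
        (map_ne_zero_iff _ (IsFractionRing.injective A K)).mpr (nonZeroDivisors.ne_zero ha')
      have hκ' : κ * algebraMap A K a' = algebraMap A K a := by
        rw [← hκ, div_mul_cancel₀ _ ha'0]
      have key : ψ (algebraMap K[X] BK (C κ)) * algebraMap A K a' = algebraMap A K a := by
        calc ψ (algebraMap K[X] BK (C κ)) * algebraMap A K a'
            = ψ (algebraMap K[X] BK (C κ)) * ψ (algebraMap K[X] BK (C (algebraMap A K a'))) := by
              rw [hψA]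
          _ = ψ (algebraMap K[X] BK (C (κ * algebraMap A K a'))) := by
              rw [← map_mul, ← map_mul, ← Polynomial.C_mul]
          _ = algebraMap A K a := by rw [hκ', hψA]
      rw [← hκ, eq_div_iff ha'0, hκ]
      exact key
    · simp only [RingHom.comp_apply, Polynomial.coe_evalRingHom, Polynomial.eval_X]
      have := hψi (algebraMap A[X] B X)
      rw [h1, Polynomial.map_X, hφ, Polynomial.eval_X] at this
      exact this
  intro q
  exact DFunLike.congr_fun hcomp q

/-- **(G-C)(i), injection form.**  There is an injection from the maximal ideals of `B` over `c`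
into the maximal ideals of the generic fibre over `c`. -/
theorem h52c_exists_injective [IsAlgClosed K]
    (h1 : ∀ q : A[X], i (algebraMap A[X] B q) = algebraMap K[X] BK (q.map (algebraMap A K)))
    (h2 : ∀ z : BK, ∃ a : A, a ≠ 0 ∧ ∃ b : B,
      algebraMap K[X] BK (C (algebraMap A K a)) * z = i b)
    (h3 : Function.Injective i)
    (c : A)
    (htf : ∀ (α : A) (b : B), α ≠ 0 →
      algebraMap A[X] B (C α) * b ∈ Ideal.span {algebraMap A[X] B (X - C c)} →
      b ∈ Ideal.span {algebraMap A[X] B (X - C c)}) :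
    ∃ f : {n : Ideal B // n.IsMaximal ∧ algebraMap A[X] B (X - C c) ∈ n} →
      {P : Ideal BK // P.IsMaximal ∧ algebraMap K[X] BK (X - C (algebraMap A K c)) ∈ P},
      Function.Injective f := by
  classical
  have hex : ∀ n : {n : Ideal B // n.IsMaximal ∧ algebraMap A[X] B (X - C c) ∈ n},
      ∃ φ : B →+* A, (∀ q : A[X], φ (algebraMap A[X] B q) = q.eval c) ∧
        Ideal.comap φ (IsLocalRing.maximalIdeal A) = n.1 := fun n =>
    haveI := n.2.1
    h52c_exists_point K c htf n.1 n.2.2
  choose φ hφ hφn using hex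
  choose ψ hψi hψq using fun n => h52c_exists_lift i h1 h2 h3 c (φ n) (hφ n)
  have hsurj : ∀ n, Function.Surjective (ψ n) := fun n κ =>
    ⟨algebraMap K[X] BK (C κ), by rw [hψq, Polynomial.eval_C]⟩
  refine ⟨fun n => ⟨RingHom.ker (ψ n),
    RingHom.ker_isMaximal_of_surjective (ψ n) (hsurj n), ?_⟩, ?_⟩
  · rw [RingHom.mem_ker, hψq]
    simp
  · intro n n' hnn'
    have hker : RingHom.ker (ψ n) = RingHom.ker (ψ n') := congrArg Subtype.val hnn'
    have hφeq : φ n = φ n' := by
      ext b
      apply IsFractionRing.injective A K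
      rw [← hψi n b, ← hψi n' b]
      -- `i b - (ψ n (i b))` is in the common kernel
      have hmem : i b - algebraMap K[X] BK (C (ψ n (i b))) ∈ RingHom.ker (ψ n) := by
        rw [RingHom.mem_ker, map_sub, hψq, Polynomial.eval_C, sub_self]
      rw [hker, RingHom.mem_ker, map_sub, hψq, Polynomial.eval_C, sub_eq_zero] at hmem
      exact hmem.symm
    apply Subtype.ext
    rw [← hφn n, ← hφn n', hφeq]

/-- **(G-C)(i), CNT.**  The number of maximal ideals of `B` over `c` is at most the number of
maximal ideals of the generic fibre over `c`. -/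
theorem h52c_card_le [IsAlgClosed K] [Module.Finite K[X] BK]
    (h1 : ∀ q : A[X], i (algebraMap A[X] B q) = algebraMap K[X] BK (q.map (algebraMap A K)))
    (h2 : ∀ z : BK, ∃ a : A, a ≠ 0 ∧ ∃ b : B,
      algebraMap K[X] BK (C (algebraMap A K a)) * z = i b)
    (h3 : Function.Injective i)
    (c : A)
    (htf : ∀ (α : A) (b : B), α ≠ 0 →
      algebraMap A[X] B (C α) * b ∈ Ideal.span {algebraMap A[X] B (X - C c)} →
      b ∈ Ideal.span {algebraMap A[X] B (X - C c)}) :
    Nat.card {n : Ideal B // n.IsMaximal ∧ algebraMap A[X] B (X - C c) ∈ n} ≤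
      Nat.card {P : Ideal BK // P.IsMaximal ∧
        algebraMap K[X] BK (X - C (algebraMap A K c)) ∈ P} := by
  haveI := h52c_finite_fibre (BK := BK) (algebraMap A K c)
  obtain ⟨f, hf⟩ := h52c_exists_injective i h1 h2 h3 c htf
  exact Nat.card_le_card_of_injective f hf

/-- **(G-C)(i), CNT**, with an additional clause `J ≤ 𝔫` on the `B` side (the shape of
`h74_cnt`, `J = 𝔪_A B`). -/
theorem h52c_card_le_of_le [IsAlgClosed K] [Module.Finite K[X] BK]
    (h1 : ∀ q : A[X], i (algebraMap A[X] B q) = algebraMap K[X] BK (q.map (algebraMap A K)))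
    (h2 : ∀ z : BK, ∃ a : A, a ≠ 0 ∧ ∃ b : B,
      algebraMap K[X] BK (C (algebraMap A K a)) * z = i b)
    (h3 : Function.Injective i)
    (c : A)
    (htf : ∀ (α : A) (b : B), α ≠ 0 →
      algebraMap A[X] B (C α) * b ∈ Ideal.span {algebraMap A[X] B (X - C c)} →
      b ∈ Ideal.span {algebraMap A[X] B (X - C c)})
    (J : Ideal B) :
    Nat.card {n : Ideal B // n.IsMaximal ∧ J ≤ n ∧ algebraMap A[X] B (X - C c) ∈ n} ≤
      Nat.card {P : Ideal BK // P.IsMaximal ∧
        algebraMap K[X] BK (X - C (algebraMap A K c)) ∈ P} := by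
  haveI := h52c_finite_fibre (BK := BK) (algebraMap A K c)
  obtain ⟨f, hf⟩ := h52c_exists_injective i h1 h2 h3 c htf
  refine Nat.card_le_card_of_injective
    (fun n => f ⟨n.1, n.2.1, n.2.2.2⟩) ?_
  intro n n' h
  have h' := congrArg Subtype.val (hf h)
  exact Subtype.ext h'

/-- every maximal ideal of `B` containing `X - c` contains `𝔪_A B` (so the clause `J ≤ 𝔫` of
`h74_cnt` is automatic). -/
theorem h52c_coreJ_le
    (K : Type*) [Field K] [Algebra A K] [IsFractionRing A K] [IsAlgClosed K] (c : A)
    (htf : ∀ (α : A) (b : B), α ≠ 0 →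
      algebraMap A[X] B (C α) * b ∈ Ideal.span {algebraMap A[X] B (X - C c)} →
      b ∈ Ideal.span {algebraMap A[X] B (X - C c)})
    (n : Ideal B) [hn : n.IsMaximal] (hxn : algebraMap A[X] B (X - C c) ∈ n) :
    ((IsLocalRing.maximalIdeal A).map (C : A →+* A[X])).map (algebraMap A[X] B) ≤ n := by
  obtain ⟨φ, hφ, hφn⟩ := h52c_exists_point K c htf n hxn
  rw [Ideal.map_map, Ideal.map_le_iff_le_comap]
  intro a ha
  rw [Ideal.mem_comap, ← hφn, Ideal.mem_comap, RingHom.comp_apply, hφ, Polynomial.eval_C]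
  exact ha

/-! ## Unramified points -/

/-- Dedekind lemma: for a prime `P ≠ ⊥` and `ξ ∈ P ^ 2` there are `t, z ∈ P` and `w ∉ P` with
`ξ * w = t * z`. -/
theorem h52c_dedekind_sq {D : Type*} [CommRing D] [IsDedekindDomain D] (P : Ideal D)
    [hPp : P.IsPrime] (hP : P ≠ ⊥) (ξ : D) (hξ : ξ ∈ P ^ 2) :
    ∃ t ∈ P, ∃ z ∈ P, ∃ w, w ∉ P ∧ ξ * w = t * z := by
  obtain ⟨t, ht1, ht2⟩ := Ideal.exists_mem_pow_notMem_pow_succ P hP hPp.ne_top 1
  rw [pow_one] at ht1
  have hle : Ideal.span {t} ≤ P := by
    rw [Ideal.span_le, Set.singleton_subset_iff]; exact ht1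
  obtain ⟨I, hI⟩ := Ideal.dvd_iff_le.mpr hle
  have hIP : ¬ I ≤ P := by
    intro h
    apply ht2
    have h1 : Ideal.span {t} ≤ P ^ 2 := by
      rw [hI, pow_two]
      exact Ideal.mul_mono_right h
    exact h1 (Ideal.subset_span rfl)
  obtain ⟨w, hwI, hwP⟩ := SetLike.not_le_iff_exists.mp hIP
  have h2 : ξ * w ∈ P * Ideal.span {t} := by
    have h3 : ξ * w ∈ P ^ 2 * I := Ideal.mul_mem_mul hξ hwI
    rwa [pow_two, mul_assoc, ← hI] at h3
  obtain ⟨z, hz, hzt⟩ := Ideal.mem_mul_span_singleton.mp h2
  exact ⟨t, ht1, z, hz, w, hwP, by rw [← hzt, mul_comm]⟩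

/-- every maximal ideal of the generic fibre over `κ` is the kernel of a point
`ψ : BK →+* K` over `eval κ`. -/
theorem h52c_exists_genPoint [IsAlgClosed K] [Module.Finite K[X] BK] (κ : K)
    (P : Ideal BK) [hPm : P.IsMaximal] (hP : algebraMap K[X] BK (X - C κ) ∈ P) :
    ∃ ψ : BK →+* K, RingHom.ker ψ = P ∧ ∀ q : K[X], ψ (algebraMap K[X] BK q) = q.eval κ := by
  classical
  letI algKD : Algebra K (BK ⧸ P) :=
    ((Ideal.Quotient.mk P).comp ((algebraMap K[X] BK).comp C)).toAlgebra
  have hcomp : (algebraMap K (BK ⧸ P)).comp (Polynomial.evalRingHom κ) =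
      (Ideal.Quotient.mk P).comp (algebraMap K[X] BK) := by
    apply Polynomial.ringHom_ext
    · intro a
      simp only [RingHom.comp_apply, Polynomial.coe_evalRingHom, Polynomial.eval_C]
      rfl
    · simp only [RingHom.comp_apply, Polynomial.coe_evalRingHom, Polynomial.eval_X]
      show Ideal.Quotient.mk P (algebraMap K[X] BK (C κ)) = _
      rw [eq_comm, Ideal.Quotient.eq, ← map_sub]
      exact hP
  haveI : Algebra.IsIntegral K (BK ⧸ P) := by
    refine ⟨fun d => ?_⟩
    obtain ⟨z, rfl⟩ := Ideal.Quotient.mk_surjective d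
    have hz : IsIntegral K[X] z := Algebra.IsIntegral.isIntegral z
    exact IsIntegral.map_of_comp_eq (Polynomial.evalRingHom κ) (Ideal.Quotient.mk P) hcomp hz
  have hbij : Function.Bijective (algebraMap K (BK ⧸ P)) :=
    IsAlgClosed.algebraMap_bijective_of_isIntegral
  set e : K ≃+* (BK ⧸ P) := RingEquiv.ofBijective (algebraMap K (BK ⧸ P)) hbij with he
  have hee : ∀ a : K, e a = algebraMap K (BK ⧸ P) a := fun a => rfl
  refine ⟨e.symm.toRingHom.comp (Ideal.Quotient.mk P), ?_, ?_⟩
  · ext z
    rw [RingHom.mem_ker, RingHom.comp_apply]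
    show e.symm (Ideal.Quotient.mk P z) = 0 ↔ z ∈ P
    rw [map_eq_zero_iff _ e.symm.injective, Ideal.Quotient.eq_zero_iff_mem]
  · intro q
    rw [RingHom.comp_apply]
    show e.symm (Ideal.Quotient.mk P (algebraMap K[X] BK q)) = _
    have h := DFunLike.congr_fun hcomp q
    simp only [RingHom.comp_apply, Polynomial.coe_evalRingHom] at h
    rw [← h, ← hee, RingEquiv.symm_apply_apply]

/-- every point `ψ : BK →+* K` over `eval c`, `c ∈ A`, restricts to an `A`-point of `B`. -/
theorem h52c_exists_restrict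
    (h1 : ∀ q : A[X], i (algebraMap A[X] B q) = algebraMap K[X] BK (q.map (algebraMap A K)))
    (c : A) (ψ : BK →+* K)
    (hψ : ∀ q : K[X], ψ (algebraMap K[X] BK q) = q.eval (algebraMap A K c)) :
    ∃ φ : B →+* A, (∀ b : B, algebraMap A K (φ b) = ψ (i b)) ∧
      ∀ q : A[X], φ (algebraMap A[X] B q) = q.eval c := by
  classical
  have hinj : Function.Injective (algebraMap A K) := IsFractionRing.injective A K
  have hcomp : (algebraMap A K).comp (Polynomial.evalRingHom c) =
      (ψ.comp i).comp (algebraMap A[X] B) := by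
    apply Polynomial.ringHom_ext
    · intro a
      simp only [RingHom.comp_apply, Polynomial.coe_evalRingHom, Polynomial.eval_C]
      rw [h1, Polynomial.map_C, hψ, Polynomial.eval_C]
    · simp only [RingHom.comp_apply, Polynomial.coe_evalRingHom, Polynomial.eval_X]
      rw [h1, Polynomial.map_X, hψ, Polynomial.eval_X]
  have hmem : ∀ b : B, (ψ.comp i) b ∈ (algebraMap A K).range := by
    intro b
    have hb : IsIntegral A[X] b := Algebra.IsIntegral.isIntegral b
    have h := IsIntegral.map_of_comp_eq (Polynomial.evalRingHom c) (ψ.comp i) hcomp hb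
    obtain ⟨y, hy⟩ := IsIntegrallyClosed.algebraMap_eq_of_integral h
    exact ⟨y, hy⟩
  have hbij : Function.Bijective (algebraMap A K).rangeRestrict :=
    ⟨fun x y hxy => hinj (congrArg Subtype.val hxy),
      (algebraMap A K).rangeRestrict_surjective⟩
  set e : A ≃+* (algebraMap A K).range :=
    RingEquiv.ofBijective (algebraMap A K).rangeRestrict hbij with he
  set φ : B →+* A :=
    e.symm.toRingHom.comp ((ψ.comp i).codRestrict (algebraMap A K).range hmem) with hφ
  have hφK : ∀ b : B, algebraMap A K (φ b) = ψ (i b) := by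
    intro b
    have h1' : e (φ b) = (ψ.comp i).codRestrict (algebraMap A K).range hmem b := by
      rw [hφ, RingHom.comp_apply]
      exact e.apply_symm_apply _
    have h2' := congrArg Subtype.val h1'
    exact h2'
  refine ⟨φ, hφK, fun q => ?_⟩
  apply hinj
  rw [hφK]
  have h := DFunLike.congr_fun hcomp q
  simp only [RingHom.comp_apply, Polynomial.coe_evalRingHom] at h
  exact h.symm

/-- **(G-C)(ii), pointwise.**  If the generic fibre is a Dedekind domain and all `A`-points of
`B` over `c` are unramified (conclusion of `hunr` in `SMCoreT`), then `X - c ∉ P ^ 2` for every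
maximal ideal `P` of the generic fibre containing `X - c`. -/
theorem h52c_not_mem_sq [IsAlgClosed K] [Module.Finite K[X] BK] [IsDedekindDomain BK]
    (h1 : ∀ q : A[X], i (algebraMap A[X] B q) = algebraMap K[X] BK (q.map (algebraMap A K)))
    (h2 : ∀ z : BK, ∃ a : A, a ≠ 0 ∧ ∃ b : B,
      algebraMap K[X] BK (C (algebraMap A K a)) * z = i b)
    (h3 : Function.Injective i)
    (c : A)
    (hunr : ∀ φ : B →+* A, (∀ q : A[X], φ (algebraMap A[X] B q) = q.eval c) →
      ∀ y z w : B, φ y = 0 → φ z = 0 → φ w ≠ 0 →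
        algebraMap A[X] B (X - C c) * w ≠ y * z)
    (P : Ideal BK) [hPm : P.IsMaximal]
    (hP : algebraMap K[X] BK (X - C (algebraMap A K c)) ∈ P) :
    algebraMap K[X] BK (X - C (algebraMap A K c)) ∉ P ^ 2 := by
  classical
  intro hsq
  have hinj : Function.Injective (algebraMap A K) := IsFractionRing.injective A K
  obtain ⟨ψ, hψker, hψq⟩ := h52c_exists_genPoint (algebraMap A K c) P hP
  obtain ⟨φ, hφK, hφq⟩ := h52c_exists_restrict i h1 c ψ hψq
  -- `X - c ≠ 0` in `B`
  have hξ0 : algebraMap A[X] B (X - C c) ≠ 0 := by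
    have := hunr φ hφq 0 0 1 (map_zero φ) (map_zero φ) (by rw [map_one]; exact one_ne_zero)
    intro h
    apply this
    rw [h, zero_mul, zero_mul]
  have hξi : algebraMap K[X] BK (X - C (algebraMap A K c)) = i (algebraMap A[X] B (X - C c)) := by
    rw [h1, Polynomial.map_sub, Polynomial.map_X, Polynomial.map_C]
  have hPbot : P ≠ ⊥ := by
    intro h
    rw [h, Ideal.mem_bot, hξi] at hP
    exact hξ0 (h3 (by rw [hP, map_zero]))
  obtain ⟨t, ht, z, hz, w, hw, hξw⟩ := h52c_dedekind_sq P hPbot _ hsq
  obtain ⟨a₁, ha₁, t₀, ht₀⟩ := h2 t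
  obtain ⟨a₂, ha₂, z₀, hz₀⟩ := h2 z
  obtain ⟨a₃, ha₃, w₀, hw₀⟩ := h2 w
  have hcst : ∀ a : A, algebraMap K[X] BK (C (algebraMap A K a)) = i (algebraMap A[X] B (C a)) :=
    fun a => by rw [h1, Polynomial.map_C]
  have hψt : ψ t = 0 := by rw [← RingHom.mem_ker, hψker]; exact ht
  have hψz : ψ z = 0 := by rw [← RingHom.mem_ker, hψker]; exact hz
  have hψw : ψ w ≠ 0 := by
    intro h
    apply hw
    rw [← hψker, RingHom.mem_ker]; exact h
  have hφt : φ t₀ = 0 := by
    apply hinj
    rw [hφK, ← ht₀, map_mul, hψt, mul_zero, map_zero]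
  have hφz : φ z₀ = 0 := by
    apply hinj
    rw [hφK, ← hz₀, map_mul, hψz, mul_zero, map_zero]
  have hφw : φ w₀ ≠ 0 := by
    intro h
    have h' : ψ (i w₀) = 0 := by rw [← hφK, h, map_zero]
    rw [← hw₀, map_mul, hψq, Polynomial.eval_C] at h'
    rcases mul_eq_zero.mp h' with h'' | h''
    · exact ha₃ (hinj (by rw [h'', map_zero]))
    · exact hψw h''
  refine hunr φ hφq (algebraMap A[X] B (C a₃) * t₀) z₀
    (algebraMap A[X] B (C a₁) * algebraMap A[X] B (C a₂) * w₀) ?_ hφz ?_ ?_
  · rw [map_mul, hφt, mul_zero]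
  · rw [map_mul, map_mul, hφq, hφq, Polynomial.eval_C, Polynomial.eval_C]
    exact mul_ne_zero (mul_ne_zero ha₁ ha₂) hφw
  · apply h3
    rw [map_mul, map_mul, map_mul, map_mul, map_mul, ← hξi, ← hcst, ← hcst, ← hcst, ← hw₀, ← ht₀,
      ← hz₀]
    calc algebraMap K[X] BK (X - C (algebraMap A K c)) *
          (algebraMap K[X] BK (C (algebraMap A K a₁)) *
            algebraMap K[X] BK (C (algebraMap A K a₂)) *
            (algebraMap K[X] BK (C (algebraMap A K a₃)) * w))
        = algebraMap K[X] BK (C (algebraMap A K a₁)) *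
            algebraMap K[X] BK (C (algebraMap A K a₂)) *
            algebraMap K[X] BK (C (algebraMap A K a₃)) *
            (algebraMap K[X] BK (X - C (algebraMap A K c)) * w) := by ring
      _ = algebraMap K[X] BK (C (algebraMap A K a₃)) *
            (algebraMap K[X] BK (C (algebraMap A K a₁)) * t) *
            (algebraMap K[X] BK (C (algebraMap A K a₂)) * z) := by rw [hξw]; ring

end Points

end Fermat.Agent.Red.SM

end
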