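import Mathlib

/-!
# P-RED / SM: matrix lemmas for the delta-lemma (helper2)

* `h2_pow_dvd_det_of_rows` : if the rows `i ∈ s` of a square matrix are divisible by `p`, then
  `p ^ s.card` divides the determinant.
* `h2_pow_dvd_det_of_rank` : for a square matrix `T` over `k[X]` and `a : k`,
  `(X - C a) ^ (n - rank (T(a)))` divides `det T`.
-/

set_option autoImplicit false

open Polynomial Matrix

namespace Fermat.Agent.Red.SM

variable {ι : Type*} [Fintype ι] [DecidableEq ι]

/-- If every entry of the rows `i ∈ s` is divisible by `p`, then `p ^ s.card ∣ det M`. -/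
theorem h2_pow_dvd_det_of_rows {R : Type*} [CommRing R] (M : Matrix ι ι R) (p : R)
    (s : Finset ι) (h : ∀ i ∈ s, ∀ j, p ∣ M i j) : p ^ s.card ∣ M.det := by
  classical
  choose! q hq using h
  set M' : Matrix ι ι R := fun i j => if i ∈ s then q i j else M i j with hM'
  set D : ι → R := fun i => if i ∈ s then p else 1 with hD
  have hM : M = Matrix.diagonal D * M' := by
    ext i j
    rw [Matrix.diagonal_mul]
    by_cases hi : i ∈ s
    · simp only [hD, hM', hi, if_true]
      exact hq i hi j
    · simp only [hD, hM', hi, if_false, one_mul]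
  have hdet : (Matrix.diagonal D).det = p ^ s.card := by
    rw [Matrix.det_diagonal]
    simp only [hD]
    rw [Finset.prod_ite_mem, Finset.univ_inter, Finset.prod_const]
  rw [hM, Matrix.det_mul, hdet]
  exact Dvd.intro _ rfl

variable {k : Type*} [Field k]

/-- For a square matrix `T` over `k[X]`, the determinant of `T` is divisible by
`(X - C a) ^ (n - rank T(a))`. -/
theorem h2_pow_dvd_det_of_rank (T : Matrix ι ι k[X]) (a : k) :
    (X - C a) ^ (Fintype.card ι - (T.map (Polynomial.eval a)).rank) ∣ T.det := by
  classical
  obtain ⟨L, L', D, hD⟩ :=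
    Matrix.Pivot.exists_list_transvec_mul_mul_list_transvec_eq_diagonal
      (T.map (Polynomial.eval a))
  set P : Matrix ι ι k := (L.map Matrix.TransvectionStruct.toMatrix).prod with hP
  set Q : Matrix ι ι k := (L'.map Matrix.TransvectionStruct.toMatrix).prod with hQ
  have hPdet : P.det = 1 := Matrix.TransvectionStruct.det_toMatrix_prod L
  have hQdet : Q.det = 1 := Matrix.TransvectionStruct.det_toMatrix_prod L'
  set P' : Matrix ι ι k[X] := P.map C with hP'
  set Q' : Matrix ι ι k[X] := Q.map C with hQ'
  have hP'det : P'.det = 1 := by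
    have := (RingHom.map_det (C : k →+* k[X]) P).symm
    rw [RingHom.mapMatrix_apply] at this
    rw [hP', this, hPdet, map_one]
  have hQ'det : Q'.det = 1 := by
    have := (RingHom.map_det (C : k →+* k[X]) Q).symm
    rw [RingHom.mapMatrix_apply] at this
    rw [hQ', this, hQdet, map_one]
  set N : Matrix ι ι k[X] := P' * T * Q' with hN
  have hNdet : N.det = T.det := by
    rw [hN, Matrix.det_mul, Matrix.det_mul, hP'det, hQ'det, one_mul, mul_one]
  have hNev : N.map (Polynomial.eval a) = Matrix.diagonal D := by
    have h1 : N.map (Polynomial.eval a) =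
        (P'.map (Polynomial.eval a)) * (T.map (Polynomial.eval a)) *
          (Q'.map (Polynomial.eval a)) := by
      rw [hN]
      change (P' * T * Q').map (Polynomial.evalRingHom a) =
        (P'.map (Polynomial.evalRingHom a)) * (T.map (Polynomial.evalRingHom a)) *
          (Q'.map (Polynomial.evalRingHom a))
      rw [Matrix.map_mul, Matrix.map_mul]
    have h2 : P'.map (Polynomial.eval a) = P := by
      ext i j; simp [hP']
    have h3 : Q'.map (Polynomial.eval a) = Q := by
      ext i j; simp [hQ']
    rw [h1, h2, h3, hD]
  set s : Finset ι := Finset.univ.filter (fun i => D i = 0) with hs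
  have hrows : ∀ i ∈ s, ∀ j, (X - C a) ∣ N i j := by
    intro i hi j
    rw [Polynomial.dvd_iff_isRoot, Polynomial.IsRoot.def]
    have := congrFun (congrFun hNev i) j
    rw [Matrix.map_apply] at this
    rw [this]
    have hDi : D i = 0 := (Finset.mem_filter.1 hi).2
    by_cases hij : i = j
    · subst hij; rw [Matrix.diagonal_apply_eq, hDi]
    · rw [Matrix.diagonal_apply_ne _ hij]
  have hdvd := h2_pow_dvd_det_of_rows N (X - C a) s hrows
  rw [hNdet] at hdvd
  have hrank : (T.map (Polynomial.eval a)).rank = Fintype.card {i // D i ≠ 0} := by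
    rw [← Matrix.rank_diagonal, ← hD]
    rw [Matrix.rank_mul_eq_left_of_isUnit_det Q _ (by rw [hQdet]; exact isUnit_one),
      Matrix.rank_mul_eq_right_of_isUnit_det P _ (by rw [hPdet]; exact isUnit_one)]
  have hcard : s.card = Fintype.card ι - (T.map (Polynomial.eval a)).rank := by
    rw [hrank]
    have h1 : Fintype.card {i // D i ≠ 0} = (Finset.univ.filter (fun i => D i ≠ 0)).card :=
      Fintype.card_subtype _
    have h2 : (Finset.univ.filter (fun i => D i = 0)).card +
        (Finset.univ.filter (fun i => D i ≠ 0)).card = Fintype.card ι := by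
      have := Finset.card_filter_add_card_filter_not (s := (Finset.univ : Finset ι))
        (fun i => D i = 0)
      simpa using this
    rw [h1, hs]
    omega
  rw [← hcard]
  exact hdvd

end Fermat.Agent.Red.SM
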