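import Mathlib
import Fermat.Agent.Red.SM.DeltaMat
import Fermat.Agent.Red.SM.DeltaRank

/-!
# P-RED / SM: the delta-lemma (helper2)

`k` is an algebraically closed field, `B ⊆ B₁` finite free `k[X]`-algebras of the same rank `n`
(think: `B₁` is generated over `B` by an integral element of the fraction field).  If for every
`a : k`

  `ord_{X = a} disc(B) + #{maximal ideals of B over X = a} ≤ n`,

then `B = B₁`.

Main result: `h2_delta_core`.
-/

set_option autoImplicit false
set_option linter.style.haveILetI false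
set_option linter.unusedSectionVars false
set_option linter.unusedSimpArgs false

open Polynomial Module Matrix

noncomputable section

namespace Fermat.Agent.Red.SM

variable {k : Type*} [Field k] {B : Type*} [CommRing B] [Algebra k B] [Algebra k[X] B]
  [IsScalarTower k k[X] B]
variable {ι : Type*} [Fintype ι] [DecidableEq ι] (b : Basis ι k[X] B)
variable {B₁ : Type*} [CommRing B₁] [Algebra k B₁] [Algebra k[X] B₁] [IsScalarTower k k[X] B₁]
  (b₁ : Basis ι k[X] B₁) (φ : B →ₐ[k[X]] B₁)

theorem h2_det_ne_zero (hφ : Function.Injective φ) :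
    (LinearMap.toMatrix b b₁ φ.toLinearMap).det ≠ 0 := by
  intro h
  obtain ⟨v, hv, hTv⟩ := Matrix.exists_mulVec_eq_zero_iff.2 h
  set y : B := b.equivFun.symm v with hy
  have h1 : (b.repr y : ι → k[X]) = v := by
    have := b.equivFun.apply_symm_apply v
    rw [← hy] at this
    exact this
  have h2 := LinearMap.toMatrix_mulVec_repr b b₁ φ.toLinearMap y
  rw [h1, hTv] at h2
  have h3 : b₁.repr (φ y) = 0 := by
    apply Finsupp.ext
    intro i
    have := congrFun h2 i
    simpa using this.symm
  have h4 : φ y = 0 := by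
    have := congrArg b₁.repr.symm h3
    simpa using this
  have h5 : y = 0 := hφ (by rw [h4, map_zero])
  apply hv
  rw [← h1, h5]
  simp

include b b₁ in
theorem h2_trace_comp (hφ : Function.Injective φ) (y : B) :
    Algebra.trace k[X] B₁ (φ y) = Algebra.trace k[X] B y := by
  set T := LinearMap.toMatrix b b₁ φ.toLinearMap with hT
  set M := Algebra.leftMulMatrix b y with hM
  set M₁ := Algebra.leftMulMatrix b₁ (φ y) with hM₁
  have hd : T.det ≠ 0 := h2_det_ne_zero b b₁ φ hφ
  have hcomm : T * M = M₁ * T := by
    rw [hT, hM, hM₁, Algebra.leftMulMatrix_apply, Algebra.leftMulMatrix_apply,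
      ← LinearMap.toMatrix_comp, ← LinearMap.toMatrix_comp]
    congr 1
    ext z
    simp
  have h1 : T.det * M.trace = T.det * M₁.trace := by
    have e1 : (T.adjugate * (T * M)).trace = T.det * M.trace := by
      rw [← Matrix.mul_assoc, Matrix.adjugate_mul, Matrix.smul_mul, Matrix.one_mul,
        Matrix.trace_smul, smul_eq_mul]
    have e2 : (T.adjugate * (M₁ * T)).trace = T.det * M₁.trace := by
      rw [Matrix.trace_mul_comm, Matrix.mul_assoc, Matrix.mul_adjugate, Matrix.mul_smul,
        Matrix.mul_one, Matrix.trace_smul, smul_eq_mul]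
    rw [← e1, ← e2, hcomm]
  have h2 := mul_left_cancel₀ hd h1
  rw [Algebra.trace_eq_matrix_trace b₁, Algebra.trace_eq_matrix_trace b, h2]

theorem h2_discr_eq (hφ : Function.Injective φ) :
    Algebra.discr k[X] b =
      (LinearMap.toMatrix b b₁ φ.toLinearMap).det ^ 2 * Algebra.discr k[X] b₁ := by
  set T := LinearMap.toMatrix b b₁ φ.toLinearMap with hT
  have h1 : Algebra.discr k[X] b = Algebra.discr k[X] (fun i => φ (b i)) := by
    rw [Algebra.discr_def, Algebra.discr_def]
    congr 1
    refine Matrix.ext fun i j => ?_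
    rw [Algebra.traceMatrix_apply, Algebra.traceMatrix_apply, Algebra.traceForm_apply,
      Algebra.traceForm_apply, ← h2_trace_comp b b₁ φ hφ (b i * b j), map_mul]
  have h2 : (fun i => φ (b i)) = (⇑b₁ : ι → B₁) ᵥ* T.map (algebraMap k[X] B₁) := by
    ext j
    simp only [Matrix.vecMul, dotProduct, Matrix.map_apply]
    have := b₁.sum_repr (φ (b j))
    rw [← this]
    refine Finset.sum_congr rfl fun i _ => ?_
    rw [hT, LinearMap.toMatrix_apply, Algebra.smul_def, mul_comm]
    rfl
  rw [h1, h2, Algebra.discr_of_matrix_vecMul]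

include b₁ in
/-- **The delta-lemma.** -/
theorem h2_delta_core [IsAlgClosed k] (hφ : Function.Injective φ)
    (hdisc : Algebra.discr k[X] b ≠ 0)
    (hbound : ∀ a : k,
      (Algebra.discr k[X] b).rootMultiplicity a + h2_pts k B a ≤ Fintype.card ι) :
    Function.Surjective φ := by
  set T := LinearMap.toMatrix b b₁ φ.toLinearMap with hT
  have hD := h2_discr_eq b b₁ φ hφ
  rw [← hT] at hD
  have hd : T.det ≠ 0 := h2_det_ne_zero b b₁ φ hφ
  have hD₁ : Algebra.discr k[X] b₁ ≠ 0 := by
    intro h
    rw [h, mul_zero] at hD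
    exact hdisc hD
  have hroot : ∀ a : k, ¬ T.det.IsRoot a := by
    intro a
    have h1 : (Algebra.discr k[X] b).rootMultiplicity a =
        2 * T.det.rootMultiplicity a + (Algebra.discr k[X] b₁).rootMultiplicity a := by
      have hne : T.det ^ 2 * Algebra.discr k[X] b₁ ≠ 0 := by rw [← hD]; exact hdisc
      rw [hD, Polynomial.rootMultiplicity_mul hne, pow_two,
        Polynomial.rootMultiplicity_mul (mul_ne_zero hd hd)]
      ring
    have h2 : Fintype.card ι - (h2_homMat b a b₁ φ).rank ≤ T.det.rootMultiplicity a :=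
      (Polynomial.le_rootMultiplicity_iff hd).2 (h2_pow_dvd_det_of_rank T a)
    have h3 : Fintype.card ι - (h2_gram b₁ a).rank ≤
        (Algebra.discr k[X] b₁).rootMultiplicity a := by
      apply (Polynomial.le_rootMultiplicity_iff hD₁).2
      rw [Algebra.discr_def]
      exact h2_pow_dvd_det_of_rank (Algebra.traceMatrix k[X] b₁) a
    have h4 := h2_rank_gram_le b₁ a
    have h5 := h2_rank_hom_le b a b₁ φ
    have h6 := h2_pts_le b₁ a
    have h7 : (h2_homMat b a b₁ φ).rank ≤ Fintype.card ι := Matrix.rank_le_card_width _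
    have h8 := hbound a
    have h9 : T.det.rootMultiplicity a = 0 := by omega
    intro hr
    exact hd ((Polynomial.rootMultiplicity_eq_zero_iff.1 h9) hr)
  have hdeg : T.det.degree = 0 := by
    by_contra h
    obtain ⟨x, hx⟩ := IsAlgClosed.exists_root T.det h
    exact hroot x hx
  have hunit : IsUnit T.det := Polynomial.isUnit_iff_degree_eq_zero.2 hdeg
  set e := LinearEquiv.ofIsUnitDet (f := φ.toLinearMap) (v := b) (v' := b₁) hunit with he
  intro z
  obtain ⟨y, hy⟩ := e.surjective z
  exact ⟨y, hy⟩

end Fermat.Agent.Red.SM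

end
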