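import Mathlib
import Fermat.Agent.Red.SM.Delta

/-!
# P-RED / SM: the delta-lemma, integrally closed form (helper2)

`h2_isIntegrallyClosed`: let `k` be an algebraically closed field and `B` a domain which is a
finite free `k[X]`-algebra with basis `b` and nonzero discriminant.  If for every `a : k`

  `ord_{X = a} disc(b) + #{maximal ideals of B / (X - a) B} ≤ rank B`,

then `B` is integrally closed.
-/

set_option autoImplicit false
set_option linter.style.haveILetI false
set_option linter.unusedSectionVars false
set_option linter.unusedSimpArgs false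

open Polynomial Module Matrix

noncomputable section

namespace Fermat.Agent.Red.SM

variable {k : Type*} [Field k] {B : Type*} [CommRing B] [Algebra k B] [Algebra k[X] B]
  [IsScalarTower k k[X] B]
variable {ι : Type*} [Fintype ι] [DecidableEq ι]

theorem h2_algebraMap_injective [Nontrivial B] (b : Basis ι k[X] B) :
    Function.Injective (algebraMap k[X] B) := by
  rw [injective_iff_map_eq_zero]
  intro p hp
  have hne : Nonempty ι := by
    by_contra h
    rw [not_nonempty_iff] at h
    have : Subsingleton B := by
      refine ⟨fun x y => ?_⟩
      apply b.repr.injective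
      apply Finsupp.ext
      intro i
      exact (h.false i).elim
    exact not_subsingleton B this
  obtain ⟨i⟩ := hne
  have h1 : p • b i = 0 := by rw [Algebra.smul_def, hp, zero_mul]
  have h2 := congrArg (fun w => b.repr w i) h1
  simpa using h2

/-- **The delta-lemma**, integrally closed form. -/
theorem h2_isIntegrallyClosed [IsAlgClosed k] [IsDomain B] (b : Basis ι k[X] B)
    (hdisc : Algebra.discr k[X] b ≠ 0)
    (hbound : ∀ a : k,
      (Algebra.discr k[X] b).rootMultiplicity a + h2_pts k B a ≤ Fintype.card ι) :
    IsIntegrallyClosed B := by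
  classical
  rw [isIntegrallyClosed_iff (FractionRing B)]
  intro z hz
  have hinjBK : Function.Injective (algebraMap B (FractionRing B)) :=
    IsFractionRing.injective B (FractionRing B)
  have hinj0 : Function.Injective (algebraMap k[X] B) := h2_algebraMap_injective b
  -- the inclusion
  set φ : B →ₐ[k[X]] (Algebra.adjoin B {z}) :=
    IsScalarTower.toAlgHom k[X] B (Algebra.adjoin B {z}) with hφdef
  have hφval : ∀ x : B, ((φ x : Algebra.adjoin B {z}) : FractionRing B) =
      algebraMap B (FractionRing B) x := fun x => rfl
  have hφ : Function.Injective φ := by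
    intro x y hxy
    apply hinjBK
    rw [← hφval, ← hφval, hxy]
  -- finiteness and freeness
  haveI : Module.Finite B (Algebra.adjoin B {z}) :=
    Module.Finite.iff_fg.2 hz.fg_adjoin_singleton
  haveI : Module.Finite k[X] B := Module.Finite.of_basis b
  haveI : Module.Finite k[X] (Algebra.adjoin B {z}) :=
    Module.Finite.trans B (Algebra.adjoin B {z})
  have hinj1 : Function.Injective (algebraMap k[X] (Algebra.adjoin B {z})) := by
    intro p q hpq
    apply hinj0
    apply hφ
    have e1 : φ (algebraMap k[X] B p) = algebraMap k[X] (Algebra.adjoin B {z}) p :=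
      φ.commutes p
    have e2 : φ (algebraMap k[X] B q) = algebraMap k[X] (Algebra.adjoin B {z}) q :=
      φ.commutes q
    rw [e1, e2, hpq]
  haveI : Module.IsTorsionFree k[X] (Algebra.adjoin B {z}) :=
    isTorsionFree_iff_algebraMap_injective.2 hinj1
  haveI : Module.Free k[X] (Algebra.adjoin B {z}) := Module.free_of_finite_type_torsion_free'
  -- the rank
  have hrankB : finrank k[X] B = Fintype.card ι := Module.finrank_eq_card_basis b
  have hge : finrank k[X] B ≤ finrank k[X] (Algebra.adjoin B {z}) :=
    LinearMap.finrank_le_finrank_of_injective (f := φ.toLinearMap) hφ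
  have hle : finrank k[X] (Algebra.adjoin B {z}) ≤ finrank k[X] B := by
    obtain ⟨d, hd, hdI⟩ := FractionalIdeal.isFractional_of_fg (S := nonZeroDivisors B)
      (P := FractionRing B) (I := Subalgebra.toSubmodule (Algebra.adjoin B {z}))
      hz.fg_adjoin_singleton
    have hd0 : d ≠ 0 := nonZeroDivisors.ne_zero hd
    -- the inclusion of `B` as a `k[X]`-linear map
    set ιK : B →ₗ[k[X]] FractionRing B :=
      (IsScalarTower.toAlgHom k[X] B (FractionRing B)).toLinearMap with hιK
    have hιKinj : Function.Injective ιK := hinjBK
    set md : (Algebra.adjoin B {z}) →ₗ[k[X]] FractionRing B :=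
      { toFun := fun x => d • (x : FractionRing B)
        map_add' := fun x y => by simp [smul_add]
        map_smul' := fun c x => by
          simp only [RingHom.id_apply]
          rw [Subalgebra.coe_smul, smul_comm] } with hmd
    have hmem : ∀ x, md x ∈ LinearMap.range ιK := by
      intro x
      obtain ⟨y, hy⟩ := hdI x x.2
      exact ⟨y, hy⟩
    set ψ : (Algebra.adjoin B {z}) →ₗ[k[X]] B :=
      (LinearEquiv.ofInjective ιK hιKinj).symm.toLinearMap ∘ₗ
        (md.codRestrict (LinearMap.range ιK) hmem) with hψ
    have hψinj : Function.Injective ψ := by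
      intro x y hxy
      have h1 : md.codRestrict (LinearMap.range ιK) hmem x =
          md.codRestrict (LinearMap.range ιK) hmem y :=
        (LinearEquiv.ofInjective ιK hιKinj).symm.injective hxy
      have h2 : md x = md y := congrArg Subtype.val h1
      have h3 : d • (x : FractionRing B) = d • (y : FractionRing B) := h2
      rw [Algebra.smul_def, Algebra.smul_def] at h3
      have h4 : algebraMap B (FractionRing B) d ≠ 0 := by
        intro h
        exact hd0 (hinjBK (by rw [h, map_zero]))
      exact Subtype.ext (mul_left_cancel₀ h4 h3)
    exact LinearMap.finrank_le_finrank_of_injective hψinj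
  have hrank : finrank k[X] (Algebra.adjoin B {z}) = Fintype.card ι := by omega
  set b₁ : Basis ι k[X] (Algebra.adjoin B {z}) :=
    (Module.finBasisOfFinrankEq k[X] (Algebra.adjoin B {z}) hrank).reindex
      (Fintype.equivFin ι).symm with hb₁
  have hsurj := h2_delta_core b b₁ φ hφ hdisc hbound
  obtain ⟨y, hy⟩ := hsurj ⟨z, Algebra.subset_adjoin (Set.mem_singleton z)⟩
  refine ⟨y, ?_⟩
  rw [← hφval, hy]

end Fermat.Agent.Red.SM

end
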