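import Mathlib
import Fermat.Agent.Red.SM.DeltaIC

/-!
# P-RED / SM: TAME, the converse of the delta-lemma in characteristic zero (helper99)

`k` is an algebraically closed field of characteristic zero, `B` an integrally closed domain which
is a finite free `k[X]`-algebra with basis `b` and nonzero discriminant.  Then for every `a : k`

  `ord_{X = a} disc(b) + #{maximal ideals of B / (X - a) B} ≤ rank B`      (`h99_tame`).

Route (no fraction field): with `G` the Gram matrix of the trace form, `D = det G`, `u = X - a`,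
the elements `β_j = ∑ i, adj(G) j i • b i` satisfy `Tr(β_j y) ∈ D k[X]`.  The key lemma
`h99_step3` says that `Tr(β B) ⊆ u ^ (m + 1) k[X]` forces `β ∈ u ^ m • rad(u B)`; hence
`adj(G) = u ^ m • H` with the rows of `H` in `rad(u B)`, so `u ^ r ∣ det H` (`r` the number of
points), and comparing orders in `det (adj G) = D ^ (n - 1)` gives the bound.
-/

set_option autoImplicit false
set_option linter.style.haveILetI false
set_option linter.unusedSectionVars false
set_option linter.unusedSimpArgs false

open Polynomial Module Matrix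

noncomputable section

namespace Fermat.Agent.Red.SM

section LemE

variable {k : Type*} [Field k] {ι : Type*} [Fintype ι] [DecidableEq ι]

open Classical in
/-- a multiset all of whose elements are `0` or `c` has sum `count c • c`. -/
theorem h99_sum_eq_count_nsmul (c : k) (s : Multiset k) (h : ∀ x ∈ s, x = 0 ∨ x = c) :
    s.sum = s.count c • c := by
  classical
  induction s using Multiset.induction_on with
  | empty => simp
  | cons x t ih =>
    have ht : ∀ y ∈ t, y = 0 ∨ y = c := fun y hy => h y (Multiset.mem_cons_of_mem hy)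
    rw [Multiset.sum_cons, ih ht, Multiset.count_cons]
    rcases h x (Multiset.mem_cons_self x t) with hx | hx
    · by_cases hc : c = x
      · have hc0 : c = 0 := hc.trans hx
        rw [if_pos hc, hx, hc0]
        simp
      · rw [if_neg hc, hx, zero_add, add_zero]
    · rw [if_pos hx.symm, hx, add_smul, one_smul, add_comm]

/-- if `M v = μ v` then `(M (M - c)) ^ s v = (μ (μ - c)) ^ s v`. -/
theorem h99_pow_mulVec (M : Matrix ι ι k) (c μ : k) (v : ι → k) (hv : M *ᵥ v = μ • v) (s : ℕ) :
    ((M * (M - Matrix.scalar ι c)) ^ s) *ᵥ v = (μ * (μ - c)) ^ s • v := by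
  induction s with
  | zero => simp
  | succ s ih =>
    have h1 : (M - Matrix.scalar ι c) *ᵥ v = (μ - c) • v := by
      rw [Matrix.sub_mulVec, hv, sub_smul]
      congr 1
      ext i
      simp [Matrix.mulVec, dotProduct, Matrix.scalar_apply, Matrix.diagonal_apply]
    have h2 : (M * (M - Matrix.scalar ι c)) *ᵥ v = (μ * (μ - c)) • v := by
      rw [← Matrix.mulVec_mulVec, h1, Matrix.mulVec_smul, hv, smul_smul, mul_comm]
    rw [pow_succ, ← Matrix.mulVec_mulVec, h2, Matrix.mulVec_smul, ih, smul_smul, pow_succ,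
      mul_comm]

/-- **Lemma E.**  Over an algebraically closed field of characteristic zero, a matrix `M` with
`M (M - c)` nilpotent (`c ≠ 0`) and trace zero is nilpotent. -/
theorem h99_isNilpotent_of_trace_eq_zero [IsAlgClosed k] [CharZero k] (M : Matrix ι ι k) (c : k)
    (hc : c ≠ 0) (hnil : IsNilpotent (M * (M - Matrix.scalar ι c))) (htr : M.trace = 0) :
    IsNilpotent M := by
  classical
  obtain ⟨s, hs⟩ := hnil
  have hroots : ∀ μ ∈ M.charpoly.roots, μ = 0 ∨ μ = c := by
    intro μ hμ
    have h1 : M.charpoly.eval μ = 0 := (Polynomial.mem_roots'.1 hμ).2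
    rw [Matrix.eval_charpoly] at h1
    obtain ⟨v, hv0, hv⟩ := Matrix.exists_mulVec_eq_zero_iff.2 h1
    have h2 : M *ᵥ v = μ • v := by
      rw [Matrix.sub_mulVec] at hv
      have h3 : Matrix.scalar ι μ *ᵥ v = μ • v := by
        ext i
        simp [Matrix.mulVec, dotProduct, Matrix.scalar_apply, Matrix.diagonal_apply]
      rw [h3] at hv
      exact (sub_eq_zero.1 hv).symm
    have h4 := h99_pow_mulVec M c μ v h2 s
    rw [hs, Matrix.zero_mulVec] at h4
    have h5 : (μ * (μ - c)) ^ s = 0 := by
      by_contra hne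
      apply hv0
      have := congrArg (fun w => ((μ * (μ - c)) ^ s)⁻¹ • w) h4
      simpa [smul_smul, inv_mul_cancel₀ hne] using this.symm
    have h6 : μ * (μ - c) = 0 := pow_eq_zero_iff (n := s) (by
      rintro rfl
      simp at h5) |>.1 h5
    rcases mul_eq_zero.1 h6 with h | h
    · exact Or.inl h
    · exact Or.inr (sub_eq_zero.1 h)
  have hsum := h99_sum_eq_count_nsmul c M.charpoly.roots hroots
  rw [← Matrix.trace_eq_sum_roots_charpoly, htr] at hsum
  have hcount : M.charpoly.roots.count c = 0 := by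
    classical
    by_contra hne
    have h7 : (M.charpoly.roots.count c : k) * c = 0 := by
      rw [← nsmul_eq_mul]; exact hsum.symm
    rcases mul_eq_zero.1 h7 with h | h
    · exact hne (by exact_mod_cast h)
    · exact hc h
  have hall : ∀ μ ∈ M.charpoly.roots, μ = 0 := by
    intro μ hμ
    rcases hroots μ hμ with h | h
    · exact h
    · exfalso
      rw [h] at hμ
      exact (Multiset.count_pos.2 hμ).ne' hcount
  have hsplit := IsAlgClosed.splits M.charpoly
  have hprod : M.charpoly = X ^ (Multiset.card M.charpoly.roots) := by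
    have h8 := hsplit.eq_prod_roots_of_monic (Matrix.charpoly_monic M)
    have h9 : M.charpoly.roots.map (fun a => X - C a) =
        Multiset.replicate (Multiset.card M.charpoly.roots) (X : k[X]) := by
      rw [Multiset.eq_replicate]
      refine ⟨by simp, ?_⟩
      intro p hp
      obtain ⟨μ, hμ, rfl⟩ := Multiset.mem_map.1 hp
      rw [hall μ hμ, map_zero, sub_zero]
    rw [h9, Multiset.prod_replicate] at h8
    exact h8
  refine ⟨Multiset.card M.charpoly.roots, ?_⟩
  have h10 := Matrix.aeval_self_charpoly M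
  rw [hprod] at h10
  simpa using h10

end LemE

section Psi

variable {k : Type*} [Field k] {B : Type*} [CommRing B] [Algebra k B] [Algebra k[X] B]
  [IsScalarTower k k[X] B]
variable {ι : Type*} [Fintype ι] [DecidableEq ι] (b : Basis ι k[X] B) (a : k)

/-- the regular representation of `B`, reduced at `X = a`. -/
def h99_Psi : B →+* Matrix ι ι k :=
  (RingHom.mapMatrix (Polynomial.evalRingHom a)).comp
    (Algebra.leftMulMatrix b : B →ₐ[k[X]] Matrix ι ι k[X]).toRingHom

theorem h99_Psi_apply (z : B) (i j : ι) :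
    h99_Psi b a z i j = (b.repr (z * b j) i).eval a := by
  simp [h99_Psi, Algebra.leftMulMatrix_eq_repr_mul]

theorem h99_trace_Psi (z : B) :
    (h99_Psi b a z).trace = (Algebra.trace k[X] B z).eval a := by
  rw [Algebra.trace_eq_matrix_trace b z]
  simp only [Matrix.trace, Matrix.diag_apply, h99_Psi_apply]
  rw [Polynomial.eval_finsetSum]
  refine Finset.sum_congr rfl fun i _ => ?_
  rw [Algebra.leftMulMatrix_eq_repr_mul]

theorem h99_Psi_eq_zero_iff (z : B) : h99_Psi b a z = 0 ↔ z ∈ h2_fib k B a := by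
  constructor
  · intro h
    have h1 : ∀ j, z * b j ∈ h2_fib k B a := by
      intro j
      rw [← h2_coord_eq_zero_iff b a]
      ext i
      rw [h2_coord_apply, ← h99_Psi_apply, h]
      rfl
    have h2 : z = ∑ j, (b.repr 1 j) • (z * b j) := by
      conv_lhs => rw [← mul_one z, ← b.sum_repr 1, Finset.mul_sum]
      refine Finset.sum_congr rfl fun j _ => ?_
      rw [mul_smul_comm]
    rw [h2]
    refine Ideal.sum_mem _ fun j _ => ?_
    rw [Algebra.smul_def]
    exact Ideal.mul_mem_left _ _ (h1 j)
  · intro h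
    ext i j
    rw [h99_Psi_apply]
    have h1 : z * b j ∈ h2_fib k B a := Ideal.mul_mem_right _ _ h
    rw [← h2_coord_eq_zero_iff b a] at h1
    have := congrFun h1 i
    simpa using this

theorem h99_Psi_algebraMap (c : k) : h99_Psi b a (algebraMap k B c) = Matrix.scalar ι c := by
  ext i j
  rw [h99_Psi_apply]
  have h1 : algebraMap k B c * b j = (C c : k[X]) • b j := by
    rw [IsScalarTower.algebraMap_apply k k[X] B, Algebra.smul_def]
    rfl
  rw [h1, map_smul, Finsupp.smul_apply, Basis.repr_self, smul_eq_mul, Polynomial.eval_mul,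
    Polynomial.eval_C]
  by_cases hij : i = j
  · subst hij
    simp
  · have hji : j ≠ i := fun h => hij h.symm
    simp [Finsupp.single_apply, hij, hji, Matrix.scalar_apply, Matrix.diagonal_apply]

/-- membership in the radical of the fibre ideal, via `h99_Psi`. -/
theorem h99_mem_radical_iff (z : B) :
    z ∈ (h2_fib k B a).radical ↔ IsNilpotent (h99_Psi b a z) := by
  constructor
  · rintro ⟨s, hs⟩
    refine ⟨s, ?_⟩
    rw [← map_pow]
    exact (h99_Psi_eq_zero_iff b a _).2 hs
  · rintro ⟨s, hs⟩
    refine ⟨s, ?_⟩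
    rw [← map_pow] at hs
    exact (h99_Psi_eq_zero_iff b a _).1 hs

theorem h99_isNilpotent_mk_iff (z : B) :
    IsNilpotent (Ideal.Quotient.mk (h2_fib k B a) z) ↔ z ∈ (h2_fib k B a).radical := by
  constructor
  · rintro ⟨s, hs⟩
    refine ⟨s, ?_⟩
    rw [← map_pow] at hs
    exact Ideal.Quotient.eq_zero_iff_mem.1 hs
  · rintro ⟨s, hs⟩
    refine ⟨s, ?_⟩
    rw [← map_pow]
    exact Ideal.Quotient.eq_zero_iff_mem.2 hs

include b in
/-- the trace of an element of the radical of the fibre is divisible by `X - a`. -/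
theorem h99_dvd_trace_of_mem_radical (z : B) (hz : z ∈ (h2_fib k B a).radical) :
    (X - C a) ∣ Algebra.trace k[X] B z := by
  rw [Polynomial.dvd_iff_isRoot, Polynomial.IsRoot.def]
  exact h2_eval_trace_eq_zero b a z ((h99_isNilpotent_mk_iff a z).2 hz)

end Psi

section Ded

variable {k : Type*} [Field k] [IsAlgClosed k] [CharZero k] {B : Type*} [CommRing B] [IsDomain B]
  [IsIntegrallyClosed B] [Algebra k B] [Algebra k[X] B] [IsScalarTower k k[X] B]
variable {ι : Type*} [Fintype ι] [DecidableEq ι] (b : Basis ι k[X] B) (a : k)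

include b in
theorem h99_isDedekindDomain : IsDedekindDomain B := by
  haveI : Module.Finite k[X] B := Module.Finite.of_basis b
  haveI : Algebra.IsIntegral k[X] B := inferInstance
  haveI : IsNoetherianRing B :=
    isNoetherian_of_tower k[X] (isNoetherian_of_isNoetherianRing_of_finite k[X] B)
  haveI : Ring.DimensionLEOne B := Ring.DimensionLEOne.of_isIntegral k[X] B
  exact { }

include b in
theorem h99_fib_ne_bot : h2_fib k B a ≠ ⊥ := by
  intro h
  have h1 : algebraMap k[X] B (X - C a) ∈ h2_fib k B a := Ideal.subset_span rfl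
  rw [h, Ideal.mem_bot] at h1
  have h2 := h2_algebraMap_injective b (by rw [h1, map_zero] : algebraMap k[X] B (X - C a) =
    algebraMap k[X] B 0)
  exact X_sub_C_ne_zero a h2

include b in
/-- the residue field at a prime over `X = a` is `k`. -/
theorem h99_exists_sub_mem (P : Ideal B) [hP : P.IsPrime] (hle : h2_fib k B a ≤ P) (z : B) :
    ∃ c : k, z - algebraMap k B c ∈ P := by
  haveI : Module.Finite k (B ⧸ h2_fib k B a) := h2_finite_fib b a
  haveI : Module.Finite k (B ⧸ P) := Module.Finite.of_surjective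
    (Ideal.Quotient.factorₐ k hle).toLinearMap (Ideal.Quotient.factor_surjective hle)
  haveI : Algebra.IsIntegral k (B ⧸ P) := Algebra.IsIntegral.of_finite k (B ⧸ P)
  have hbij : Function.Bijective (algebraMap k (B ⧸ P)) :=
    IsAlgClosed.algebraMap_bijective_of_isIntegral
  obtain ⟨c, hc⟩ := hbij.2 (Ideal.Quotient.mk P z)
  refine ⟨c, ?_⟩
  rw [← Ideal.Quotient.eq_zero_iff_mem, map_sub, sub_eq_zero, ← hc]
  rfl

include b in
/-- **Step 1**: the radical of the trace form of the fibre is the nilradical (char. zero). -/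
theorem h99_step1 (β : B) (h : ∀ y, (X - C a) ∣ Algebra.trace k[X] B (β * y)) :
    β ∈ (h2_fib k B a).radical := by
  haveI := h99_isDedekindDomain b
  by_contra hβ
  rw [Ideal.radical_eq_sInf, Submodule.mem_sInf] at hβ
  simp only [not_forall] at hβ
  obtain ⟨P, ⟨hPle, hPprime⟩, hβP⟩ := hβ
  haveI := hPprime
  have hrP : (h2_fib k B a).radical ≤ P := hPprime.radical_le_iff.2 hPle
  obtain ⟨Q, hQ⟩ := Ideal.dvd_iff_le.2 hrP
  have hr0 : (h2_fib k B a).radical ≠ ⊥ := by
    intro h0
    exact h99_fib_ne_bot b a (le_bot_iff.1 (h0 ▸ Ideal.le_radical))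
  have hQ0 : Q ≠ ⊥ := by
    rintro rfl
    rw [Ideal.mul_bot] at hQ
    exact hr0 hQ
  have hQP : ¬ Q ≤ P := by
    intro hle
    have h1 : Q ≤ P * Q := by
      intro x hx
      have hx2 : x * x ∈ P * Q := Ideal.mul_mem_mul (hle hx) hx
      rw [← hQ] at hx2
      have h3 : x ∈ (h2_fib k B a).radical :=
        (Ideal.radical_isRadical _) ⟨2, by rwa [pow_two]⟩
      rwa [hQ] at h3
    have h2 : P * Q ∣ 1 * Q := by
      rw [one_mul]
      exact Ideal.dvd_iff_le.2 h1
    have h3 : P ∣ 1 := (mul_dvd_mul_iff_right hQ0).1 h2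
    have h4 : (1 : Ideal B) ≤ P := Ideal.dvd_iff_le.1 h3
    rw [Ideal.one_eq_top] at h4
    exact hPprime.ne_top (top_le_iff.1 h4)
  obtain ⟨x, hxQ, hxP⟩ := Set.not_subset.1 hQP
  have hzP : β * x ∉ P := fun hz => (hPprime.mem_or_mem hz).elim hβP hxP
  have hzQ : β * x ∈ Q := Ideal.mul_mem_left _ _ hxQ
  obtain ⟨c, hc⟩ := h99_exists_sub_mem b a P hPle (β * x)
  have hc0 : c ≠ 0 := by
    rintro rfl
    rw [map_zero, sub_zero] at hc
    exact hzP hc
  have hmem : β * x * (β * x - algebraMap k B c) ∈ (h2_fib k B a).radical := by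
    rw [hQ, mul_comm (β * x) (β * x - algebraMap k B c)]
    exact Ideal.mul_mem_mul hc hzQ
  have hnil : IsNilpotent (h99_Psi b a (β * x) * (h99_Psi b a (β * x) - Matrix.scalar ι c)) := by
    have h5 := (h99_mem_radical_iff b a _).1 hmem
    rwa [map_mul, map_sub, h99_Psi_algebraMap] at h5
  have htr : (h99_Psi b a (β * x)).trace = 0 := by
    rw [h99_trace_Psi]
    have h6 := h x
    rwa [Polynomial.dvd_iff_isRoot] at h6
  have hz := h99_isNilpotent_of_trace_eq_zero _ c hc0 hnil htr
  have hzr : β * x ∈ (h2_fib k B a).radical := (h99_mem_radical_iff b a _).2 hz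
  exact hzP (hrP hzr)

omit [IsAlgClosed k] [CharZero k] [IsDomain B] [IsIntegrallyClosed B] [Fintype ι]
  [DecidableEq ι] in
variable (B) in
/-- the ideal of the elements whose trace form values are divisible by `(X - a) ^ 2`. -/
def h99_I2 : Ideal B where
  carrier := {β | ∀ y, (X - C a) ^ 2 ∣ Algebra.trace k[X] B (β * y)}
  add_mem' := by
    intro x y hx hy w
    rw [add_mul, map_add]
    exact dvd_add (hx w) (hy w)
  zero_mem' := by
    intro w
    simp
  smul_mem' := by
    intro c x hx w
    have h1 : c • x * w = x * (c * w) := by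
      rw [smul_eq_mul]
      ring
    rw [h1]
    exact hx _

include b in
/-- **Step 2**: if all `Tr(β y)` are divisible by `(X - a) ^ 2`, then `β ∈ (X - a) B`. -/
theorem h99_step2 (β : B) (h : ∀ y, (X - C a) ^ 2 ∣ Algebra.trace k[X] B (β * y)) :
    β ∈ h2_fib k B a := by
  haveI := h99_isDedekindDomain b
  have hF0 : h2_fib k B a ≠ ⊥ := h99_fib_ne_bot b a
  have hinf : h99_I2 B a ⊓ h2_fib k B a = h2_fib k B a * (h2_fib k B a).radical := by
    apply le_antisymm
    · rintro x ⟨hxI, hxF⟩
      obtain ⟨w, rfl⟩ := (h2_mem_fib_iff a).1 hxF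
      have hw : w ∈ (h2_fib k B a).radical := by
        apply h99_step1 b a
        intro y
        have h1 := hxI y
        rw [smul_mul_assoc, map_smul, smul_eq_mul, pow_two] at h1
        exact (mul_dvd_mul_iff_left (X_sub_C_ne_zero a)).1 h1
      rw [Algebra.smul_def]
      exact Ideal.mul_mem_mul (Ideal.subset_span rfl) hw
    · rw [Ideal.mul_le]
      intro f hf ρ hρ
      refine ⟨?_, Ideal.mul_mem_right _ _ hf⟩
      obtain ⟨w, rfl⟩ := (h2_mem_fib_iff a).1 hf
      intro y
      have h1 : (X - C a : k[X]) • w * ρ * y = (X - C a : k[X]) • (ρ * (w * y)) := by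
        rw [smul_mul_assoc, smul_mul_assoc]
        congr 1
        ring
      rw [h1, map_smul, smul_eq_mul, pow_two]
      exact mul_dvd_mul_left _
        (h99_dvd_trace_of_mem_radical b a _ (Ideal.mul_mem_right _ _ hρ))
  have hA : (h99_I2 B a ⊔ h2_fib k B a) * (h2_fib k B a).radical = h99_I2 B a := by
    have h1 := Ideal.sup_mul_inf (h99_I2 B a) (h2_fib k B a)
    rw [hinf] at h1
    have h2 : h2_fib k B a * ((h99_I2 B a ⊔ h2_fib k B a) * (h2_fib k B a).radical) =
        h2_fib k B a * h99_I2 B a := by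
      rw [mul_left_comm, h1, mul_comm]
    exact mul_left_cancel₀ hF0 h2
  obtain ⟨m, hm⟩ := Ideal.exists_radical_pow_le_of_fg (h2_fib k B a)
    (IsNoetherian.noetherian _)
  have hle : ∀ s : ℕ, h99_I2 B a ⊔ h2_fib k B a ≤ (h2_fib k B a).radical ^ s ⊔ h2_fib k B a := by
    intro s
    induction s with
    | zero =>
      rw [pow_zero, Ideal.one_eq_top, top_sup_eq]
      exact le_top
    | succ s ih =>
      calc h99_I2 B a ⊔ h2_fib k B a
          = (h99_I2 B a ⊔ h2_fib k B a) * (h2_fib k B a).radical ⊔ h2_fib k B a := by rw [hA]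
        _ ≤ ((h2_fib k B a).radical ^ s ⊔ h2_fib k B a) * (h2_fib k B a).radical ⊔
              h2_fib k B a := sup_le_sup_right (Ideal.mul_mono_left ih) _
        _ ≤ (h2_fib k B a).radical ^ (s + 1) ⊔ h2_fib k B a := by
          rw [Ideal.sup_mul, ← pow_succ]
          exact sup_le (sup_le le_sup_left (le_sup_of_le_right Ideal.mul_le_left)) le_sup_right
  have hβI : β ∈ h99_I2 B a := h
  exact (sup_le hm le_rfl) (hle m (Ideal.mem_sup_left hβI))

include b in
/-- **Step 3**: if all `Tr(β y)` are divisible by `(X - a) ^ (m + 1)`, then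
`β ∈ (X - a) ^ m • rad((X - a) B)`. -/
theorem h99_step3 (m : ℕ) (β : B)
    (h : ∀ y, (X - C a) ^ (m + 1) ∣ Algebra.trace k[X] B (β * y)) :
    ∃ ρ ∈ (h2_fib k B a).radical, β = ((X - C a) ^ m : k[X]) • ρ := by
  induction m generalizing β with
  | zero =>
    refine ⟨β, h99_step1 b a β (fun y => ?_), by simp⟩
    simpa using h y
  | succ m ih =>
    have h2 : β ∈ h2_fib k B a :=
      h99_step2 b a β (fun y => dvd_trans (pow_dvd_pow _ (by omega)) (h y))
    obtain ⟨w, rfl⟩ := (h2_mem_fib_iff a).1 h2
    have hw : ∀ y, (X - C a) ^ (m + 1) ∣ Algebra.trace k[X] B (w * y) := by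
      intro y
      have h1 := h y
      rw [smul_mul_assoc, map_smul, smul_eq_mul, pow_succ' _ (m + 1)] at h1
      exact (mul_dvd_mul_iff_left (X_sub_C_ne_zero a)).1 h1
    obtain ⟨ρ, hρ, rfl⟩ := ih w hw
    exact ⟨ρ, hρ, by rw [smul_smul, ← pow_succ']⟩

omit [IsAlgClosed k] [CharZero k] in
theorem h99_rootMultiplicity_pow (p : k[X]) (hp : p ≠ 0) (c : k) (s : ℕ) :
    (p ^ s).rootMultiplicity c = s * p.rootMultiplicity c := by
  induction s with
  | zero =>
    rw [pow_zero, zero_mul, ← Polynomial.C_1, Polynomial.rootMultiplicity_C]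
  | succ s ih =>
    rw [pow_succ, Polynomial.rootMultiplicity_mul (mul_ne_zero (pow_ne_zero _ hp) hp), ih]
    ring

include b in
/-- the coordinates at `a` of elements of the radical of the fibre span a space of dimension
at most `n - #points`. -/
theorem h99_rank_le (ρ : ι → B) (hρ : ∀ j, ρ j ∈ (h2_fib k B a).radical) :
    ((Matrix.of fun j i => b.repr (ρ j) i).map (Polynomial.eval a)).rank + h2_pts k B a ≤
      Fintype.card ι := by
  haveI : Module.Finite k (B ⧸ h2_fib k B a) := h2_finite_fib b a
  rw [Matrix.rank_eq_finrank_span_row]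
  have h1 : Submodule.span k (Set.range
      ((Matrix.of fun j i => b.repr (ρ j) i).map (Polynomial.eval a)).row) ≤
      Submodule.map (h2_coordEquiv b a).toLinearMap (h2_nilSub k B a) := by
    rw [Submodule.span_le]
    rintro v ⟨j, rfl⟩
    refine ⟨Ideal.Quotient.mk _ (ρ j), ?_, ?_⟩
    · rw [SetLike.mem_coe, h2_mem_nilSub, h99_isNilpotent_mk_iff]
      exact hρ j
    · rw [LinearEquiv.coe_coe, h2_coordEquiv_mk]
      rfl
  have h2 := Submodule.finrank_mono h1
  have h3 : finrank k (Submodule.map (h2_coordEquiv b a).toLinearMap (h2_nilSub k B a)) =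
      finrank k (h2_nilSub k B a) :=
    LinearEquiv.finrank_map_eq (h2_coordEquiv b a) (h2_nilSub k B a)
  have h4 := h2_finrank_nilSub b a
  omega

/-- **TAME**: for an integrally closed finite free `k[X]`-algebra `B` (`k` algebraically closed of
characteristic zero) with nonzero discriminant,
`ord_{X = a} disc + #{points over a} ≤ rank`. -/
theorem h99_tame (b : Basis ι k[X] B) (hdisc : Algebra.discr k[X] b ≠ 0) (a : k) :
    (Algebra.discr k[X] b).rootMultiplicity a + h2_pts k B a ≤ Fintype.card ι := by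
  classical
  have hD : Algebra.discr k[X] b = (Algebra.traceMatrix k[X] b).det := Algebra.discr_def _ _
  rcases Nat.eq_zero_or_pos ((Algebra.discr k[X] b).rootMultiplicity a) with hm0 | hmpos
  · rw [hm0, zero_add]
    exact h2_pts_le b a
  obtain ⟨m, hm⟩ : ∃ m, (Algebra.discr k[X] b).rootMultiplicity a = m + 1 :=
    ⟨_, (Nat.succ_pred_eq_of_pos hmpos).symm⟩
  have hudvd : (X - C a) ^ (m + 1) ∣ Algebra.discr k[X] b := by
    rw [← hm]
    exact Polynomial.pow_rootMultiplicity_dvd _ a
  set G := Algebra.traceMatrix k[X] b with hG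
  -- the dual elements
  set β : ι → B := fun j => ∑ i, (G.adjugate j i) • b i with hβ
  have hβtr : ∀ j l, Algebra.trace k[X] B (β j * b l) =
      if j = l then Algebra.discr k[X] b else 0 := by
    intro j l
    have h1 : Algebra.trace k[X] B (β j * b l) = (G.adjugate * G) j l := by
      simp only [hβ, Finset.sum_mul, smul_mul_assoc, map_sum, map_smul, smul_eq_mul,
        Matrix.mul_apply, hG, Algebra.traceMatrix_apply, Algebra.traceForm_apply]
    rw [h1, Matrix.adjugate_mul, ← hD, Matrix.smul_apply, Matrix.one_apply, smul_eq_mul]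
    split_ifs <;> simp
  have hβall : ∀ j y, (X - C a) ^ (m + 1) ∣ Algebra.trace k[X] B (β j * y) := by
    intro j y
    have hy : β j * y = ∑ l, (b.repr y l) • (β j * b l) := by
      conv_lhs => rw [← b.sum_repr y, Finset.mul_sum]
      refine Finset.sum_congr rfl fun l _ => ?_
      rw [mul_smul_comm]
    rw [hy, map_sum]
    refine Finset.dvd_sum fun l _ => ?_
    rw [map_smul, smul_eq_mul, hβtr]
    split_ifs
    · exact Dvd.dvd.mul_left hudvd _
    · simp
  choose ρ hρmem hρ using fun j => h99_step3 b a m (β j) (hβall j)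
  set H : Matrix ι ι k[X] := Matrix.of fun j i => b.repr (ρ j) i with hH
  have hadj : G.adjugate = ((X - C a) ^ m : k[X]) • H := by
    ext j i
    have h1 : b.repr (β j) i = G.adjugate j i := by
      simp only [hβ, map_sum, map_smul, Basis.repr_self, Finsupp.coe_finsetSum,
        Finset.sum_apply, Finsupp.smul_apply, smul_eq_mul, Finsupp.single_apply]
      rw [Finset.sum_eq_single i]
      · simp
      · intro l _ hli
        simp [hli]
      · intro h
        exact absurd (Finset.mem_univ i) h
    rw [← h1, hρ j, map_smul]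
    simp [hH]
  have hdet : (Algebra.discr k[X] b) ^ (Fintype.card ι - 1) =
      ((X - C a) ^ m) ^ Fintype.card ι * H.det := by
    rw [hD, ← Matrix.det_adjugate, hadj, Matrix.det_smul]
  have hrank := h99_rank_le b a ρ hρmem
  rw [← hH] at hrank
  have hHdvd : (X - C a) ^ (h2_pts k B a) ∣ H.det :=
    dvd_trans (pow_dvd_pow _ (by omega)) (h2_pow_dvd_det_of_rank H a)
  have hdvd : (X - C a) ^ (m * Fintype.card ι + h2_pts k B a) ∣
      (Algebra.discr k[X] b) ^ (Fintype.card ι - 1) := by
    rw [hdet, pow_add, ← pow_mul]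
    exact mul_dvd_mul_left _ hHdvd
  have hle := (Polynomial.le_rootMultiplicity_iff (pow_ne_zero _ hdisc)).2 hdvd
  rw [h99_rootMultiplicity_pow _ hdisc, hm] at hle
  haveI : Nonempty ι := b.index_nonempty
  obtain ⟨n', hn'⟩ : ∃ n', Fintype.card ι = n' + 1 :=
    ⟨_, (Nat.succ_pred_eq_of_pos Fintype.card_pos).symm⟩
  rw [hn'] at hle
  rw [hm, hn']
  rw [Nat.add_sub_cancel] at hle
  have e1 : m * (n' + 1) = m * n' + m := by ring
  have e2 : n' * (m + 1) = m * n' + n' := by ring
  rw [e1, e2] at hle
  omega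

end Ded

end Fermat.Agent.Red.SM

end
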