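import Mathlib
import Fermat.Agent.Red.SM.CoreSkeleton
import Fermat.Agent.Red.SM.Tame99

/-!
# P-RED / SM: TAME in the shape consumed by SM-CORE (helper99)

`h99_h74_tame : Fermat.Agent.Red.SM.Core.h74_Tame` (local basis form), deduced from `h99_tame`.
-/

set_option autoImplicit false
set_option linter.style.haveILetI false
set_option linter.unusedSectionVars false
set_option linter.unusedSimpArgs false

open Polynomial Module Matrix

noncomputable section

namespace Fermat.Agent.Red.SM

section NoDisc

variable {k : Type*} [Field k] [IsAlgClosed k] [CharZero k] {B : Type*} [CommRing B] [IsDomain B]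
  [IsIntegrallyClosed B] [Algebra k B] [Algebra k[X] B] [IsScalarTower k k[X] B]
variable {ι : Type*} [Fintype ι] [DecidableEq ι]

/-- `h99_tame` without the hypothesis on the discriminant. -/
theorem h99_tame' (b : Basis ι k[X] B) (a : k) :
    (Algebra.discr k[X] b).rootMultiplicity a + h2_pts k B a ≤ Fintype.card ι := by
  by_cases hdisc : Algebra.discr k[X] b = 0
  · rw [hdisc, Polynomial.rootMultiplicity_zero, zero_add]
    exact h2_pts_le b a
  · exact h99_tame b hdisc a

end NoDisc

section MaxEquiv

variable {R : Type*} [CommRing R] (I : Ideal R)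

/-- maximal ideals of `R ⧸ I` correspond to the maximal ideals of `R` containing `I`. -/
def h99_maxEquiv : MaximalSpectrum (R ⧸ I) ≃ {P : Ideal R // P.IsMaximal ∧ I ≤ P} where
  toFun 𝔪 := ⟨𝔪.asIdeal.comap (Ideal.Quotient.mk I),
    haveI := 𝔪.isMaximal
    Ideal.comap_isMaximal_of_surjective _ Ideal.Quotient.mk_surjective,
    fun x hx => by
      rw [Ideal.mem_comap, Ideal.Quotient.eq_zero_iff_mem.2 hx]
      exact 𝔪.asIdeal.zero_mem⟩
  invFun P := ⟨P.1.map (Ideal.Quotient.mk I), by
    rcases Ideal.map_eq_top_or_isMaximal_of_surjective (Ideal.Quotient.mk I)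
      Ideal.Quotient.mk_surjective P.2.1 with h | h
    · exfalso
      have h1 := congrArg (Ideal.comap (Ideal.Quotient.mk I)) h
      rw [Ideal.comap_map_of_surjective _ Ideal.Quotient.mk_surjective, Ideal.comap_top,
        ← RingHom.ker_eq_comap_bot, Ideal.mk_ker, sup_eq_left.2 P.2.2] at h1
      exact P.2.1.ne_top h1
    · exact h⟩
  left_inv 𝔪 := by
    apply MaximalSpectrum.ext
    exact Ideal.map_comap_of_surjective _ Ideal.Quotient.mk_surjective _
  right_inv P := by
    apply Subtype.ext
    change (P.1.map (Ideal.Quotient.mk I)).comap (Ideal.Quotient.mk I) = P.1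
    rw [Ideal.comap_map_of_surjective _ Ideal.Quotient.mk_surjective,
      ← RingHom.ker_eq_comap_bot, Ideal.mk_ker, sup_eq_left.2 P.2.2]

end MaxEquiv

universe u v

/-- **TAME**, in the local basis form frozen in `CoreSkeleton.lean`. -/
theorem h99_h74_tame : Fermat.Agent.Red.SM.Core.h74_Tame.{u, v} := by
  intro K _ _ _ B _ _ _ _ _ _ n e s hli hs a ha
  classical
  letI : Algebra K B := ((algebraMap K[X] B).comp (Polynomial.C : K →+* K[X])).toAlgebra
  haveI : IsScalarTower K K[X] B := IsScalarTower.of_algebraMap_eq (fun _ => rfl)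
  have hinj : Function.Injective (algebraMap K[X] B) := FaithfulSMul.algebraMap_injective K[X] B
  haveI : Module.IsTorsionFree K[X] B := isTorsionFree_iff_algebraMap_injective.2 hinj
  haveI : Module.Free K[X] B := Module.free_of_finite_type_torsion_free'
  have hs0 : s ≠ 0 := by
    rintro rfl
    simp at ha
  -- the rank
  have hge : n ≤ finrank K[X] B := by
    have := hli.fintype_card_le_finrank
    simpa using this
  have hle : finrank K[X] B ≤ n := by
    have hspan : finrank K[X] (Submodule.span K[X] (Set.range e)) = n := by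
      have := finrank_span_eq_card hli
      simpa using this
    have hmem : ∀ y : B, s • y ∈ Submodule.span K[X] (Set.range e) := by
      intro y
      obtain ⟨c, hc⟩ := hs y
      rw [hc]
      exact Submodule.sum_mem _ fun i _ =>
        Submodule.smul_mem _ _ (Submodule.subset_span ⟨i, rfl⟩)
    set g : B →ₗ[K[X]] Submodule.span K[X] (Set.range e) :=
      (LinearMap.lsmul K[X] B s).codRestrict _ hmem with hg
    have hginj : Function.Injective g := by
      intro x y hxy
      have h1 : s • x = s • y := congrArg Subtype.val hxy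
      exact smul_right_injective B hs0 h1
    have := LinearMap.finrank_le_finrank_of_injective hginj
    omega
  have hrank : finrank K[X] B = n := le_antisymm hle hge
  set b : Basis (Fin n) K[X] B := Module.finBasisOfFinrankEq K[X] B hrank with hb
  -- the transition matrix
  set T : Matrix (Fin n) (Fin n) K[X] := b.toMatrix e with hT
  have hdisc : Algebra.discr K[X] e = T.det ^ 2 * Algebra.discr K[X] b := by
    rw [← Algebra.discr_of_matrix_vecMul, hT, Module.Basis.toMatrix_map_vecMul]
  choose c hc using fun i => hs (b i)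
  set Cm : Matrix (Fin n) (Fin n) K[X] := Matrix.of fun j i => c i j with hCm
  have hTC : T * Cm = s • (1 : Matrix (Fin n) (Fin n) K[X]) := by
    ext l i
    rw [Matrix.mul_apply, Matrix.smul_apply, Matrix.one_apply, smul_eq_mul]
    have h1 : b.repr (s • b i) l = ∑ j, T l j * Cm j i := by
      rw [hc i, map_sum, Finsupp.coe_finsetSum, Finset.sum_apply]
      refine Finset.sum_congr rfl fun j _ => ?_
      rw [map_smul, Finsupp.smul_apply, smul_eq_mul, hT, Module.Basis.toMatrix_apply, hCm,
        Matrix.of_apply, mul_comm]
    rw [← h1, map_smul, Finsupp.smul_apply, Basis.repr_self, smul_eq_mul, Finsupp.single_apply]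
    by_cases hil : i = l
    · subst hil; simp
    · have hli' : l ≠ i := fun h => hil h.symm
      simp [hil, hli']
  have hdetT : T.det.eval a ≠ 0 := by
    have h1 := congrArg Matrix.det hTC
    rw [Matrix.det_mul, Matrix.det_smul, Matrix.det_one, mul_one] at h1
    have h2 := congrArg (Polynomial.eval a) h1
    rw [Polynomial.eval_mul, Polynomial.eval_pow] at h2
    intro h0
    rw [h0, zero_mul] at h2
    exact pow_ne_zero _ ha h2.symm
  have hT0 : T.det ≠ 0 := by
    rintro h0
    rw [h0] at hdetT
    simp at hdetT
  have hrootT : T.det.rootMultiplicity a = 0 := Polynomial.rootMultiplicity_eq_zero hdetT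
  have hroot : (Algebra.discr K[X] e).rootMultiplicity a =
      (Algebra.discr K[X] b).rootMultiplicity a := by
    by_cases hb0 : Algebra.discr K[X] b = 0
    · rw [hdisc, hb0, mul_zero]
    · rw [hdisc, Polynomial.rootMultiplicity_mul (mul_ne_zero (pow_ne_zero _ hT0) hb0),
        h99_rootMultiplicity_pow _ hT0, hrootT, mul_zero, zero_add]
  -- the points
  haveI : Module.Finite K (B ⧸ h2_fib K B a) := h2_finite_fib b a
  haveI : IsArtinianRing (B ⧸ h2_fib K B a) := IsArtinianRing.of_finite K _
  set e1 : MaximalSpectrum (B ⧸ h2_fib K B a) ≃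
      {P : Ideal B // P.IsMaximal ∧ algebraMap K[X] B (X - Polynomial.C a) ∈ P} :=
    (h99_maxEquiv (h2_fib K B a)).trans
      (Equiv.subtypeEquivRight fun P => by
        rw [h2_fib, Ideal.span_singleton_le_iff_mem]) with he1
  have hfin : Finite {P : Ideal B // P.IsMaximal ∧ algebraMap K[X] B (X - Polynomial.C a) ∈ P} :=
    Finite.of_equiv _ e1
  refine ⟨hfin, ?_⟩
  have hcard : Nat.card {P : Ideal B // P.IsMaximal ∧
      algebraMap K[X] B (X - Polynomial.C a) ∈ P} = h2_pts K B a :=
    (Nat.card_congr e1).symm
  have hmain := h99_tame' b a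
  rw [Fintype.card_fin] at hmain
  rw [hroot, hcard]
  exact hmain

end Fermat.Agent.Red.SM

end
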