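import Mathlib
import Fermat.Agent.Red.SM.H74Chain
import Fermat.Agent.Red.SM.CorePts
import Fermat.Agent.Red.SM.CoreG3
import Fermat.Agent.Red.SM.CorePointLift
import Fermat.Agent.Red.SM.Tame99Core

/-!
# P-RED / R-SM, SM-CORE: the generic fibre `B_K` (helper74)

`K₀ = FractionRing A[X]`, `K₁ = FractionRing B`; `K[X] → K₀` is the localisation map;
`B_K := integralClosure K[X] K₁`.
-/

set_option autoImplicit false
set_option linter.unusedSectionVars false
set_option linter.style.haveILetI false

open Polynomial

noncomputable section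

namespace Fermat.Agent.Red.SM.Core

attribute [local instance] Polynomial.algebra FractionRing.liftAlgebra
  FractionRing.isScalarTower_liftAlgebra

section Base

variable {K : Type*} [Field K] (A : ValuationSubring K)

/-- the constants `A \ 0` in `A[X]`. -/
def h74_M : Submonoid A[X] := (nonZeroDivisors A).map (C : A →+* A[X])

theorem h74_M_le : h74_M A ≤ nonZeroDivisors A[X] := by
  rintro _ ⟨a, ha, rfl⟩
  refine mem_nonZeroDivisors_of_ne_zero ?_
  rw [Ne, C_eq_zero]
  exact nonZeroDivisors.ne_zero ha

instance h74_isLocalization_poly : IsLocalization (h74_M A) K[X] :=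
  Polynomial.isLocalization (nonZeroDivisors A) K

/-- `K[X] → Frac A[X]`. -/
def h74_toK0 : K[X] →+* FractionRing A[X] :=
  IsLocalization.lift (M := h74_M A) (S := K[X]) (g := algebraMap A[X] (FractionRing A[X]))
    (fun y => IsUnit.mk0 _ (by
      rw [Ne, map_eq_zero_iff _ (IsFractionRing.injective A[X] (FractionRing A[X]))]
      exact nonZeroDivisors.ne_zero (h74_M_le A y.2)))

/-- `Frac A[X]` as a `K[X]`-algebra. -/
@[reducible] def h74_algK0 : Algebra K[X] (FractionRing A[X]) := (h74_toK0 A).toAlgebra

attribute [local instance] h74_algK0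

instance h74_tower_K0 : IsScalarTower A[X] K[X] (FractionRing A[X]) :=
  IsScalarTower.of_algebraMap_eq fun q => by
    show algebraMap A[X] (FractionRing A[X]) q = h74_toK0 A (algebraMap A[X] K[X] q)
    rw [h74_toK0, IsLocalization.lift_eq]

instance h74_isFractionRing_K0 : IsFractionRing K[X] (FractionRing A[X]) :=
  IsFractionRing.isFractionRing_of_isDomain_of_isLocalization (h74_M A) K[X] (FractionRing A[X])

end Base

section Gen

attribute [local instance] h74_algK0

variable {K : Type*} [Field K] (A : ValuationSubring K) {B : Type*} [CommRing B] [IsDomain B]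
  [Algebra A[X] B] [FaithfulSMul A[X] B] [Module.Finite A[X] B]
  (K₁ : Type*) [Field K₁] [Algebra B K₁] [IsFractionRing B K₁]
  [Algebra (FractionRing A[X]) K₁] [Algebra A[X] K₁]
  [IsScalarTower A[X] (FractionRing A[X]) K₁] [IsScalarTower A[X] B K₁]
  [Algebra K[X] K₁] [IsScalarTower K[X] (FractionRing A[X]) K₁]
  [FiniteDimensional (FractionRing A[X]) K₁]

theorem h74_tower_K1 : IsScalarTower A[X] K[X] K₁ :=
  IsScalarTower.of_algebraMap_eq fun q => by
    rw [IsScalarTower.algebraMap_apply A[X] (FractionRing A[X]) K₁,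
      IsScalarTower.algebraMap_apply A[X] K[X] (FractionRing A[X]),
      IsScalarTower.algebraMap_apply K[X] (FractionRing A[X]) K₁]

include A in
theorem h74_isIntegral_algebraMap (b : B) : IsIntegral K[X] (algebraMap B K₁ b) := by
  haveI := h74_tower_K1 A K₁
  have h1 : IsIntegral A[X] b := Algebra.IsIntegral.isIntegral b
  have h2 : IsIntegral A[X] (algebraMap B K₁ b) := h1.algebraMap
  exact h2.tower_top

include A in
/-- the inclusion `B → B_K`. -/
def h74_i : B →+* integralClosure K[X] K₁ :=
  (algebraMap B K₁).codRestrict (integralClosure K[X] K₁)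
    (fun b => h74_isIntegral_algebraMap A K₁ b)

theorem h74_i_coe (b : B) : ((h74_i A K₁ b : integralClosure K[X] K₁) : K₁) = algebraMap B K₁ b :=
  rfl

theorem h74_i_injective : Function.Injective (h74_i A K₁ (B := B)) := by
  intro b b' h
  apply IsFractionRing.injective B K₁
  rw [← h74_i_coe A K₁, ← h74_i_coe A K₁, h]

theorem h74_i_algebraMap (q : A[X]) :
    h74_i A K₁ (algebraMap A[X] B q) =
      algebraMap K[X] (integralClosure K[X] K₁) (q.map A.subtype) := by
  haveI := h74_tower_K1 A K₁
  apply Subtype.ext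
  rw [h74_i_coe]
  show _ = algebraMap K[X] K₁ (q.map A.subtype)
  rw [← IsScalarTower.algebraMap_apply A[X] B K₁]
  exact IsScalarTower.algebraMap_apply A[X] K[X] K₁ q

/-! ### instances of the generic fibre -/

include A in
theorem h74_algebraMap_K1_injective : Function.Injective (algebraMap K[X] K₁) := by
  rw [IsScalarTower.algebraMap_eq K[X] (FractionRing A[X]) K₁]
  exact (algebraMap (FractionRing A[X]) K₁).injective.comp
    (IsFractionRing.injective K[X] (FractionRing A[X]))

include A in
theorem h74_faithful_BK : FaithfulSMul K[X] (integralClosure K[X] K₁) := by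
  rw [faithfulSMul_iff_algebraMap_injective]
  intro p q h
  apply h74_algebraMap_K1_injective A K₁
  exact congrArg Subtype.val h

theorem h74_charZero_K0 [CharZero K] : CharZero (FractionRing A[X]) :=
  charZero_of_injective_algebraMap (R := K[X])
    (IsFractionRing.injective K[X] (FractionRing A[X]))

include A in
theorem h74_isSeparable [CharZero K] : Algebra.IsSeparable (FractionRing A[X]) K₁ := by
  haveI := h74_charZero_K0 A
  infer_instance

include A in
theorem h74_isDedekind_BK [CharZero K] : IsDedekindDomain (integralClosure K[X] K₁) := by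
  haveI := h74_isSeparable A K₁
  exact integralClosure.isDedekindDomain K[X] (FractionRing A[X]) K₁

include A in
theorem h74_finite_BK [CharZero K] : Module.Finite K[X] (integralClosure K[X] K₁) := by
  haveI := h74_isSeparable A K₁
  exact IsIntegralClosure.finite K[X] (FractionRing A[X]) K₁ (integralClosure K[X] K₁)

include A in
theorem h74_free_BK [CharZero K] : Module.Free K[X] (integralClosure K[X] K₁) := by
  haveI := h74_isSeparable A K₁
  haveI : FaithfulSMul K[X] K₁ :=
    (faithfulSMul_iff_algebraMap_injective _ _).mpr (h74_algebraMap_K1_injective A K₁)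
  exact IsIntegralClosure.module_free K[X] (FractionRing A[X]) K₁ (integralClosure K[X] K₁)

/-! ### denominators -/

include A in
theorem h74_exists_denom [IsIntegrallyClosed B] (y : integralClosure K[X] K₁) :
    ∃ a : A, a ≠ 0 ∧ ∃ b : B,
      algebraMap K[X] (integralClosure K[X] K₁) (C (a : K)) * y = h74_i A K₁ b := by
  haveI := h74_tower_K1 A K₁
  have hy : IsIntegral K[X] (y : K₁) := y.2
  obtain ⟨⟨m, hm⟩, hmy⟩ :=
    IsIntegral.exists_multiple_integral_of_isLocalization (h74_M A) (y : K₁) hy
  obtain ⟨a, ha, rfl⟩ := hm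
  have h1 : IsIntegral B (algebraMap A[X] K₁ (C a) * (y : K₁)) := by
    have h2 : IsIntegral B ((⟨C a, ⟨a, ha, rfl⟩⟩ : h74_M A) • (y : K₁)) := hmy.tower_top
    rw [Submonoid.smul_def, Algebra.smul_def] at h2
    exact h2
  obtain ⟨b, hb⟩ := IsIntegrallyClosed.isIntegral_iff.mp h1
  refine ⟨a, nonZeroDivisors.ne_zero ha, b, Subtype.ext ?_⟩
  rw [h74_i_coe, hb]
  show algebraMap K[X] K₁ (C (a : K)) * (y : K₁) = _
  congr 1
  rw [IsScalarTower.algebraMap_apply A[X] K[X] K₁]
  congr 1
  show C (a : K) = (C a : A[X]).map A.subtype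
  rw [Polynomial.map_C]
  rfl

/-! ### the lifted family -/

include A in
theorem h74_span' [IsIntegrallyClosed B] {n : ℕ} (e : Fin n → B) (s : A[X])
    (hspan : ∀ b : B, ∃ c : Fin n → A[X], s • b = ∑ j, c j • e j)
    (y : integralClosure K[X] K₁) :
    ∃ c : Fin n → K[X], (s.map A.subtype) • y = ∑ j, c j • h74_i A K₁ (e j) := by
  obtain ⟨a, ha, b, hb⟩ := h74_exists_denom A (B := B) K₁ y
  obtain ⟨c, hc⟩ := hspan b
  have haK : (a : K) ≠ 0 := fun h => ha (Subtype.ext h)
  refine ⟨fun j => C ((a : K)⁻¹) * (c j).map A.subtype, ?_⟩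
  have h1 : algebraMap K[X] (integralClosure K[X] K₁) (s.map A.subtype) * h74_i A K₁ b
      = ∑ j, algebraMap K[X] (integralClosure K[X] K₁) ((c j).map A.subtype) *
          h74_i A K₁ (e j) := by
    rw [← h74_i_algebraMap A (B := B) K₁, ← map_mul, ← Algebra.smul_def, hc, map_sum]
    refine Finset.sum_congr rfl fun j _ => ?_
    rw [Algebra.smul_def, map_mul, h74_i_algebraMap A (B := B) K₁]
  have h2 : algebraMap K[X] (integralClosure K[X] K₁) (C ((a : K)⁻¹)) *
      algebraMap K[X] (integralClosure K[X] K₁) (C (a : K)) = 1 := by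
    rw [← map_mul, ← C_mul, inv_mul_cancel₀ haK, C_1, map_one]
  rw [Algebra.smul_def]
  calc algebraMap K[X] (integralClosure K[X] K₁) (s.map A.subtype) * y
      = algebraMap K[X] (integralClosure K[X] K₁) (C ((a : K)⁻¹)) *
          (algebraMap K[X] (integralClosure K[X] K₁) (s.map A.subtype) *
            (algebraMap K[X] (integralClosure K[X] K₁) (C (a : K)) * y)) := by
        rw [mul_left_comm _ (algebraMap K[X] (integralClosure K[X] K₁) (C (a : K))) y,
          ← mul_assoc, h2, one_mul]
    _ = ∑ j, (C ((a : K)⁻¹) * (c j).map A.subtype) • h74_i A K₁ (e j) := by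
        rw [hb, h1, Finset.mul_sum]
        refine Finset.sum_congr rfl fun j _ => ?_
        rw [Algebra.smul_def, map_mul, mul_assoc]

include A in
theorem h74_linearIndependent' {n : ℕ} (e : Fin n → B)
    (bE : Module.Basis (Fin n) (FractionRing A[X]) K₁)
    (hbE : ∀ j, bE j = algebraMap B K₁ (e j)) :
    LinearIndependent K[X] (fun j => h74_i A K₁ (e j)) := by
  have h1 : LinearIndependent (FractionRing A[X]) (bE : Fin n → K₁) := bE.linearIndependent
  have h2 : LinearIndependent K[X] (bE : Fin n → K₁) := by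
    refine LinearIndependent.restrict_scalars (K := FractionRing A[X]) ?_ h1
    intro p q hpq
    apply IsFractionRing.injective K[X] (FractionRing A[X])
    simpa [Algebra.smul_def] using hpq
  have h3 : (bE : Fin n → K₁) =
      (integralClosure K[X] K₁).val.toLinearMap ∘ (fun j => h74_i A K₁ (e j)) := by
    funext j
    rw [hbE j]
    rfl
  rw [h3] at h2
  exact LinearIndependent.of_comp _ h2

/-! ### the discriminant identity -/

include A in
theorem h74_discr_eq [CharZero K] {n : ℕ} (e : Fin n → B)
    (bE : Module.Basis (Fin n) (FractionRing A[X]) K₁)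
    (hbE : ∀ j, bE j = algebraMap B K₁ (e j)) :
    algebraMap K[X] (FractionRing A[X])
        (Algebra.discr K[X] (fun j => h74_i A K₁ (e j))) =
      Algebra.discr (FractionRing A[X]) bE := by
  classical
  haveI := h74_isSeparable A K₁
  haveI := h74_finite_BK A K₁
  haveI := h74_free_BK A K₁
  haveI : IsLocalization
      (Algebra.algebraMapSubmonoid (integralClosure K[X] K₁) (nonZeroDivisors K[X])) K₁ :=
    IsIntegralClosure.isLocalization K[X] (FractionRing A[X]) K₁ (integralClosure K[X] K₁)
  rw [Algebra.discr_def, Algebra.discr_def, RingHom.map_det]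
  congr 1
  ext j l
  rw [RingHom.mapMatrix_apply, Matrix.map_apply, Algebra.traceMatrix_apply,
    Algebra.traceMatrix_apply, Algebra.traceForm_apply, Algebra.traceForm_apply]
  rw [← Algebra.trace_localization K[X] (nonZeroDivisors K[X]) (Rₘ := FractionRing A[X])
    (Sₘ := K₁)]
  congr 1
  rw [hbE j, hbE l, map_mul]
  rfl

include A in
theorem h74_identity [CharZero K] {n : ℕ} (e : Fin n → B) (s D : A[X])
    (bE : Module.Basis (Fin n) (FractionRing A[X]) K₁)
    (hbE : ∀ j, bE j = algebraMap B K₁ (e j))
    (hD : algebraMap A[X] (FractionRing A[X]) D =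
      algebraMap A[X] (FractionRing A[X]) s ^ n * Algebra.discr (FractionRing A[X]) bE) :
    D.map A.subtype =
      (s.map A.subtype) ^ n * Algebra.discr K[X] (fun j => h74_i A K₁ (e j)) := by
  apply IsFractionRing.injective K[X] (FractionRing A[X])
  rw [map_mul, map_pow, h74_discr_eq A K₁ e bE hbE]
  have h1 : ∀ q : A[X], algebraMap K[X] (FractionRing A[X]) (q.map A.subtype) =
      algebraMap A[X] (FractionRing A[X]) q := fun q =>
    (IsScalarTower.algebraMap_apply A[X] K[X] (FractionRing A[X]) q).symm
  rw [h1, h1, hD]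

end Gen

section Final

universe u v w

attribute [local instance] h74_algK0

open Fermat.Agent.Red.SM.EtAbs

/-- the count `h74_cnt` is the number of maximal ideals containing `x - c`. -/
theorem h74_cnt_eq {K : Type u} [Field K] [IsAlgClosed K] (A : ValuationSubring K)
    {B : Type v} [CommRing B] [Algebra A[X] B] [Module.Finite A[X] B]
    (htf : h74_Tf A B) (c : A) :
    h74_cnt A (algebraMap A[X] B) c =
      Nat.card {𝔫 : Ideal B // 𝔫.IsMaximal ∧ algebraMap A[X] B (X - C c) ∈ 𝔫} := by
  unfold h74_cnt
  refine Nat.card_congr (Equiv.subtypeEquivRight fun 𝔫 => ?_)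
  constructor
  · rintro ⟨h1, _, h3⟩
    exact ⟨h1, h3⟩
  · rintro ⟨h1, h3⟩
    refine ⟨h1, ?_, h3⟩
    haveI := h1
    obtain ⟨φ, hφ, hφ𝔫⟩ := h52c_exists_point (A := A) (B := B) K c (htf c) 𝔫 h3
    unfold h74_P
    rw [Ideal.map_le_iff_le_comap]
    intro q hq
    rw [Ideal.mem_comap, ← hφ𝔫, Ideal.mem_comap, hφ q]
    exact h83_eval_mem_of_mem_I A hq c

theorem h74_genericV_aux (hT : h74_Tame.{u, w})
    {K : Type u} [Field K] [IsAlgClosed K] [CharZero K] (A : ValuationSubring K)
    {B : Type v} [CommRing B] [IsDomain B] [IsIntegrallyClosed B]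
    [Algebra A[X] B] [FaithfulSMul A[X] B] [Module.Finite A[X] B]
    (K₁ : Type w) [Field K₁] [Algebra B K₁] [IsFractionRing B K₁]
    [Algebra (FractionRing A[X]) K₁] [Algebra A[X] K₁]
    [IsScalarTower A[X] (FractionRing A[X]) K₁] [IsScalarTower A[X] B K₁]
    [Algebra K[X] K₁] [IsScalarTower K[X] (FractionRing A[X]) K₁]
    [FiniteDimensional (FractionRing A[X]) K₁]
    (htf : h74_Tf A B)
    (n : ℕ) (e : Fin n → B) (s D : A[X])
    (hTD : h53_TransferData (FractionRing A[X]) K₁ (h74_I A) n e s D) :
    (∀ c : A, (D.map A.subtype).rootMultiplicity (c : K) +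
        h74_cnt A (algebraMap A[X] B) c ≤ n) ∧
    (∀ c : A, h74_Unr A B c → (D.map A.subtype).rootMultiplicity (c : K) = 0) := by
  classical
  obtain ⟨bE, hbE, hD, -⟩ := hTD.generic
  have hid := h74_identity A K₁ e s D bE hbE hD
  have hli := h74_linearIndependent' A K₁ e bE hbE
  have hsp := h74_span' A K₁ e s hTD.span
  haveI hded : IsDedekindDomain (integralClosure K[X] K₁) := h74_isDedekind_BK A K₁
  haveI hfin : Module.Finite K[X] (integralClosure K[X] K₁) := h74_finite_BK A K₁
  haveI hfree : Module.Free K[X] (integralClosure K[X] K₁) := h74_free_BK A K₁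
  haveI hfaith : FaithfulSMul K[X] (integralClosure K[X] K₁) := h74_faithful_BK A K₁
  -- the hypotheses (h1), (h2), (h3)
  have h1 : ∀ q : A[X], h74_i A K₁ (algebraMap A[X] B q) =
      algebraMap K[X] (integralClosure K[X] K₁) (q.map (algebraMap A K)) :=
    fun q => h74_i_algebraMap A K₁ q
  have h2 : ∀ z : integralClosure K[X] K₁, ∃ a : A, a ≠ 0 ∧ ∃ b : B,
      algebraMap K[X] (integralClosure K[X] K₁) (C (algebraMap A K a)) * z = h74_i A K₁ b :=
    fun z => h74_exists_denom A K₁ z
  have h3 : Function.Injective (h74_i A K₁ (B := B)) := h74_i_injective A K₁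
  -- `s(c) ≠ 0`
  have hsc : ∀ c : A, (s.map A.subtype).eval (c : K) ≠ 0 := by
    intro c
    have hu := h83_isUnit_eval A hTD.s_sub_one c
    have h4 : (s.map A.subtype).eval (A.subtype c) = A.subtype (s.eval c) :=
      Polynomial.eval_map_apply _ _
    have h5 : (s.map A.subtype).eval (c : K) = ((s.eval c : A) : K) := h4
    rw [h5]
    intro h0
    have : s.eval c = 0 := Subtype.ext h0
    rw [this] at hu
    exact not_isUnit_zero hu
  -- TAME
  have htame : ∀ c : A,
      Finite {P : Ideal (integralClosure K[X] K₁) // P.IsMaximal ∧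
        algebraMap K[X] (integralClosure K[X] K₁) (X - C (c : K)) ∈ P} ∧
      (Algebra.discr K[X] (fun j => h74_i A K₁ (e j))).rootMultiplicity (c : K) +
        Nat.card {P : Ideal (integralClosure K[X] K₁) // P.IsMaximal ∧
          algebraMap K[X] (integralClosure K[X] K₁) (X - C (c : K)) ∈ P} ≤ n :=
    fun c => hT K (integralClosure K[X] K₁) n (fun j => h74_i A K₁ (e j)) (s.map A.subtype)
      hli hsp (c : K) (hsc c)
  -- multiplicities
  have hmult : ∀ c : A, (D.map A.subtype).rootMultiplicity (c : K) =
      (Algebra.discr K[X] (fun j => h74_i A K₁ (e j))).rootMultiplicity (c : K) := by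
    intro c
    by_cases h0 : Algebra.discr K[X] (fun j => h74_i A K₁ (e j)) = 0
    · rw [hid, h0, mul_zero]
    · have hs0 : s.map A.subtype ≠ 0 := fun h => hsc c (by rw [h, eval_zero])
      have hsr : ((s.map A.subtype) ^ n).rootMultiplicity (c : K) = 0 :=
        rootMultiplicity_eq_zero (by rw [IsRoot.def, eval_pow]; exact pow_ne_zero n (hsc c))
      rw [hid, rootMultiplicity_mul (mul_ne_zero (pow_ne_zero n hs0) h0), hsr, zero_add]
  refine ⟨fun c => ?_, fun c hunr => ?_⟩
  · -- the bound
    obtain ⟨hfinP, hle⟩ := htame c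
    have hcard := h52c_card_le (A := A) (B := B) (K := K) (h74_i A K₁) h1 h2 h3 c (htf c)
    rw [hmult c, h74_cnt_eq A htf c]
    have hcard' : Nat.card {𝔫 : Ideal B // 𝔫.IsMaximal ∧ algebraMap A[X] B (X - C c) ∈ 𝔫} ≤
        Nat.card {P : Ideal (integralClosure K[X] K₁) // P.IsMaximal ∧
          algebraMap K[X] (integralClosure K[X] K₁) (X - C (c : K)) ∈ P} := hcard
    omega
  · -- unramified points
    obtain ⟨hfinP, hle⟩ := htame c
    rw [hmult c]
    have hsq : ∀ P : Ideal (integralClosure K[X] K₁), P.IsMaximal →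
        algebraMap K[X] (integralClosure K[X] K₁) (X - C (c : K)) ∈ P →
        algebraMap K[X] (integralClosure K[X] K₁) (X - C (c : K)) ∉ P ^ 2 := by
      intro P hP hPc
      haveI := hP
      exact h52c_not_mem_sq (A := A) (B := B) (K := K) (h74_i A K₁) h1 h2 h3 c hunr P hPc
    letI algK : Algebra K (integralClosure K[X] K₁) :=
      ((algebraMap K[X] (integralClosure K[X] K₁)).comp (C : K →+* K[X])).toAlgebra
    haveI : IsScalarTower K K[X] (integralClosure K[X] K₁) :=
      IsScalarTower.of_algebraMap_eq fun _ => rfl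
    let b := Module.Free.chooseBasis K[X] (integralClosure K[X] K₁)
    have hpts := h60g3_pts_eq_card b (c : K) hsq
    have hpts' : h2_pts K (integralClosure K[X] K₁) (c : K) =
        Nat.card {P : Ideal (integralClosure K[X] K₁) // P.IsMaximal ∧
          algebraMap K[X] (integralClosure K[X] K₁) (X - C (c : K)) ∈ P} :=
      h52c_card_maxSpec _
    have hrank : n ≤ Fintype.card (Module.Free.ChooseBasisIndex K[X] (integralClosure K[X] K₁)) := by
      have h6 := hli.fintype_card_le_finrank
      rw [Fintype.card_fin, Module.finrank_eq_card_chooseBasisIndex] at h6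
      exact h6
    omega

attribute [local instance] FractionRing.liftAlgebra FractionRing.isScalarTower_liftAlgebra in
/-- **G-GEN-V**: the generic fibre input of the chain. -/
theorem h74_genericV : h74_GenericV := by
  intro K _ _ _ A B _ _ _ _ _ _ htf n e s D hTD
  letI : Algebra K[X] (FractionRing B) :=
    ((algebraMap (FractionRing A[X]) (FractionRing B)).comp (h74_toK0 A)).toAlgebra
  haveI : IsScalarTower K[X] (FractionRing A[X]) (FractionRing B) :=
    IsScalarTower.of_algebraMap_eq fun _ => rfl
  exact h74_genericV_aux Fermat.Agent.Red.SM.h99_h74_tame A (FractionRing B) htf n e s D hTD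

end Final

end Fermat.Agent.Red.SM.Core

end
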