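import Mathlib
import Fermat.Agent.Red.SM.Final13
import Fermat.Agent.Red.SM.H74BK
import Fermat.Agent.Red.SM.TIDGlue

/-!
# P-RED / R-SM: `IfaceSmooth` from the `t`-coordinate row alone (helper13)

With helper74's unconditional generic-fibre bound `Core.h74_genericV`, the only remaining input of
`ifaceSmooth_of_open` is the row `Inst.RowTID` (the Hauptmodul coordinates `t₂`, `t₃` for the
auxiliary levels).  Through helper8's glue `TIDGlue.h8tid_rowTID` this is the existence of two
formal Laurent series over `ℚ`.
-/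

set_option autoImplicit false

namespace Fermat.Agent.Red.SM

/-- `IfaceSmooth` from the row `RowTID`. -/
theorem h13_ifaceSmooth_of_rowTID (hTID : Inst.RowTID) : Fermat.Agent.S37.IfaceSmooth :=
  ifaceSmooth_of_open Core.h74_genericV hTID

/-- `IfaceSmooth` from the two formal Hauptmoduln. -/
theorem h13_ifaceSmooth_of_formal
    (h2 : ∃ t, TIDGlue.h8tid_Formal2 t) (h3 : ∃ t, TIDGlue.h8tid_Formal3 t) :
    Fermat.Agent.S37.IfaceSmooth :=
  h13_ifaceSmooth_of_rowTID (TIDGlue.h8tid_rowTID h2 h3)

end Fermat.Agent.Red.SM
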