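import Fermat.Agent.Red.SM.TID2
import Fermat.Agent.Red.SM.TID3Row
import Fermat.Agent.Red.SM.FinalTID

/-!
# P-RED / R-SM: `IfaceSmooth`, unconditional (helper13)

`h13_rowTID : Inst.RowTID` from the formal Hauptmoduln `t₂` (helper29, `Red/SM/TID2.lean`) and `t₃`
(helper80, `Red/SM/TID3Row.lean`) through the membership-free glue of helper55, and
`h13_ifaceSmooth : S37.IfaceSmooth` through `h13_ifaceSmooth_of_rowTID` (SM-CORE by helper74 and the
instantiation rows).
-/

set_option autoImplicit false

namespace Fermat.Agent.Red.SM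

/-- **SM-TID**: the row `RowTID`. -/
theorem h13_rowTID : Inst.RowTID :=
  TID.rowTID_of_t2 TID.t2_identity TID.t2_fricke TID.t2_coeff_int TID.t2_isMonicOfOrder

/-- **R-SM**: smoothness of the special fibre at the good levels. -/
theorem h13_ifaceSmooth : Fermat.Agent.S37.IfaceSmooth :=
  h13_ifaceSmooth_of_rowTID h13_rowTID

end Fermat.Agent.Red.SM
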