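import Fermat.Agent.Red.SM.TIDFormal13
import Fermat.Agent.Red.SM.FinalTID

/-!
# P-RED / R-SM: `IfaceSmooth` from the two analytic identities of `t₂` (helper13)

Everything else is wired: SM-CORE (helper74), the instantiation rows, the level-3 Hauptmodul `t₃`
(helper80's analytic identities + the formal transfer of `TIDFormal13.lean`), the membership-free
glue (helper55).  The only remaining input is the pair of analytic identities
`j t₂² = (t₂ + 256)³`, `j(2τ) t₂ = (t₂ + 16)³` for `t₂ = q⁻¹ (P(q)/P(q²))^24 = Δ(τ)/Δ(2τ)`.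
-/

set_option autoImplicit false

open UpperHalfPlane

namespace Fermat.Agent.Red.SM

open Fermat.Agent.S28

/-- `IfaceSmooth` from the two analytic identities at level 2. -/
theorem h13_ifaceSmooth_of_t2
    (hid : ∀ τ : ℍ, jAn τ * TID13.h13t_An 2 24 τ ^ 2 = (TID13.h13t_An 2 24 τ + 256) ^ 3)
    (hfr : ∀ τ : ℍ, jAt 2 τ * TID13.h13t_An 2 24 τ = (TID13.h13t_An 2 24 τ + 16) ^ 3) :
    Fermat.Agent.S37.IfaceSmooth :=
  h13_ifaceSmooth_of_rowTID (TID13.h13t_rowTID_of hid hfr)

end Fermat.Agent.Red.SM
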