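import Fermat.Agent.Red.SM.TID2An
import Fermat.Agent.Red.SM.FinalT2

/-!
# P-RED / R-SM / SM-TID: the last bridge (helper18)

`t2An τ = Δ(τ)/Δ(2τ)` (helper29, `TID2An.lean`) is the function
`h13t_An 2 24 τ = q⁻¹ (P(q)/P(q²))^24` of helper13's formal transfer (`TIDFormal13.lean`), by the
product formula of `Δ`.  Hence the two analytic identities of `t2An` give `Inst.RowTID` and
`S37.IfaceSmooth` unconditionally.
-/

set_option autoImplicit false

open UpperHalfPlane Complex

noncomputable section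

namespace Fermat.Agent.Red.SM.TID18

open Fermat.Agent.S28 Fermat.Agent.Red.SM.TID Fermat.Agent.Red.SM.TID13

open ModularForm in
/-- the product formula of `Δ` in terms of `h80_Pq`. -/
theorem h18t_disc_eq (τ : ℍ) :
    ModularForm.discriminant τ = tParam 1 τ * h80_Pq (tParam 1 τ) ^ 24 := by
  have h0 := discriminant_eq_q_prod τ
  have h1 : (∏' n : ℕ, (1 - eta_q n (τ : ℂ)) ^ 24) = (∏' n : ℕ, (1 - eta_q n (τ : ℂ))) ^ 24 :=
    (multipliableLocallyUniformlyOn_eta.multipliable τ.2).tprod_pow 24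
  have h2 : (∏' n : ℕ, (1 - eta_q n (τ : ℂ))) = h80_Pq (tParam 1 τ) := by
    rw [h80_tParam_one]
    unfold h80_Pq
    refine tprod_congr (fun n => ?_)
    rw [eta_q_eq_pow]
  have h3 : Function.Periodic.qParam 1 (τ : ℂ) = tParam 1 τ := by
    simp [tParam]
  rw [h0, h1, h2, h3]

/-- `t2An = q⁻¹ (P(q)/P(q²))^24`. -/
theorem h18t_t2An_eq (τ : ℍ) : t2An τ = h13t_An 2 24 τ := by
  have hq0 : tParam 1 τ ≠ 0 := by
    rw [h80_tParam_one]
    exact Complex.exp_ne_zero _
  have hq2 : ‖tParam 1 τ ^ 2‖ < 1 := by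
    rw [norm_pow]
    exact pow_lt_one₀ (norm_nonneg _) (norm_tParam_lt_one one_pos τ) (by norm_num)
  have hP2 : h80_Pq (tParam 1 τ ^ 2) ≠ 0 := h80_Pq_ne_zero hq2
  rw [t2An, deltaAn, deltaAt, h18t_disc_eq τ, h18t_disc_eq (scaleH 2 τ),
    h19_tParam_scaleH 1 2 two_pos τ, h13t_An]
  field_simp

/-- the row `RowTID`, unconditionally. -/
theorem h18t_rowTID : Inst.RowTID :=
  h13t_rowTID_of
    (fun τ => by rw [← h18t_t2An_eq]; exact t2An_identity τ)
    (fun τ => by rw [← h18t_t2An_eq]; exact t2An_fricke τ)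

/-- **smoothness at good levels**, unconditionally. -/
theorem h18t_ifaceSmooth : Fermat.Agent.S37.IfaceSmooth :=
  h13_ifaceSmooth_of_rowTID h18t_rowTID

end Fermat.Agent.Red.SM.TID18
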