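import Fermat.Agent.Red.SM.UnramT
import Fermat.Agent.Red.SM.CoreSkeleton

/-!
# P-RED, R-SM (task SM-RAM): the hypothesis (H5) BRANCH of SM-CORE

* `h31_exists_place_eq` (R0) : every valuation subring `W ≠ ⊤` of a function field `F` which
  contains the constants is the valuation ring of a place.
* `h31_not_sq_of_ord` : `ord_v f = 1` implies that `f` is not a product of two elements of
  `𝔪_v`.
* `ord_jinv_sub_eq` (R1) : ramification over the `1/j`-line.
* `ram_jinv`, `ram_t2`, `ram_t3` : (H5) for the charts `x = 1/j`, `x = t₂`, `x = t₃`, in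
  valuation subring form.
-/

set_option autoImplicit false

open ModularCurve AlgebraicCurve CongruenceSubgroup IntermediateField Polynomial
open scoped MatrixGroups

noncomputable section

namespace Fermat.Agent.Red.SM

open Fermat.Agent.S24

/-! ## (R0) valuation subrings and places -/

section Dict

open IsDedekindDomain
open scoped IntermediateField.algebraAdjoinAdjoin

variable {K F : Type*} [Field K] [Field F] [Algebra K F]

/-- a valuation subring containing the constants and `x` contains `K[x]`. -/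
theorem h31_adjoin_le (x : F) (W : ValuationSubring F) (hK : ∀ a : K, algebraMap K F a ∈ W)
    (hxW : x ∈ W) (a : Algebra.adjoin K {x}) : (a : F) ∈ W := by
  let S : Subalgebra K F :=
    { W.toSubring.toSubsemiring with
      algebraMap_mem' := hK }
  have hle : Algebra.adjoin K {x} ≤ S := Algebra.adjoin_le (by
    intro y hy
    rw [Set.mem_singleton_iff] at hy
    rw [hy]
    exact hxW)
  exact hle a.2

/-- a valuation subring containing the constants and `x` contains the integral closure of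
`K[x]`. -/
theorem h31_integralClosure_le (x : F) (W : ValuationSubring F)
    (hK : ∀ a : K, algebraMap K F a ∈ W) (hxW : x ∈ W)
    (b : integralClosure (Algebra.adjoin K {x}) F) : (b : F) ∈ W := by
  have hA := h31_adjoin_le x W hK hxW
  let φ : Algebra.adjoin K {x} →+* W :=
    (algebraMap (Algebra.adjoin K {x}) F).codRestrict W.toSubring hA
  let _ : Algebra (Algebra.adjoin K {x}) W := φ.toAlgebra
  have : IsScalarTower (Algebra.adjoin K {x}) W F :=
    IsScalarTower.of_algebraMap_eq fun _ => rfl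
  have hb' : IsIntegral W (b : F) := b.2.tower_top
  obtain ⟨z, hz⟩ := (IsIntegrallyClosed.isIntegral_iff (R := W) (K := F)).mp hb'
  rw [← hz]
  exact z.2

/-- **(R0)**, with a coordinate in `W`. -/
theorem h31_exists_place_eq_of_mem [CharZero K] (x : F) (hx : Transcendental K x)
    [FiniteDimensional K⟮x⟯ F] (W : ValuationSubring F)
    (hK : ∀ a : K, algebraMap K F a ∈ W) (hxW : x ∈ W) (hW : W ≠ ⊤) :
    ∃ v : Place K F, v.toValuationSubring = W := by
  have hPID := FICore.isPrincipalIdealRing_adjoin x hx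
  have hDed : IsDedekindDomain (integralClosure (Algebra.adjoin K {x}) F) :=
    integralClosure.isDedekindDomain (Algebra.adjoin K {x}) K⟮x⟯ F
  have hFrac : IsFractionRing (integralClosure (Algebra.adjoin K {x}) F) F :=
    integralClosure.isFractionRing_of_finite_extension K⟮x⟯ F
  have hBW : ∀ b : integralClosure (Algebra.adjoin K {x}) F, (b : F) ∈ W :=
    h31_integralClosure_le x W hK hxW
  let ι : integralClosure (Algebra.adjoin K {x}) F →+* W :=
    (algebraMap (integralClosure (Algebra.adjoin K {x}) F) F).codRestrict W.toSubring hBW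
  have hι : ∀ b : integralClosure (Algebra.adjoin K {x}) F, ((ι b : W) : F) = algebraMap (integralClosure (Algebra.adjoin K {x}) F) F b := fun _ => rfl
  let p : Ideal (integralClosure (Algebra.adjoin K {x}) F) := (IsLocalRing.maximalIdeal W).comap ι
  have hpprime : p.IsPrime := Ideal.comap_isPrime ι _
  have hunit : ∀ b : integralClosure (Algebra.adjoin K {x}) F, b ∉ p → (algebraMap (integralClosure (Algebra.adjoin K {x}) F) F b)⁻¹ ∈ W := by
    intro b hb
    have h1 : ι b ∉ IsLocalRing.maximalIdeal W := hb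
    have h2 : IsUnit (ι b) := by
      by_contra h
      exact h1 ((IsLocalRing.mem_maximalIdeal _).2 h)
    obtain ⟨u, hu⟩ := h2
    have h3 : ((u⁻¹ : Wˣ) : W) * ι b = 1 := by
      rw [← hu]
      exact u.inv_mul
    have h4 : (((u⁻¹ : Wˣ) : W) : F) * algebraMap (integralClosure (Algebra.adjoin K {x}) F) F b = 1 := by
      have := congrArg (Subtype.val : W → F) h3
      simpa [hι] using this
    have h5 : (algebraMap (integralClosure (Algebra.adjoin K {x}) F) F b)⁻¹ = (((u⁻¹ : Wˣ) : W) : F) :=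
      (eq_inv_of_mul_eq_one_left h4).symm ▸ rfl
    rw [h5]
    exact Subtype.mem _
  have hpne : p ≠ ⊥ := by
    intro hp
    apply hW
    rw [eq_top_iff]
    intro f _
    obtain ⟨b, s, hs, rfl⟩ := IsFractionRing.div_surjective (A := integralClosure (Algebra.adjoin K {x}) F) f
    have hs0 : s ∉ p := by
      rw [hp, Ideal.mem_bot]
      exact nonZeroDivisors.ne_zero hs
    rw [div_eq_mul_inv]
    exact W.mul_mem _ _ (hBW b) (hunit s hs0)
  let P : HeightOneSpectrum (integralClosure (Algebra.adjoin K {x}) F) := ⟨p, hpprime, hpne⟩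
  refine ⟨Place.ofHeightOneSpectrum (K := K) (F := F) P, ?_⟩
  rw [Place.ofHeightOneSpectrum_toValuationSubring,
    ← HeightOneSpectrum.valuationSubringAtPrime_eq_valuationSubring]
  refine ValuationSubring.eq_of_le_of_ne_top
    (A := HeightOneSpectrum.valuationSubringAtPrime F P) ?_ hW
  intro f hf
  rw [HeightOneSpectrum.valuationSubringAtPrime_eq_valuationSubring] at hf
  obtain ⟨n, d, hnd⟩ := HeightOneSpectrum.exists_primeCompl_mul_eq_of_integer P f hf
  have hd : (d : integralClosure (Algebra.adjoin K {x}) F) ∉ p := d.2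
  have hd0 : algebraMap (integralClosure (Algebra.adjoin K {x}) F) F (d : integralClosure (Algebra.adjoin K {x}) F) ≠ 0 := by
    intro h
    apply hd
    have : (d : integralClosure (Algebra.adjoin K {x}) F) = 0 := (map_eq_zero_iff _ (IsFractionRing.injective (integralClosure (Algebra.adjoin K {x}) F) F)).1 h
    rw [this]
    exact p.zero_mem
  have hf' : f = algebraMap (integralClosure (Algebra.adjoin K {x}) F) F n * (algebraMap (integralClosure (Algebra.adjoin K {x}) F) F (d : integralClosure (Algebra.adjoin K {x}) F))⁻¹ := by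
    rw [← hnd, mul_assoc, mul_inv_cancel₀ hd0, mul_one]
  rw [hf']
  exact W.mul_mem _ _ (hBW n) (hunit d hd)

/-- **(R0)** every valuation subring `W ≠ ⊤` of `F` containing the constants is the valuation
ring of a place. -/
theorem h31_exists_place_eq [CharZero K] (x : F) (hx : Transcendental K x)
    [FiniteDimensional K⟮x⟯ F] (W : ValuationSubring F)
    (hK : ∀ a : K, algebraMap K F a ∈ W) (hW : W ≠ ⊤) :
    ∃ v : Place K F, v.toValuationSubring = W := by
  rcases W.mem_or_inv_mem x with h | h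
  · exact h31_exists_place_eq_of_mem x hx W hK h hW
  · have hx' : Transcendental K x⁻¹ := fun h => hx (by simpa using h.inv)
    have := pd_finiteDimensional_adjoin_of_transcendental x x⁻¹ hx'
    exact h31_exists_place_eq_of_mem x⁻¹ hx' W hK h hW

variable (v : Place K F)

theorem h31_ord_pos_of_mem_nonunits {f : F} (hf : f ∈ v.toValuationSubring.nonunits)
    (hf0 : f ≠ 0) : 0 < v.ord f := by
  obtain ⟨hfW, hfm⟩ := ValuationSubring.mem_nonunits_iff_exists_mem_maximalIdeal.1 hf
  exact DiffPlace.ord_pos_of_mem_maximalIdeal v hfm (fun h => hf0 (congrArg Subtype.val h))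

theorem h31_mem_nonunits_of_ord_pos {f : F} (hf : 0 < v.ord f) :
    f ∈ v.toValuationSubring.nonunits := by
  rw [ValuationSubring.mem_nonunits_iff_exists_mem_maximalIdeal]
  exact ⟨DiffPlace.mem_of_ord_nonneg v hf.le,
    DiffPlace.mem_maximalIdeal_of_ord_pos v (z := ⟨f, DiffPlace.mem_of_ord_nonneg v hf.le⟩) hf⟩

/-- an element of order one is not in `𝔪_v ^ 2`. -/
theorem h31_not_sq_of_ord {f : F} (h : v.ord f = 1) (y z : F)
    (hy : y ∈ v.toValuationSubring.nonunits) (hz : z ∈ v.toValuationSubring.nonunits) :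
    f ≠ y * z := by
  intro hf
  have hf0 : f ≠ 0 := by
    rintro rfl
    simp at h
  have hy0 : y ≠ 0 := fun h0 => hf0 (by rw [hf, h0, zero_mul])
  have hz0 : z ≠ 0 := fun h0 => hf0 (by rw [hf, h0, mul_zero])
  have h1 := h31_ord_pos_of_mem_nonunits v hy hy0
  have h2 := h31_ord_pos_of_mem_nonunits v hz hz0
  rw [hf, v.ord_mul hy0 hz0] at h
  omega

end Dict

/-! ## (R1) the `1/j`-line -/

section Charts

variable (M : ℕ) [NeZero M]

theorem h31_jBar_ne_zero : jBar M ≠ 0 :=
  fun h => (transcendental_jBar M) (h ▸ isAlgebraic_zero)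

theorem transcendental_jinv : Transcendental Kbar (jBar M)⁻¹ :=
  fun h => (transcendental_jBar M) (by simpa using h.inv)

/-- **(R1)** ramification over the `1/j`-line, away from the cusps. -/
theorem ord_jinv_sub_eq (h2 : nuTwo M = 0) (h3 : nuThree M = 0)
    (v : Place Kbar (FF M)) (c : Kbar) (hc : c ≠ 0)
    (hv : 0 < v.ord ((jBar M)⁻¹ - cst M c)) :
    v.ord ((jBar M)⁻¹ - cst M c) = if c = 1728⁻¹ then 2 else 1 := by
  have hj := h31_jBar_ne_zero M
  have hs0 : v.ord (jBar M)⁻¹ = 0 := by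
    have := (h31_ord_aeval_eq_zero v (jBar M)⁻¹ c hv X (by simpa using hc)).2
    simpa using this
  have hj0 : v.ord (jBar M) = 0 := by
    rw [v.ord_inv] at hs0
    omega
  have hc' : cst M c ≠ 0 := by
    rw [Ne, map_eq_zero_iff _ (algebraMap Kbar (FF M)).injective]
    exact hc
  have hcc : cst M c * cst M c⁻¹ = 1 := by
    rw [← map_mul, mul_inv_cancel₀ hc, map_one]
  have hjj : jBar M * (jBar M)⁻¹ = 1 := mul_inv_cancel₀ hj
  have key : (jBar M)⁻¹ - cst M c = -cst M c * (jBar M - cst M c⁻¹) * (jBar M)⁻¹ := by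
    linear_combination (cst M c) * hjj - (jBar M)⁻¹ * hcc
  have hne : (jBar M)⁻¹ - cst M c ≠ 0 := h31_ne_zero_of_ord_pos v hv
  have hne' : jBar M - cst M c⁻¹ ≠ 0 := by
    intro h
    rw [key, h, mul_zero, zero_mul] at hne
    exact hne rfl
  have hord : v.ord ((jBar M)⁻¹ - cst M c) = v.ord (jBar M - cst M c⁻¹) := by
    rw [key, v.ord_mul (mul_ne_zero (neg_ne_zero.2 hc') hne') (inv_ne_zero hj),
      v.ord_mul (neg_ne_zero.2 hc') hne', hs0]
    have : v.ord (-cst M c) = 0 := by
      have := h31_ord_algebraMap v (-c)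
      rwa [map_neg] at this
    rw [this]
    ring
  have hv' : 0 < v.ord (jBar M - cst M c⁻¹) := by rw [← hord]; exact hv
  have hU := ord_jsub_eq M h2 h3 v c⁻¹ hv'
  rw [hord, hU, if_neg (inv_ne_zero hc)]
  by_cases h : c = 1728⁻¹
  · rw [if_pos h, if_pos (by rw [h, inv_inv])]
    rfl
  · rw [if_neg h, if_neg (fun h' => h (by rw [← h', inv_inv])) ]
    rfl

/-! ## (H5) in valuation subring form -/

theorem h31_nonunits_top {F : Type*} [Field F] {f : F}
    (hf : f ∈ (⊤ : ValuationSubring F).nonunits) : f = 0 := by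
  rcases (ValuationSubring.mem_nonunits_iff_or _).1 hf with h | h
  · exact h
  · exact absurd (ValuationSubring.mem_top _) h

/-- from the place form to the valuation subring form. -/
theorem ram_of_place_form (x : FF M) (hxtr : Transcendental Kbar x) (c : Kbar)
    (hplace : ∀ v : Place Kbar (FF M), 0 < v.ord (x - cst M c) → v.ord (x - cst M c) = 1)
    (W : ValuationSubring (FF M)) (hK : ∀ a : Kbar, cst M a ∈ W)
    (hx : x - cst M c ∈ W.nonunits) (y z : FF M) (hy : y ∈ W.nonunits)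
    (hz : z ∈ W.nonunits) : x - cst M c ≠ y * z := by
  have hne : x - cst M c ≠ 0 := by
    intro h
    apply hxtr
    rw [sub_eq_zero.1 h]
    exact isAlgebraic_algebraMap c
  have hW : W ≠ ⊤ := by
    rintro rfl
    exact hne (h31_nonunits_top hx)
  have := (finrank_le_index M).1
  have := pd_finiteDimensional_adjoin_of_transcendental (jBar M) x hxtr
  obtain ⟨v, rfl⟩ := h31_exists_place_eq x hxtr W hK hW
  have hv := h31_ord_pos_of_mem_nonunits v hx hne
  exact h31_not_sq_of_ord v (hplace v hv) y z hy hz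

/-- **(H5), chart (b)**: `x = 1/j`, `S = {0, 1/1728}`. -/
theorem ram_jinv (h2 : nuTwo M = 0) (h3 : nuThree M = 0) (c : Kbar) (hc : c ≠ 0)
    (hc' : c ≠ 1728⁻¹)
    (W : ValuationSubring (FF M)) (hK : ∀ a : Kbar, cst M a ∈ W)
    (hx : (jBar M)⁻¹ - cst M c ∈ W.nonunits) (y z : FF M) (hy : y ∈ W.nonunits)
    (hz : z ∈ W.nonunits) : (jBar M)⁻¹ - cst M c ≠ y * z :=
  ram_of_place_form M _ (transcendental_jinv M) c
    (fun v hv => by rw [ord_jinv_sub_eq M h2 h3 v c hc hv, if_neg hc']) W hK hx y z hy hz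

/-- **(H5), chart (c)**: `x = t₂`, `S = {-64}` (and `g(c) = c ≠ 0`). -/
theorem ram_t2 (h2 : nuTwo M = 0) (h3 : nuThree M = 0) (t : FF M)
    (ht : jBar M * t ^ 2 = (t + cst M 256) ^ 3) (c : Kbar) (hc : c ≠ 0) (hc' : c ≠ -64)
    (W : ValuationSubring (FF M)) (hK : ∀ a : Kbar, cst M a ∈ W)
    (hx : t - cst M c ∈ W.nonunits) (y z : FF M) (hy : y ∈ W.nonunits)
    (hz : z ∈ W.nonunits) : t - cst M c ≠ y * z :=
  ram_of_place_form M _ (transcendental_t2 M t ht) c
    (fun v hv => by rw [ord_t2_sub_eq M t h2 h3 ht v c hc hv, if_neg hc']) W hK hx y z hy hz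

/-- **(H5), chart (d)**: `x = t₃`, `S = {-27}` (and `g(c) = c ≠ 0`). -/
theorem ram_t3 (h2 : nuTwo M = 0) (h3 : nuThree M = 0) (t : FF M)
    (ht : jBar M * t ^ 3 = (t + cst M 27) * (t + cst M 243) ^ 3) (c : Kbar) (hc : c ≠ 0)
    (hc' : c ≠ -27)
    (W : ValuationSubring (FF M)) (hK : ∀ a : Kbar, cst M a ∈ W)
    (hx : t - cst M c ∈ W.nonunits) (y z : FF M) (hy : y ∈ W.nonunits)
    (hz : z ∈ W.nonunits) : t - cst M c ≠ y * z :=
  ram_of_place_form M _ (transcendental_t3 M t ht) c
    (fun v hv => by rw [ord_t3_sub_eq M t h2 h3 ht v c hc hv, if_neg hc']) W hK hx y z hy hz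

/-- **(H5), chart (a)**: `x = j`, `S = {0, 1728}`. -/
theorem ram_j (h2 : nuTwo M = 0) (h3 : nuThree M = 0) (c : Kbar) (hc : c ≠ 0)
    (hc' : c ≠ 1728)
    (W : ValuationSubring (FF M)) (hK : ∀ a : Kbar, cst M a ∈ W)
    (hx : jBar M - cst M c ∈ W.nonunits) (y z : FF M) (hy : y ∈ W.nonunits)
    (hz : z ∈ W.nonunits) : jBar M - cst M c ≠ y * z :=
  ram_of_place_form M _ (transcendental_jBar M) c
    (fun v hv => by rw [ord_jsub_eq M h2 h3 v c hv, if_neg hc, if_neg hc']; rfl) W hK hx y z hy hz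

end Charts

/-! ## arithmetic of a valuation subring over `ℓ` -/

section Arith

variable {L : Type*} [Field L] (A : ValuationSubring L)

theorem h31_intCast_val_le_one (n : ℤ) : A.valuation (n : L) ≤ 1 :=
  (A.valuation_le_one_iff _).2 (intCast_mem A.toSubring n)

theorem h31_natCast_val_le_one (n : ℕ) : A.valuation (n : L) ≤ 1 :=
  (A.valuation_le_one_iff _).2 (natCast_mem A.toSubring n)

/-- a natural number is a nonunit of `A` iff it is divisible by the residue characteristic. -/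
theorem h31_natCast_mem_nonunits_iff {ℓ : ℕ} (hℓ : ℓ.Prime) (hA : A.LiesOverPrime ℓ) (n : ℕ) :
    (n : L) ∈ A.nonunits ↔ ℓ ∣ n := by
  have hℓv : A.valuation (ℓ : L) < 1 := hA
  constructor
  · intro hn
    by_contra hdvd
    have hcop : Nat.Coprime n ℓ := ((Nat.Prime.coprime_iff_not_dvd hℓ).2 hdvd).symm
    have hb : (n : ℤ) * Nat.gcdA n ℓ + (ℓ : ℤ) * Nat.gcdB n ℓ = 1 := by
      have := Nat.gcd_eq_gcd_ab n ℓ
      rw [hcop] at this
      exact_mod_cast this.symm
    have hb' : (n : L) * ((Nat.gcdA n ℓ : ℤ) : L) + (ℓ : L) * ((Nat.gcdB n ℓ : ℤ) : L) = 1 := by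
      exact_mod_cast congrArg (Int.cast : ℤ → L) hb
    have h1 : A.valuation ((n : L) * ((Nat.gcdA n ℓ : ℤ) : L)) < 1 := by
      rw [map_mul]
      exact mul_lt_one_of_lt_of_le hn (h31_intCast_val_le_one A _)
    have h2 : A.valuation ((ℓ : L) * ((Nat.gcdB n ℓ : ℤ) : L)) < 1 := by
      rw [map_mul]
      exact mul_lt_one_of_lt_of_le hℓv (h31_intCast_val_le_one A _)
    have h3 : A.valuation (1 : L) < 1 := by
      rw [← hb']
      exact lt_of_le_of_lt (Valuation.map_add _ _ _) (max_lt h1 h2)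
    rw [map_one] at h3
    exact lt_irrefl _ h3
  · rintro ⟨m, rfl⟩
    show A.valuation ((ℓ * m : ℕ) : L) < 1
    rw [Nat.cast_mul, map_mul]
    exact mul_lt_one_of_lt_of_le hℓv (h31_natCast_val_le_one A m)

theorem h31_val_natCast_eq_one {ℓ : ℕ} (hℓ : ℓ.Prime) (hA : A.LiesOverPrime ℓ) (n : ℕ)
    (hn : ¬ ℓ ∣ n) : A.valuation (n : L) = 1 := by
  rcases lt_or_eq_of_le (h31_natCast_val_le_one A n) with h | h
  · exact absurd ((h31_natCast_mem_nonunits_iff A hℓ hA n).1 h) hn
  · exact h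

theorem h31_not_dvd_1728 {ℓ : ℕ} (hℓ : ℓ.Prime) (h2 : ℓ ≠ 2) (h3 : ℓ ≠ 3) : ¬ ℓ ∣ 1728 := by
  intro h
  have e : (1728 : ℕ) = 2 ^ 6 * 3 ^ 3 := by norm_num
  rw [e] at h
  rcases (Nat.Prime.dvd_mul hℓ).1 h with h' | h'
  · exact h2 ((Nat.prime_dvd_prime_iff_eq hℓ Nat.prime_two).1 (hℓ.dvd_of_dvd_pow h'))
  · exact h3 ((Nat.prime_dvd_prime_iff_eq hℓ Nat.prime_three).1 (hℓ.dvd_of_dvd_pow h'))

end Arith

/-! ## `CoreBranch` for the charts -/

section Branch

variable (M : ℕ) [NeZero M] (A : ValuationSubring Kbar)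

/-- `FF M` is algebraic over `K[x]` for every transcendental `x`. -/
theorem halg_of_transcendental (x : FF M) (hx : Transcendental Kbar x) (y : FF M) :
    IsAlgebraic (Algebra.adjoin Kbar {x}) y := by
  have := (finrank_le_index M).1
  have := pd_finiteDimensional_adjoin_of_transcendental (jBar M) x hx
  exact (pd_isAlgebraic_adjoin (K := Kbar) x).isAlgebraic y

theorem halg_j (y : FF M) : IsAlgebraic (Algebra.adjoin Kbar {jBar M}) y :=
  halg_of_transcendental M _ (transcendental_jBar M) y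

theorem halg_jinv (y : FF M) : IsAlgebraic (Algebra.adjoin Kbar {(jBar M)⁻¹}) y :=
  halg_of_transcendental M _ (transcendental_jinv M) y

/-- **(H5)** for `x = j`, `ℓ ≥ 5`: `S = {0, 1728}`. -/
theorem coreBranch_j (h2 : nuTwo M = 0) (h3 : nuThree M = 0) {ℓ : ℕ} (hℓ : ℓ.Prime)
    (hA : A.LiesOverPrime ℓ) (hℓ2 : ℓ ≠ 2) (hℓ3 : ℓ ≠ 3) :
    CoreBranch A (jBar M) {0, 1728} := by
  classical
  have h1728 : (1728 : Kbar) ∉ A.nonunits := by
    intro h
    have : ((1728 : ℕ) : Kbar) ∈ A.nonunits := by exact_mod_cast h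
    exact h31_not_dvd_1728 hℓ hℓ2 hℓ3 ((h31_natCast_mem_nonunits_iff A hℓ hA 1728).1 this)
  refine ⟨?_, ?_⟩
  · intro c hc c' hc' hcc
    simp only [Finset.mem_insert, Finset.mem_singleton] at hc hc'
    rcases hc with rfl | rfl <;> rcases hc' with rfl | rfl
    · rfl
    · exfalso
      apply h1728
      have := A.nonunits.neg_mem hcc
      simpa using this
    · exfalso
      apply h1728
      simpa using hcc
    · rfl
  · intro c _ hcS W hK hx y hy z hz
    simp only [Finset.mem_insert, Finset.mem_singleton, not_or] at hcS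
    exact ram_j M h2 h3 c hcS.1 hcS.2 W hK hx y z hy hz

/-- **(H5)** for `x = 1/j`, `ℓ ≥ 5`: `S = {0, 1/1728}`. -/
theorem coreBranch_jinv_large (h2 : nuTwo M = 0) (h3 : nuThree M = 0) {ℓ : ℕ} (hℓ : ℓ.Prime)
    (hA : A.LiesOverPrime ℓ) (hℓ2 : ℓ ≠ 2) (hℓ3 : ℓ ≠ 3) :
    CoreBranch A (jBar M)⁻¹ {0, 1728⁻¹} := by
  classical
  have hv : A.valuation (1728 : Kbar) = 1 := by
    have := h31_val_natCast_eq_one A hℓ hA 1728 (h31_not_dvd_1728 hℓ hℓ2 hℓ3)
    exact_mod_cast this
  have h1728 : (1728⁻¹ : Kbar) ∉ A.nonunits := by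
    intro h
    have h' : A.valuation (1728⁻¹ : Kbar) < 1 := h
    rw [map_inv₀, hv, inv_one] at h'
    exact lt_irrefl _ h'
  refine ⟨?_, ?_⟩
  · intro c hc c' hc' hcc
    simp only [Finset.mem_insert, Finset.mem_singleton] at hc hc'
    rcases hc with rfl | rfl <;> rcases hc' with rfl | rfl
    · rfl
    · exfalso
      apply h1728
      have := A.nonunits.neg_mem hcc
      simpa using this
    · exfalso
      apply h1728
      simpa using hcc
    · rfl
  · intro c _ hcS W hK hx y hy z hz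
    simp only [Finset.mem_insert, Finset.mem_singleton, not_or] at hcS
    exact ram_jinv M h2 h3 c hcS.1 hcS.2 W hK hx y z hy hz

/-- **(H5)** for `x = 1/j`, `ℓ ∈ {2, 3}`: `S = {0}`. -/
theorem coreBranch_jinv_small (h2 : nuTwo M = 0) (h3 : nuThree M = 0) {ℓ : ℕ} (hℓ : ℓ.Prime)
    (hA : A.LiesOverPrime ℓ) (hℓ23 : ℓ = 2 ∨ ℓ = 3) :
    CoreBranch A (jBar M)⁻¹ {0} := by
  classical
  have hdvd : ℓ ∣ 1728 := by
    rcases hℓ23 with rfl | rfl <;> norm_num
  have hv : A.valuation (1728 : Kbar) < 1 := by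
    have := (h31_natCast_mem_nonunits_iff A hℓ hA 1728).2 hdvd
    exact_mod_cast this
  have h1728 : (1728⁻¹ : Kbar) ∉ A := by
    intro h
    have h' := (A.valuation_le_one_iff _).2 h
    rw [map_inv₀] at h'
    have h0 : A.valuation (1728 : Kbar) ≠ 0 := by
      rw [Valuation.ne_zero_iff]
      norm_num
    have := (inv_le_one₀ (zero_lt_iff.2 h0)).1 h'
    exact absurd hv (not_lt.2 this)
  refine ⟨?_, ?_⟩
  · intro c hc c' hc' _
    simp only [Finset.mem_singleton] at hc hc'
    rw [hc, hc']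
  · intro c hcA hcS W hK hx y hy z hz
    simp only [Finset.mem_singleton] at hcS
    exact ram_jinv M h2 h3 c hcS (fun h => h1728 (h ▸ hcA)) W hK hx y z hy hz

/-- **(H5)** for `x = 1/j`, every `ℓ`. -/
theorem exists_coreBranch_jinv (h2 : nuTwo M = 0) (h3 : nuThree M = 0) {ℓ : ℕ} (hℓ : ℓ.Prime)
    (hA : A.LiesOverPrime ℓ) : ∃ S : Finset Kbar, CoreBranch A (jBar M)⁻¹ S := by
  by_cases h : ℓ = 2 ∨ ℓ = 3
  · exact ⟨_, coreBranch_jinv_small M A h2 h3 hℓ hA h⟩
  · rw [not_or] at h
    exact ⟨_, coreBranch_jinv_large M A h2 h3 hℓ hA h.1 h.2⟩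

end Branch

/-! ## the coordinate `x' = t + t^(-ℓ)` -/

section XP

variable (M : ℕ) [NeZero M] (A : ValuationSubring Kbar)

omit [NeZero M] in
theorem h31_xp_ne_zero (k : ℕ) (t x' : FF M) (ht : Transcendental Kbar t)
    (hx : x' * t ^ (k + 1) = t ^ (k + 2) + 1) :
    t ≠ 0 ∧ x' ≠ 0 ∧ t ^ (k + 2) + 1 ≠ 0 := by
  have ht0 : t ≠ 0 := fun h => ht (h ▸ isAlgebraic_zero)
  have h1 : t ^ (k + 2) + 1 ≠ 0 := by
    intro h
    apply ht
    refine ⟨X ^ (k + 2) + 1, ?_, by simpa using h⟩
    intro h0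
    have := congrArg (Polynomial.eval (0 : Kbar)) h0
    simp at this
  refine ⟨ht0, ?_, h1⟩
  rintro rfl
  rw [zero_mul] at hx
  exact h1 hx.symm

omit [NeZero M] in
theorem h31_xp_ord_rel (k : ℕ) (t x' : FF M) (ht : Transcendental Kbar t)
    (hx : x' * t ^ (k + 1) = t ^ (k + 2) + 1) (v : Place Kbar (FF M)) :
    v.ord x' + (k + 1) * v.ord t = v.ord (t ^ (k + 2) + 1) := by
  obtain ⟨ht0, hx0, -⟩ := h31_xp_ne_zero M k t x' ht hx
  have h := congrArg v.ord hx
  rw [v.ord_mul hx0 (pow_ne_zero _ ht0), h31_ord_pow] at h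
  rw [← h]
  push_cast
  ring

omit [NeZero M] in
theorem h31_xp_ord_of_pos (k : ℕ) (t x' : FF M) (ht : Transcendental Kbar t)
    (hx : x' * t ^ (k + 1) = t ^ (k + 2) + 1) (v : Place Kbar (FF M)) (hv : 0 < v.ord t) :
    v.ord x' < 0 := by
  have hrel := h31_xp_ord_rel M k t x' ht hx v
  obtain ⟨ht0, -, -⟩ := h31_xp_ne_zero M k t x' ht hx
  have h1 : 0 < v.ord (t ^ (k + 2)) := by
    rw [h31_ord_pow]
    exact mul_pos (by positivity) hv
  have h2 := (h31_ord_add_const_of_pos v (t ^ (k + 2)) 1 one_ne_zero h1).2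
  rw [map_one] at h2
  rw [h2] at hrel
  have h3 : 0 < ((k : ℤ) + 1) * v.ord t := mul_pos (by positivity) hv
  linarith

omit [NeZero M] in
theorem h31_xp_ord_of_neg (k : ℕ) (t x' : FF M) (ht : Transcendental Kbar t)
    (hx : x' * t ^ (k + 1) = t ^ (k + 2) + 1) (v : Place Kbar (FF M)) (hv : v.ord t < 0) :
    v.ord x' < 0 := by
  have hrel := h31_xp_ord_rel M k t x' ht hx v
  have h1 : v.ord (t ^ (k + 2)) < 0 := by
    rw [h31_ord_pow]
    exact mul_neg_of_pos_of_neg (by positivity) hv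
  have h2 := h31_ord_add_const_of_neg v (t ^ (k + 2)) 1 h1
  rw [map_one] at h2
  rw [h2, h31_ord_pow] at hrel
  push_cast at hrel
  linarith

omit [NeZero M] in
/-- `t` is a unit at every place which is not a pole of `x'`. -/
theorem h31_xp_ord_t (k : ℕ) (t x' : FF M) (ht : Transcendental Kbar t)
    (hx : x' * t ^ (k + 1) = t ^ (k + 2) + 1) (v : Place Kbar (FF M)) (hv : 0 ≤ v.ord x') :
    v.ord t = 0 := by
  rcases lt_trichotomy (v.ord t) 0 with h | h | h
  · exact absurd (h31_xp_ord_of_neg M k t x' ht hx v h) (not_lt.2 hv)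
  · exact h
  · exact absurd (h31_xp_ord_of_pos M k t x' ht hx v h) (not_lt.2 hv)

/-- `x' = t + t^(-ℓ)` is transcendental. -/
theorem transcendental_xp (k : ℕ) (t x' : FF M) (ht : Transcendental Kbar t)
    (hx : x' * t ^ (k + 1) = t ^ (k + 2) + 1) : Transcendental Kbar x' := by
  intro halg
  have := (finrank_le_index M).1
  have hfin := pd_finiteDimensional_adjoin_of_transcendental (jBar M) t ht
  obtain ⟨s, hs, hsum⟩ := (h31_FIgen M t ht hfin).1 0
  have hpos : 0 < Module.finrank Kbar⟮t⟯ (FF M) := Module.finrank_pos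
  have hne : s.Nonempty := by
    rw [Finset.nonempty_iff_ne_empty]
    rintro rfl
    rw [Finset.sum_empty] at hsum
    have : (0 : ℤ) < (Module.finrank Kbar⟮t⟯ (FF M) : ℤ) := by exact_mod_cast hpos
    omega
  obtain ⟨v, hv⟩ := hne
  have hv' := (hs v).1 hv
  rw [map_zero, sub_zero] at hv'
  have h1 := h31_xp_ord_of_pos M k t x' ht hx v hv'
  have h2 := DiffPlace.ord_eq_zero_of_isAlgebraic v halg
  omega

/-- **(H5)** for `x' = t + t^(-ℓ)`: if `abr` is the only nonzero branch value of `t`, then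
`x'(abr)` is the only branch value of `x'` in `A`. -/
theorem h31_coreBranch_xp_aux (k : ℕ) (hℓ : (k + 1).Prime) (hA : A.LiesOverPrime (k + 1))
    (t x' : FF M)
    (ht : Transcendental Kbar t) (hx : x' * t ^ (k + 1) = t ^ (k + 2) + 1) (abr : Kbar)
    (hbr : ∀ (v : Place Kbar (FF M)) (a : Kbar), a ≠ 0 → a ≠ abr →
      0 < v.ord (t - cst M a) → v.ord (t - cst M a) = 1) :
    CoreBranch A x' {(abr ^ (k + 2) + 1) / abr ^ (k + 1)} := by
  classical
  have hxtr := transcendental_xp M k t x' ht hx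
  have hℓv : A.valuation (((k + 1 : ℕ) : Kbar)) < 1 := hA
  refine ⟨?_, ?_⟩
  · intro c hc c' hc' _
    simp only [Finset.mem_singleton] at hc hc'
    rw [hc, hc']
  · intro c hcA hcS W hK hxW y hy z hz
    simp only [Finset.mem_singleton] at hcS
    refine ram_of_place_form M x' hxtr c ?_ W hK hxW y z hy hz
    intro v hv
    have hx'0 : 0 ≤ v.ord x' := by
      rcases (v.adicValuation_le_one_iff).1 (h31_adic_le_one_of_center v x' c hv) with h | h
      · rw [h, v.ord_zero]
      · exact h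
    have ht0 := h31_xp_ord_t M k t x' ht hx v hx'0
    have := (finrank_le_index M).1
    obtain ⟨τ, hτ⟩ := DiffPlace.exists_ord_sub_const_pos (jBar M)
      (Algebra.IsAlgebraic.of_finite _ _) v ht (le_of_eq ht0.symm)
    have hτ0 : τ ≠ 0 := by
      rintro rfl
      rw [map_zero, sub_zero] at hτ
      omega
    -- the value of `x'` at `v`
    have hcτ : c * τ ^ (k + 1) = τ ^ (k + 2) + 1 := by
      have h1 := h31_adic_aeval_sub_lt v t τ hτ (C c * X ^ (k + 1) - X ^ (k + 2) - 1)
      have h2 : aeval t (C c * X ^ (k + 1) - X ^ (k + 2) - 1 : Kbar[X]) =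
          (cst M c - x') * t ^ (k + 1) := by
        simp only [map_sub, map_mul, map_pow, aeval_C, aeval_X, map_one]
        rw [sub_mul, hx]
        ring
      have h3 : v.adicValuation
          (aeval t (C c * X ^ (k + 1) - X ^ (k + 2) - 1 : Kbar[X])) < 1 := by
        rw [h2, map_mul, map_pow]
        have h4 : v.adicValuation (cst M c - x') < 1 := by
          rw [Valuation.map_sub_swap]
          exact asm_adicValuation_lt_one_of_ord_pos v hv
        have h5 : v.adicValuation t ≤ 1 := h31_adic_le_one_of_center v t τ hτ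
        exact mul_lt_one_of_lt_of_le h4 (pow_le_one' h5 _)
      have h4 : v.adicValuation (algebraMap Kbar (FF M)
          ((C c * X ^ (k + 1) - X ^ (k + 2) - 1 : Kbar[X]).eval τ)) < 1 := by
        have e : algebraMap Kbar (FF M)
            ((C c * X ^ (k + 1) - X ^ (k + 2) - 1 : Kbar[X]).eval τ) =
            aeval t (C c * X ^ (k + 1) - X ^ (k + 2) - 1 : Kbar[X]) -
              (aeval t (C c * X ^ (k + 1) - X ^ (k + 2) - 1 : Kbar[X]) -
                algebraMap Kbar (FF M)
                  ((C c * X ^ (k + 1) - X ^ (k + 2) - 1 : Kbar[X]).eval τ)) := by ring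
        rw [e]
        exact lt_of_le_of_lt (Valuation.map_sub _ _ _) (max_lt h3 h1)
      have h5 : (C c * X ^ (k + 1) - X ^ (k + 2) - 1 : Kbar[X]).eval τ = 0 := by
        by_contra h
        rw [asm_adicValuation_algebraMap v h] at h4
        exact lt_irrefl _ h4
      simp only [eval_sub, eval_mul, eval_C, eval_pow, eval_X, eval_one] at h5
      linear_combination h5
    -- the Wronskian does not vanish
    have hW : τ ^ (k + 2) ≠ ((k + 1 : ℕ) : Kbar) := by
      intro h
      have hτv : A.valuation τ < 1 := by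
        by_contra hge
        rw [not_lt] at hge
        have h1 : 1 ≤ A.valuation (τ ^ (k + 2)) := by
          rw [map_pow]
          exact one_le_pow₀ hge
        rw [h] at h1
        exact absurd hℓv (not_lt.2 h1)
      have h1 : A.valuation (c * τ ^ (k + 1)) < 1 := by
        rw [mul_comm, map_mul, map_pow]
        exact mul_lt_one_of_lt_of_le (pow_lt_one₀ zero_le hτv (Nat.succ_ne_zero k))
          ((A.valuation_le_one_iff _).2 hcA)
      rw [hcτ, h] at h1
      have h2 : A.valuation (((k + 1 + 1 : ℕ) : Kbar)) = 1 := by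
        refine h31_val_natCast_eq_one A hℓ hA (k + 1 + 1) ?_
        intro hdvd
        have : (k + 1) ∣ 1 := (Nat.dvd_add_right (dvd_refl _)).1 hdvd
        exact hℓ.one_lt.ne' (Nat.dvd_one.1 this)
      have e : (((k + 1 : ℕ) : Kbar)) + 1 = (((k + 1 + 1 : ℕ) : Kbar)) := by push_cast; ring
      rw [e, h2] at h1
      exact lt_irrefl _ h1
    have hPQ : x' * aeval t (X ^ (k + 1) : Kbar[X]) = aeval t (X ^ (k + 2) + 1 : Kbar[X]) := by
      simpa using hx
    have hQ : (X ^ (k + 1) : Kbar[X]).eval τ ≠ 0 := by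
      simpa using hτ0
    have hWr : (X ^ (k + 1) : Kbar[X]).eval τ * (X ^ (k + 2) + 1 : Kbar[X]).derivative.eval τ
        - (X ^ (k + 2) + 1 : Kbar[X]).eval τ * (X ^ (k + 1) : Kbar[X]).derivative.eval τ ≠ 0 := by
      have e : (X ^ (k + 1) : Kbar[X]).eval τ * (X ^ (k + 2) + 1 : Kbar[X]).derivative.eval τ
          - (X ^ (k + 2) + 1 : Kbar[X]).eval τ * (X ^ (k + 1) : Kbar[X]).derivative.eval τ
          = τ ^ k * (τ ^ (k + 2) - ((k + 1 : ℕ) : Kbar)) := by
        simp only [derivative_add, derivative_X_pow, derivative_one, add_zero, eval_mul,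
          eval_pow, eval_X, eval_add, eval_one, eval_natCast, Nat.add_sub_cancel,
          map_natCast]
        push_cast
        ring
      rw [e]
      exact mul_ne_zero (pow_ne_zero _ hτ0) (sub_ne_zero.2 hW)
    have h := h31_ord_tower_simple v t x' _ _ hPQ τ hτ hQ hWr
    have hc : (X ^ (k + 2) + 1 : Kbar[X]).eval τ / (X ^ (k + 1) : Kbar[X]).eval τ = c := by
      simp only [eval_add, eval_pow, eval_X, eval_one]
      rw [← hcτ, mul_div_assoc, div_self (pow_ne_zero _ hτ0), mul_one]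
    rw [hc] at h
    have h' : v.ord (x' - cst M c) = v.ord (t - cst M τ) := h
    rw [h']
    refine hbr v τ hτ0 ?_ hτ
    rintro rfl
    apply hcS
    rw [← hcτ, mul_div_assoc, div_self (pow_ne_zero _ hτ0), mul_one]

theorem coreBranch_xp {ℓ : ℕ} (hℓ : ℓ.Prime) (hA : A.LiesOverPrime ℓ) (t x' : FF M)
    (ht : Transcendental Kbar t) (hx : x' * t ^ ℓ = t ^ (ℓ + 1) + 1) (abr : Kbar)
    (hbr : ∀ (v : Place Kbar (FF M)) (a : Kbar), a ≠ 0 → a ≠ abr →
      0 < v.ord (t - cst M a) → v.ord (t - cst M a) = 1) :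
    CoreBranch A x' {(abr ^ (ℓ + 1) + 1) / abr ^ ℓ} := by
  cases ℓ with
  | zero => exact absurd hℓ Nat.not_prime_zero
  | succ k => exact h31_coreBranch_xp_aux M A k hℓ hA t x' ht hx abr hbr

theorem halg_xp (k : ℕ) (t x' : FF M) (ht : Transcendental Kbar t)
    (hx : x' * t ^ (k + 1) = t ^ (k + 2) + 1) (y : FF M) :
    IsAlgebraic (Algebra.adjoin Kbar {x'}) y :=
  halg_of_transcendental M _ (transcendental_xp M k t x' ht hx) y

/-- **(H5)** for `ℓ = 3`, `x' = t₂ + t₂⁻³`: `S = {x'(-64)}`. -/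
theorem coreBranch_xp_t2 (h2 : nuTwo M = 0) (h3 : nuThree M = 0)
    (hA : A.LiesOverPrime 3) (t x' : FF M)
    (ht : jBar M * t ^ 2 = (t + cst M 256) ^ 3) (hx : x' * t ^ 3 = t ^ 4 + 1) :
    CoreBranch A x' {((-64 : Kbar) ^ 4 + 1) / (-64) ^ 3} :=
  coreBranch_xp M A Nat.prime_three hA t x' (transcendental_t2 M t ht) hx (-64)
    (fun v a ha ha' hv => by rw [ord_t2_sub_eq M t h2 h3 ht v a ha hv, if_neg ha'])

/-- **(H5)** for `ℓ = 2`, `x' = t₃ + t₃⁻²`: `S = {x'(-27)}`. -/
theorem coreBranch_xp_t3 (h2 : nuTwo M = 0) (h3 : nuThree M = 0)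
    (hA : A.LiesOverPrime 2) (t x' : FF M)
    (ht : jBar M * t ^ 3 = (t + cst M 27) * (t + cst M 243) ^ 3)
    (hx : x' * t ^ 2 = t ^ 3 + 1) :
    CoreBranch A x' {((-27 : Kbar) ^ 3 + 1) / (-27) ^ 2} :=
  coreBranch_xp M A Nat.prime_two hA t x' (transcendental_t3 M t ht) hx (-27)
    (fun v a ha ha' hv => by rw [ord_t3_sub_eq M t h2 h3 ht v a ha hv, if_neg ha'])

end XP

end Fermat.Agent.Red.SM
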