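import Fermat.Agent.Red.SM.DictVal
import Fermat.Agent.S24.PlaceDict
import Fermat.Agent.S24.FICore
import Fermat.Agent.S24.FIWrap

/-!
# P-RED / R-SM, SM-DICT (helper25): valuation subrings of a function field are places

`K` a field, `F / K` a function field in one variable: `x : F` transcendental over `K` with `F`
finite and separable over `K(x)`.

* `h25d_exists_place_of_dedekind` : a valuation subring `W ≠ ⊤` of `F` containing a Dedekind
  domain `R ⊇ K` with `Frac R = F` is `v.toValuationSubring` for a place `v`.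
* `h25d_exists_place` : every valuation subring `W ≠ ⊤` of `F` containing the constants is
  `v.toValuationSubring` for a place `v` (unique by `Place.ext`).
* `h25d_ord_pos_of_mem_nonunits`, `h25d_two_le_ord_mul` : orders of non-units.
* `h25d_unram_of_ord_eq_one` : the Place-form branch data `ord_v (x - c) = 1` gives the `unram`
  field of `CoreBranch` (valuation-subring form) at `c`, verbatim.
-/

set_option autoImplicit false

noncomputable section

namespace Fermat.Agent.Red.SM

open IsDedekindDomain AlgebraicCurve WithZero IntermediateField Fermat.Agent.S24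

open scoped IntermediateField.algebraAdjoinAdjoin

variable {K F : Type*} [Field K] [Field F] [Algebra K F]

/-- a valuation subring `W ≠ ⊤` of `F` containing a Dedekind domain `R ⊇ K` with `Frac R = F`
is the valuation ring of a place. -/
theorem h25d_exists_place_of_dedekind {R : Type*} [CommRing R] [IsDedekindDomain R]
    [Algebra R F] [IsFractionRing R F] [Algebra K R] [IsScalarTower K R F]
    (W : ValuationSubring F) (hR : ∀ r : R, algebraMap R F r ∈ W) (hW : W ≠ ⊤) :
    ∃ v : Place K F, v.toValuationSubring = W := by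
  obtain ⟨P, hP⟩ := h25d_exists_heightOne W hR hW
  exact ⟨Place.ofHeightOneSpectrum (K := K) (F := F) P, by
    rw [Place.ofHeightOneSpectrum_toValuationSubring, hP]⟩

/-- a valuation subring containing the constants and `x` contains the integral closure of
`K[x]`. -/
theorem h25d_mem_of_isIntegral_adjoin (x : F) (W : ValuationSubring F)
    (hK : ∀ a : K, algebraMap K F a ∈ W) (hxW : x ∈ W)
    {b : F} (hb : IsIntegral (Algebra.adjoin K {x}) b) : b ∈ W := by
  have hA : ∀ a : Algebra.adjoin K {x}, (a : F) ∈ W := by
    intro a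
    let S : Subalgebra K F :=
      { W.toSubring.toSubsemiring with
        algebraMap_mem' := hK }
    have hle : Algebra.adjoin K {x} ≤ S := Algebra.adjoin_le (by
      intro y hy
      rw [Set.mem_singleton_iff] at hy
      rw [hy]
      exact hxW)
    exact hle a.2
  let φ : Algebra.adjoin K {x} →+* W :=
    (algebraMap (Algebra.adjoin K {x}) F).codRestrict W.toSubring hA
  let _ : Algebra (Algebra.adjoin K {x}) W := φ.toAlgebra
  have : IsScalarTower (Algebra.adjoin K {x}) W F :=
    IsScalarTower.of_algebraMap_eq fun _ => rfl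
  have hb' : IsIntegral W b := hb.tower_top
  obtain ⟨z, hz⟩ := (IsIntegrallyClosed.isIntegral_iff (R := W) (K := F)).mp hb'
  rw [← hz]
  exact z.2

/-- auxiliary: the case `x ∈ W`. -/
theorem h25d_exists_place_aux (x : F) (hx : Transcendental K x)
    [FiniteDimensional K⟮x⟯ F] [Algebra.IsSeparable K⟮x⟯ F]
    (W : ValuationSubring F) (hK : ∀ a : K, algebraMap K F a ∈ W) (hxW : x ∈ W) (hW : W ≠ ⊤) :
    ∃ v : Place K F, v.toValuationSubring = W := by
  have hPID := FICore.isPrincipalIdealRing_adjoin x hx
  have hDed : IsDedekindDomain (integralClosure (Algebra.adjoin K {x}) F) :=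
    integralClosure.isDedekindDomain (Algebra.adjoin K {x}) K⟮x⟯ F
  have hFrac : IsFractionRing (integralClosure (Algebra.adjoin K {x}) F) F :=
    integralClosure.isFractionRing_of_finite_extension K⟮x⟯ F
  exact h25d_exists_place_of_dedekind (K := K) (R := integralClosure (Algebra.adjoin K {x}) F) W
    (fun r => h25d_mem_of_isIntegral_adjoin x W hK hxW r.2) hW

/-- transport of separability along an equality of intermediate fields. -/
theorem h25d_isSeparable_of_eq {E₁ E₂ : IntermediateField K F} (h : E₁ = E₂)
    (hsep : Algebra.IsSeparable E₂ F) : Algebra.IsSeparable E₁ F := by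
  subst h
  exact hsep

/-- **every valuation subring `W ≠ ⊤` of a function field containing the constants is a
place.** -/
theorem h25d_exists_place (x : F) (hx : Transcendental K x)
    [hfin : FiniteDimensional K⟮x⟯ F] [hsep : Algebra.IsSeparable K⟮x⟯ F]
    (W : ValuationSubring F) (hK : ∀ a : K, algebraMap K F a ∈ W) (hW : W ≠ ⊤) :
    ∃ v : Place K F, v.toValuationSubring = W := by
  rcases W.mem_or_inv_mem x with hxW | hxW
  · exact h25d_exists_place_aux x hx W hK hxW hW
  · have hx' : Transcendental K x⁻¹ := fiw_transcendental_inv hx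
    have heq : K⟮x⁻¹⟯ = K⟮x⟯ := fiw_adjoin_inv x
    have hfin' : FiniteDimensional K⟮x⁻¹⟯ F := fiw_finiteDimensional_of_eq heq hfin
    have hsep' : Algebra.IsSeparable K⟮x⁻¹⟯ F :=
      h25d_isSeparable_of_eq heq hsep
    exact h25d_exists_place_aux x⁻¹ hx' W hK hxW hW

/-- characteristic zero version (no separability hypothesis). -/
theorem h25d_exists_place_charZero [CharZero K] (x : F) (hx : Transcendental K x)
    [FiniteDimensional K⟮x⟯ F]
    (W : ValuationSubring F) (hK : ∀ a : K, algebraMap K F a ∈ W) (hW : W ≠ ⊤) :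
    ∃ v : Place K F, v.toValuationSubring = W :=
  h25d_exists_place x hx W hK hW

/-- a valuation subring with a nonzero non-unit is not `⊤`. -/
theorem h25d_ne_top_of_mem_nonunits {W : ValuationSubring F} {f : F} (hf : f ∈ W.nonunits)
    (hf0 : f ≠ 0) : W ≠ ⊤ := by
  intro h
  rw [ValuationSubring.mem_nonunits_iff_exists_mem_maximalIdeal] at hf
  obtain ⟨hfW, hm⟩ := hf
  have hinv : f⁻¹ ∈ W := by rw [h]; exact ValuationSubring.mem_top _
  have hu : IsUnit (⟨f, hfW⟩ : W) := by
    refine IsUnit.of_mul_eq_one ⟨f⁻¹, hinv⟩ ?_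
    apply Subtype.ext
    simp [hf0]
  exact hm hu

/-- a nonzero non-unit of the valuation ring of a place has positive order. -/
theorem h25d_ord_pos_of_mem_nonunits (v : Place K F) {f : F}
    (hf : f ∈ v.toValuationSubring.nonunits) (hf0 : f ≠ 0) : 0 < v.ord f := by
  rw [ValuationSubring.mem_nonunits_iff_exists_mem_maximalIdeal] at hf
  obtain ⟨hfW, hm⟩ := hf
  have hnu : ¬ IsUnit (⟨f, hfW⟩ : v.toValuationSubring) := hm
  have h1 : v.adicValuation f ≤ 1 := by
    have h := v.adicValuation_coe ⟨f, hfW⟩
    have h' : v.adicValuation f = v.heightOneSpectrum.intValuation ⟨f, hfW⟩ := h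
    rw [h']
    exact v.heightOneSpectrum.intValuation_le_one _
  have h2 : v.adicValuation f ≠ 1 := by
    intro h
    exact hnu ((v.adicValuation_coe_eq_one_iff ⟨f, hfW⟩).mp h)
  have h3 : v.adicValuation f < 1 := lt_of_le_of_ne h1 h2
  have h0 : v.adicValuation f ≠ 0 := v.adicValuation_ne_zero hf0
  unfold Place.ord
  have h4 : log (v.adicValuation f) < 0 := by
    rw [log_lt_iff_lt_exp h0]
    simpa using h3
  omega

/-- a product of two nonzero non-units has order at least `2`. -/
theorem h25d_two_le_ord_mul (v : Place K F) {y z : F}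
    (hy : y ∈ v.toValuationSubring.nonunits) (hz : z ∈ v.toValuationSubring.nonunits)
    (hy0 : y ≠ 0) (hz0 : z ≠ 0) : 2 ≤ v.ord (y * z) := by
  rw [v.ord_mul hy0 hz0]
  have h1 := h25d_ord_pos_of_mem_nonunits v hy hy0
  have h2 := h25d_ord_pos_of_mem_nonunits v hz hz0
  omega

/-- **SM-DICT, Place form ⇒ valuation-subring form.**  If every place `v` over `x = c` has
`ord_v (x - c) = 1`, then for every valuation subring `W ⊇ K` with `x - c ∈ 𝔪_W`, the element
`x - c` is not a product of two elements of `𝔪_W`.  (`t` is any transcendental element with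
`F / K(t)` finite separable; it only serves to know that `F` is a function field.) -/
theorem h25d_unram_of_ord_eq_one (t : F) (ht : Transcendental K t)
    [FiniteDimensional K⟮t⟯ F] [Algebra.IsSeparable K⟮t⟯ F] (x : F) (c : K)
    (hne : x - algebraMap K F c ≠ 0)
    (hord : ∀ v : Place K F, 0 < v.ord (x - algebraMap K F c) →
      v.ord (x - algebraMap K F c) = 1)
    (W : ValuationSubring F) (hK : ∀ a : K, algebraMap K F a ∈ W)
    (hxc : x - algebraMap K F c ∈ W.nonunits) :
    ∀ y ∈ W.nonunits, ∀ z ∈ W.nonunits, x - algebraMap K F c ≠ y * z := by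
  intro y hy z hz hyz
  have hW : W ≠ ⊤ := h25d_ne_top_of_mem_nonunits hxc hne
  obtain ⟨v, rfl⟩ := h25d_exists_place t ht W hK hW
  have hy0 : y ≠ 0 := by
    rintro rfl
    rw [zero_mul] at hyz
    exact hne hyz
  have hz0 : z ≠ 0 := by
    rintro rfl
    rw [mul_zero] at hyz
    exact hne hyz
  have h1 := hord v (h25d_ord_pos_of_mem_nonunits v hxc hne)
  have h2 := h25d_two_le_ord_mul v hy hz hy0 hz0
  rw [← hyz] at h2
  omega

/-- converse direction: valuation-subring form ⇒ Place form. -/
theorem h25d_ord_eq_one_of_unram (x : F) (c : K)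
    (hunr : ∀ W : ValuationSubring F, (∀ a : K, algebraMap K F a ∈ W) →
      x - algebraMap K F c ∈ W.nonunits →
      ∀ y ∈ W.nonunits, ∀ z ∈ W.nonunits, x - algebraMap K F c ≠ y * z)
    (v : Place K F) (hv : 0 < v.ord (x - algebraMap K F c)) :
    v.ord (x - algebraMap K F c) = 1 := by
  set f := x - algebraMap K F c with hf
  have hf0 : f ≠ 0 := by
    intro h
    rw [h, Place.ord_zero] at hv
    exact lt_irrefl _ hv
  obtain ⟨π, hπ⟩ := IsDiscreteValuationRing.exists_irreducible v.toValuationSubring
  obtain ⟨u, hu⟩ := v.exists_unit_mul_zpow hf0 hπ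
  by_contra hne1
  have hn2 : 2 ≤ v.ord f := by omega
  have hπ0 : (π : F) ≠ 0 := by
    intro h
    exact hπ.ne_zero (Subtype.ext h)
  have hπnu : (π : F) ∈ v.toValuationSubring.nonunits := by
    rw [ValuationSubring.mem_nonunits_iff_exists_mem_maximalIdeal]
    exact ⟨π.2, hπ.not_isUnit⟩
  -- `f = (u * π ^ (n - 1)) * π`
  obtain ⟨m, hm⟩ : ∃ m : ℕ, v.ord f = (m : ℤ) + 2 := ⟨(v.ord f - 2).toNat, by omega⟩
  have hsplit : f = ((u : v.toValuationSubring) * π ^ (m + 1) : v.toValuationSubring) * (π : F) := by
    have h1 : (π : F) ^ (v.ord f) = (π : F) ^ (m + 2) := by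
      rw [hm]
      exact_mod_cast zpow_natCast (π : F) (m + 2)
    calc f = ((u : v.toValuationSubring) : F) * (π : F) ^ (v.ord f) := hu
      _ = ((u : v.toValuationSubring) : F) * (π : F) ^ (m + 2) := by rw [h1]
      _ = ((u : v.toValuationSubring) * π ^ (m + 1) : v.toValuationSubring) * (π : F) := by
          push_cast
          ring
  have hynu : (((u : v.toValuationSubring) * π ^ (m + 1) : v.toValuationSubring) : F)
      ∈ v.toValuationSubring.nonunits := by
    rw [ValuationSubring.mem_nonunits_iff_exists_mem_maximalIdeal]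
    refine ⟨Subtype.mem _, ?_⟩
    have : ¬ IsUnit ((u : v.toValuationSubring) * π ^ (m + 1)) := by
      intro h
      have h1 : IsUnit (π ^ (m + 1)) := (IsUnit.mul_iff.mp h).2
      exact hπ.not_isUnit (isUnit_of_dvd_unit (dvd_pow_self π (Nat.succ_ne_zero m)) h1)
    exact this
  have hfnu : f ∈ v.toValuationSubring.nonunits := by
    rw [ValuationSubring.mem_nonunits_iff_exists_mem_maximalIdeal]
    have hmem : f ∈ v.toValuationSubring := by
      rw [hsplit]
      exact mul_mem (Subtype.mem _) π.2
    refine ⟨hmem, ?_⟩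
    have : ¬ IsUnit (⟨f, hmem⟩ : v.toValuationSubring) := by
      intro h
      have h2 : (⟨f, hmem⟩ : v.toValuationSubring) = ((u : v.toValuationSubring) * π ^ (m + 1)) * π := by
        apply Subtype.ext
        exact hsplit
      rw [h2] at h
      exact hπ.not_isUnit (IsUnit.mul_iff.mp h).2
    exact this
  exact hunr v.toValuationSubring v.algebraMap_mem' hfnu _ hynu _ hπnu hsplit

end Fermat.Agent.Red.SM
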