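import Fermat.Agent.Red.SM.Unram

/-!
# P-RED, R-SM (task SM-UNRT): characteristic zero ramification over the `t₂`- and `t₃`-line

Input: `SM/Unram` (U1) `ord_jsub_eq` (ramification of `F_M` over the `j`-line at a level without
elliptic points).  The identities `j t₂² = (t₂ + 256)³`, `j t₃³ = (t₃ + 27)(t₃ + 243)³` are
hypotheses.

* `h31_ord_tower` (A): if `y Q(x) = P(x)` and `Q(a) P - P(a) Q = (X - a)^m H`, `H(a) ≠ 0`, then
  `ord_v (y - P(a)/Q(a)) = m ord_v (x - a)` at every place `v` over `x = a`.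
* `h31_ord_tower_simple` : the case of a nonvanishing Wronskian (`m = 1`).
* `ord_t2_sub_eq` (B) : `ord_v (t₂ - a) = 2` if `a = -64`, `1` otherwise (`a ≠ 0`).
* `ord_t3_sub_eq` (C) : `ord_v (t₃ - a) = 3` if `a = -27`, `1` otherwise (`a ≠ 0`).
* `ord_t2_eq_zero_iff`, `ord_t3_eq_zero_iff` : `t` is a unit exactly at the places which are
  not poles of `j`.
* `transcendental_t2`, `fi_t2`, `card_placesOver_t2` (D) and the same for `t₃`.
-/

set_option autoImplicit false

open ModularCurve AlgebraicCurve CongruenceSubgroup IntermediateField Polynomial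
open scoped MatrixGroups

noncomputable section

namespace Fermat.Agent.Red.SM

open Fermat.Agent.S24

/-! ## General lemmas on places -/

section General

variable {K F : Type*} [Field K] [Field F] [Algebra K F] (v : Place K F)

theorem h31_ne_zero_of_ord_pos {f : F} (h : 0 < v.ord f) : f ≠ 0 := by
  rintro rfl
  simp at h

theorem h31_adic_le_one_of_center (x : F) (a : K) (hx : 0 < v.ord (x - algebraMap K F a)) :
    v.adicValuation x ≤ 1 := by
  have h1 := asm_adicValuation_lt_one_of_ord_pos v hx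
  have hx' : x = (x - algebraMap K F a) + algebraMap K F a := by ring
  rw [hx']
  exact le_trans (Valuation.map_add _ _ _) (max_le h1.le (v.adicValuation_algebraMap_le_one a))

theorem h31_adic_aeval_le_one (x : F) (hx : v.adicValuation x ≤ 1) (q : K[X]) :
    v.adicValuation (aeval x q) ≤ 1 := by
  induction q using Polynomial.induction_on' with
  | add p q hp hq =>
    rw [map_add]
    exact le_trans (Valuation.map_add _ _ _) (max_le hp hq)
  | monomial n c =>
    rw [aeval_monomial, map_mul, map_pow]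
    exact mul_le_one' (v.adicValuation_algebraMap_le_one c) (pow_le_one' hx n)

/-- the value of `p(x)` at a place over `x = a` is `p(a)`. -/
theorem h31_adic_aeval_sub_lt (x : F) (a : K) (hx : 0 < v.ord (x - algebraMap K F a))
    (p : K[X]) : v.adicValuation (aeval x p - algebraMap K F (p.eval a)) < 1 := by
  have hroot : (p - C (p.eval a)).IsRoot a := by simp
  obtain ⟨q, hq⟩ := dvd_iff_isRoot.mpr hroot
  have h1 : aeval x p - algebraMap K F (p.eval a) = (x - algebraMap K F a) * aeval x q := by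
    have := congrArg (aeval x) hq
    simpa using this
  rw [h1, map_mul]
  have h2 := asm_adicValuation_lt_one_of_ord_pos v hx
  have h3 := h31_adic_aeval_le_one v x (h31_adic_le_one_of_center v x a hx) q
  calc v.adicValuation (x - algebraMap K F a) * v.adicValuation (aeval x q)
      ≤ v.adicValuation (x - algebraMap K F a) * 1 := by gcongr
    _ < 1 := by rwa [mul_one]

theorem h31_adic_aeval_eq_one (x : F) (a : K) (hx : 0 < v.ord (x - algebraMap K F a))
    (p : K[X]) (hp : p.eval a ≠ 0) : v.adicValuation (aeval x p) = 1 := by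
  have h1 := h31_adic_aeval_sub_lt v x a hx p
  have h2 := asm_adicValuation_algebraMap v hp
  have h3 : aeval x p = algebraMap K F (p.eval a) + (aeval x p - algebraMap K F (p.eval a)) := by
    ring
  rw [h3, Valuation.map_add_eq_of_lt_left _ (by rw [h2]; exact h1), h2]

theorem h31_ord_eq_zero_of_adic {f : F} (h : v.adicValuation f = 1) : f ≠ 0 ∧ v.ord f = 0 := by
  have hf : f ≠ 0 := by
    rintro rfl
    simp at h
  refine ⟨hf, ?_⟩
  unfold Place.ord
  rw [h]
  simp

theorem h31_ord_aeval_eq_zero (x : F) (a : K) (hx : 0 < v.ord (x - algebraMap K F a))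
    (p : K[X]) (hp : p.eval a ≠ 0) : aeval x p ≠ 0 ∧ v.ord (aeval x p) = 0 :=
  h31_ord_eq_zero_of_adic v (h31_adic_aeval_eq_one v x a hx p hp)

theorem h31_ord_pow (f : F) (n : ℕ) : v.ord (f ^ n) = n * v.ord f := by
  rw [← zpow_natCast, v.ord_zpow]

theorem h31_ord_algebraMap (a : K) : v.ord (algebraMap K F a) = 0 :=
  DiffPlace.ord_algebraMap v a

/-- **(A)** ramification in a tower `K(y) ⊆ K(x)`, `y = P(x)/Q(x)`. -/
theorem h31_ord_tower (x y : F) (P Q H : K[X]) (hPQ : y * aeval x Q = aeval x P)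
    (a : K) (hx : 0 < v.ord (x - algebraMap K F a)) (hQ : Q.eval a ≠ 0) (m : ℕ)
    (hfac : C (Q.eval a) * P - C (P.eval a) * Q = (X - C a) ^ m * H) (hH : H.eval a ≠ 0) :
    v.ord (y - algebraMap K F (P.eval a / Q.eval a)) =
      m * v.ord (x - algebraMap K F a) := by
  obtain ⟨hQ0, hQord⟩ := h31_ord_aeval_eq_zero v x a hx Q hQ
  obtain ⟨hH0, hHord⟩ := h31_ord_aeval_eq_zero v x a hx H hH
  have hxa := h31_ne_zero_of_ord_pos v hx
  set z : F := algebraMap K F (Q.eval a) * y - algebraMap K F (P.eval a) with hz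
  have key : z * aeval x Q = (x - algebraMap K F a) ^ m * aeval x H := by
    have := congrArg (aeval x) hfac
    simp only [map_sub, map_mul, map_pow, aeval_C, aeval_X] at this
    rw [← this, ← hPQ, hz]
    ring
  have hrhs : (x - algebraMap K F a) ^ m * aeval x H ≠ 0 := mul_ne_zero (pow_ne_zero m hxa) hH0
  have hz0 : z ≠ 0 := by
    intro h
    rw [h, zero_mul] at key
    exact hrhs key.symm
  have hord := congrArg v.ord key
  rw [v.ord_mul hz0 hQ0, v.ord_mul (pow_ne_zero m hxa) hH0, hQord, hHord, h31_ord_pow] at hord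
  have hq0 : algebraMap K F (Q.eval a) ≠ 0 := by
    rw [Ne, map_eq_zero_iff _ (algebraMap K F).injective]
    exact hQ
  have hy : y - algebraMap K F (P.eval a / Q.eval a) = (algebraMap K F (Q.eval a))⁻¹ * z := by
    rw [hz, map_div₀]
    field_simp
  rw [hy, v.ord_mul (inv_ne_zero hq0) hz0, v.ord_inv, h31_ord_algebraMap]
  omega

/-- **(A), simple root.**  If the Wronskian `Q(a) P'(a) - P(a) Q'(a)` does not vanish, then
`x` is unramified over `y = P(x)/Q(x)` at every place over `x = a`. -/
theorem h31_ord_tower_simple (x y : F) (P Q : K[X]) (hPQ : y * aeval x Q = aeval x P)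
    (a : K) (hx : 0 < v.ord (x - algebraMap K F a)) (hQ : Q.eval a ≠ 0)
    (hW : Q.eval a * P.derivative.eval a - P.eval a * Q.derivative.eval a ≠ 0) :
    v.ord (y - algebraMap K F (P.eval a / Q.eval a)) = v.ord (x - algebraMap K F a) := by
  set G : K[X] := C (Q.eval a) * P - C (P.eval a) * Q with hG
  have hroot : G.IsRoot a := by
    simp [hG, mul_comm]
  obtain ⟨H, hH⟩ := dvd_iff_isRoot.mpr hroot
  have hder : G.derivative.eval a = H.eval a := by
    rw [hH]
    simp [derivative_mul]
  have hder' : G.derivative.eval a =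
      Q.eval a * P.derivative.eval a - P.eval a * Q.derivative.eval a := by
    simp [hG, derivative_mul]
  have h := h31_ord_tower v x y P Q H hPQ a hx hQ 1 (by rw [pow_one]; exact hH)
    (by rw [← hder, hder']; exact hW)
  simpa using h

/-- counting the places over `x = a` when the ramification index is constant. -/
theorem h31_card_mul_eq (x : F) (hFI : FIStatement K F x) (a : K) (e : ℕ)
    (he : ∀ v : Place K F, 0 < v.ord (x - algebraMap K F a) →
      v.ord (x - algebraMap K F a) = e) :
    e * Nat.card {v : Place K F // 0 < v.ord (x - algebraMap K F a)} =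
      Module.finrank K⟮x⟯ F := by
  obtain ⟨s, hs, hsum⟩ := hFI.1 a
  rw [asm_card_subtype _ s hs]
  have h1 : ∑ v ∈ s, v.ord (x - algebraMap K F a) = ∑ _v ∈ s, (e : ℤ) :=
    Finset.sum_congr rfl fun v hv => he v ((hs v).1 hv)
  rw [h1, Finset.sum_const, nsmul_eq_mul] at hsum
  have : ((e * s.card : ℕ) : ℤ) = (Module.finrank K⟮x⟯ F : ℤ) := by
    rw [← hsum]
    push_cast
    ring
  exact_mod_cast this

theorem h31_ord_eq_of_adic_eq {f g : F} (h : v.adicValuation f = v.adicValuation g) :
    v.ord f = v.ord g := by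
  unfold Place.ord
  rw [h]

theorem h31_ord_add_const_of_neg (x : F) (c : K) (hx : v.ord x < 0) :
    v.ord (x + algebraMap K F c) = v.ord x := by
  apply h31_ord_eq_of_adic_eq
  have h1 := (v.not_adicValuation_le_one_iff).mpr hx
  exact Valuation.map_add_eq_of_lt_left _
    (lt_of_le_of_lt (v.adicValuation_algebraMap_le_one c) (not_le.1 h1))

theorem h31_ord_add_const_of_pos (x : F) (c : K) (hc : c ≠ 0) (hx : 0 < v.ord x) :
    x + algebraMap K F c ≠ 0 ∧ v.ord (x + algebraMap K F c) = 0 := by
  apply h31_ord_eq_zero_of_adic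
  have h1 := asm_adicValuation_lt_one_of_ord_pos v hx
  have h2 := asm_adicValuation_algebraMap v hc
  rw [Valuation.map_add_eq_of_lt_right _ (by rw [h2]; exact h1), h2]

theorem h31_ord_add_const_nonneg (x : F) (c : K) (hx : 0 ≤ v.ord x) :
    0 ≤ v.ord (x + algebraMap K F c) := by
  have h1 : v.adicValuation x ≤ 1 := (v.adicValuation_le_one_iff).2 (Or.inr hx)
  have h2 : v.adicValuation (x + algebraMap K F c) ≤ 1 :=
    le_trans (Valuation.map_add _ _ _) (max_le h1 (v.adicValuation_algebraMap_le_one c))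
  rcases (v.adicValuation_le_one_iff).1 h2 with h | h
  · rw [h, v.ord_zero]
  · exact h

end General

/-! ## The `t₂`-line: `j t² = (t + 256)³` -/

section T2

variable (M : ℕ) [NeZero M] (t : FF M)

theorem h31_t2_rel (ht : jBar M * t ^ 2 = (t + cst M 256) ^ 3) :
    jBar M * aeval t (X ^ 2 : Kbar[X]) = aeval t ((X + C 256) ^ 3 : Kbar[X]) := by
  simpa using ht

theorem h31_t2_ne_zero (ht : jBar M * t ^ 2 = (t + cst M 256) ^ 3) : t ≠ 0 := by
  rintro rfl
  have h : (cst M 256) ^ 3 = 0 := by simpa using ht.symm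
  have h1 : cst M 256 = 0 := pow_eq_zero_iff (by norm_num) |>.1 h
  rw [map_eq_zero_iff _ (algebraMap Kbar (FF M)).injective] at h1
  norm_num at h1

/-- **(B)** ramification over the `t₂`-line. -/
theorem ord_t2_sub_eq (h2 : nuTwo M = 0) (h3 : nuThree M = 0)
    (ht : jBar M * t ^ 2 = (t + cst M 256) ^ 3)
    (v : Place Kbar (FF M)) (a : Kbar) (ha : a ≠ 0) (hv : 0 < v.ord (t - cst M a)) :
    v.ord (t - cst M a) = if a = -64 then 2 else 1 := by
  have hPQ := h31_t2_rel M t ht
  have eP : ((X + C 256) ^ 3 : Kbar[X]).eval a = (a + 256) ^ 3 := by simp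
  have eQ : (X ^ 2 : Kbar[X]).eval a = a ^ 2 := by simp
  have hQ : (X ^ 2 : Kbar[X]).eval a ≠ 0 := by rw [eQ]; exact pow_ne_zero 2 ha
  by_cases h1 : a = -256
  · -- over `j = 0`
    subst h1
    have hfac : C ((X ^ 2 : Kbar[X]).eval (-256)) * (X + C 256) ^ 3
        - C (((X + C 256) ^ 3 : Kbar[X]).eval (-256)) * X ^ 2
        = (X - C (-256)) ^ 3 * C ((256 : Kbar) ^ 2) := by
      rw [eP, eQ]
      have : ((-256 : Kbar) + 256) ^ 3 = 0 := by norm_num
      rw [this]
      simp only [map_zero, zero_mul, sub_zero, map_neg, sub_neg_eq_add, map_pow]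
      ring
    have hc : ((X + C 256) ^ 3 : Kbar[X]).eval (-256) / (X ^ 2 : Kbar[X]).eval (-256) = 0 := by
      rw [eP, eQ]
      norm_num
    have h : v.ord (jBar M - cst M 0) = 3 * v.ord (t - cst M (-256)) := by
      have h := h31_ord_tower v t (jBar M) _ _ _ hPQ (-256) hv hQ 3 hfac (by simp)
      rw [hc] at h
      simpa only [Nat.cast_ofNat] using h
    have hv' : 0 < v.ord (jBar M - cst M 0) := by
      rw [h]
      exact mul_pos (by norm_num) hv
    have hU := ord_jsub_eq M h2 h3 v 0 hv'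
    rw [h] at hU
    simp only [if_true, Nat.cast_ofNat] at hU
    have hne : (-256 : Kbar) ≠ -64 := by norm_num
    rw [if_neg hne]
    omega
  by_cases h5 : a = 512
  · -- the unramified point over `j = 1728`
    subst h5
    have hfac : C ((X ^ 2 : Kbar[X]).eval 512) * (X + C 256) ^ 3
        - C (((X + C 256) ^ 3 : Kbar[X]).eval 512) * X ^ 2
        = (X - C 512) ^ 2 * (C ((512 : Kbar) ^ 2) * (X + C 64)) := by
      rw [eP, eQ]
      have e1 : ((512 : Kbar) + 256) ^ 3 = 1728 * 512 ^ 2 := by norm_num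
      rw [e1]
      simp only [map_mul, map_pow, map_ofNat]
      ring
    have hH : (C ((512 : Kbar) ^ 2) * (X + C 64) : Kbar[X]).eval 512 ≠ 0 := by
      simp
      norm_num
    have hc : ((X + C 256) ^ 3 : Kbar[X]).eval 512 / (X ^ 2 : Kbar[X]).eval 512 = 1728 := by
      rw [eP, eQ]
      norm_num
    have h : v.ord (jBar M - cst M 1728) = 2 * v.ord (t - cst M 512) := by
      have h := h31_ord_tower v t (jBar M) _ _ _ hPQ 512 hv hQ 2 hfac hH
      rw [hc] at h
      simpa only [Nat.cast_ofNat] using h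
    have hv' : 0 < v.ord (jBar M - cst M 1728) := by
      rw [h]
      exact mul_pos (by norm_num) hv
    have hU := ord_jsub_eq M h2 h3 v 1728 hv'
    rw [h] at hU
    have h0 : (1728 : Kbar) ≠ 0 := by norm_num
    simp only [if_neg h0, if_true, Nat.cast_ofNat] at hU
    have hne : (512 : Kbar) ≠ -64 := by norm_num
    rw [if_neg hne]
    omega
  · -- generic point
    have hW : (X ^ 2 : Kbar[X]).eval a * ((X + C 256) ^ 3 : Kbar[X]).derivative.eval a
        - ((X + C 256) ^ 3 : Kbar[X]).eval a * (X ^ 2 : Kbar[X]).derivative.eval a ≠ 0 := by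
      have e : (X ^ 2 : Kbar[X]).eval a * ((X + C 256) ^ 3 : Kbar[X]).derivative.eval a
          - ((X + C 256) ^ 3 : Kbar[X]).eval a * (X ^ 2 : Kbar[X]).derivative.eval a
          = a * (a + 256) ^ 2 * (a - 512) := by
        simp [derivative_pow]
        ring
      rw [e]
      refine mul_ne_zero (mul_ne_zero ha (pow_ne_zero 2 ?_)) (sub_ne_zero.2 h5)
      intro h
      exact h1 (eq_neg_of_add_eq_zero_left h)
    have h : v.ord (jBar M - cst M ((a + 256) ^ 3 / a ^ 2)) = v.ord (t - cst M a) := by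
      have h := h31_ord_tower_simple v t (jBar M) _ _ hPQ a hv hQ hW
      rw [eP, eQ] at h
      exact h
    have hv' : 0 < v.ord (jBar M - cst M ((a + 256) ^ 3 / a ^ 2)) := by
      rw [h]
      exact hv
    have hU := ord_jsub_eq M h2 h3 v _ hv'
    rw [h] at hU
    have hc0 : (a + 256) ^ 3 / a ^ 2 ≠ 0 := by
      refine div_ne_zero (pow_ne_zero 3 ?_) (pow_ne_zero 2 ha)
      intro h
      exact h1 (eq_neg_of_add_eq_zero_left h)
    have hc1 : (a + 256) ^ 3 / a ^ 2 = 1728 ↔ a = -64 := by
      rw [div_eq_iff (pow_ne_zero 2 ha)]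
      constructor
      · intro h
        have h' : (a - 512) ^ 2 * (a + 64) = 0 := by linear_combination h
        rcases mul_eq_zero.1 h' with h'' | h''
        · exact absurd (sub_eq_zero.1 (pow_eq_zero_iff (by norm_num) |>.1 h'')) h5
        · exact eq_neg_of_add_eq_zero_left h''
      · rintro rfl
        norm_num
    rw [if_neg hc0] at hU
    rw [hU]
    by_cases h64 : a = -64
    · rw [if_pos h64, if_pos (hc1.2 h64)]
      rfl
    · rw [if_neg h64, if_neg (fun h => h64 (hc1.1 h))]
      rfl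

theorem h31_t2_add_ne_zero (ht : jBar M * t ^ 2 = (t + cst M 256) ^ 3) :
    t + cst M 256 ≠ 0 := by
  intro h
  have h1 : jBar M * t ^ 2 = 0 := by rw [ht, h]; ring
  rcases mul_eq_zero.1 h1 with h2 | h2
  · exact (transcendental_jBar M) (h2 ▸ isAlgebraic_zero)
  · exact h31_t2_ne_zero M t ht (pow_eq_zero_iff (by norm_num) |>.1 h2)

theorem h31_t2_ord_rel (ht : jBar M * t ^ 2 = (t + cst M 256) ^ 3) (v : Place Kbar (FF M)) :
    v.ord (jBar M) + 2 * v.ord t = 3 * v.ord (t + cst M 256) := by
  have hj : jBar M ≠ 0 := fun h => (transcendental_jBar M) (h ▸ isAlgebraic_zero)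
  have ht0 := h31_t2_ne_zero M t ht
  have h := congrArg v.ord ht
  rw [v.ord_mul hj (pow_ne_zero 2 ht0), h31_ord_pow, h31_ord_pow] at h
  simpa only [Nat.cast_ofNat] using h

/-- `t₂` is a unit exactly at the places which are not poles of `j`. -/
theorem ord_t2_eq_zero_iff (ht : jBar M * t ^ 2 = (t + cst M 256) ^ 3)
    (v : Place Kbar (FF M)) : 0 ≤ v.ord (jBar M) ↔ v.ord t = 0 := by
  have hrel := h31_t2_ord_rel M t ht v
  constructor
  · intro hj
    rcases lt_trichotomy (v.ord t) 0 with h | h | h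
    · have := h31_ord_add_const_of_neg v t 256 h
      change v.ord (t + cst M 256) = v.ord t at this
      omega
    · exact h
    · have := (h31_ord_add_const_of_pos v t 256 (by norm_num) h).2
      change v.ord (t + cst M 256) = 0 at this
      omega
  · intro h
    have := h31_ord_add_const_nonneg v t 256 (le_of_eq h.symm)
    change 0 ≤ v.ord (t + cst M 256) at this
    omega

theorem transcendental_t2 (ht : jBar M * t ^ 2 = (t + cst M 256) ^ 3) :
    Transcendental Kbar t := by
  intro halg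
  apply transcendental_jBar M
  have ht0 := h31_t2_ne_zero M t ht
  have hj : jBar M = (t + cst M 256) ^ 3 * (t ^ 2)⁻¹ := by
    rw [← ht, mul_assoc, mul_inv_cancel₀ (pow_ne_zero 2 ht0), mul_one]
  rw [hj]
  exact ((halg.add (isAlgebraic_algebraMap _)).pow 3).mul (halg.pow 2).inv

/-- at a place which is not a pole of `j`, `t₂` takes a nonzero value. -/
theorem exists_center_t2 (ht : jBar M * t ^ 2 = (t + cst M 256) ^ 3)
    (v : Place Kbar (FF M)) (hv : 0 ≤ v.ord (jBar M)) :
    ∃ a : Kbar, a ≠ 0 ∧ 0 < v.ord (t - cst M a) := by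
  have h0 := (ord_t2_eq_zero_iff M t ht v).1 hv
  have := (finrank_le_index M).1
  obtain ⟨a, ha⟩ := DiffPlace.exists_ord_sub_const_pos (jBar M)
    (Algebra.IsAlgebraic.of_finite _ _) v (transcendental_t2 M t ht) (le_of_eq h0.symm)
  refine ⟨a, ?_, ha⟩
  rintro rfl
  rw [map_zero, sub_zero] at ha
  omega

theorem fi_t2 (ht : jBar M * t ^ 2 = (t + cst M 256) ^ 3) : FIStatement Kbar (FF M) t :=
  haveI := (finrank_le_index M).1
  h31_FIgen M t (transcendental_t2 M t ht)
    (pd_finiteDimensional_adjoin_of_transcendental (jBar M) t (transcendental_t2 M t ht))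

/-- **(D)** the number of places over `t₂ = a`, `a ≠ 0`. -/
theorem card_placesOver_t2 (h2 : nuTwo M = 0) (h3 : nuThree M = 0)
    (ht : jBar M * t ^ 2 = (t + cst M 256) ^ 3) (a : Kbar) (ha : a ≠ 0) :
    (if a = -64 then 2 else 1) * Nat.card {v : Place Kbar (FF M) // 0 < v.ord (t - cst M a)} =
      Module.finrank Kbar⟮t⟯ (FF M) := by
  refine h31_card_mul_eq t (fi_t2 M t ht) a _ fun v hv => ?_
  have h := ord_t2_sub_eq M t h2 h3 ht v a ha hv
  change v.ord (t - cst M a) = _
  rw [h]
  split_ifs <;> rfl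

/-- the degree of `F_M` over `K(t₂)`. -/
theorem three_mul_finrank_t2 (ht : jBar M * t ^ 2 = (t + cst M 256) ^ 3) :
    3 * Module.finrank Kbar⟮t⟯ (FF M) = dedekindPsi M := by
  obtain ⟨s, hs, hsum⟩ := h31_sum_ord M 0
  obtain ⟨s', hs', hsum'⟩ := (fi_t2 M t ht).1 (-256)
  have hrel := h31_t2_ord_rel M t ht
  have hmem : ∀ v, v ∈ s ↔ v ∈ s' := by
    intro v
    rw [hs, hs']
    have e1 : jBar M - cst M 0 = jBar M := by simp
    have e2 : t - algebraMap Kbar (FF M) (-256) = t + cst M 256 := by
      rw [map_neg, sub_neg_eq_add]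
    rw [e1, e2]
    constructor
    · intro h
      have h0 := (ord_t2_eq_zero_iff M t ht v).1 h.le
      have := hrel v
      omega
    · intro h
      have h0 : v.ord t = 0 := by
        have hx : 0 < v.ord (t - algebraMap Kbar (FF M) (-256)) := by rw [e2]; exact h
        have := (h31_ord_aeval_eq_zero v t (-256) hx X (by simp)).2
        simpa using this
      have := hrel v
      omega
  have hss : s = s' := Finset.ext hmem
  subst hss
  have hterm : ∀ v ∈ s, v.ord (jBar M - cst M 0) =
      3 * v.ord (t - algebraMap Kbar (FF M) (-256)) := by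
    intro v hv
    have e1 : jBar M - cst M 0 = jBar M := by simp
    have e2 : t - algebraMap Kbar (FF M) (-256) = t + cst M 256 := by
      rw [map_neg, sub_neg_eq_add]
    have h := (hs v).1 hv
    rw [e1] at h ⊢
    rw [e2]
    have h0 := (ord_t2_eq_zero_iff M t ht v).1 h.le
    have := hrel v
    omega
  rw [Finset.sum_congr rfl hterm, ← Finset.mul_sum, hsum'] at hsum
  exact_mod_cast hsum

end T2

/-! ## The `t₃`-line: `j t³ = (t + 27)(t + 243)³` -/

section T3

variable (M : ℕ) [NeZero M] (t : FF M)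

theorem h31_t3_rel (ht : jBar M * t ^ 3 = (t + cst M 27) * (t + cst M 243) ^ 3) :
    jBar M * aeval t (X ^ 3 : Kbar[X]) =
      aeval t ((X + C 27) * (X + C 243) ^ 3 : Kbar[X]) := by
  simpa using ht

theorem h31_t3_ne_zero (ht : jBar M * t ^ 3 = (t + cst M 27) * (t + cst M 243) ^ 3) :
    t ≠ 0 := by
  rintro rfl
  have h : cst M 27 * (cst M 243) ^ 3 = 0 := by simpa using ht.symm
  have h1 : cst M (27 * 243 ^ 3) = 0 := by
    rw [← h]
    simp
  rw [map_eq_zero_iff _ (algebraMap Kbar (FF M)).injective] at h1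
  norm_num at h1

theorem h31_t3_add_ne_zero (ht : jBar M * t ^ 3 = (t + cst M 27) * (t + cst M 243) ^ 3) :
    t + cst M 27 ≠ 0 ∧ t + cst M 243 ≠ 0 := by
  have key : (t + cst M 27) * (t + cst M 243) ^ 3 ≠ 0 := by
    rw [← ht]
    refine mul_ne_zero (fun h => (transcendental_jBar M) (h ▸ isAlgebraic_zero))
      (pow_ne_zero 3 (h31_t3_ne_zero M t ht))
  exact ⟨left_ne_zero_of_mul key, fun h => right_ne_zero_of_mul key (by rw [h]; ring)⟩

theorem h31_t3_ord_rel (ht : jBar M * t ^ 3 = (t + cst M 27) * (t + cst M 243) ^ 3)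
    (v : Place Kbar (FF M)) :
    v.ord (jBar M) + 3 * v.ord t = v.ord (t + cst M 27) + 3 * v.ord (t + cst M 243) := by
  have hj : jBar M ≠ 0 := fun h => (transcendental_jBar M) (h ▸ isAlgebraic_zero)
  have ht0 := h31_t3_ne_zero M t ht
  obtain ⟨h27, h243⟩ := h31_t3_add_ne_zero M t ht
  have h := congrArg v.ord ht
  rw [v.ord_mul hj (pow_ne_zero 3 ht0), v.ord_mul h27 (pow_ne_zero 3 h243), h31_ord_pow,
    h31_ord_pow] at h
  simpa only [Nat.cast_ofNat] using h

/-- `t₃` is a unit exactly at the places which are not poles of `j`. -/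
theorem ord_t3_eq_zero_iff (ht : jBar M * t ^ 3 = (t + cst M 27) * (t + cst M 243) ^ 3)
    (v : Place Kbar (FF M)) : 0 ≤ v.ord (jBar M) ↔ v.ord t = 0 := by
  have hrel := h31_t3_ord_rel M t ht v
  constructor
  · intro hj
    rcases lt_trichotomy (v.ord t) 0 with h | h | h
    · have h1 := h31_ord_add_const_of_neg v t 27 h
      have h2 := h31_ord_add_const_of_neg v t 243 h
      change v.ord (t + cst M 27) = v.ord t at h1
      change v.ord (t + cst M 243) = v.ord t at h2
      omega
    · exact h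
    · have h1 := (h31_ord_add_const_of_pos v t 27 (by norm_num) h).2
      have h2 := (h31_ord_add_const_of_pos v t 243 (by norm_num) h).2
      change v.ord (t + cst M 27) = 0 at h1
      change v.ord (t + cst M 243) = 0 at h2
      omega
  · intro h
    have h1 := h31_ord_add_const_nonneg v t 27 (le_of_eq h.symm)
    have h2 := h31_ord_add_const_nonneg v t 243 (le_of_eq h.symm)
    change 0 ≤ v.ord (t + cst M 27) at h1
    change 0 ≤ v.ord (t + cst M 243) at h2
    omega

theorem transcendental_t3 (ht : jBar M * t ^ 3 = (t + cst M 27) * (t + cst M 243) ^ 3) :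
    Transcendental Kbar t := by
  intro halg
  apply transcendental_jBar M
  have ht0 := h31_t3_ne_zero M t ht
  have hj : jBar M = (t + cst M 27) * (t + cst M 243) ^ 3 * (t ^ 3)⁻¹ := by
    rw [← ht, mul_assoc, mul_inv_cancel₀ (pow_ne_zero 3 ht0), mul_one]
  rw [hj]
  exact ((halg.add (isAlgebraic_algebraMap _)).mul
    ((halg.add (isAlgebraic_algebraMap _)).pow 3)).mul (halg.pow 3).inv

theorem fi_t3 (ht : jBar M * t ^ 3 = (t + cst M 27) * (t + cst M 243) ^ 3) :
    FIStatement Kbar (FF M) t :=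
  haveI := (finrank_le_index M).1
  h31_FIgen M t (transcendental_t3 M t ht)
    (pd_finiteDimensional_adjoin_of_transcendental (jBar M) t (transcendental_t3 M t ht))

/-- at a place which is not a pole of `j`, `t₃` takes a nonzero value. -/
theorem exists_center_t3 (ht : jBar M * t ^ 3 = (t + cst M 27) * (t + cst M 243) ^ 3)
    (v : Place Kbar (FF M)) (hv : 0 ≤ v.ord (jBar M)) :
    ∃ a : Kbar, a ≠ 0 ∧ 0 < v.ord (t - cst M a) := by
  have h0 := (ord_t3_eq_zero_iff M t ht v).1 hv
  have := (finrank_le_index M).1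
  obtain ⟨a, ha⟩ := DiffPlace.exists_ord_sub_const_pos (jBar M)
    (Algebra.IsAlgebraic.of_finite _ _) v (transcendental_t3 M t ht) (le_of_eq h0.symm)
  refine ⟨a, ?_, ha⟩
  rintro rfl
  rw [map_zero, sub_zero] at ha
  omega

theorem h31_t3_poly_id :
    ((X + C 27) * (X + C 243) ^ 3 : Kbar[X]) - C 1728 * X ^ 3 =
      (X ^ 2 - C 486 * X - C 19683) ^ 2 := by
  simp only [map_ofNat]
  ring

/-- **(C)** ramification over the `t₃`-line. -/
theorem ord_t3_sub_eq (h2 : nuTwo M = 0) (h3 : nuThree M = 0)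
    (ht : jBar M * t ^ 3 = (t + cst M 27) * (t + cst M 243) ^ 3)
    (v : Place Kbar (FF M)) (a : Kbar) (ha : a ≠ 0) (hv : 0 < v.ord (t - cst M a)) :
    v.ord (t - cst M a) = if a = -27 then 3 else 1 := by
  have hPQ := h31_t3_rel M t ht
  have eP : ((X + C 27) * (X + C 243) ^ 3 : Kbar[X]).eval a = (a + 27) * (a + 243) ^ 3 := by
    simp
  have eQ : (X ^ 3 : Kbar[X]).eval a = a ^ 3 := by simp
  have hQ : (X ^ 3 : Kbar[X]).eval a ≠ 0 := by rw [eQ]; exact pow_ne_zero 3 ha
  by_cases h1 : a = -243
  · -- the unramified point over `j = 0`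
    subst h1
    have hfac : C ((X ^ 3 : Kbar[X]).eval (-243)) * ((X + C 27) * (X + C 243) ^ 3)
        - C (((X + C 27) * (X + C 243) ^ 3 : Kbar[X]).eval (-243)) * X ^ 3
        = (X - C (-243)) ^ 3 * (C ((-243 : Kbar) ^ 3) * (X + C 27)) := by
      rw [eP, eQ]
      have : ((-243 : Kbar) + 27) * (-243 + 243) ^ 3 = 0 := by norm_num
      rw [this]
      simp only [map_zero, zero_mul, sub_zero, map_neg, sub_neg_eq_add, map_pow]
      ring
    have hH : (C ((-243 : Kbar) ^ 3) * (X + C 27) : Kbar[X]).eval (-243) ≠ 0 := by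
      simp
      norm_num
    have hc : ((X + C 27) * (X + C 243) ^ 3 : Kbar[X]).eval (-243) /
        (X ^ 3 : Kbar[X]).eval (-243) = 0 := by
      rw [eP, eQ]
      norm_num
    have h : v.ord (jBar M - cst M 0) = 3 * v.ord (t - cst M (-243)) := by
      have h := h31_ord_tower v t (jBar M) _ _ _ hPQ (-243) hv hQ 3 hfac hH
      rw [hc] at h
      simpa only [Nat.cast_ofNat] using h
    have hv' : 0 < v.ord (jBar M - cst M 0) := by
      rw [h]
      exact mul_pos (by norm_num) hv
    have hU := ord_jsub_eq M h2 h3 v 0 hv'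
    rw [h] at hU
    simp only [if_true, Nat.cast_ofNat] at hU
    have hne : (-243 : Kbar) ≠ -27 := by norm_num
    rw [if_neg hne]
    omega
  by_cases hR : a ^ 2 - 486 * a - 19683 = 0
  · -- the points over `j = 1728`
    have hPa : (a + 27) * (a + 243) ^ 3 = 1728 * a ^ 3 := by
      linear_combination (a ^ 2 - 486 * a - 19683) * hR
    have hRC : (C a : Kbar[X]) ^ 2 - 486 * C a - 19683 = 0 := by
      have := congrArg (C : Kbar → Kbar[X]) hR
      simpa only [map_sub, map_mul, map_pow, map_ofNat, map_zero] using this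
    have hfac : C ((X ^ 3 : Kbar[X]).eval a) * ((X + C 27) * (X + C 243) ^ 3)
        - C (((X + C 27) * (X + C 243) ^ 3 : Kbar[X]).eval a) * X ^ 3
        = (X - C a) ^ 2 * (C (a ^ 3) * (X - C (486 - a)) ^ 2) := by
      rw [eP, eQ, hPa]
      simp only [map_mul, map_pow, map_sub, map_ofNat]
      linear_combination
        ((C a : Kbar[X]) ^ 3 * (2 * (X ^ 2 - 486 * X - 19683) - ((C a) ^ 2 - 486 * C a - 19683)))
          * hRC
    have h243 : a ≠ 243 := by
      rintro rfl
      norm_num at hR
    have hH : (C (a ^ 3) * (X - C (486 - a)) ^ 2 : Kbar[X]).eval a ≠ 0 := by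
      have e : (C (a ^ 3) * (X - C (486 - a)) ^ 2 : Kbar[X]).eval a =
          a ^ 3 * (2 * (a - 243)) ^ 2 := by
        simp only [eval_mul, eval_C, eval_pow, eval_sub, eval_X]
        ring
      rw [e]
      exact mul_ne_zero (pow_ne_zero 3 ha)
        (pow_ne_zero 2 (mul_ne_zero (by norm_num) (sub_ne_zero.2 h243)))
    have hc : ((X + C 27) * (X + C 243) ^ 3 : Kbar[X]).eval a / (X ^ 3 : Kbar[X]).eval a
        = 1728 := by
      rw [eP, eQ, hPa, mul_div_assoc, div_self (pow_ne_zero 3 ha), mul_one]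
    have h : v.ord (jBar M - cst M 1728) = 2 * v.ord (t - cst M a) := by
      have h := h31_ord_tower v t (jBar M) _ _ _ hPQ a hv hQ 2 hfac hH
      rw [hc] at h
      simpa only [Nat.cast_ofNat] using h
    have hv' : 0 < v.ord (jBar M - cst M 1728) := by
      rw [h]
      exact mul_pos (by norm_num) hv
    have hU := ord_jsub_eq M h2 h3 v 1728 hv'
    rw [h] at hU
    have h0 : (1728 : Kbar) ≠ 0 := by norm_num
    simp only [if_neg h0, if_true, Nat.cast_ofNat] at hU
    have hne : a ≠ -27 := by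
      rintro rfl
      norm_num at hR
    rw [if_neg hne]
    omega
  · -- generic point
    have h243 : a + 243 ≠ 0 := fun h => h1 (eq_neg_of_add_eq_zero_left h)
    have hW : (X ^ 3 : Kbar[X]).eval a *
          ((X + C 27) * (X + C 243) ^ 3 : Kbar[X]).derivative.eval a
        - ((X + C 27) * (X + C 243) ^ 3 : Kbar[X]).eval a *
          (X ^ 3 : Kbar[X]).derivative.eval a ≠ 0 := by
      have e : (X ^ 3 : Kbar[X]).eval a *
            ((X + C 27) * (X + C 243) ^ 3 : Kbar[X]).derivative.eval a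
          - ((X + C 27) * (X + C 243) ^ 3 : Kbar[X]).eval a *
            (X ^ 3 : Kbar[X]).derivative.eval a
          = a ^ 2 * (a + 243) ^ 2 * (a ^ 2 - 486 * a - 19683) := by
        simp [derivative_pow, derivative_mul]
        ring
      rw [e]
      exact mul_ne_zero (mul_ne_zero (pow_ne_zero 2 ha) (pow_ne_zero 2 h243)) hR
    have h : v.ord (jBar M - cst M ((a + 27) * (a + 243) ^ 3 / a ^ 3)) =
        v.ord (t - cst M a) := by
      have h := h31_ord_tower_simple v t (jBar M) _ _ hPQ a hv hQ hW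
      rw [eP, eQ] at h
      exact h
    have hv' : 0 < v.ord (jBar M - cst M ((a + 27) * (a + 243) ^ 3 / a ^ 3)) := by
      rw [h]
      exact hv
    have hU := ord_jsub_eq M h2 h3 v _ hv'
    rw [h] at hU
    have hc0 : (a + 27) * (a + 243) ^ 3 / a ^ 3 = 0 ↔ a = -27 := by
      rw [div_eq_zero_iff]
      constructor
      · rintro (h | h)
        · rcases mul_eq_zero.1 h with h' | h'
          · exact eq_neg_of_add_eq_zero_left h'
          · exact absurd (pow_eq_zero_iff (by norm_num) |>.1 h') h243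
        · exact absurd (pow_eq_zero_iff (by norm_num) |>.1 h) ha
      · rintro rfl
        left
        norm_num
    have hc1 : (a + 27) * (a + 243) ^ 3 / a ^ 3 ≠ 1728 := by
      rw [Ne, div_eq_iff (pow_ne_zero 3 ha)]
      intro h
      have h' : (a ^ 2 - 486 * a - 19683) ^ 2 = 0 := by linear_combination h
      exact hR (pow_eq_zero_iff (by norm_num) |>.1 h')
    rw [hU]
    by_cases h27 : a = -27
    · rw [if_pos h27, if_pos (hc0.2 h27)]
      rfl
    · rw [if_neg h27, if_neg (fun h => h27 (hc0.1 h)), if_neg hc1]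
      rfl

/-- **(D)** the number of places over `t₃ = a`, `a ≠ 0`. -/
theorem card_placesOver_t3 (h2 : nuTwo M = 0) (h3 : nuThree M = 0)
    (ht : jBar M * t ^ 3 = (t + cst M 27) * (t + cst M 243) ^ 3) (a : Kbar) (ha : a ≠ 0) :
    (if a = -27 then 3 else 1) * Nat.card {v : Place Kbar (FF M) // 0 < v.ord (t - cst M a)} =
      Module.finrank Kbar⟮t⟯ (FF M) := by
  refine h31_card_mul_eq t (fi_t3 M t ht) a _ fun v hv => ?_
  have h := ord_t3_sub_eq M t h2 h3 ht v a ha hv
  change v.ord (t - cst M a) = _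
  rw [h]
  split_ifs <;> rfl

end T3

end Fermat.Agent.Red.SM
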