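import Fermat.Agent.Red.SM.CoreSkeleton
import Fermat.Agent.S37.Skeleton
import Fermat.Agent.S18.ResAlgClosed

/-!
# P-RED / R-SM : assembly `IfaceSmooth` from `SMCore` and the instantiation data (SM-ASM)

Sub-architect: helper13.

* `CoreInputs A x` : all hypotheses of `SMCore` for the chart of the coordinate `x ∈ FF M`.
* `InstInf` : `CoreInputs` for the chart at infinity (`x = 1/j`).
* `InstFin` : the finite chart `modelFin M A` is the chart of some coordinate `x` with
  `CoreInputs` (`x = j` for `ℓ ≥ 5`, `x = t + t^(-ℓ)` for `ℓ = 2, 3`).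
* `ifaceSmooth_of : SMCore → InstInf → InstFin → IfaceSmooth`.
-/

set_option autoImplicit false
set_option linter.style.haveILetI false

open Fermat.Agent.S37

noncomputable section

namespace Fermat.Agent.Red.SM

/-- all hypotheses of `SMCore` for the chart of the coordinate `x ∈ FF M`. -/
def CoreInputs {M : ℕ} (A : ValuationSubring Kbar) (x : FF M) : Prop :=
  (∀ y : FF M, IsAlgebraic (Algebra.adjoin Kbar {x}) y) ∧
  CoreFin A x ∧
  ∃ (V : ValuationSubring (FF M)) (ρ : V →+* LaurentSeries (IsLocalRing.ResidueField A))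
    (S : Finset Kbar), CoreGauss A x V ∧ CoreRed A x V ρ ∧ CoreBranch A x S

/-- instantiation for the chart at infinity. -/
def InstInf : Prop :=
  ∀ (ℓ : ℕ), ℓ.Prime → ∀ (M : ℕ) [NeZero M], ¬ ℓ ∣ M → auxLevel ℓ ∣ M →
    ∀ A : ValuationSubring Kbar, A.LiesOverPrime ℓ → CoreInputs A (jB M)⁻¹

/-- instantiation for the finite chart: it is the chart of a suitable coordinate `x`. -/
def InstFin : Prop :=
  ∀ (ℓ : ℕ), ℓ.Prime → ∀ (M : ℕ) [NeZero M], ¬ ℓ ∣ M → auxLevel ℓ ∣ M →
    ∀ A : ValuationSubring Kbar, A.LiesOverPrime ℓ →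
      ∃ x : FF M, modelAt M A x = modelFin M A ∧ CoreInputs A x

/-- the residue field of a valuation subring over `ℓ` has characteristic `ℓ`. -/
theorem h13_charP_residueField {K : Type} [Field K] (A : ValuationSubring K) (ℓ : ℕ)
    (hℓ : ℓ.Prime) (hA : A.LiesOverPrime ℓ) : CharP (IsLocalRing.ResidueField A) ℓ := by
  have h0 : ((ℓ : ℕ) : IsLocalRing.ResidueField A) = 0 := by
    have h1 : ((ℓ : ℕ) : A) ∈ IsLocalRing.maximalIdeal A := by
      rw [IsLocalRing.mem_maximalIdeal, mem_nonunits_iff]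
      intro hu
      have h2 : (((ℓ : ℕ) : A) : K) ∈ A.nonunits := by
        have : (((ℓ : ℕ) : A) : K) = (ℓ : K) := by push_cast; rfl
        rw [this]; exact hA
      rw [ValuationSubring.coe_mem_nonunits_iff] at h2
      exact h2 hu
    have h3 := (IsLocalRing.residue_eq_zero_iff ((ℓ : ℕ) : A)).2 h1
    rw [← h3, map_natCast]
  haveI : Fact ℓ.Prime := ⟨hℓ⟩
  exact CharP.charP_iff_prime_eq_zero hℓ |>.2 h0

/-- **SM-ASM.**  `IfaceSmooth` from the abstract core and the instantiation data. -/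
theorem ifaceSmooth_of (hcore : SMCore) (hInf : InstInf) (hFin : InstFin) : IfaceSmooth := by
  intro ℓ hℓ M _ hM haux A hA
  haveI : Fact ℓ.Prime := ⟨hℓ⟩
  haveI : CharP (IsLocalRing.ResidueField A) ℓ := h13_charP_residueField A ℓ hℓ hA
  haveI : IsAlgClosed (IsLocalRing.ResidueField A) := Fermat.Agent.S18.residueAlgClosed Kbar A
  constructor
  · obtain ⟨x, hx, halg, hfin, V, ρ, S, hV, hρ, hS⟩ := hFin ℓ hℓ M hM haux A hA
    have h := hcore Kbar A ℓ (FF M) x halg hfin V hV ρ hρ S hS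
    have h' : IsDedekindDomain (modelAt M A x ⧸ maxExt A (modelAt M A x)) := h
    rw [hx] at h'
    exact h'
  · obtain ⟨halg, hfin, V, ρ, S, hV, hρ, hS⟩ := hInf ℓ hℓ M hM haux A hA
    exact hcore Kbar A ℓ (FF M) (jB M)⁻¹ halg hfin V hV ρ hρ S hS

end Fermat.Agent.Red.SM
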