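import Mathlib

/-!
# P-RED, R-SM, leaf SM-CHART (helper8), abstract part

* `h8ch_isDedekindDomain_of_away` (CH-A): a domain `D` with elements `f ∈ S` generating the unit
  ideal such that every localization of `D` away from `f ∈ S` is a Dedekind domain is a Dedekind
  domain.
* `h8ch_spanIn R 𝔪` : the ideal of the subring `R ⊆ F` generated by `R ∩ 𝔪`.
* `h8ch_isLocalization_quot` (CH-LOC): for subrings `B ≤ C` of `F` with `C = B[1/t]` and a set
  `𝔪 ⊆ B`, the quotient `C ⧸ 𝔪 C` is the localization of `B ⧸ 𝔪 B` away from `t`.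
* `h8ch_isDedekindDomain_quot` : hence `C ⧸ 𝔪 C` is a Dedekind domain if `B ⧸ 𝔪 B` is one and
  `t ∉ 𝔪 B`.
* `h8ch_isDedekindDomain_of_cover` : `C ⧸ 𝔪 C` is a Dedekind domain if it is a domain and
  `C` is covered by finitely many `C[1/f i]` with `C[1/f i] ⧸ 𝔪` Dedekind.
-/

set_option autoImplicit false
set_option linter.unusedSectionVars false
set_option linter.style.haveILetI false

namespace Fermat.Agent.Red.SM.ChartAbs

open IsLocalization

section LocalToGlobal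

variable {D : Type*} [CommRing D] [IsDomain D]

/-- For a proper ideal `P` and a set `S` generating the unit ideal, some element of `S` is not
in `P`. -/
theorem h8ch_exists_notMem (S : Finset D) (hS : Ideal.span (S : Set D) = ⊤) (P : Ideal D)
    (hP : P ≠ ⊤) : ∃ f ∈ S, f ∉ P := by
  by_contra hcon
  apply hP
  rw [eq_top_iff, ← hS, Ideal.span_le]
  intro f hf
  by_contra hfP
  exact hcon ⟨f, hf, hfP⟩

/-- **CH-A**: the property of being a Dedekind domain is local for a finite cover by basic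
open sets (any model of the localizations). -/
theorem h8ch_isDedekindDomain_of_away {ι : Type*} [Finite ι] (f : ι → D)
    (hS : Ideal.span (Set.range f) = ⊤)
    (L : ι → Type*) [∀ i, CommRing (L i)] [∀ i, Algebra D (L i)]
    (hloc : ∀ i, IsLocalization.Away (f i) (L i))
    (h : ∀ i, IsDedekindDomain (L i)) : IsDedekindDomain D := by
  classical
  haveI := Fintype.ofFinite ι
  set S : Finset D := Finset.univ.image f with hSdef
  have hS' : Ideal.span (S : Set D) = ⊤ := by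
    rw [hSdef, Finset.coe_image, Finset.coe_univ, Set.image_univ]
    exact hS
  have hSmem : ∀ s ∈ S, ∃ i, f i = s := by
    intro s hs
    rw [hSdef, Finset.mem_image] at hs
    obtain ⟨i, -, hi⟩ := hs
    exact ⟨i, hi⟩
  have hnoeth : IsNoetherianRing D :=
    AlgebraicGeometry.isNoetherianRing_of_away S hS' fun s => by
      obtain ⟨i, hi⟩ := hSmem s.1 s.2
      haveI := h i
      haveI : IsLocalization.Away s.1 (L i) := hi ▸ hloc i
      let e : L i ≃ₐ[D] Localization.Away s.1 :=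
        IsLocalization.algEquiv (Submonoid.powers s.1) _ _
      exact isNoetherianRing_of_ringEquiv (L i) e.toRingEquiv
  have hdvr : IsDedekindDomainDvr D :=
    { toIsNoetherian := hnoeth
      is_dvr_at_nonzero_prime := by
        intro P hP0 hPprime
        obtain ⟨s, hsS, hfP⟩ := h8ch_exists_notMem S hS' P hPprime.ne_top
        obtain ⟨i, rfl⟩ := hSmem s hsS
        haveI := h i
        haveI := hloc i
        have hdisj : Disjoint ((Submonoid.powers (f i) : Submonoid D) : Set D) (P : Set D) := by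
          rw [Set.disjoint_left]
          rintro x ⟨n, rfl⟩ hx
          exact hfP (hPprime.mem_of_pow_mem n hx)
        set p : Ideal (L i) := Ideal.map (algebraMap D (L i)) P with hp
        haveI hpprime : p.IsPrime :=
          IsLocalization.isPrime_of_isPrime_disjoint (Submonoid.powers (f i)) (L i) P hPprime
            hdisj
        have hunder : p.under D = P :=
          IsLocalization.under_map_of_isPrime_disjoint (Submonoid.powers (f i)) (L i) hPprime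
            hdisj
        have hf0 : f i ≠ 0 := fun h0 => hfP (h0 ▸ P.zero_mem)
        have hinj : Function.Injective (algebraMap D (L i)) :=
          IsLocalization.injective (L i) (powers_le_nonZeroDivisors_of_noZeroDivisors hf0)
        have hpne : p ≠ ⊥ := by
          intro hbot
          apply hP0
          rw [eq_bot_iff]
          intro x hx
          have h1 : algebraMap D (L i) x ∈ p := Ideal.mem_map_of_mem _ hx
          rw [hbot, Ideal.mem_bot] at h1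
          rw [Ideal.mem_bot]
          exact hinj (by rw [h1, map_zero])
        have hT : IsDiscreteValuationRing (Localization.AtPrime p) :=
          IsLocalization.AtPrime.isDiscreteValuationRing_of_dedekind_domain (L i) hpne _
        have hloc1 : IsLocalization.AtPrime (Localization.AtPrime p) (p.under D) :=
          IsLocalization.isLocalization_isLocalization_atPrime_isLocalization
            (Submonoid.powers (f i)) (Localization.AtPrime p) p
        have hloc' : IsLocalization P.primeCompl (Localization.AtPrime p) := by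
          have := hloc1
          simp only [hunder] at this
          exact this
        let e : Localization.AtPrime P ≃ₐ[D] Localization.AtPrime p :=
          IsLocalization.algEquiv P.primeCompl _ _
        haveI := hT
        exact IsDiscreteValuationRing.RingEquivClass.isDiscreteValuationRing e.symm }
  infer_instance

end LocalToGlobal

section Quotients

variable {F : Type*} [CommRing F]

/-- the ideal of the subring `R ⊆ F` generated by the elements of `R` lying in `𝔪`. -/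
def h8ch_spanIn (R : Subring F) (𝔪 : Set F) : Ideal R := Ideal.span {x : R | (x : F) ∈ 𝔪}

theorem h8ch_spanIn_le_comap {B C : Subring F} (hBC : B ≤ C) (𝔪 : Set F) :
    h8ch_spanIn B 𝔪 ≤ Ideal.comap (Subring.inclusion hBC) (h8ch_spanIn C 𝔪) := by
  unfold h8ch_spanIn
  rw [Ideal.span_le]
  intro x hx
  exact Ideal.subset_span (show ((Subring.inclusion hBC x : C) : F) ∈ 𝔪 from hx)

/-- the natural map `B ⧸ 𝔪 B → C ⧸ 𝔪 C`. -/
def h8ch_quotMap {B C : Subring F} (hBC : B ≤ C) (𝔪 : Set F) :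
    B ⧸ h8ch_spanIn B 𝔪 →+* C ⧸ h8ch_spanIn C 𝔪 :=
  Ideal.quotientMap _ (Subring.inclusion hBC) (h8ch_spanIn_le_comap hBC 𝔪)

theorem h8ch_quotMap_mk {B C : Subring F} (hBC : B ≤ C) (𝔪 : Set F) (b : B) :
    h8ch_quotMap hBC 𝔪 (Ideal.Quotient.mk _ b) = Ideal.Quotient.mk _ (Subring.inclusion hBC b) :=
  rfl

/-- clearing denominators in `𝔪 C`. -/
theorem h8ch_exists_pow_mul_mem {B C : Subring F} (_hBC : B ≤ C) (𝔪 : Set F)
    (h𝔪 : ∀ y ∈ 𝔪, y ∈ B) (t : B) (hden : ∀ f ∈ C, ∃ n : ℕ, (t : F) ^ n * f ∈ B)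
    (c : C) (hc : c ∈ h8ch_spanIn C 𝔪) :
    ∃ n : ℕ, ∀ m : ℕ, n ≤ m → ∃ b : B, b ∈ h8ch_spanIn B 𝔪 ∧ (b : F) = (t : F) ^ m * (c : F) := by
  unfold h8ch_spanIn at hc
  induction hc using Submodule.span_induction with
  | mem x hx =>
    refine ⟨0, fun m _ => ⟨t ^ m * ⟨(x : F), h𝔪 _ hx⟩, ?_, ?_⟩⟩
    · exact Ideal.mul_mem_left _ _ (Ideal.subset_span hx)
    · push_cast
      rfl
  | zero =>
    exact ⟨0, fun m _ => ⟨0, Ideal.zero_mem _, by simp⟩⟩
  | add x y _ _ hx hy =>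
    obtain ⟨n₁, h₁⟩ := hx
    obtain ⟨n₂, h₂⟩ := hy
    refine ⟨max n₁ n₂, fun m hm => ?_⟩
    obtain ⟨b₁, hb₁, e₁⟩ := h₁ m (le_trans (le_max_left _ _) hm)
    obtain ⟨b₂, hb₂, e₂⟩ := h₂ m (le_trans (le_max_right _ _) hm)
    refine ⟨b₁ + b₂, Ideal.add_mem _ hb₁ hb₂, ?_⟩
    push_cast
    rw [e₁, e₂]
    ring
  | smul a x _ hx =>
    obtain ⟨n₁, h₁⟩ := hx
    obtain ⟨n₂, h₂⟩ := hden a a.2
    refine ⟨n₁ + n₂, fun m hm => ?_⟩
    obtain ⟨b₁, hb₁, e₁⟩ := h₁ (m - n₂) (by omega)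
    refine ⟨⟨(t : F) ^ n₂ * a, h₂⟩ * b₁, Ideal.mul_mem_left _ _ hb₁, ?_⟩
    have hm' : m = n₂ + (m - n₂) := by omega
    push_cast
    rw [e₁, smul_eq_mul]
    push_cast
    conv_rhs => rw [hm', pow_add]
    ring

/-- **CH-LOC**: if `C = B[1/t]` inside `F` and `𝔪 ⊆ B`, then `C ⧸ 𝔪 C` is the localization of
`B ⧸ 𝔪 B` away from (the class of) `t`. -/
theorem h8ch_isLocalization_quot {B C : Subring F} (hBC : B ≤ C) (𝔪 : Set F)
    (h𝔪 : ∀ y ∈ 𝔪, y ∈ B) (t : B) (hunit : ∃ s : F, s ∈ C ∧ (t : F) * s = 1)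
    (hden : ∀ f ∈ C, ∃ n : ℕ, (t : F) ^ n * f ∈ B) :
    @IsLocalization (B ⧸ h8ch_spanIn B 𝔪) _
      (Submonoid.powers (Ideal.Quotient.mk (h8ch_spanIn B 𝔪) t))
      (C ⧸ h8ch_spanIn C 𝔪) _ (h8ch_quotMap hBC 𝔪).toAlgebra := by
  letI : Algebra (B ⧸ h8ch_spanIn B 𝔪) (C ⧸ h8ch_spanIn C 𝔪) := (h8ch_quotMap hBC 𝔪).toAlgebra
  have halg : ∀ x, algebraMap (B ⧸ h8ch_spanIn B 𝔪) (C ⧸ h8ch_spanIn C 𝔪) x =
      h8ch_quotMap hBC 𝔪 x := fun _ => rfl
  obtain ⟨s, hsC, hts⟩ := hunit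
  rw [isLocalization_iff]
  refine ⟨?_, ?_, ?_⟩
  · rintro ⟨y, n, rfl⟩
    rw [halg, map_pow, h8ch_quotMap_mk]
    refine IsUnit.pow n ?_
    refine IsUnit.of_mul_eq_one (Ideal.Quotient.mk _ (⟨s, hsC⟩ : C)) ?_
    rw [← map_mul, ← map_one (Ideal.Quotient.mk (h8ch_spanIn C 𝔪))]
    congr 1
    exact Subtype.ext hts
  · intro z
    obtain ⟨c, rfl⟩ := Ideal.Quotient.mk_surjective z
    obtain ⟨n, hn⟩ := hden c c.2
    refine ⟨(Ideal.Quotient.mk _ ⟨(t : F) ^ n * c, hn⟩,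
      ⟨Ideal.Quotient.mk _ t ^ n, n, rfl⟩), ?_⟩
    rw [halg, halg]
    show Ideal.Quotient.mk _ c * h8ch_quotMap hBC 𝔪 (Ideal.Quotient.mk _ t ^ n) = _
    rw [map_pow, h8ch_quotMap_mk, h8ch_quotMap_mk, ← map_pow, ← map_mul]
    congr 1
    apply Subtype.ext
    push_cast
    show (c : F) * (t : F) ^ n = (t : F) ^ n * c
    ring
  · intro x y hxy
    obtain ⟨b, rfl⟩ := Ideal.Quotient.mk_surjective x
    obtain ⟨b', rfl⟩ := Ideal.Quotient.mk_surjective y
    rw [halg, halg, h8ch_quotMap_mk, h8ch_quotMap_mk, Ideal.Quotient.eq] at hxy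
    obtain ⟨n, hn⟩ := h8ch_exists_pow_mul_mem hBC 𝔪 h𝔪 t hden _ hxy
    obtain ⟨d, hd, hde⟩ := hn n le_rfl
    refine ⟨⟨Ideal.Quotient.mk _ t ^ n, n, rfl⟩, ?_⟩
    show Ideal.Quotient.mk _ t ^ n * Ideal.Quotient.mk _ b =
      Ideal.Quotient.mk _ t ^ n * Ideal.Quotient.mk _ b'
    rw [← map_pow, ← map_mul, ← map_mul, Ideal.Quotient.eq]
    have : t ^ n * b - t ^ n * b' = d := by
      apply Subtype.ext
      rw [hde]
      push_cast
      show (t : F) ^ n * (b : F) - (t : F) ^ n * (b' : F) = (t : F) ^ n * ((b : F) - (b' : F))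
      ring
    rw [this]
    exact hd

/-- Under the hypotheses of `h8ch_isLocalization_quot`: if `B ⧸ 𝔪 B` is a Dedekind domain and
`t ∉ 𝔪 B`, then `C ⧸ 𝔪 C` is a Dedekind domain. -/
theorem h8ch_isDedekindDomain_quot {B C : Subring F} (hBC : B ≤ C) (𝔪 : Set F)
    (h𝔪 : ∀ y ∈ 𝔪, y ∈ B) (t : B) (hunit : ∃ s : F, s ∈ C ∧ (t : F) * s = 1)
    (hden : ∀ f ∈ C, ∃ n : ℕ, (t : F) ^ n * f ∈ B)
    (hB : IsDedekindDomain (B ⧸ h8ch_spanIn B 𝔪)) (ht : t ∉ h8ch_spanIn B 𝔪) :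
    IsDedekindDomain (C ⧸ h8ch_spanIn C 𝔪) := by
  letI : Algebra (B ⧸ h8ch_spanIn B 𝔪) (C ⧸ h8ch_spanIn C 𝔪) := (h8ch_quotMap hBC 𝔪).toAlgebra
  haveI hloc := h8ch_isLocalization_quot hBC 𝔪 h𝔪 t hunit hden
  have ht0 : Ideal.Quotient.mk (h8ch_spanIn B 𝔪) t ≠ 0 := fun h =>
    ht (Ideal.Quotient.eq_zero_iff_mem.mp h)
  have hM : Submonoid.powers (Ideal.Quotient.mk (h8ch_spanIn B 𝔪) t) ≤
      nonZeroDivisors (B ⧸ h8ch_spanIn B 𝔪) :=
    powers_le_nonZeroDivisors_of_noZeroDivisors ht0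
  haveI : IsDomain (C ⧸ h8ch_spanIn C 𝔪) :=
    IsLocalization.isDomain_of_le_nonZeroDivisors (C ⧸ h8ch_spanIn C 𝔪) hM
  exact IsLocalization.isDedekindDomain (B ⧸ h8ch_spanIn B 𝔪) hM (C ⧸ h8ch_spanIn C 𝔪)

/-- **Cover form.**  Let `C ⊆ F` be a subring containing `𝔪` such that `C ⧸ 𝔪 C` is a domain,
and let `f i ∈ C` generate the unit ideal of `C`.  If for every `i` the ring
`C i = C[1/f i] ⊆ F` has a Dedekind quotient `C i ⧸ 𝔪 C i`, then `C ⧸ 𝔪 C` is a Dedekind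
domain. -/
theorem h8ch_isDedekindDomain_of_cover {ι : Type*} [Finite ι] (C : Subring F) (𝔪 : Set F)
    (h𝔪 : ∀ y ∈ 𝔪, y ∈ C) (hdom : IsDomain (C ⧸ h8ch_spanIn C 𝔪))
    (f : ι → C) (hf : Ideal.span (Set.range f) = ⊤)
    (Cι : ι → Subring F) (hC : ∀ i, C ≤ Cι i)
    (hunit : ∀ i, ∃ s : F, s ∈ Cι i ∧ (f i : F) * s = 1)
    (hden : ∀ i, ∀ g ∈ Cι i, ∃ n : ℕ, (f i : F) ^ n * g ∈ C)
    (hded : ∀ i, IsDedekindDomain (Cι i ⧸ h8ch_spanIn (Cι i) 𝔪)) :
    IsDedekindDomain (C ⧸ h8ch_spanIn C 𝔪) := by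
  letI : ∀ i, Algebra (C ⧸ h8ch_spanIn C 𝔪) (Cι i ⧸ h8ch_spanIn (Cι i) 𝔪) := fun i =>
    (h8ch_quotMap (hC i) 𝔪).toAlgebra
  refine h8ch_isDedekindDomain_of_away (fun i => Ideal.Quotient.mk (h8ch_spanIn C 𝔪) (f i)) ?_
    (fun i => Cι i ⧸ h8ch_spanIn (Cι i) 𝔪)
    (fun i => h8ch_isLocalization_quot (hC i) 𝔪 h𝔪 (f i) (hunit i) (hden i)) hded
  -- the classes of the `f i` generate the unit ideal
  have h1 : Ideal.map (Ideal.Quotient.mk (h8ch_spanIn C 𝔪)) (Ideal.span (Set.range f)) = ⊤ := by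
    rw [hf, Ideal.map_top]
  rw [Ideal.map_span] at h1
  rw [← h1]
  congr 1
  ext x
  constructor
  · rintro ⟨i, rfl⟩
    exact ⟨f i, ⟨i, rfl⟩, rfl⟩
  · rintro ⟨_, ⟨i, rfl⟩, rfl⟩
    exact ⟨i, rfl⟩

end Quotients

end Fermat.Agent.Red.SM.ChartAbs
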