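import Fermat.Agent.Red.SM.CoreSkeleton
import Fermat.Agent.Red.SM.CoreT

/-!
# P-RED / R-SM : the adapter `SMCoreT → SMCore` (helper35)

`h35a_smCore_of_T : SMCoreT → SMCore`: the Subring form of the abstract smoothness theorem
(`CoreSkeleton.lean`) follows from the typeclass form (`CoreT.lean`).

Plumbing on `B = ↥(coreChart A x)`:
* `Algebra A[X] B` via `coreEval` (`h35a_hom`, `h35a_alg`);
* `FaithfulSMul`: `x` is transcendental over `K` (`K` algebraically closed, `ρ x` is not constant);
* `Module.Finite` from `CoreFin`;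
* `IsIntegrallyClosed`: an integral closure in a field;
* kernel of `ρ` on `B` is `𝔪_A B` (`scale` + `qep`);
* torsion-freeness of `B / (x - c)`: `x - c` is a unit of `V`, then `qep`;
* unramifiedness: a valuation subring of `F` dominating the localisation of `B` at the kernel of
  the `A`-point;
* `coreJ = coreMax`.
Mathlib only.
-/

set_option autoImplicit false
set_option linter.style.haveILetI false

open Polynomial

noncomputable section

namespace Fermat.Agent.Red.SM

variable {K F : Type} [Field K] [Field F] [Algebra K F]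

theorem h35a_cst_mem_coreAdj (A : ValuationSubring K) (x : F) {a : K} (ha : a ∈ A) :
    algebraMap K F a ∈ coreAdj A x :=
  Subring.subset_closure (Or.inl ⟨a, ha, rfl⟩)

theorem h35a_x_mem_coreAdj (A : ValuationSubring K) (x : F) : x ∈ coreAdj A x :=
  Subring.subset_closure (Or.inr rfl)

theorem h35a_coreEval_apply (A : ValuationSubring K) (x : F) (q : Polynomial A) :
    coreEval A x q = ∑ i ∈ Finset.range (q.natDegree + 1), algebraMap K F (q.coeff i : K) * x ^ i := by
  unfold coreEval
  rw [Polynomial.coe_eval₂RingHom, Polynomial.eval₂_eq_sum_range]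
  rfl

theorem h35a_coreEval_mem_coreAdj (A : ValuationSubring K) (x : F) (q : Polynomial A) :
    coreEval A x q ∈ coreAdj A x := by
  rw [h35a_coreEval_apply]
  exact Subring.sum_mem _ fun i _ =>
    Subring.mul_mem _ (h35a_cst_mem_coreAdj A x (q.coeff i).2)
      (Subring.pow_mem _ (h35a_x_mem_coreAdj A x) i)

theorem h35a_coreAdj_le_coreChart (A : ValuationSubring K) (x : F) :
    coreAdj A x ≤ coreChart A x := by
  intro y hy
  exact (integralClosure (coreAdj (F := F) A x) F).algebraMap_mem ⟨y, hy⟩

theorem h35a_coreEval_mem_coreChart (A : ValuationSubring K) (x : F) (q : Polynomial A) :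
    coreEval A x q ∈ coreChart A x :=
  h35a_coreAdj_le_coreChart A x (h35a_coreEval_mem_coreAdj A x q)

/-- the structure map `A[X] → B`. -/
def h35a_hom (A : ValuationSubring K) (x : F) : Polynomial A →+* coreChart A x :=
  (coreEval A x).codRestrict (coreChart A x) (h35a_coreEval_mem_coreChart A x)

@[simp] theorem h35a_hom_coe (A : ValuationSubring K) (x : F) (q : Polynomial A) :
    ((h35a_hom A x q : coreChart A x) : F) = coreEval A x q := rfl

theorem h35a_coreEval_C (A : ValuationSubring K) (x : F) (a : A) :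
    coreEval A x (C a) = algebraMap K F (a : K) := by
  unfold coreEval
  rw [Polynomial.coe_eval₂RingHom, Polynomial.eval₂_C]
  rfl

theorem h35a_coreEval_X (A : ValuationSubring K) (x : F) :
    coreEval A x X = x := by
  unfold coreEval
  rw [Polynomial.coe_eval₂RingHom, Polynomial.eval₂_X]


theorem h35a_coreEval_eq_aeval (A : ValuationSubring K) (x : F) (q : Polynomial A) :
    coreEval A x q = Polynomial.aeval x (q.map A.subtype) := by
  unfold coreEval
  rw [Polynomial.coe_eval₂RingHom, Polynomial.aeval_def, Polynomial.eval₂_map]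

/-- the coefficient of a constant at a nonzero index vanishes. -/
theorem h35a_coeff_C {k : Type} [Field k] (r : k) {n : ℤ} (hn : n ≠ 0) :
    (HahnSeries.C r : LaurentSeries k).coeff n = 0 := by
  rw [HahnSeries.C_apply, HahnSeries.coeff_single_of_ne hn]

theorem h35a_int_ne_zero {k : Type} [Field k] {n : ℤ} (hn : ((n : ℤ) : k) ≠ 0) : n ≠ 0 := by
  rintro rfl
  exact hn (by simp)

/-- `x` is not a constant. -/
theorem h35a_ne_cst (A : ValuationSubring K) (x : F) (V : ValuationSubring F)
    (hV : CoreGauss A x V) (ρ : V →+* LaurentSeries (IsLocalRing.ResidueField A))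
    (hρ : CoreRed A x V ρ) (a : K) : x ≠ algebraMap K F a := by
  intro h
  obtain ⟨hx, n, hn, hc⟩ := hρ.deriv
  have ha : a ∈ A := (hV.cst_mem_iff a).mp (h ▸ hx)
  have h1 : (⟨x, hx⟩ : V) = ⟨algebraMap K F a, h ▸ hx⟩ := Subtype.ext h
  rw [h1, hρ.cst a ha, h35a_coeff_C _ (h35a_int_ne_zero hn)] at hc
  exact hc rfl

/-- `x` is transcendental over `K`. -/
theorem h35a_transcendental [IsAlgClosed K] (A : ValuationSubring K) (x : F)
    (V : ValuationSubring F)
    (hV : CoreGauss A x V) (ρ : V →+* LaurentSeries (IsLocalRing.ResidueField A))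
    (hρ : CoreRed A x V ρ) : Transcendental K x := by
  intro halg
  have hint : IsIntegral K x := halg.isIntegral
  have hdeg : (minpoly K x).degree = 1 :=
    IsAlgClosed.degree_eq_one_of_irreducible K (minpoly.irreducible hint)
  obtain ⟨a, ha⟩ := minpoly.mem_range_of_degree_eq_one K x hdeg
  exact h35a_ne_cst A x V hV ρ hρ a ha.symm

theorem h35a_coreEval_injective [IsAlgClosed K] (A : ValuationSubring K) (x : F)
    (V : ValuationSubring F)
    (hV : CoreGauss A x V) (ρ : V →+* LaurentSeries (IsLocalRing.ResidueField A))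
    (hρ : CoreRed A x V ρ) : Function.Injective (coreEval A x) := by
  rw [injective_iff_map_eq_zero]
  intro q hq
  rw [h35a_coreEval_eq_aeval] at hq
  have htr := h35a_transcendental A x V hV ρ hρ
  have h0 : q.map A.subtype = 0 := by
    by_contra hne
    exact htr ⟨_, hne, hq⟩
  exact (Polynomial.map_eq_zero_iff (Subtype.val_injective)).mp h0


/-- for `c ∈ A`, `x - c` is a unit of `V`. -/
theorem h35a_sub_cst_unit (A : ValuationSubring K) (x : F) (V : ValuationSubring F)
    (hV : CoreGauss A x V) (ρ : V →+* LaurentSeries (IsLocalRing.ResidueField A))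
    (hρ : CoreRed A x V ρ) (c : K) (hc : c ∈ A) :
    x - algebraMap K F c ∈ V ∧ (x - algebraMap K F c)⁻¹ ∈ V := by
  obtain ⟨hx, n, hn, hcoef⟩ := hρ.deriv
  have hcV : algebraMap K F c ∈ V := (hV.cst_mem_iff c).mpr hc
  have hmem : x - algebraMap K F c ∈ V := V.sub_mem hx hcV
  refine ⟨hmem, ?_⟩
  by_contra hinv
  have hne : x - algebraMap K F c ≠ 0 := fun h => h35a_ne_cst A x V hV ρ hρ c (sub_eq_zero.mp h)
  have hnon : x - algebraMap K F c ∈ V.nonunits :=
    (ValuationSubring.mem_nonunits_iff_or _).mpr (Or.inr hinv)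
  have h0 : ρ ⟨x - algebraMap K F c, hmem⟩ = 0 := (hρ.ker _).mpr hnon
  have h1 : (⟨x - algebraMap K F c, hmem⟩ : V) = ⟨x, hx⟩ - ⟨algebraMap K F c, hcV⟩ := rfl
  rw [h1, map_sub, hρ.cst c hc hcV] at h0
  have h2 := congrArg (fun s => HahnSeries.coeff s n) h0
  simp only [HahnSeries.coeff_sub, HahnSeries.coeff_zero] at h2
  rw [h35a_coeff_C _ (h35a_int_ne_zero hn), sub_zero] at h2
  exact hcoef h2

/-- elements of the chart killed by `ρ` are in `𝔪_A B`: they are `a * f` with `a ∈ 𝔪_A`,
`f` in the chart. -/
theorem h35a_exists_of_mem_nonunits (A : ValuationSubring K) (x : F) (V : ValuationSubring F)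
    (hV : CoreGauss A x V) (b : F) (hb : b ∈ coreChart A x) (hbV : b ∈ V.nonunits) :
    ∃ a : K, a ∈ A.nonunits ∧ ∃ f : F, f ∈ coreChart A x ∧ b = algebraMap K F a * f := by
  rcases eq_or_ne b 0 with rfl | hb0
  · exact ⟨0, A.nonunits.zero_mem, 0, Subring.zero_mem _, by simp⟩
  obtain ⟨c, hc0, hcV, hcinv⟩ := hV.scale b hb0
  -- `c ∉ A`
  have hcA : c ∉ A := by
    intro hcA
    have h1 : algebraMap K F c ∈ V := (hV.cst_mem_iff c).mpr hcA
    -- then `c * b` is a nonunit of `V`
    have h2 : algebraMap K F c * b ∈ V.nonunits := by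
      rw [ValuationSubring.mem_nonunits_iff] at hbV ⊢
      rw [map_mul]
      calc V.valuation (algebraMap K F c) * V.valuation b
          ≤ 1 * V.valuation b := by
            gcongr
            exact (V.valuation_le_one_iff _).mpr h1
        _ = V.valuation b := one_mul _
        _ < 1 := hbV
    rcases (ValuationSubring.mem_nonunits_iff_or _).mp h2 with h3 | h3
    · exact (mul_ne_zero ((_root_.map_ne_zero _).mpr hc0) hb0) h3
    · exact h3 hcinv
  have hcinvA : c⁻¹ ∈ A.nonunits := (ValuationSubring.inv_mem_nonunits_iff _).mpr (Or.inr hcA)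
  have hcinvA' : c⁻¹ ∈ A := ValuationSubring.nonunits_subset hcinvA
  refine ⟨c⁻¹, hcinvA, algebraMap K F c * b, ?_, ?_⟩
  · refine hV.qep _ hcV c⁻¹ hcinvA' (inv_ne_zero hc0) ?_
    rw [← mul_assoc, ← map_mul, inv_mul_cancel₀ hc0, map_one, one_mul]
    exact hb
  · rw [← mul_assoc, ← map_mul, inv_mul_cancel₀ hc0, map_one, one_mul]

/-- torsion-freeness of `B / (x - c)`. -/
theorem h35a_tf (A : ValuationSubring K) (x : F) (V : ValuationSubring F)
    (hV : CoreGauss A x V) (ρ : V →+* LaurentSeries (IsLocalRing.ResidueField A))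
    (hρ : CoreRed A x V ρ) (c : K) (hc : c ∈ A) (α : K) (hα : α ∈ A) (hα0 : α ≠ 0)
    (b b' : F) (hb : b ∈ coreChart A x) (hb' : b' ∈ coreChart A x)
    (h : algebraMap K F α * b = (x - algebraMap K F c) * b') :
    ∃ f : F, f ∈ coreChart A x ∧ b = (x - algebraMap K F c) * f := by
  obtain ⟨hmem, hinv⟩ := h35a_sub_cst_unit A x V hV ρ hρ c hc
  have hne : x - algebraMap K F c ≠ 0 := fun h => h35a_ne_cst A x V hV ρ hρ c (sub_eq_zero.mp h)
  have hα0' : algebraMap K F α ≠ 0 := (_root_.map_ne_zero _).mpr hα0
  refine ⟨b * (x - algebraMap K F c)⁻¹, ?_, ?_⟩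
  · refine hV.qep _ (mul_mem (hV.le hb) hinv) α hα hα0 ?_
    have : algebraMap K F α * (b * (x - algebraMap K F c)⁻¹) = b' := by
      rw [← mul_assoc, h]
      field_simp
    rw [this]
    exact hb'
  · field_simp


theorem h35a_mul_mem_nonunits {W : ValuationSubring F} {a b : F} (ha : a ∈ W.nonunits)
    (hb : b ∈ W) : a * b ∈ W.nonunits := by
  rw [ValuationSubring.mem_nonunits_iff] at ha ⊢
  rw [map_mul]
  calc W.valuation a * W.valuation b
      ≤ W.valuation a * 1 := by
        gcongr
        exact (W.valuation_le_one_iff _).mpr hb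
    _ = W.valuation a := mul_one _
    _ < 1 := ha

/-- a valuation subring of `F` dominating the localisation of the subring `B` at the prime
`P`. -/
theorem h35a_exists_dominating (B : Subring F) (P : Ideal B) [P.IsPrime] :
    ∃ W : ValuationSubring F, B ≤ W.toSubring ∧ (∀ y : B, y ∈ P → (y : F) ∈ W.nonunits) ∧
      ∀ w : B, w ∉ P → ((w : F))⁻¹ ∈ W := by
  obtain ⟨W, hW⟩ := (LocalSubring.ofPrime B P).exists_le_valuationSubring
  obtain ⟨hle, hloc⟩ := hW
  have hB : B ≤ (LocalSubring.ofPrime B P).toSubring := LocalSubring.le_ofPrime B P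
  refine ⟨W, hB.trans hle, ?_, ?_⟩
  · intro y hy
    rw [ValuationSubring.mem_nonunits_iff_or]
    by_contra hcon
    rw [not_or, not_not] at hcon
    obtain ⟨hy0, hyinv⟩ := hcon
    -- the image of `y` in the localisation
    have hmem : algebraMap B (LocalSubring.ofPrime B P).toSubring y
        ∈ IsLocalRing.maximalIdeal (LocalSubring.ofPrime B P).toSubring :=
      (IsLocalization.AtPrime.to_map_mem_maximal_iff _ P y).mpr hy
    have hnu : ¬ IsUnit (algebraMap B (LocalSubring.ofPrime B P).toSubring y) :=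
      (IsLocalRing.mem_maximalIdeal _).mp hmem
    apply hnu
    apply hloc.map_nonunit
    rw [isUnit_iff_exists_inv]
    exact ⟨⟨(y : F)⁻¹, hyinv⟩, Subtype.ext (mul_inv_cancel₀ hy0)⟩
  · intro w hw
    have hu : IsUnit (algebraMap B (LocalSubring.ofPrime B P).toSubring w) :=
      IsLocalization.map_units (LocalSubring.ofPrime B P).toSubring (⟨w, hw⟩ : P.primeCompl)
    obtain ⟨u, hu⟩ := isUnit_iff_exists_inv.mp hu
    have h1 : (w : F) * (u : F) = 1 := congrArg Subtype.val hu
    have h2 : ((w : F))⁻¹ = (u : F) := (eq_inv_of_mul_eq_one_right h1).symm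
    rw [h2]
    exact hle u.2


/-- `K ⊆ W` for a valuation subring dominating the localisation of the chart at the kernel of
an `A`-point. -/
theorem h35a_unram (A : ValuationSubring K) (x : F) (S : Finset K) (hS : CoreBranch A x S)
    (c : A) (hcS : (c : K) ∉ S) (φ : coreChart A x →+* A)
    (hφ : ∀ q : Polynomial A, φ (h35a_hom A x q) = q.eval c)
    (y z w : coreChart A x) (hy : φ y = 0) (hz : φ z = 0) (hw : φ w ≠ 0) :
    h35a_hom A x (X - C c) * w ≠ y * z := by
  intro heq
  have : (RingHom.ker φ).IsPrime := RingHom.ker_isPrime φ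
  obtain ⟨W, hBW, hnon, hinv⟩ := h35a_exists_dominating (coreChart A x) (RingHom.ker φ)
  -- constants
  have hcst : ∀ a : A, φ (h35a_hom A x (C a)) = a := fun a => by rw [hφ, eval_C]
  have hK : ∀ a : K, algebraMap K F a ∈ W := by
    intro a
    rcases A.mem_or_inv_mem a with ha | ha
    · have : algebraMap K F a = ((h35a_hom A x (C ⟨a, ha⟩) : coreChart A x) : F) := by
        rw [h35a_hom_coe, h35a_coreEval_C]
      rw [this]
      exact hBW (Subtype.property _)
    · rcases eq_or_ne a 0 with rfl | ha0
      · rw [map_zero]; exact W.zero_mem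
      have hne : h35a_hom A x (C ⟨a⁻¹, ha⟩) ∉ RingHom.ker φ := by
        rw [RingHom.mem_ker, hcst]
        intro h
        exact inv_ne_zero ha0 (congrArg Subtype.val h)
      have := hinv _ hne
      rw [h35a_hom_coe, h35a_coreEval_C] at this
      simpa using this
  have hxc : x - algebraMap K F (c : K) ∈ W.nonunits := by
    have hmem : h35a_hom A x (X - C c) ∈ RingHom.ker φ := by
      rw [RingHom.mem_ker, hφ]; simp
    have := hnon _ hmem
    rw [h35a_hom_coe, map_sub, h35a_coreEval_X, h35a_coreEval_C] at this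
    exact this
  have hwinv : ((w : F))⁻¹ ∈ W := hinv w (by rw [RingHom.mem_ker]; exact hw)
  have hw0 : (w : F) ≠ 0 := by
    intro h
    apply hw
    have : w = 0 := Subtype.ext h
    rw [this, map_zero]
  have hyW : (y : F) * ((w : F))⁻¹ ∈ W.nonunits :=
    h35a_mul_mem_nonunits (hnon y (by rw [RingHom.mem_ker]; exact hy)) hwinv
  have hzW : (z : F) ∈ W.nonunits := hnon z (by rw [RingHom.mem_ker]; exact hz)
  refine hS.unram (c : K) c.2 hcS W hK hxc _ hyW _ hzW ?_
  have heq' : (x - algebraMap K F (c : K)) * (w : F) = (y : F) * (z : F) := by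
    have h1 := congrArg Subtype.val heq
    have h2 : ((h35a_hom A x (X - C c) : coreChart A x) : F) = x - algebraMap K F (c : K) := by
      rw [h35a_hom_coe, map_sub, h35a_coreEval_X, h35a_coreEval_C]
    rw [Subring.coe_mul, Subring.coe_mul, h2] at h1
    exact h1
  field_simp
  rw [heq']


section Final

variable (A : ValuationSubring K) (x : F)

/-- the `A[X]`-algebra structure of the chart. -/
abbrev h35a_alg : Algebra (Polynomial A) (coreChart A x) := (h35a_hom A x).toAlgebra

theorem h35a_finite (hfin : CoreFin A x) :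
    letI := h35a_alg A x
    Module.Finite (Polynomial A) (coreChart A x) := by
  let _ := h35a_alg A x
  classical
  obtain ⟨S, hS, hgen⟩ := hfin
  refine ⟨⟨S.attach.image (fun s => (⟨s.1, hS s.1 s.2⟩ : coreChart A x)), ?_⟩⟩
  rw [eq_top_iff]
  rintro ⟨b, hb⟩ -
  obtain ⟨c, hc⟩ := hgen b hb
  have h1 : (⟨b, hb⟩ : coreChart A x)
      = ∑ s ∈ S.attach, c s.1 • (⟨s.1, hS s.1 s.2⟩ : coreChart A x) := by
    apply Subtype.ext
    rw [AddSubmonoidClass.coe_finsetSum]
    show b = _
    rw [hc, ← Finset.sum_attach]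
    rfl
  rw [h1]
  refine Submodule.sum_mem _ fun s _ => Submodule.smul_mem _ _ (Submodule.subset_span ?_)
  rw [Finset.coe_image]
  exact ⟨s, Finset.mem_coe.mpr (Finset.mem_attach _ _), rfl⟩

theorem h35a_faithful [IsAlgClosed K] (V : ValuationSubring F)
    (hV : CoreGauss A x V) (ρ : V →+* LaurentSeries (IsLocalRing.ResidueField A))
    (hρ : CoreRed A x V ρ) :
    letI := h35a_alg A x
    FaithfulSMul (Polynomial A) (coreChart A x) := by
  let _ := h35a_alg A x
  rw [faithfulSMul_iff_algebraMap_injective]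
  intro q q' h
  exact h35a_coreEval_injective A x V hV ρ hρ (congrArg Subtype.val h)

theorem h35a_isIntegrallyClosed : IsIntegrallyClosed (coreChart A x) := by
  unfold coreChart
  exact IsIntegrallyClosed.of_isIntegrallyClosed_of_isIntegrallyClosedIn _ F

theorem h35a_coreJ_eq :
    letI := h35a_alg A x
    coreJ A (coreChart A x) = coreMax A (coreChart A x) := by
  let _ := h35a_alg A x
  unfold coreJ coreMax
  rw [Ideal.map_map]
  apply le_antisymm
  · rw [Ideal.map_le_iff_le_comap]
    intro a ha
    rw [Ideal.mem_comap]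
    refine Ideal.subset_span ⟨(a : K), ValuationSubring.coe_mem_nonunits_iff.mpr ha, ?_⟩
    show ((h35a_hom A x (C a) : coreChart A x) : F) = _
    rw [h35a_hom_coe, h35a_coreEval_C]
  · rw [Ideal.span_le]
    rintro y ⟨a, ha, hy⟩
    obtain ⟨haA, ham⟩ := ValuationSubring.mem_nonunits_iff_exists_mem_maximalIdeal.mp ha
    have : y = ((algebraMap (Polynomial A) (coreChart A x)).comp C) ⟨a, haA⟩ := by
      apply Subtype.ext
      rw [hy]
      show _ = ((h35a_hom A x (C ⟨a, haA⟩) : coreChart A x) : F)
      rw [h35a_hom_coe, h35a_coreEval_C]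
    rw [this]
    exact Ideal.mem_map_of_mem _ ham

theorem h35a_ker (V : ValuationSubring F)
    (hV : CoreGauss A x V) (ρ : V →+* LaurentSeries (IsLocalRing.ResidueField A))
    (hρ : CoreRed A x V ρ) (b : coreChart A x) :
    ρ (Subring.inclusion hV.le b) = 0 ↔ b ∈ coreMax A (coreChart A x) := by
  constructor
  · intro h
    have hb : (b : F) ∈ V.nonunits := (hρ.ker _).mp h
    obtain ⟨a, ha, f, hf, hbf⟩ := h35a_exists_of_mem_nonunits A x V hV b b.2 hb
    have haB : algebraMap K F a ∈ coreChart A x :=
      h35a_coreAdj_le_coreChart A x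
        (h35a_cst_mem_coreAdj A x (ValuationSubring.nonunits_subset ha))
    have : b = (⟨algebraMap K F a, haB⟩ : coreChart A x) * ⟨f, hf⟩ := Subtype.ext hbf
    rw [this]
    exact Ideal.mul_mem_right _ _ (Ideal.subset_span ⟨a, ha, rfl⟩)
  · intro h
    have hle : coreMax A (coreChart A x) ≤ RingHom.ker (ρ.comp (Subring.inclusion hV.le)) := by
      unfold coreMax
      rw [Ideal.span_le]
      rintro y ⟨a, ha, hy⟩
      obtain ⟨haA, ham⟩ := ValuationSubring.mem_nonunits_iff_exists_mem_maximalIdeal.mp ha
      rw [SetLike.mem_coe, RingHom.mem_ker, RingHom.comp_apply]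
      have h1 : Subring.inclusion hV.le y
          = ⟨algebraMap K F a, (hV.cst_mem_iff a).mpr haA⟩ := Subtype.ext hy
      rw [h1, hρ.cst a haA]
      have h2 : IsLocalRing.residue A ⟨a, haA⟩ = 0 :=
        (IsLocalRing.residue_eq_zero_iff _).mpr ham
      rw [h2, map_zero]
    exact hle h

end Final


/-- **SM-CORE adapter**: the typeclass form `SMCoreT` implies the Subring form `SMCore`. -/
theorem h35a_smCore_of_T (hT : SMCoreT) : SMCore := by
  intro K _ _ _ A p _ _ _ F _ _ x _halg hfin V hV ρ hρ S hS
  classical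
  letI := h35a_alg A x
  haveI := h35a_faithful A x V hV ρ hρ
  haveI := h35a_finite A x hfin
  haveI := h35a_isIntegrallyClosed A x
  have key := hT A K p (coreChart A x) (ρ.comp (Subring.inclusion hV.le))
    (fun b => by
      rw [h35a_coreJ_eq]
      exact h35a_ker A x V hV ρ hρ b)
    (fun a => by
      have h1 : Subring.inclusion hV.le (algebraMap (Polynomial A) (coreChart A x) (C a))
          = ⟨algebraMap K F (a : K), (hV.cst_mem_iff a).mpr a.2⟩ := by
        apply Subtype.ext
        show ((h35a_hom A x (C a) : coreChart A x) : F) = _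
        rw [h35a_hom_coe, h35a_coreEval_C]
      rw [RingHom.comp_apply, h1, hρ.cst (a : K) a.2])
    (by
      obtain ⟨hx, n, hn, hcoef⟩ := hρ.deriv
      refine ⟨n, hn, ?_⟩
      have h1 : Subring.inclusion hV.le (algebraMap (Polynomial A) (coreChart A x) X)
          = ⟨x, hx⟩ := by
        apply Subtype.ext
        show ((h35a_hom A x X : coreChart A x) : F) = _
        rw [h35a_hom_coe, h35a_coreEval_X]
      rw [RingHom.comp_apply, h1]
      exact hcoef)
    (fun c α b hα hmem => by
      rw [Ideal.mem_span_singleton'] at hmem ⊢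
      obtain ⟨b', hb'⟩ := hmem
      have hα0 : (α : K) ≠ 0 := fun h => hα (Subtype.ext h)
      have heq : algebraMap K F (α : K) * (b : F) = (x - algebraMap K F (c : K)) * (b' : F) := by
        have h1 := congrArg Subtype.val hb'
        have h2 : ((algebraMap (Polynomial A) (coreChart A x) (X - C c) : coreChart A x) : F)
            = x - algebraMap K F (c : K) := by
          show ((h35a_hom A x (X - C c) : coreChart A x) : F) = _
          rw [h35a_hom_coe, map_sub, h35a_coreEval_X, h35a_coreEval_C]
        have h3 : ((algebraMap (Polynomial A) (coreChart A x) (C α) : coreChart A x) : F)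
            = algebraMap K F (α : K) := by
          show ((h35a_hom A x (C α) : coreChart A x) : F) = _
          rw [h35a_hom_coe, h35a_coreEval_C]
        rw [Subring.coe_mul, Subring.coe_mul, h2, h3] at h1
        rw [← h1, mul_comm]
      obtain ⟨f, hf, hbf⟩ := h35a_tf A x V hV ρ hρ c c.2 α α.2 hα0 b b' b.2 b'.2 heq
      refine ⟨⟨f, hf⟩, ?_⟩
      apply Subtype.ext
      have h2 : ((algebraMap (Polynomial A) (coreChart A x) (X - C c) : coreChart A x) : F)
          = x - algebraMap K F (c : K) := by
        show ((h35a_hom A x (X - C c) : coreChart A x) : F) = _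
        rw [h35a_hom_coe, map_sub, h35a_coreEval_X, h35a_coreEval_C]
      rw [Subring.coe_mul, h2, hbf, mul_comm])
    (S.subtype (fun c => c ∈ A))
    (fun c hc c' hc' hcc => by
      rw [Finset.mem_subtype] at hc hc'
      apply Subtype.ext
      refine hS.incong _ hc _ hc' ?_
      have : ((c - c' : A) : K) ∈ A.nonunits := ValuationSubring.coe_mem_nonunits_iff.mpr hcc
      exact this)
    (fun c hc φ hφ y z w hy hz hw => by
      rw [Finset.mem_subtype] at hc
      exact h35a_unram A x S hS c hc φ hφ y z w hy hz hw)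
  rw [h35a_coreJ_eq] at key
  exact key

end Fermat.Agent.Red.SM
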