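import Mathlib

/-!
# P-RED / SM-TRANSFER-B: comparison of the discriminant of a local basis with the discriminant
of a basis

Mathlib-only.  `R₀` a commutative ring (`K[X]` in the application), `C` an `R₀`-algebra which is
free with basis `f`, `e` a family of `C` with `s • C ⊆ span e`.  Then
`discr e = T ^ 2 * discr f` with `T ∣ s ^ n`.  Over `K[X]`: the root multiplicities of `discr e`
and `discr f` agree at every `c` with `s(c) ≠ 0`.
-/

set_option autoImplicit false
set_option linter.style.haveILetI false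
set_option linter.unusedSectionVars false
set_option linter.unusedVariables false

open Polynomial

namespace Fermat.Agent.Red.SM.TransferB

section Abstract

variable {R₀ C ι : Type*} [CommRing R₀] [CommRing C] [Algebra R₀ C] [Fintype ι] [DecidableEq ι]

/-- **TRANSFER-B**, abstract form. -/
theorem h53_discr_eq_sq_mul (f : Module.Basis ι R₀ C) (e : ι → C) (s : R₀)
    (hs : ∀ b : C, ∃ c : ι → R₀, s • b = ∑ i, c i • e i) :
    ∃ T : R₀, T ∣ s ^ Fintype.card ι ∧ Algebra.discr R₀ e = T ^ 2 * Algebra.discr R₀ f := by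
  classical
  -- `e j = ∑ i, P i j • f i`
  let P : Matrix ι ι R₀ := Matrix.of fun i j => f.repr (e j) i
  -- `s • f i = ∑ j, U j i • e j`
  choose U hU using fun i => hs (f i)
  let Q : Matrix ι ι R₀ := Matrix.of fun j i => U i j
  have he : ∀ j, e j = ∑ i, P i j • f i := fun j => by
    simp only [P, Matrix.of_apply]
    exact (f.sum_repr (e j)).symm
  -- `P * Q = s • 1`
  have hPQ : P * Q = s • (1 : Matrix ι ι R₀) := by
    ext i k
    have h1 : s • f k = ∑ i, (∑ j, P i j * Q j k) • f i := by
      rw [hU k]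
      simp_rw [he, Finset.smul_sum, smul_smul, Finset.sum_smul]
      rw [Finset.sum_comm]
      refine Finset.sum_congr rfl fun i _ => Finset.sum_congr rfl fun j _ => ?_
      simp only [Q, Matrix.of_apply]
      rw [mul_comm]
    have h2 := congrArg (fun z => f.repr z i) h1
    simp only [map_smul, Module.Basis.repr_self, Finsupp.smul_apply, smul_eq_mul,
      Module.Basis.repr_sum_self] at h2
    rw [Matrix.mul_apply, ← h2, Matrix.smul_apply, Matrix.one_apply, Finsupp.single_apply]
    simp only [smul_eq_mul, mul_ite, mul_one, mul_zero]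
    by_cases h : i = k
    · simp [h]
    · simp [h, Ne.symm h]
  refine ⟨P.det, ⟨Q.det, ?_⟩, ?_⟩
  · rw [← Matrix.det_mul, hPQ, Matrix.det_smul, Matrix.det_one, mul_one]
  · rw [← Algebra.discr_of_matrix_vecMul]
    congr 1
    funext j
    rw [he j]
    simp only [Matrix.vecMul, dotProduct, Matrix.map_apply]
    refine Finset.sum_congr rfl fun i _ => ?_
    rw [Algebra.smul_def, mul_comm]

end Abstract

section Poly

variable {K C ι : Type*} [Field K] [CommRing C] [Algebra K[X] C] [Fintype ι] [DecidableEq ι]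

/-- **TRANSFER-B** over `K[X]`: root multiplicities agree where `s` does not vanish. -/
theorem h53_rootMultiplicity_discr_eq (f : Module.Basis ι K[X] C) (e : ι → C) (s : K[X])
    (hs : ∀ b : C, ∃ c : ι → K[X], s • b = ∑ i, c i • e i)
    (hf : Algebra.discr K[X] f ≠ 0) (c : K) (hc : s.eval c ≠ 0) :
    (Algebra.discr K[X] e).rootMultiplicity c = (Algebra.discr K[X] f).rootMultiplicity c := by
  obtain ⟨T, hT, hdisc⟩ := h53_discr_eq_sq_mul f e s hs
  have hTc : T.eval c ≠ 0 := by
    intro h
    have h1 : T.eval c ∣ (s ^ Fintype.card ι).eval c := Polynomial.eval_dvd hT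
    rw [h, zero_dvd_iff, eval_pow] at h1
    exact hc (eq_zero_of_pow_eq_zero h1)
  have hT0 : T ≠ 0 := fun h => hTc (by rw [h, eval_zero])
  have hTr : (T ^ 2).rootMultiplicity c = 0 :=
    rootMultiplicity_eq_zero (by rw [IsRoot.def, eval_pow]; exact pow_ne_zero 2 hTc)
  rw [hdisc, rootMultiplicity_mul (mul_ne_zero (pow_ne_zero 2 hT0) hf), hTr, zero_add]

/-- the same with a scalar factor `s ^ m` (the shape of `D` in TRANSFER-A). -/
theorem h53_rootMultiplicity_eq_of_eq (f : Module.Basis ι K[X] C) (e : ι → C) (s : K[X])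
    (hs : ∀ b : C, ∃ c : ι → K[X], s • b = ∑ i, c i • e i)
    (hf : Algebra.discr K[X] f ≠ 0) (D : K[X]) (m : ℕ)
    (hD : D = s ^ m * Algebra.discr K[X] e) (c : K) (hc : s.eval c ≠ 0) :
    D.rootMultiplicity c = (Algebra.discr K[X] f).rootMultiplicity c := by
  obtain ⟨T, hT, hdisc⟩ := h53_discr_eq_sq_mul f e s hs
  have hs0 : s ≠ 0 := fun h => hc (by rw [h, eval_zero])
  have hT0 : T ≠ 0 := by
    intro h
    rw [h] at hT
    have := eq_zero_of_zero_dvd hT
    exact pow_ne_zero _ hs0 this
  have he0 : Algebra.discr K[X] e ≠ 0 := by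
    rw [hdisc]; exact mul_ne_zero (pow_ne_zero 2 hT0) hf
  have hsr : (s ^ m).rootMultiplicity c = 0 :=
    rootMultiplicity_eq_zero (by rw [IsRoot.def, eval_pow]; exact pow_ne_zero m hc)
  rw [hD, rootMultiplicity_mul (mul_ne_zero (pow_ne_zero m hs0) he0), hsr, zero_add]
  exact h53_rootMultiplicity_discr_eq f e s hs hf c hc

end Poly

end Fermat.Agent.Red.SM.TransferB
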