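import Mathlib
import Fermat.Agent.Red.SM.TransferA
import Fermat.Agent.Red.SM.TransferB

/-!
# P-RED / R-SM / SM-CORE (G-B) (helper60): the generic fibre `B_K`

Setting of `Red/SM/CoreT.lean`: `A` a domain with fraction field `K`, `B` a domain which is an
`A[X]`-algebra (faithful, finite).

* `h60gen_M A : Submonoid A[X]` : the nonzero constants; `h60gen_BK A B` : the localisation of
  `B` at the image of `h60gen_M A` (a model of `K ⊗_A B`), with instances
  `CommRing`, `Algebra B`, `Algebra A[X]`, `Algebra K[X]`, `Algebra K`, the scalar towers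
  `A[X] → B → B_K`, `A[X] → K[X] → B_K`, `K → K[X] → B_K`, `IsLocalization`,
  `IsDomain`, `IsIntegrallyClosed`, `Module.Finite K[X]`, `FaithfulSMul K[X]`, `Module.Free K[X]`,
  `IsDedekindDomain`.
* `h60gen_span`, `h60gen_discr_eq` : for `h53_TransferData K₀ K₁ I n e s D` (TRANSFER-A):
  `s • B_K ⊆ span_{K[X]} e` and `D = s ^ n * discr_{K[X]} e` in `K[X]`.
* `h60gen_card_eq`, `h60gen_exists_basis` : every `K[X]`-basis of `B_K` has `n` elements.
* `h60gen_discr_ne_zero` : its discriminant is nonzero (characteristic `0`).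
* `h60gen_rootMultiplicity_eq` : **(G-B)**, for `c : A`,
  `ord_c D = ord_c discr_{K[X]} f` for every `K[X]`-basis `f` of `B_K`.

The algebra `A[X] → K[X]` is `Polynomial.algebra` (`algebraMap = Polynomial.mapRingHom`).
-/

set_option autoImplicit false
set_option linter.style.haveILetI false
set_option linter.unusedSectionVars false
set_option linter.unusedVariables false

open Polynomial Module
open scoped nonZeroDivisors

noncomputable section

namespace Fermat.Agent.Red.SM

attribute [local instance] Polynomial.algebra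

section Defs

variable (A : Type*) [CommRing A] (B : Type*) [CommRing B] [Algebra A[X] B]

/-- the nonzero constants of `A[X]`. -/
def h60gen_M : Submonoid A[X] := (nonZeroDivisors A).map (Polynomial.C : A →+* A[X])

/-- the generic fibre `B_K = K ⊗_A B`: the localisation of `B` at the nonzero constants. -/
def h60gen_BK : Type _ := Localization (Algebra.algebraMapSubmonoid B (h60gen_M A))

instance h60gen_commRing : CommRing (h60gen_BK A B) :=
  inferInstanceAs (CommRing (Localization (Algebra.algebraMapSubmonoid B (h60gen_M A))))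

instance h60gen_algebraB : Algebra B (h60gen_BK A B) :=
  inferInstanceAs (Algebra B (Localization (Algebra.algebraMapSubmonoid B (h60gen_M A))))

instance h60gen_isLocalization :
    IsLocalization (Algebra.algebraMapSubmonoid B (h60gen_M A)) (h60gen_BK A B) :=
  inferInstanceAs (IsLocalization (Algebra.algebraMapSubmonoid B (h60gen_M A))
    (Localization (Algebra.algebraMapSubmonoid B (h60gen_M A))))

instance h60gen_algebraAX : Algebra A[X] (h60gen_BK A B) :=
  inferInstanceAs (Algebra A[X] (Localization (Algebra.algebraMapSubmonoid B (h60gen_M A))))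

instance h60gen_towerAXB : IsScalarTower A[X] B (h60gen_BK A B) :=
  inferInstanceAs (IsScalarTower A[X] B
    (Localization (Algebra.algebraMapSubmonoid B (h60gen_M A))))

variable (K : Type*) [Field K] [Algebra A K] [IsFractionRing A K]

theorem h60gen_isLocalizationKX : IsLocalization (h60gen_M A) K[X] :=
  Polynomial.isLocalization (nonZeroDivisors A) K

instance h60gen_algebraKX : Algebra K[X] (h60gen_BK A B) :=
  haveI := h60gen_isLocalizationKX A K
  localizationAlgebra (h60gen_M A) B

instance h60gen_towerAXKX : IsScalarTower A[X] K[X] (h60gen_BK A B) :=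
  haveI := h60gen_isLocalizationKX A K
  isScalarTower_localizationAlgebra (h60gen_M A) B

instance h60gen_algebraK : Algebra K (h60gen_BK A B) :=
  ((algebraMap K[X] (h60gen_BK A B)).comp (Polynomial.C : K →+* K[X])).toAlgebra

instance h60gen_towerKKX : IsScalarTower K K[X] (h60gen_BK A B) :=
  IsScalarTower.of_algebraMap_eq' rfl

end Defs

section Props

variable (A : Type*) [CommRing A] [IsDomain A] (B : Type*) [CommRing B] [IsDomain B]
  [Algebra A[X] B] [FaithfulSMul A[X] B]
  (K : Type*) [Field K] [Algebra A K] [IsFractionRing A K]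

theorem h60gen_M_le : h60gen_M A ≤ nonZeroDivisors A[X] := by
  rintro _ ⟨a, ha, rfl⟩
  rw [mem_nonZeroDivisors_iff_ne_zero]
  intro h
  have h0 : a = 0 := Polynomial.C_eq_zero.1 h
  exact (mem_nonZeroDivisors_iff_ne_zero.1 ha) h0

theorem h60gen_MB_le : Algebra.algebraMapSubmonoid B (h60gen_M A) ≤ nonZeroDivisors B := by
  rintro _ ⟨q, hq, rfl⟩
  rw [mem_nonZeroDivisors_iff_ne_zero]
  intro h
  have h0 : q = 0 := FaithfulSMul.algebraMap_injective A[X] B (by rw [h, map_zero])
  exact (mem_nonZeroDivisors_iff_ne_zero.1 (h60gen_M_le A hq)) h0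

instance h60gen_isDomain : IsDomain (h60gen_BK A B) :=
  IsLocalization.isDomain_of_le_nonZeroDivisors (h60gen_BK A B) (h60gen_MB_le A B)

theorem h60gen_algebraMapB_injective : Function.Injective (algebraMap B (h60gen_BK A B)) :=
  IsLocalization.injective (h60gen_BK A B) (h60gen_MB_le A B)

instance h60gen_isIntegrallyClosed [IsIntegrallyClosed B] :
    IsIntegrallyClosed (h60gen_BK A B) :=
  isIntegrallyClosed_of_isLocalization (h60gen_BK A B)
    (Algebra.algebraMapSubmonoid B (h60gen_M A)) (h60gen_MB_le A B)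

instance h60gen_finite [Module.Finite A[X] B] : Module.Finite K[X] (h60gen_BK A B) :=
  haveI := h60gen_isLocalizationKX A K
  Module.Finite.of_isLocalization A[X] B (h60gen_M A)

theorem h60gen_algebraMapKX_injective :
    Function.Injective (algebraMap K[X] (h60gen_BK A B)) :=
  haveI := h60gen_isLocalizationKX A K
  localizationAlgebra_injective K[X] (h60gen_BK A B)
    (FaithfulSMul.algebraMap_injective A[X] B)

instance h60gen_faithfulSMul : FaithfulSMul K[X] (h60gen_BK A B) :=
  (faithfulSMul_iff_algebraMap_injective K[X] (h60gen_BK A B)).2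
    (h60gen_algebraMapKX_injective A B K)

instance h60gen_isDedekindDomain [Module.Finite A[X] B] [IsIntegrallyClosed B] :
    IsDedekindDomain (h60gen_BK A B) := by
  haveI : Algebra.IsIntegral (FractionRing A)[X] (h60gen_BK A B) := inferInstance
  haveI : IsNoetherianRing (h60gen_BK A B) :=
    isNoetherian_of_tower (FractionRing A)[X]
      (isNoetherian_of_isNoetherianRing_of_finite (FractionRing A)[X] (h60gen_BK A B))
  haveI : Ring.DimensionLEOne (h60gen_BK A B) :=
    Ring.DimensionLEOne.of_isIntegral (FractionRing A)[X] (h60gen_BK A B)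
  exact { }

instance h60gen_free [Module.Finite A[X] B] : Module.Free K[X] (h60gen_BK A B) :=
  haveI : Module.IsTorsionFree K[X] (h60gen_BK A B) :=
    isTorsionFree_iff_algebraMap_injective.2 (h60gen_algebraMapKX_injective A B K)
  Module.free_of_finite_type_torsion_free'

end Props

section Frac

variable (A : Type*) [CommRing A] [IsDomain A] (B : Type*) [CommRing B] [IsDomain B]
  [Algebra A[X] B] [FaithfulSMul A[X] B]
  (K : Type*) [Field K] [Algebra A K] [IsFractionRing A K]
  (K₀ K₁ : Type*) [Field K₀] [Field K₁] [Algebra A[X] K₀] [IsFractionRing A[X] K₀]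
  [Algebra B K₁] [IsFractionRing B K₁] [Algebra K₀ K₁] [Algebra A[X] K₁]
  [IsScalarTower A[X] K₀ K₁] [IsScalarTower A[X] B K₁]

/-- `K[X] → K₀ = Frac A[X]`. -/
@[reducible] def h60gen_algKXK₀ : Algebra K[X] K₀ :=
  haveI := h60gen_isLocalizationKX A K
  IsLocalization.localizationAlgebraOfSubmonoidLe K[X] K₀ (h60gen_M A) (nonZeroDivisors A[X])
    (h60gen_M_le A)

/-- `B_K → K₁ = Frac B`. -/
@[reducible] def h60gen_algBKK₁ : Algebra (h60gen_BK A B) K₁ :=
  IsLocalization.localizationAlgebraOfSubmonoidLe (h60gen_BK A B) K₁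
    (Algebra.algebraMapSubmonoid B (h60gen_M A)) (nonZeroDivisors B) (h60gen_MB_le A B)

theorem h60gen_towerAXKXK₀ :
    letI := h60gen_algKXK₀ A K K₀
    IsScalarTower A[X] K[X] K₀ :=
  haveI := h60gen_isLocalizationKX A K
  IsLocalization.localization_isScalarTower_of_submonoid_le K[X] K₀ (h60gen_M A)
    (nonZeroDivisors A[X]) (h60gen_M_le A)

theorem h60gen_isFractionRingKX :
    letI := h60gen_algKXK₀ A K K₀
    IsFractionRing K[X] K₀ :=
  letI := h60gen_algKXK₀ A K K₀
  haveI := h60gen_isLocalizationKX A K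
  haveI := h60gen_towerAXKXK₀ A K K₀
  IsFractionRing.isFractionRing_of_isDomain_of_isLocalization (h60gen_M A) K[X] K₀

theorem h60gen_towerBBKK₁ :
    letI := h60gen_algBKK₁ A B K₁
    IsScalarTower B (h60gen_BK A B) K₁ :=
  IsLocalization.localization_isScalarTower_of_submonoid_le (h60gen_BK A B) K₁
    (Algebra.algebraMapSubmonoid B (h60gen_M A)) (nonZeroDivisors B) (h60gen_MB_le A B)

theorem h60gen_isFractionRingBK :
    letI := h60gen_algBKK₁ A B K₁
    IsFractionRing (h60gen_BK A B) K₁ :=
  letI := h60gen_algBKK₁ A B K₁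
  haveI := h60gen_towerBBKK₁ A B K₁
  IsFractionRing.isFractionRing_of_isDomain_of_isLocalization
    (Algebra.algebraMapSubmonoid B (h60gen_M A)) (h60gen_BK A B) K₁

/-- `K[X] → K₁`, through `K₀`. -/
@[reducible] def h60gen_algKXK₁ : Algebra K[X] K₁ :=
  letI := h60gen_algKXK₀ A K K₀
  ((algebraMap K₀ K₁).comp (algebraMap K[X] K₀)).toAlgebra

theorem h60gen_towerKXK₀K₁ :
    letI := h60gen_algKXK₀ A K K₀
    letI := h60gen_algKXK₁ A K K₀ K₁
    IsScalarTower K[X] K₀ K₁ :=
  letI := h60gen_algKXK₀ A K K₀
  letI := h60gen_algKXK₁ A K K₀ K₁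
  IsScalarTower.of_algebraMap_eq' rfl

theorem h60gen_towerKXBKK₁ :
    letI := h60gen_algBKK₁ A B K₁
    letI := h60gen_algKXK₁ A K K₀ K₁
    IsScalarTower K[X] (h60gen_BK A B) K₁ := by
  letI := h60gen_algKXK₀ A K K₀
  letI := h60gen_algBKK₁ A B K₁
  letI := h60gen_algKXK₁ A K K₀ K₁
  haveI := h60gen_isLocalizationKX A K
  haveI := h60gen_towerAXKXK₀ A K K₀
  haveI := h60gen_towerBBKK₁ A B K₁
  haveI := h60gen_towerKXK₀K₁ A K K₀ K₁
  refine IsScalarTower.of_algebraMap_eq' ?_
  apply IsLocalization.ringHom_ext (h60gen_M A)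
  refine RingHom.ext fun q => ?_
  simp only [RingHom.comp_apply]
  have h1 : algebraMap K[X] K₁ (algebraMap A[X] K[X] q) = algebraMap A[X] K₁ q := by
    rw [IsScalarTower.algebraMap_apply K[X] K₀ K₁, ← IsScalarTower.algebraMap_apply A[X] K[X] K₀,
      ← IsScalarTower.algebraMap_apply A[X] K₀ K₁]
  have h2 : algebraMap (h60gen_BK A B) K₁ (algebraMap K[X] (h60gen_BK A B)
      (algebraMap A[X] K[X] q)) = algebraMap A[X] K₁ q := by
    rw [← IsScalarTower.algebraMap_apply A[X] K[X] (h60gen_BK A B),
      IsScalarTower.algebraMap_apply A[X] B (h60gen_BK A B),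
      ← IsScalarTower.algebraMap_apply B (h60gen_BK A B) K₁,
      ← IsScalarTower.algebraMap_apply A[X] B K₁]
  rw [h1, h2]

end Frac

section DiscrFrac

variable {R C K₀ K₁ : Type*} [CommRing R] [IsDomain R] [CommRing C] [IsDomain C] [Algebra R C]
  [Module.Free R C] [Module.Finite R C] [FaithfulSMul R C]
  [Field K₀] [Field K₁] [Algebra R K₀] [IsFractionRing R K₀] [Algebra C K₁] [IsFractionRing C K₁]
  [Algebra K₀ K₁] [Algebra R K₁] [IsScalarTower R K₀ K₁] [IsScalarTower R C K₁]
  {ι : Type*} [Fintype ι] [DecidableEq ι]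

/-- the trace of a finite free algebra over a domain is the trace of the extension of fraction
fields. -/
theorem h60gen_trace_frac (y : C) :
    Algebra.trace K₀ K₁ (algebraMap C K₁ y) = algebraMap R K₀ (Algebra.trace R C y) := by
  haveI : Algebra.IsAlgebraic R C := inferInstance
  haveI : IsLocalization (Algebra.algebraMapSubmonoid C (nonZeroDivisors R)) K₁ := inferInstance
  exact Algebra.trace_localization R (nonZeroDivisors R) (Rₘ := K₀) (Sₘ := K₁) y

/-- the discriminant of a family of a finite free algebra over a domain is its discriminant over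
the fraction field. -/
theorem h60gen_discr_frac (e : ι → C) :
    algebraMap R K₀ (Algebra.discr R e) = Algebra.discr K₀ (fun i => algebraMap C K₁ (e i)) := by
  rw [Algebra.discr_def, Algebra.discr_def, RingHom.map_det]
  congr 1
  ext i j
  simp only [RingHom.mapMatrix_apply, Matrix.map_apply, Algebra.traceMatrix_apply,
    Algebra.traceForm_apply]
  rw [← map_mul, h60gen_trace_frac (R := R)]

end DiscrFrac

section Generic

variable {R C : Type*} [CommRing R] [IsDomain R] [CharZero R] [CommRing C] [IsDomain C]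
  [Algebra R C] [FaithfulSMul R C] [Module.Finite R C]
  {ι : Type*} [Fintype ι] [DecidableEq ι]

/-- in characteristic `0`, the discriminant of a basis of a finite free domain is nonzero. -/
theorem h60gen_discr_ne_zero_of_charZero (f : Basis ι R C) : Algebra.discr R f ≠ 0 := by
  haveI : Algebra.IsAlgebraic R C := inferInstance
  haveI : FaithfulSMul R (FractionRing C) := FaithfulSMul.trans R C (FractionRing C)
  letI : Algebra (FractionRing R) (FractionRing C) := FractionRing.liftAlgebra R (FractionRing C)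
  haveI : IsScalarTower R (FractionRing R) (FractionRing C) :=
    FractionRing.isScalarTower_liftAlgebra R (FractionRing C)
  haveI : IsLocalization (Algebra.algebraMapSubmonoid C (nonZeroDivisors R)) (FractionRing C) :=
    inferInstance
  have h1 := Algebra.discr_localizationLocalization R (nonZeroDivisors R) (FractionRing C)
    (Rₘ := FractionRing R) f
  haveI : CharZero (FractionRing R) :=
    charZero_of_injective_algebraMap (IsFractionRing.injective R (FractionRing R))
  haveI : Module.Finite (FractionRing R) (FractionRing C) :=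
    Module.Finite.of_isLocalization R C (nonZeroDivisors R)
  haveI : Algebra.IsSeparable (FractionRing R) (FractionRing C) := inferInstance
  have h2 := Algebra.discr_not_zero_of_basis (FractionRing R)
    (f.localizationLocalization (FractionRing R) (nonZeroDivisors R) (FractionRing C))
  intro h0
  rw [h0, map_zero] at h1
  exact h2 h1

end Generic

section Main

variable (A : Type*) [CommRing A] [IsDomain A] (B : Type*) [CommRing B] [IsDomain B]
  [Algebra A[X] B] [FaithfulSMul A[X] B] [Module.Finite A[X] B]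
  (K : Type*) [Field K] [Algebra A K] [IsFractionRing A K]
  (K₀ K₁ : Type*) [Field K₀] [Field K₁] [Algebra A[X] K₀] [IsFractionRing A[X] K₀]
  [Algebra B K₁] [IsFractionRing B K₁] [Algebra K₀ K₁] [Algebra A[X] K₁]
  [IsScalarTower A[X] K₀ K₁] [IsScalarTower A[X] B K₁]

variable {A B K₀ K₁}
variable {I : Ideal A[X]} {n : ℕ} {e : Fin n → B} {s D : A[X]}

theorem h60gen_algebraMap_smul (q : A[X]) (y : h60gen_BK A B) :
    (q.map (algebraMap A K)) • y = q • y := by
  have : q.map (algebraMap A K) = algebraMap A[X] K[X] q := rfl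
  rw [this, algebraMap_smul]

/-- **SPAN**: `s • B_K ⊆ span_{K[X]} e`. -/
theorem h60gen_span (h : EtAbs.h53_TransferData K₀ K₁ I n e s D) (y : h60gen_BK A B) :
    ∃ c : Fin n → K[X], (s.map (algebraMap A K)) • y =
      ∑ i, c i • algebraMap B (h60gen_BK A B) (e i) := by
  obtain ⟨⟨b, m⟩, hbm⟩ := IsLocalization.surj (Algebra.algebraMapSubmonoid B (h60gen_M A)) y
  obtain ⟨q, hq, hqm⟩ := m.2
  obtain ⟨a, ha, rfl⟩ := hq
  have ha0 : algebraMap A K a ≠ 0 := by
    intro h0
    have : a = 0 := IsFractionRing.injective A K (by rw [h0, map_zero])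
    exact (mem_nonZeroDivisors_iff_ne_zero.1 ha) this
  obtain ⟨c, hc⟩ := h.span b
  refine ⟨fun i => Polynomial.C (algebraMap A K a)⁻¹ * (c i).map (algebraMap A K), ?_⟩
  -- `C a • y = b`
  have h1 : (Polynomial.C a : A[X]) • y = algebraMap B (h60gen_BK A B) b := by
    rw [← hbm, Algebra.smul_def, mul_comm, IsScalarTower.algebraMap_apply A[X] B (h60gen_BK A B)]
    congr 2
  have h2 : s • algebraMap B (h60gen_BK A B) b =
      ∑ i, (c i) • algebraMap B (h60gen_BK A B) (e i) := by
    have := congrArg (algebraMap B (h60gen_BK A B)) hc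
    rw [map_sum] at this
    simp only [Algebra.smul_def, map_mul] at this ⊢
    simp only [← IsScalarTower.algebraMap_apply A[X] B (h60gen_BK A B)] at this
    exact this
  have h3 : (Polynomial.C (algebraMap A K a)⁻¹ : K[X]) • ((Polynomial.C a : A[X]) • y) = y := by
    rw [← h60gen_algebraMap_smul K (Polynomial.C a) y, Polynomial.map_C, smul_smul, ← map_mul,
      inv_mul_cancel₀ ha0, map_one, one_smul]
  calc (s.map (algebraMap A K)) • y
      = (s.map (algebraMap A K)) • ((Polynomial.C (algebraMap A K a)⁻¹ : K[X]) •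
          ((Polynomial.C a : A[X]) • y)) := by rw [h3]
    _ = (Polynomial.C (algebraMap A K a)⁻¹ : K[X]) •
          (s • algebraMap B (h60gen_BK A B) b) := by
        rw [h1, smul_comm, h60gen_algebraMap_smul]
    _ = ∑ i, (Polynomial.C (algebraMap A K a)⁻¹ * (c i).map (algebraMap A K)) •
          algebraMap B (h60gen_BK A B) (e i) := by
        rw [h2, Finset.smul_sum]
        refine Finset.sum_congr rfl fun i _ => ?_
        rw [mul_smul, h60gen_algebraMap_smul]

/-- **DISCRIMINANT**: `D = s ^ n * discr_{K[X]} e` in `K[X]`. -/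
theorem h60gen_discr_eq (h : EtAbs.h53_TransferData K₀ K₁ I n e s D) :
    D.map (algebraMap A K) = (s.map (algebraMap A K)) ^ n *
      Algebra.discr K[X] (fun i => algebraMap B (h60gen_BK A B) (e i)) := by
  letI := h60gen_algKXK₀ A K K₀
  letI := h60gen_algBKK₁ A B K₁
  letI := h60gen_algKXK₁ A K K₀ K₁
  haveI := h60gen_towerAXKXK₀ A K K₀
  haveI := h60gen_isFractionRingKX A K K₀
  haveI := h60gen_towerBBKK₁ A B K₁
  haveI := h60gen_isFractionRingBK A B K₁
  haveI := h60gen_towerKXK₀K₁ A K K₀ K₁
  haveI := h60gen_towerKXBKK₁ A B K K₀ K₁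
  obtain ⟨bE, hbE, hD, -⟩ := h.generic
  apply IsFractionRing.injective K[X] K₀
  have hmap : ∀ q : A[X], algebraMap K[X] K₀ (q.map (algebraMap A K)) = algebraMap A[X] K₀ q := by
    intro q
    have : q.map (algebraMap A K) = algebraMap A[X] K[X] q := rfl
    rw [this, ← IsScalarTower.algebraMap_apply A[X] K[X] K₀]
  rw [map_mul, map_pow, hmap, hmap, hD, h60gen_discr_frac (K₁ := K₁)]
  congr 2
  funext i
  rw [hbE i, ← IsScalarTower.algebraMap_apply B (h60gen_BK A B) K₁]

end Main

section Final

variable (A : Type*) [CommRing A] [IsDomain A] (B : Type*) [CommRing B] [IsDomain B]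
  [Algebra A[X] B] [FaithfulSMul A[X] B] [Module.Finite A[X] B]
  (K : Type*) [Field K] [Algebra A K] [IsFractionRing A K]
  (K₀ K₁ : Type*) [Field K₀] [Field K₁] [Algebra A[X] K₀] [IsFractionRing A[X] K₀]
  [Algebra B K₁] [IsFractionRing B K₁] [Algebra K₀ K₁] [Algebra A[X] K₁]
  [IsScalarTower A[X] K₀ K₁] [IsScalarTower A[X] B K₁]

variable {A B K₀ K₁}
variable {I : Ideal A[X]} {n : ℕ} {e : Fin n → B} {s D : A[X]}
variable {ι : Type*} [Fintype ι] [DecidableEq ι]

/-- every `K[X]`-basis of `B_K` has nonzero discriminant (characteristic `0`). -/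
theorem h60gen_discr_ne_zero [CharZero K] (f : Basis ι K[X] (h60gen_BK A B)) :
    Algebra.discr K[X] f ≠ 0 :=
  h60gen_discr_ne_zero_of_charZero f

/-- **RANK**: every `K[X]`-basis of `B_K` has `n` elements. -/
theorem h60gen_card_eq (h : EtAbs.h53_TransferData K₀ K₁ I n e s D)
    (f : Basis ι K[X] (h60gen_BK A B)) : Fintype.card ι = n := by
  letI := h60gen_algKXK₀ A K K₀
  letI := h60gen_algBKK₁ A B K₁
  letI := h60gen_algKXK₁ A K K₀ K₁
  haveI := h60gen_towerAXKXK₀ A K K₀
  haveI := h60gen_isFractionRingKX A K K₀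
  haveI := h60gen_towerBBKK₁ A B K₁
  haveI := h60gen_isFractionRingBK A B K₁
  haveI := h60gen_towerKXK₀K₁ A K K₀ K₁
  haveI := h60gen_towerKXBKK₁ A B K K₀ K₁
  haveI : Algebra.IsAlgebraic K[X] (h60gen_BK A B) := inferInstance
  haveI : IsLocalization (Algebra.algebraMapSubmonoid (h60gen_BK A B) (nonZeroDivisors K[X])) K₁ :=
    inferInstance
  obtain ⟨bE, -, -, -⟩ := h.generic
  have h1 := Module.finrank_eq_card_basis
    (f.localizationLocalization K₀ (nonZeroDivisors K[X]) K₁)
  have h2 := Module.finrank_eq_card_basis bE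
  rw [Fintype.card_fin] at h2
  omega

/-- **BASIS**: `B_K` has a `K[X]`-basis indexed by `Fin n`. -/
theorem h60gen_exists_basis (h : EtAbs.h53_TransferData K₀ K₁ I n e s D) :
    Nonempty (Basis (Fin n) K[X] (h60gen_BK A B)) := by
  classical
  let f₀ := Module.Free.chooseBasis K[X] (h60gen_BK A B)
  haveI : Fintype (Module.Free.ChooseBasisIndex K[X] (h60gen_BK A B)) :=
    Module.Free.ChooseBasisIndex.fintype K[X] (h60gen_BK A B)
  have hcard := h60gen_card_eq K h f₀
  exact ⟨f₀.reindex (Fintype.equivFinOfCardEq hcard)⟩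

/-- the value at a constant of a polynomial congruent to `1` modulo `𝔪_A` is not zero. -/
theorem h60gen_eval_ne_zero [IsLocalRing A] {s : A[X]}
    (hs : s - 1 ∈ (IsLocalRing.maximalIdeal A).map (Polynomial.C : A →+* A[X])) (c : A) :
    (s.map (algebraMap A K)).eval (algebraMap A K c) ≠ 0 := by
  rw [Polynomial.eval_map, Polynomial.eval₂_at_apply]
  have h1 : (s - 1).eval c ∈ IsLocalRing.maximalIdeal A := by
    have hcoeff : ∀ i, (s - 1).coeff i ∈ IsLocalRing.maximalIdeal A :=
      Ideal.mem_map_C_iff.1 hs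
    rw [Polynomial.eval_eq_sum_range]
    exact Ideal.sum_mem _ fun i _ => Ideal.mul_mem_right _ _ (hcoeff i)
  have h2 : IsUnit (s.eval c) := by
    by_contra hu
    have h3 : s.eval c ∈ IsLocalRing.maximalIdeal A := (IsLocalRing.mem_maximalIdeal _).2 hu
    have h4 : (1 : A) ∈ IsLocalRing.maximalIdeal A := by
      have := Ideal.sub_mem _ h3 h1
      simp at this
    exact (IsLocalRing.maximalIdeal.isMaximal A).ne_top ((Ideal.eq_top_iff_one _).2 h4)
  intro h0
  have : s.eval c = 0 := IsFractionRing.injective A K (by rw [h0, map_zero])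
  rw [this] at h2
  exact not_isUnit_zero h2

/-- **(G-B)**: the root multiplicities of `D` and of the discriminant of a `K[X]`-basis of `B_K`
agree at every constant `c ∈ A`. -/
theorem h60gen_rootMultiplicity_eq [IsLocalRing A] [CharZero K]
    (hI : I ≤ (IsLocalRing.maximalIdeal A).map (Polynomial.C : A →+* A[X]))
    (h : EtAbs.h53_TransferData K₀ K₁ I n e s D)
    (f : Basis (Fin n) K[X] (h60gen_BK A B)) (c : A) :
    (D.map (algebraMap A K)).rootMultiplicity (algebraMap A K c) =
      (Algebra.discr K[X] f).rootMultiplicity (algebraMap A K c) :=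
  TransferB.h53_rootMultiplicity_eq_of_eq f
    (fun i => algebraMap B (h60gen_BK A B) (e i)) (s.map (algebraMap A K))
    (h60gen_span K h) (h60gen_discr_ne_zero K f) (D.map (algebraMap A K)) n
    (h60gen_discr_eq K h) (algebraMap A K c) (h60gen_eval_ne_zero K (hI h.s_sub_one) c)

/-- **(G-B)** for the ideal `I = 𝔪_A A[X]` of `h53_transfer_A_val`. -/
theorem h60gen_rootMultiplicity_eq_val [IsLocalRing A] [CharZero K]
    (h : EtAbs.h53_TransferData K₀ K₁
      ((IsLocalRing.maximalIdeal A).map (algebraMap A A[X])) n e s D)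
    (f : Basis (Fin n) K[X] (h60gen_BK A B)) (c : A) :
    (D.map (algebraMap A K)).rootMultiplicity (algebraMap A K c) =
      (Algebra.discr K[X] f).rootMultiplicity (algebraMap A K c) :=
  h60gen_rootMultiplicity_eq K le_rfl h f c

end Final

end Fermat.Agent.Red.SM
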