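import Mathlib
import Fermat.Agent.Red.SM.CoreGen

/-!
# P-RED / R-SM / SM-CORE (G-B), complements (helper60)

The generic fibre `h60gen_BK A B` of `Red/SM/CoreGen.lean` in the packaging-independent form
`(i, h1, h2, h3)` of `Red/SM/CorePts.lean`, and the linear independence of the lifted basis.

* `h60gen_i A B : B →+* h60gen_BK A B` (`= algebraMap B (h60gen_BK A B)`);
* `h60gen_h1` : the square with `A[X] → K[X]`;
* `h60gen_h2` : denominators in `A`;
* `h60gen_h3` : injectivity;
* `h60gen_linearIndependent` : an `A[X]`-linearly independent family of `B` is `K[X]`-linearly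
  independent in `B_K`.
-/

set_option autoImplicit false
set_option linter.style.haveILetI false
set_option linter.unusedSectionVars false
set_option linter.unusedVariables false

open Polynomial Module
open scoped nonZeroDivisors

noncomputable section

namespace Fermat.Agent.Red.SM

attribute [local instance] Polynomial.algebra

section Aux

variable (A : Type*) [CommRing A] [IsDomain A] (B : Type*) [CommRing B] [IsDomain B]
  [Algebra A[X] B] [FaithfulSMul A[X] B]
  (K : Type*) [Field K] [Algebra A K] [IsFractionRing A K]

/-- the canonical map `B → B_K`. -/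
def h60gen_i : B →+* h60gen_BK A B := algebraMap B (h60gen_BK A B)

theorem h60gen_i_apply (b : B) : h60gen_i A B b = algebraMap B (h60gen_BK A B) b := rfl

/-- **(h1)** the square `A[X] → B → B_K`, `A[X] → K[X] → B_K` commutes. -/
theorem h60gen_h1 (q : A[X]) :
    h60gen_i A B (algebraMap A[X] B q) =
      algebraMap K[X] (h60gen_BK A B) (q.map (algebraMap A K)) := by
  have h : q.map (algebraMap A K) = algebraMap A[X] K[X] q := rfl
  rw [h, h60gen_i_apply, ← IsScalarTower.algebraMap_apply A[X] B (h60gen_BK A B),
    ← IsScalarTower.algebraMap_apply A[X] K[X] (h60gen_BK A B)]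

/-- **(h2)** every element of `B_K` has a denominator in `A`. -/
theorem h60gen_h2 (z : h60gen_BK A B) :
    ∃ a : A, a ≠ 0 ∧ ∃ b : B,
      algebraMap K[X] (h60gen_BK A B) (Polynomial.C (algebraMap A K a)) * z = h60gen_i A B b := by
  obtain ⟨⟨b, m⟩, hbm⟩ := IsLocalization.surj (Algebra.algebraMapSubmonoid B (h60gen_M A)) z
  obtain ⟨q, hq, hqm⟩ := m.2
  obtain ⟨a, ha, rfl⟩ := hq
  refine ⟨a, mem_nonZeroDivisors_iff_ne_zero.1 ha, b, ?_⟩
  have h1 := h60gen_h1 A B K (Polynomial.C a)
  rw [Polynomial.map_C] at h1
  rw [← h1, h60gen_i_apply, h60gen_i_apply, mul_comm, ← hbm]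
  congr 2

/-- **(h3)** `B → B_K` is injective. -/
theorem h60gen_h3 : Function.Injective (h60gen_i A B) :=
  h60gen_algebraMapB_injective A B

variable {A B}

/-- an `A[X]`-linearly independent family of `B` is `K[X]`-linearly independent in `B_K`. -/
theorem h60gen_linearIndependent {ι : Type*} {e : ι → B} (he : LinearIndependent A[X] e) :
    LinearIndependent K[X] (fun j => h60gen_i A B (e j)) := by
  haveI := h60gen_isLocalizationKX A K
  exact LinearIndependent.localization_localization (Rₛ := K[X]) (h60gen_M A)
    (h60gen_BK A B) he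

end Aux

end Fermat.Agent.Red.SM
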