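import Mathlib
import Fermat.Agent.Red.SM.TransferA

/-!
# P-RED / R-SM, SM-CORE glue: the discriminant identification on the generic fibre (helper53)

Mathlib + `Red/SM/TransferA.lean`.  The generic fibre `BK` is ABSTRACT: any commutative ring
`BK` with `[Algebra K[X] BK]` and a ring homomorphism `i : B →+* BK` such that

* `(h1)` `i (algebraMap A[X] B q) = algebraMap K[X] BK (q.map (algebraMap A K))`,
* `(h2)` every `z : BK` has a denominator in `A`,
* `(h3)` `i` is injective

(the packaging of `Red/SM/CorePts.lean`).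

* `h53g_smul_trace` : the trace computed in a local basis: if `e` is linearly independent,
  `s • C ⊆ span e` and `s • (y * e j) = ∑ i, N i j • e i`, then `s * Tr y = tr N`
  (`C` free of finite rank over an arbitrary commutative ring).
* `h53g_tau` : the map `τ` of `h53_TransferData` is the trace of the matrix of coordinates.
* `h53g_linearIndependent`, `h53g_span` : `i ∘ e` is linearly independent over `K[X]` and
  `s_K • BK ⊆ span (i ∘ e)`.
* `h53g_discr` : `D.map (algebraMap A K) = (s.map (algebraMap A K)) ^ n * discr K[X] (i ∘ e)`.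
-/

set_option autoImplicit false
set_option linter.style.haveILetI false
set_option linter.unusedSectionVars false
set_option linter.unusedVariables false

open Polynomial

noncomputable section

namespace Fermat.Agent.Red.SM.Gen53

open Fermat.Agent.Red.SM.EtAbs

section Trace

variable {R₀ C ι κ : Type*} [CommRing R₀] [CommRing C] [Algebra R₀ C] [Fintype ι]
  [DecidableEq ι] [Fintype κ] [DecidableEq κ]

/-- **The trace in a local basis.** -/
theorem h53g_smul_trace (f : Module.Basis ι R₀ C) (e : κ → C) (hli : LinearIndependent R₀ e)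
    (s : R₀) (hs : ∀ b : C, ∃ c : κ → R₀, s • b = ∑ i, c i • e i)
    (y : C) (N : Matrix κ κ R₀) (hN : ∀ j, s • (y * e j) = ∑ i, N i j • e i) :
    s * Algebra.trace R₀ C y = N.trace := by
  classical
  haveI : Module.Free R₀ C := Module.Free.of_basis f
  haveI : Module.Finite R₀ C := Module.Finite.of_basis f
  let g : (κ → R₀) →ₗ[R₀] C := Fintype.linearCombination R₀ e
  have hg : ∀ c : κ → R₀, g c = ∑ i, c i • e i := fun c =>
    Fintype.linearCombination_apply R₀ e c
  have hginj : Function.Injective g := by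
    rw [injective_iff_map_eq_zero]
    intro c hc
    rw [hg] at hc
    funext i
    exact Fintype.linearIndependent_iff.1 hli c hc i
  choose U hU using fun i => hs (f i)
  let h : C →ₗ[R₀] (κ → R₀) := f.constr R₀ U
  have hgh : g ∘ₗ h = s • LinearMap.id := by
    apply f.ext
    intro i
    simp only [LinearMap.comp_apply, h, Module.Basis.constr_basis, hg, LinearMap.smul_apply,
      LinearMap.id_apply]
    exact (hU i).symm
  have hgh' : ∀ x : C, g (h x) = s • x := fun x => by
    have := LinearMap.congr_fun hgh x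
    simpa using this
  let L : C →ₗ[R₀] C := Algebra.lmul R₀ C y
  have hL : ∀ x : C, L x = y * x := fun x => rfl
  let T : (κ → R₀) →ₗ[R₀] (κ → R₀) := h ∘ₗ (L ∘ₗ g)
  have hT : LinearMap.trace R₀ _ T = N.trace := by
    rw [LinearMap.trace_eq_matrix_trace R₀ (Pi.basisFun R₀ κ)]
    congr 1
    ext i j
    rw [LinearMap.toMatrix_apply]
    simp only [Pi.basisFun_apply, Pi.basisFun_repr]
    have h5 : T (Pi.single j 1) = fun i => N i j := by
      apply hginj
      simp only [T, LinearMap.comp_apply, hgh', hL]
      rw [hg (Pi.single j 1), hg (fun i => N i j), ← hN j]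
      congr 1
      rw [Finset.sum_eq_single j]
      · simp
      · intro b _ hb
        simp [hb]
      · intro hj
        exact absurd (Finset.mem_univ j) hj
    rw [h5]
  rw [← hT]
  calc s * Algebra.trace R₀ C y = s * LinearMap.trace R₀ C L := by rw [Algebra.trace_apply]
    _ = LinearMap.trace R₀ C (s • L) := by rw [map_smul, smul_eq_mul]
    _ = LinearMap.trace R₀ C ((L ∘ₗ g) ∘ₗ h) := by
        congr 1
        rw [LinearMap.comp_assoc, hgh]
        ext x
        simp
    _ = LinearMap.trace R₀ _ T := (LinearMap.trace_comp_comm' (L ∘ₗ g) h).symm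

end Trace

section Tau

variable {R B : Type*} [CommRing R] [IsDomain R] [CommRing B] [IsDomain B] [Algebra R B]
  [FaithfulSMul R B] [Module.Finite R B]
  (K₀ K₁ : Type*) [Field K₀] [Field K₁] [Algebra R K₀] [IsFractionRing R K₀]
  [Algebra B K₁] [IsFractionRing B K₁] [Algebra K₀ K₁] [Algebra R K₁]
  [IsScalarTower R K₀ K₁] [IsScalarTower R B K₁]

/-- the map `τ` of TRANSFER-A is the trace of the matrix of coordinates in `e`. -/
theorem h53g_tau {I : Ideal R} {n : ℕ} {e : Fin n → B} {s D : R}
    (hTD : h53_TransferData K₀ K₁ I n e s D) :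
    ∃ τ : B → R,
      (∀ (b : B) (N : Matrix (Fin n) (Fin n) R),
        (∀ j, s • (b * e j) = ∑ i, N i j • e i) → τ b = N.trace) ∧
      D = Matrix.det (Matrix.of fun i j => τ (e i * e j)) := by
  classical
  obtain ⟨τ, hτ1, -, hD⟩ := hTD.trace
  obtain ⟨bE, hbE, -, -⟩ := hTD.generic
  refine ⟨τ, fun b N hN => ?_, hD⟩
  apply IsFractionRing.injective R K₀
  rw [hτ1, Algebra.trace_eq_matrix_trace bE, Matrix.trace, Matrix.trace, map_sum,
    Finset.mul_sum]
  refine Finset.sum_congr rfl fun j _ => ?_
  rw [Matrix.diag_apply, Matrix.diag_apply, Algebra.leftMulMatrix_eq_repr_mul, hbE j,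
    ← map_mul]
  exact h53_repr_generic K₀ K₁ bE e hbE s (b * e j) (fun i => N i j) (hN j) j

end Tau

section BK

variable {K : Type*} [Field K] {A : Type*} [CommRing A] [IsDomain A] [Algebra A K]
  [IsFractionRing A K]
  {B : Type*} [CommRing B] [Algebra A[X] B]
  {BK : Type*} [CommRing BK] [Algebra K[X] BK]
  (i : B →+* BK)
  (h1 : ∀ q : A[X], i (algebraMap A[X] B q) = algebraMap K[X] BK (q.map (algebraMap A K)))
  (h2 : ∀ z : BK, ∃ a : A, a ≠ 0 ∧ ∃ b : B,
    algebraMap K[X] BK (C (algebraMap A K a)) * z = i b)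
  (h3 : Function.Injective i)

include h1 in
theorem h53g_map_smul (q : A[X]) (b : B) : i (q • b) = q.map (algebraMap A K) • i b := by
  rw [Algebra.smul_def, map_mul, h1, ← Algebra.smul_def]

include h1 in
theorem h53g_map_sum_smul {n : ℕ} (c : Fin n → A[X]) (e : Fin n → B) :
    i (∑ j, c j • e j) = ∑ j, (c j).map (algebraMap A K) • i (e j) := by
  rw [map_sum]
  exact Finset.sum_congr rfl fun j _ => h53g_map_smul i h1 _ _

/-- clearing the denominators of a finite family of polynomials. -/
theorem h53g_exists_clear {n : ℕ} (c : Fin n → K[X]) :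
    ∃ a : A, a ≠ 0 ∧ ∃ c' : Fin n → A[X],
      ∀ j, (c' j).map (algebraMap A K) = C (algebraMap A K a) * c j := by
  classical
  have hone : ∀ p : K[X], ∃ a : A, a ≠ 0 ∧ ∃ p' : A[X],
      p'.map (algebraMap A K) = C (algebraMap A K a) * p := by
    intro p
    obtain ⟨b, hb₁, hb₂⟩ := IsLocalization.integerNormalization_spec (nonZeroDivisors A) p
    refine ⟨b, nonZeroDivisors.ne_zero hb₁,
      IsLocalization.integerNormalization (nonZeroDivisors A) p, ?_⟩
    rw [hb₂, Algebra.smul_def, Polynomial.algebraMap_apply]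
  choose a ha p' hp' using hone
  refine ⟨∏ j, a (c j), Finset.prod_ne_zero_iff.2 fun j _ => ha (c j),
    fun j => C (∏ l ∈ Finset.univ.erase j, a (c l)) * p' (c j), fun j => ?_⟩
  rw [Polynomial.map_mul, Polynomial.map_C, hp', ← mul_assoc, ← C_mul, ← map_mul,
    Finset.prod_erase_mul _ _ (Finset.mem_univ j)]

include h1 h3 in
/-- **(α)** `i ∘ e` is linearly independent over `K[X]`. -/
theorem h53g_linearIndependent {n : ℕ} {e : Fin n → B} (hli : LinearIndependent A[X] e) :
    LinearIndependent K[X] (fun j => i (e j)) := by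
  classical
  rw [Fintype.linearIndependent_iff]
  intro c hc j
  obtain ⟨a, ha, c', hc'⟩ := h53g_exists_clear (A := A) c
  have h4 : i (∑ j, c' j • e j) = 0 := by
    rw [h53g_map_sum_smul i h1]
    simp_rw [hc', mul_smul]
    rw [← Finset.smul_sum, hc, smul_zero]
  have h5 : ∑ j, c' j • e j = 0 := h3 (by rw [h4, map_zero])
  have h6 := Fintype.linearIndependent_iff.1 hli c' h5 j
  have h7 := hc' j
  rw [h6, Polynomial.map_zero] at h7
  have h8 : (C (algebraMap A K a) : K[X]) ≠ 0 := by
    rw [Ne, C_eq_zero]
    exact fun h => ha ((IsFractionRing.injective A K) (by rw [h, map_zero]))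
  exact (mul_eq_zero.1 h7.symm).resolve_left h8

include h1 h2 in
/-- **(β)** `s_K • BK ⊆ span (i ∘ e)`. -/
theorem h53g_span {n : ℕ} {e : Fin n → B} {s : A[X]}
    (hspan : ∀ b : B, ∃ c : Fin n → A[X], s • b = ∑ j, c j • e j) (y : BK) :
    ∃ c : Fin n → K[X], s.map (algebraMap A K) • y = ∑ j, c j • i (e j) := by
  classical
  obtain ⟨a, ha, b, hb⟩ := h2 y
  obtain ⟨c, hc⟩ := hspan b
  have ha' : algebraMap A K a ≠ 0 := fun h =>
    ha ((IsFractionRing.injective A K) (by rw [h, map_zero]))
  refine ⟨fun j => C (algebraMap A K a)⁻¹ * (c j).map (algebraMap A K), ?_⟩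
  have h4 : s.map (algebraMap A K) • i b = ∑ j, (c j).map (algebraMap A K) • i (e j) := by
    rw [← h53g_map_smul i h1, hc, h53g_map_sum_smul i h1]
  have h5 : y = C (algebraMap A K a)⁻¹ • i b := by
    rw [← hb, ← Algebra.smul_def, smul_smul, ← C_mul, inv_mul_cancel₀ ha', C_1, one_smul]
  rw [h5, smul_comm, h4, Finset.smul_sum]
  exact Finset.sum_congr rfl fun j _ => by rw [smul_smul]

end BK

section Eval

variable {K : Type*} [Field K] {A : Type*} [CommRing A] [IsDomain A] [Algebra A K]
  [IsFractionRing A K] [IsLocalRing A]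

/-- `s ≡ 1` modulo `𝔪_A A[X]` implies `s(c) ≠ 0` for every `c : A`. -/
theorem h53g_eval_ne_zero {s : A[X]}
    (hs : s - 1 ∈ (IsLocalRing.maximalIdeal A).map (algebraMap A A[X])) (c : A) :
    (s.map (algebraMap A K)).eval (algebraMap A K c) ≠ 0 := by
  rw [Polynomial.eval_map_apply]
  intro h
  have h0 : s.eval c = 0 := (IsFractionRing.injective A K) (by rw [h, map_zero])
  have h4 : (s - 1).eval c ∈ IsLocalRing.maximalIdeal A := by
    have hcoef : ∀ m, (s - 1).coeff m ∈ IsLocalRing.maximalIdeal A :=
      (Ideal.mem_map_C_iff (I := IsLocalRing.maximalIdeal A)).1 hs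
    rw [Polynomial.eval_eq_sum_range]
    exact Ideal.sum_mem _ fun m _ => Ideal.mul_mem_right _ _ (hcoef m)
  rw [eval_sub, h0, eval_one, zero_sub, neg_mem_iff] at h4
  exact (IsLocalRing.maximalIdeal A).ne_top_iff_one.1 (IsLocalRing.maximalIdeal.isMaximal A).ne_top
    h4

end Eval

section Discr

attribute [local instance] FractionRing.liftAlgebra FractionRing.isScalarTower_liftAlgebra

variable {K : Type*} [Field K] {A : Type*} [CommRing A] [IsDomain A] [Algebra A K]
  [IsFractionRing A K]
  {B : Type*} [CommRing B] [IsDomain B] [Algebra A[X] B] [FaithfulSMul A[X] B]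
  [Module.Finite A[X] B]
  {BK : Type*} [CommRing BK] [Algebra K[X] BK] [Module.Free K[X] BK] [Module.Finite K[X] BK]
  (i : B →+* BK)
  (h1 : ∀ q : A[X], i (algebraMap A[X] B q) = algebraMap K[X] BK (q.map (algebraMap A K)))
  (h2 : ∀ z : BK, ∃ a : A, a ≠ 0 ∧ ∃ b : B,
    algebraMap K[X] BK (C (algebraMap A K a)) * z = i b)
  (h3 : Function.Injective i)

include h1 h2 h3 in
/-- **(γ)** the discriminant identification. -/
theorem h53g_discr {I : Ideal A[X]} {n : ℕ} {e : Fin n → B} {s D : A[X]}
    (hTD : h53_TransferData (FractionRing A[X]) (FractionRing B) I n e s D) :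
    D.map (algebraMap A K) =
      (s.map (algebraMap A K)) ^ n * Algebra.discr K[X] (fun j => i (e j)) := by
  classical
  obtain ⟨τ, hτ, hD⟩ := h53g_tau (FractionRing A[X]) (FractionRing B) hTD
  have hli := h53g_linearIndependent i h1 h3 hTD.linearIndependent
  have hsp := h53g_span i h1 h2 hTD.span
  let f := Module.Free.chooseBasis K[X] BK
  -- the trace identity
  have htr : ∀ b : B, (τ b).map (algebraMap A K) =
      s.map (algebraMap A K) * Algebra.trace K[X] BK (i b) := by
    intro b
    choose c hc using fun j => hTD.span (b * e j)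
    let N : Matrix (Fin n) (Fin n) A[X] := Matrix.of fun i' j => c j i'
    have hN : ∀ j, s • (b * e j) = ∑ i', N i' j • e i' := fun j => hc j
    have h4 := hτ b N hN
    have h5 : ∀ j, s.map (algebraMap A K) • (i b * i (e j)) =
        ∑ i', (N.map (Polynomial.mapRingHom (algebraMap A K))) i' j • i (e i') := by
      intro j
      rw [← map_mul, ← h53g_map_smul i h1, hN j, h53g_map_sum_smul i h1]
      rfl
    rw [h53g_smul_trace f (fun j => i (e j)) hli (s.map (algebraMap A K)) hsp (i b) _ h5, h4]
    simp only [Matrix.trace, Matrix.diag_apply, Matrix.map_apply, Polynomial.coe_mapRingHom,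
      Polynomial.map_sum]
  rw [hD, Algebra.discr_def]
  have h6 : (Matrix.det (Matrix.of fun i' j => τ (e i' * e j))).map (algebraMap A K) =
      Matrix.det ((Polynomial.mapRingHom (algebraMap A K)).mapMatrix
        (Matrix.of fun i' j => τ (e i' * e j))) :=
    RingHom.map_det (Polynomial.mapRingHom (algebraMap A K)) _
  rw [h6]
  have h7 : (Polynomial.mapRingHom (algebraMap A K)).mapMatrix
      (Matrix.of fun i' j => τ (e i' * e j)) =
      s.map (algebraMap A K) • Algebra.traceMatrix K[X] (fun j => i (e j)) := by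
    ext i' j
    simp only [RingHom.mapMatrix_apply, Matrix.map_apply, Matrix.of_apply,
      Polynomial.coe_mapRingHom, Matrix.smul_apply, smul_eq_mul, Algebra.traceMatrix_apply,
      Algebra.traceForm_apply, htr, map_mul]
  rw [h7, Matrix.det_smul, Fintype.card_fin]

include h1 h2 h3 in
/-- the root multiplicities of `D` and of `discr K[X] (i ∘ e)` agree at every `c : A`
(`s ≡ 1` modulo `𝔪_A`, so `s(c) ≠ 0`). -/
theorem h53g_rootMultiplicity_eq [IsLocalRing A] {n : ℕ} {e : Fin n → B} {s D : A[X]}
    (hTD : h53_TransferData (FractionRing A[X]) (FractionRing B)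
      ((IsLocalRing.maximalIdeal A).map (algebraMap A A[X])) n e s D) (c : A) :
    (D.map (algebraMap A K)).rootMultiplicity (algebraMap A K c) =
      (Algebra.discr K[X] (fun j => i (e j))).rootMultiplicity (algebraMap A K c) := by
  classical
  have hsc := h53g_eval_ne_zero (K := K) hTD.s_sub_one c
  rw [h53g_discr i h1 h2 h3 hTD]
  by_cases h0 : Algebra.discr K[X] (fun j => i (e j)) = 0
  · rw [h0, mul_zero]
  · have hs0 : s.map (algebraMap A K) ≠ 0 := fun h => hsc (by rw [h, eval_zero])
    have hsr : ((s.map (algebraMap A K)) ^ n).rootMultiplicity (algebraMap A K c) = 0 :=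
      rootMultiplicity_eq_zero (by rw [IsRoot.def, eval_pow]; exact pow_ne_zero n hsc)
    rw [rootMultiplicity_mul (mul_ne_zero (pow_ne_zero n hs0) h0), hsr, zero_add]

end Discr

end Fermat.Agent.Red.SM.Gen53
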