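import Fermat.Agent.Red.SM.CorePts
import Fermat.Agent.Red.SM.CoreG3
import Fermat.Agent.Red.SM.H74Chain

/-!
# P-RED / R-SM / SM-CORE, part (G-C) POINTS in the vocabulary of `H74Chain` (helper52)

`A : ValuationSubring K`, `B` a finite `A[X]`-algebra, generic fibre = any `K[X]`-algebra `BK`
with `i : B →+* BK` satisfying (h1), (h2), (h3) (see `Red/SM/CorePts.lean`).

* `h52c_cnt_le` : `h74_cnt A (algebraMap A[X] B) c ≤ #{P ⊂ BK maximal, X - c ∈ P}`.
* `h52c_unr_not_mem_sq` : `h74_Unr A B c → X - c ∉ P ^ 2` for every maximal `P ∋ X - c` of `BK`.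
* `h52c_unr_card` : `h74_Unr A B c → #{P ⊂ BK maximal, X - c ∈ P} = card ι` for a `K[X]`-basis
  of `BK` indexed by `ι`.
-/

set_option autoImplicit false
set_option linter.unusedSectionVars false
set_option linter.style.haveILetI false

open Polynomial

noncomputable section

namespace Fermat.Agent.Red.SM.Core

variable {K : Type*} [Field K] [IsAlgClosed K] (A : ValuationSubring K)
  {B : Type*} [CommRing B] [Algebra A[X] B] [Module.Finite A[X] B]
  {BK : Type*} [CommRing BK] [Algebra K[X] BK] [Module.Finite K[X] BK] (i : B →+* BK)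

/-- **(G-C)(i)** in the shape of `h74_cnt`. -/
theorem h52c_cnt_le
    (h1 : ∀ q : A[X], i (algebraMap A[X] B q) = algebraMap K[X] BK (q.map A.subtype))
    (h2 : ∀ z : BK, ∃ a : A, a ≠ 0 ∧ ∃ b : B, algebraMap K[X] BK (C (a : K)) * z = i b)
    (h3 : Function.Injective i) (htf : h74_Tf A B) (c : A) :
    h74_cnt A (algebraMap A[X] B) c ≤
      Nat.card {P : Ideal BK // P.IsMaximal ∧ algebraMap K[X] BK (X - C (c : K)) ∈ P} :=
  Fermat.Agent.Red.SM.h52c_card_le_of_le (A := A) (K := K) i h1 h2 h3 c (htf c)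
    (h74_P A (algebraMap A[X] B))

/-- **(G-C)(ii)**, pointwise, in the vocabulary of `H74Chain`. -/
theorem h52c_unr_not_mem_sq [IsDedekindDomain BK]
    (h1 : ∀ q : A[X], i (algebraMap A[X] B q) = algebraMap K[X] BK (q.map A.subtype))
    (h2 : ∀ z : BK, ∃ a : A, a ≠ 0 ∧ ∃ b : B, algebraMap K[X] BK (C (a : K)) * z = i b)
    (h3 : Function.Injective i) (c : A) (hunr : h74_Unr A B c)
    (P : Ideal BK) (hPm : P.IsMaximal)
    (hP : algebraMap K[X] BK (X - C (c : K)) ∈ P) :
    algebraMap K[X] BK (X - C (c : K)) ∉ P ^ 2 :=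
  Fermat.Agent.Red.SM.h52c_not_mem_sq (A := A) (K := K) i h1 h2 h3 c hunr P hP

/-- **(G-C)(ii)**, count: over an unramified value the generic fibre has exactly `rank` maximal
ideals. -/
theorem h52c_unr_card [IsDedekindDomain BK] [Algebra K BK] [IsScalarTower K K[X] BK]
    {ι : Type*} [Fintype ι] [DecidableEq ι] (b : Module.Basis ι K[X] BK)
    (h1 : ∀ q : A[X], i (algebraMap A[X] B q) = algebraMap K[X] BK (q.map A.subtype))
    (h2 : ∀ z : BK, ∃ a : A, a ≠ 0 ∧ ∃ b : B, algebraMap K[X] BK (C (a : K)) * z = i b)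
    (h3 : Function.Injective i) (c : A) (hunr : h74_Unr A B c) :
    Nat.card {P : Ideal BK // P.IsMaximal ∧ algebraMap K[X] BK (X - C (c : K)) ∈ P} =
      Fintype.card ι := by
  have h := Fermat.Agent.Red.SM.h60g3_pts_eq_card b (c : K)
    (fun P hPm hP => h52c_unr_not_mem_sq A i h1 h2 h3 c hunr P hPm hP)
  rw [← h]
  exact (Fermat.Agent.Red.SM.h52c_card_maxSpec (algebraMap K[X] BK (X - C (c : K)))).symm

end Fermat.Agent.Red.SM.Core

end
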