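import Mathlib
import Fermat.Agent.Red.SM.CoreGenAux
import Fermat.Agent.Red.SM.CorePtsV
import Fermat.Agent.Red.SM.Tame99Core
import Fermat.Agent.Red.SM.CoreSpecial53H

/-!
# P-RED / R-SM / SM-CORE: the generic-fibre input `h74_GenericV` (helper60)

Assembly of
* (G-B) `Red/SM/CoreGen.lean`, `CoreGenAux.lean` (helper60): the generic fibre `B_K`, the
  discriminant identity `D = s ^ n * discr_{K[X]} e`;
* (G-C) `Red/SM/CorePtsV.lean` (helper52): the point counts;
* TAME `Red/SM/Tame99Core.lean` (helper99).

`h60_genericV : Core.h74_GenericV`, and with SPEC (`CoreSpecial53H.lean`, helper53) and the chain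
(`H74Chain.lean`, helper74): `h60_smCoreV : SMCoreV`.
-/

set_option autoImplicit false
set_option linter.style.haveILetI false
set_option linter.unusedSectionVars false
set_option linter.unusedVariables false

open Polynomial Module

noncomputable section

namespace Fermat.Agent.Red.SM.Core

open Fermat.Agent.Red.SM Fermat.Agent.Red.SM.EtAbs

attribute [local instance] FractionRing.liftAlgebra FractionRing.isScalarTower_liftAlgebra

/-- **G-GEN-V**: the generic fibre input of the chain `h74_smCoreV`. -/
theorem h60_genericV : h74_GenericV := by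
  classical
  intro K _ _ _ A B _ _ _ _ _ _ htf n e s D hTD
  -- the generic fibre
  have h1 : ∀ q : A[X], h60gen_i A B (algebraMap A[X] B q) =
      algebraMap K[X] (h60gen_BK A B) (q.map A.subtype) := fun q => h60gen_h1 A B K q
  have h2 : ∀ z : h60gen_BK A B, ∃ a : A, a ≠ 0 ∧ ∃ b : B,
      algebraMap K[X] (h60gen_BK A B) (C (a : K)) * z = h60gen_i A B b :=
    fun z => h60gen_h2 A B K z
  have h3 : Function.Injective (h60gen_i A B) := h60gen_h3 A B
  -- the data of TAME
  have hli : LinearIndependent K[X] (fun j => h60gen_i A B (e j)) :=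
    h60gen_linearIndependent K hTD.linearIndependent
  have hspan : ∀ y : h60gen_BK A B, ∃ c : Fin n → K[X],
      (s.map A.subtype) • y = ∑ j, c j • h60gen_i A B (e j) := fun y => h60gen_span K hTD y
  have hdisc : D.map A.subtype = (s.map A.subtype) ^ n *
      Algebra.discr K[X] (fun j => h60gen_i A B (e j)) := h60gen_discr_eq K hTD
  have hsc : ∀ c : A, (s.map A.subtype).eval (c : K) ≠ 0 := fun c =>
    h60gen_eval_ne_zero K hTD.s_sub_one c
  have htame := fun c : A => h99_h74_tame K (h60gen_BK A B) n (fun j => h60gen_i A B (e j))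
    (s.map A.subtype) hli hspan (c : K) (hsc c)
  -- the root multiplicity of `D`
  have hroot : ∀ c : A, (D.map A.subtype).rootMultiplicity (c : K) =
      (Algebra.discr K[X] (fun j => h60gen_i A B (e j))).rootMultiplicity (c : K) := by
    intro c
    have hs0 : s.map A.subtype ≠ 0 := fun h => hsc c (by rw [h, eval_zero])
    by_cases h0 : Algebra.discr K[X] (fun j => h60gen_i A B (e j)) = 0
    · rw [hdisc, h0, mul_zero]
    · have hsr : ((s.map A.subtype) ^ n).rootMultiplicity (c : K) = 0 :=
        rootMultiplicity_eq_zero (by rw [IsRoot.def, eval_pow]; exact pow_ne_zero n (hsc c))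
      rw [hdisc, rootMultiplicity_mul (mul_ne_zero (pow_ne_zero n hs0) h0), hsr, zero_add]
  refine ⟨fun c => ?_, fun c hunr => ?_⟩
  · have hcnt := h52c_cnt_le A (h60gen_i A B) h1 h2 h3 htf c
    have := (htame c).2
    rw [hroot c]
    omega
  · obtain ⟨f⟩ := h60gen_exists_basis K hTD
    have hcard := h52c_unr_card A (h60gen_i A B) f h1 h2 h3 c hunr
    have := (htame c).2
    rw [hcard, Fintype.card_fin] at this
    rw [hroot c]
    omega

/-- **SM-CORE**, valuation subring form (`Red/SM/CoreV.lean`), unconditional. -/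
theorem h60_smCoreV : Fermat.Agent.Red.SM.SMCoreV :=
  h74_smCoreV Fermat.Agent.Red.SM.Spec53.h53s_special h60_genericV

end Fermat.Agent.Red.SM.Core
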