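import Fermat.Agent.Red.SM.CoreSkeleton

/-!
# P-RED / R-SM, SM-CORE-GEN (helper83, second seat): the generic fibre `h74_Generic`

`h83g_generic : h74_Tame → h74_Generic`.

The generic fibre `C = B_K` is the localisation of `B` at the nonzero constants; `K[X]` is the
localisation of `A[X]` at the nonzero constants.  The family `e` stays linearly independent, the
relation `s • C ⊆ span e` persists, and `D = s ^ n * discr_{K[X]} e` (traces are compatible with
localisation).  TAME at `a = c` bounds the number of maximal ideals of `C` containing `X - c`, and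
the `A`-points of `B` over `c` inject into these maximal ideals (kernel of the extended point).
-/

set_option autoImplicit false
set_option linter.unusedSectionVars false
set_option linter.style.haveILetI false

open Polynomial

noncomputable section

namespace Fermat.Agent.Red.SM.Core

section GenericLoc

variable {R R' : Type*} (B C : Type*)
  [CommRing R] [IsDomain R] [CommRing R'] [IsDomain R']
  [Algebra R R'] (M : Submonoid R) [IsLocalization M R']
  [CommRing B] [IsDomain B] [Algebra R B] [FaithfulSMul R B] [Module.Finite R B]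
  [CommRing C] [Algebra B C] [IsLocalization (Algebra.algebraMapSubmonoid B M) C]
  [Algebra R' C] [Algebra R C] [IsScalarTower R R' C] [IsScalarTower R B C]

omit [IsDomain R] [IsDomain R'] [Algebra R R'] [IsLocalization M R']
  [Module.Finite R B] in
theorem h83g_le (hM : M ≤ nonZeroDivisors R) :
    Algebra.algebraMapSubmonoid B M ≤ nonZeroDivisors B :=
  map_le_nonZeroDivisors_of_injective _ (FaithfulSMul.algebraMap_injective R B) hM

include B M in
theorem h83g_isDomain (hM : M ≤ nonZeroDivisors R) : IsDomain C :=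
  IsLocalization.isDomain_of_le_nonZeroDivisors C (h83g_le B M hM)

include B M in
theorem h83g_finite : Module.Finite R' C := Module.Finite.of_isLocalization R B M

include B M in
theorem h83g_injective :
    Function.Injective (algebraMap R' C) := by
  rw [IsLocalization.algebraMap_eq_map_map_submonoid M B R' C]
  haveI : IsLocalization (M.map (algebraMap R B)) C :=
    ‹IsLocalization (Algebra.algebraMapSubmonoid B M) C›
  exact IsLocalization.map_injective_of_injective M R' C (FaithfulSMul.algebraMap_injective R B)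

variable {B}

include M in
theorem h83g_li {n : ℕ} {e : Fin n → B} (hli : LinearIndependent R e) :
    LinearIndependent R' (fun i => algebraMap B C (e i)) :=
  LinearIndependent.localization_localization (Rₛ := R') M C hli

include M in
theorem h83g_span {n : ℕ} {e : Fin n → B} {s : R}
    (hspan : ∀ b : B, ∃ c : Fin n → R, s • b = ∑ i, c i • e i) (y : C) :
    ∃ c : Fin n → R', algebraMap R R' s • y = ∑ i, c i • algebraMap B C (e i) := by
  obtain ⟨b, m, rfl⟩ :=
    IsLocalization.exists_mk'_eq (S := C) (Algebra.algebraMapSubmonoid B M) y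
  obtain ⟨r, hr, hrm⟩ := m.2
  obtain ⟨c, hc⟩ := hspan b
  set u : R' := IsLocalization.mk' R' (1 : R) ⟨r, hr⟩ with hu
  have hur : u * algebraMap R R' r = 1 := by
    rw [hu]
    have := IsLocalization.mk'_spec R' (1 : R) ⟨r, hr⟩
    rw [map_one] at this
    exact this
  have hy : IsLocalization.mk' C b m = u • algebraMap B C b := by
    rw [IsLocalization.mk'_eq_iff_eq_mul]
    have h1 : algebraMap B C (m : B) = algebraMap R' C (algebraMap R R' r) := by
      rw [← hrm, ← IsScalarTower.algebraMap_apply R B C, ← IsScalarTower.algebraMap_apply R R' C]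
    rw [h1, Algebra.smul_def, mul_right_comm, ← map_mul, hur, map_one, one_mul]
  refine ⟨fun i => u * algebraMap R R' (c i), ?_⟩
  rw [hy, smul_comm]
  have h2 : algebraMap R R' s • algebraMap B C b = algebraMap B C (s • b) := by
    rw [Algebra.smul_def, Algebra.smul_def, map_mul, ← IsScalarTower.algebraMap_apply R R' C,
      ← IsScalarTower.algebraMap_apply R B C]
  rw [h2, hc, map_sum, Finset.smul_sum]
  refine Finset.sum_congr rfl fun i _ => ?_
  rw [mul_smul]
  congr 1
  rw [Algebra.smul_def, Algebra.smul_def, map_mul, ← IsScalarTower.algebraMap_apply R R' C,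
    ← IsScalarTower.algebraMap_apply R B C]

end GenericLoc

section Discr

variable {R R' : Type*} (B C : Type*)
  [CommRing R] [IsDomain R] [CommRing R'] [IsDomain R'] [IsPrincipalIdealRing R']
  [Algebra R R'] (M : Submonoid R) [IsLocalization M R']
  [CommRing B] [IsDomain B] [Algebra R B] [FaithfulSMul R B] [Module.Finite R B]
  [CommRing C] [Algebra B C] [IsLocalization (Algebra.algebraMapSubmonoid B M) C]
  [Algebra R' C] [Algebra R C] [IsScalarTower R R' C] [IsScalarTower R B C]
  (K₀ K₁ : Type*) [Field K₀] [Algebra R K₀] [IsFractionRing R K₀]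
  [Field K₁] [Algebra B K₁] [IsFractionRing B K₁] [Algebra K₀ K₁] [Algebra R K₁]
  [IsScalarTower R K₀ K₁] [IsScalarTower R B K₁]

/-- the discriminant identity on the generic fibre. -/
theorem h83g_discr (hM : M ≤ nonZeroDivisors R) {n : ℕ} {e : Fin n → B} {s D : R}
    (bE : Module.Basis (Fin n) K₀ K₁) (hbE : ∀ i, bE i = algebraMap B K₁ (e i))
    (hD : algebraMap R K₀ D = algebraMap R K₀ s ^ n * Algebra.discr K₀ bE) :
    algebraMap R R' D =
      algebraMap R R' s ^ n * Algebra.discr R' (fun i => algebraMap B C (e i)) := by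
  classical
  haveI : IsDomain C := h83g_isDomain B C M hM
  haveI : Module.Finite R' C := h83g_finite B C M
  have hinj : Function.Injective (algebraMap R' C) := h83g_injective B C M
  haveI : FaithfulSMul R' C := (faithfulSMul_iff_algebraMap_injective R' C).mpr hinj
  haveI : Module.IsTorsionFree R' C := Module.isTorsionFree_iff_algebraMap_injective.2 hinj
  haveI : Module.Free R' C := Module.free_of_finite_type_torsion_free'
  -- `R' → K₀`
  have hu0 : ∀ y : M, IsUnit (algebraMap R K₀ y) := fun y =>
    IsUnit.mk0 _ ((map_ne_zero_iff _ (IsFractionRing.injective R K₀)).mpr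
      (nonZeroDivisors.ne_zero (hM y.2)))
  letI algR'K₀ : Algebra R' K₀ := (IsLocalization.lift (M := M) hu0).toAlgebra
  haveI : IsScalarTower R R' K₀ :=
    IsScalarTower.of_algebraMap_eq fun x => (IsLocalization.lift_eq hu0 x).symm
  haveI : IsFractionRing R' K₀ :=
    IsFractionRing.isFractionRing_of_isDomain_of_isLocalization M R' K₀
  -- `C → K₁`
  have hu1 : ∀ y : Algebra.algebraMapSubmonoid B M, IsUnit (algebraMap B K₁ y) := fun y =>
    IsUnit.mk0 _ ((map_ne_zero_iff _ (IsFractionRing.injective B K₁)).mpr
      (nonZeroDivisors.ne_zero (h83g_le B M hM y.2)))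
  letI algCK₁ : Algebra C K₁ :=
    (IsLocalization.lift (M := Algebra.algebraMapSubmonoid B M) hu1).toAlgebra
  haveI : IsScalarTower B C K₁ :=
    IsScalarTower.of_algebraMap_eq fun x => (IsLocalization.lift_eq hu1 x).symm
  haveI : IsFractionRing C K₁ :=
    IsFractionRing.isFractionRing_of_isDomain_of_isLocalization
      (Algebra.algebraMapSubmonoid B M) C K₁
  -- `R' → K₁`
  letI algR'K₁ : Algebra R' K₁ := ((algebraMap K₀ K₁).comp (algebraMap R' K₀)).toAlgebra
  haveI : IsScalarTower R' K₀ K₁ := IsScalarTower.of_algebraMap_eq fun _ => rfl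
  haveI : IsScalarTower R' C K₁ := by
    refine IsScalarTower.of_algebraMap_eq' ?_
    refine IsLocalization.ringHom_ext M ?_
    ext r
    show algebraMap K₀ K₁ (algebraMap R' K₀ (algebraMap R R' r))
      = algebraMap C K₁ (algebraMap R' C (algebraMap R R' r))
    rw [← IsScalarTower.algebraMap_apply R R' K₀, ← IsScalarTower.algebraMap_apply R K₀ K₁,
      ← IsScalarTower.algebraMap_apply R R' C, IsScalarTower.algebraMap_apply R B C,
      ← IsScalarTower.algebraMap_apply B C K₁, ← IsScalarTower.algebraMap_apply R B K₁]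
  haveI : Algebra.IsAlgebraic R' C := Algebra.IsIntegral.isAlgebraic
  have htr : ∀ y : C, Algebra.trace K₀ K₁ (algebraMap C K₁ y)
      = algebraMap R' K₀ (Algebra.trace R' C y) :=
    fun y => Algebra.trace_localization R' (nonZeroDivisors R') y
  -- the discriminants
  have hdisc : Algebra.discr K₀ bE
      = algebraMap R' K₀ (Algebra.discr R' (fun i => algebraMap B C (e i))) := by
    have hfun : (bE : Fin n → K₁) = fun i => algebraMap C K₁ (algebraMap B C (e i)) := by
      funext i
      rw [hbE i, IsScalarTower.algebraMap_apply B C K₁]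
    rw [hfun, Algebra.discr_def, Algebra.discr_def, RingHom.map_det]
    congr 1
    ext i j
    simp only [Algebra.traceMatrix_apply, Algebra.traceForm_apply, RingHom.mapMatrix_apply,
      Matrix.map_apply]
    rw [← map_mul, htr]
  have h1 : algebraMap R' K₀ (algebraMap R R' D)
      = algebraMap R' K₀ (algebraMap R R' s ^ n *
          Algebra.discr R' (fun i => algebraMap B C (e i))) := by
    rw [map_mul, map_pow, ← hdisc, ← IsScalarTower.algebraMap_apply R R' K₀,
      ← IsScalarTower.algebraMap_apply R R' K₀, hD]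
  exact IsFractionRing.injective R' K₀ h1

end Discr

section Points

variable {R R' : Type*} (B C : Type*) [CommRing R] [CommRing R'] [Algebra R R']
  (M : Submonoid R) [IsLocalization M R']
  [CommRing B] [Algebra R B] [CommRing C] [Algebra B C]
  [IsLocalization (Algebra.algebraMapSubmonoid B M) C]
  [Algebra R' C] [Algebra R C] [IsScalarTower R R' C] [IsScalarTower R B C]
  {K : Type*} [Field K]

include M in
/-- a point `ψ : B → K` over `ev : R' → K` extends to the generic fibre. -/
theorem h83g_point (ev : R' →+* K) (ψ : B →+* K)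
    (hψ : ∀ r : R, ψ (algebraMap R B r) = ev (algebraMap R R' r)) :
    ∃ Ψ : C →+* K, (∀ b : B, Ψ (algebraMap B C b) = ψ b) ∧
      ∀ q : R', Ψ (algebraMap R' C q) = ev q := by
  have hu : ∀ y : Algebra.algebraMapSubmonoid B M, IsUnit (ψ y) := by
    rintro ⟨y, r, hr, rfl⟩
    show IsUnit (ψ (algebraMap R B r))
    rw [hψ]
    exact (IsLocalization.map_units R' (⟨r, hr⟩ : M)).map ev
  refine ⟨IsLocalization.lift (M := Algebra.algebraMapSubmonoid B M) hu,
    fun b => IsLocalization.lift_eq hu b, fun q => ?_⟩
  have h1 : (IsLocalization.lift (M := Algebra.algebraMapSubmonoid B M) (S := C) hu).comp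
      (algebraMap R' C) = ev := by
    refine IsLocalization.ringHom_ext M ?_
    ext r
    show IsLocalization.lift (M := Algebra.algebraMapSubmonoid B M) (S := C) hu
      (algebraMap R' C (algebraMap R R' r)) = ev (algebraMap R R' r)
    rw [← IsScalarTower.algebraMap_apply R R' C, IsScalarTower.algebraMap_apply R B C,
      IsLocalization.lift_eq, hψ]
  exact congrArg (fun f : R' →+* K => f q) h1

omit [IsLocalization M R'] [IsLocalization (Algebra.algebraMapSubmonoid B M) C]
  [IsScalarTower R R' C] [IsScalarTower R B C] [Algebra R C] [Algebra R B] [Algebra R R'] in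
/-- the kernel of the extension determines the point. -/
theorem h83g_point_inj (ev : R' →+* K) (hev : Function.Surjective ev) (ψ ψ' : B →+* K)
    (Ψ Ψ' : C →+* K) (hΨB : ∀ b : B, Ψ (algebraMap B C b) = ψ b)
    (hΨR : ∀ q : R', Ψ (algebraMap R' C q) = ev q)
    (hΨB' : ∀ b : B, Ψ' (algebraMap B C b) = ψ' b)
    (hΨR' : ∀ q : R', Ψ' (algebraMap R' C q) = ev q)
    (hker : RingHom.ker Ψ = RingHom.ker Ψ') : ψ = ψ' := by
  ext b
  obtain ⟨q, hq⟩ := hev (ψ b)
  have h1 : algebraMap B C b - algebraMap R' C q ∈ RingHom.ker Ψ := by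
    rw [RingHom.mem_ker, map_sub, hΨB, hΨR, hq, sub_self]
  rw [hker, RingHom.mem_ker, map_sub, hΨB', hΨR', sub_eq_zero] at h1
  rw [h1, hq]

end Points

section Final

universe u v

attribute [local instance] FractionRing.liftAlgebra FractionRing.isScalarTower_liftAlgebra

/-- if `s ≡ 1` modulo `𝔪_A A[X]` then `s(c)` is a unit of `A` (copy of the lemma of
`CorePointLift.lean`, to keep the two files independent). -/
theorem h83g_eval_ne_zero {K : Type u} [Field K] (A : ValuationSubring K) {s : A[X]}
    (hs1 : s - 1 ∈ h74_I A) (c : A) : s.eval c ≠ 0 := by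
  have hle : h74_I A ≤ Ideal.comap (Polynomial.evalRingHom c) (IsLocalRing.maximalIdeal A) := by
    unfold h74_I
    rw [Ideal.map_le_iff_le_comap]
    intro a ha
    rw [Ideal.mem_comap, Ideal.mem_comap]
    show (Polynomial.evalRingHom c) (algebraMap A A[X] a) ∈ IsLocalRing.maximalIdeal A
    rw [Polynomial.algebraMap_apply, Polynomial.coe_evalRingHom, Polynomial.eval_C]
    exact ha
  have h := hle hs1
  rw [Ideal.mem_comap, Polynomial.coe_evalRingHom, Polynomial.eval_sub,
    Polynomial.eval_one] at h
  intro h0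
  rw [h0, zero_sub] at h
  have h2 : (1 : A) ∈ IsLocalRing.maximalIdeal A := by
    have := (IsLocalRing.maximalIdeal A).neg_mem h
    rwa [neg_neg] at this
  exact (IsLocalRing.maximalIdeal.isMaximal A).ne_top ((Ideal.eq_top_iff_one _).mpr h2)

/-- **SM-CORE-GEN** (second seat). -/
theorem h83g_generic (hT : h74_Tame.{u, v}) : h74_Generic.{u, v} := by
  intro K _ _ _ A B _ _ _ _ _ _ n e s D hTD c
  classical
  letI algP : Algebra A[X] K[X] := Polynomial.algebra A K
  have halgP : ∀ q : A[X], algebraMap A[X] K[X] q = q.map (algebraMap A K) := fun _ => rfl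
  let M : Submonoid A[X] := (nonZeroDivisors A).map (C : A →+* A[X])
  haveI hloc : IsLocalization M K[X] := Polynomial.isLocalization (nonZeroDivisors A) K
  have hM0 : M ≤ nonZeroDivisors A[X] := by
    rintro _ ⟨a, ha, rfl⟩
    refine mem_nonZeroDivisors_of_ne_zero ?_
    have ha0 : a ≠ 0 := nonZeroDivisors.ne_zero ha
    show (C a : A[X]) ≠ 0
    rwa [Ne, Polynomial.C_eq_zero]
  -- the generic fibre
  let Cg : Type v := Localization (Algebra.algebraMapSubmonoid B M)
  letI algC : Algebra K[X] Cg := localizationAlgebra M B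
  haveI : IsScalarTower A[X] K[X] Cg := isScalarTower_localizationAlgebra M B
  haveI hCdom : IsDomain Cg := h83g_isDomain B Cg M hM0
  haveI hCfin : Module.Finite K[X] Cg := h83g_finite (R' := K[X]) B Cg M
  have hCinj : Function.Injective (algebraMap K[X] Cg) := h83g_injective (R' := K[X]) B Cg M
  haveI hCfaith : FaithfulSMul K[X] Cg := (faithfulSMul_iff_algebraMap_injective K[X] Cg).mpr hCinj
  haveI hCic : IsIntegrallyClosed Cg :=
    isIntegrallyClosed_of_isLocalization Cg (Algebra.algebraMapSubmonoid B M) (h83g_le B M hM0)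
  -- the data
  obtain ⟨bE, hbE, hD, -⟩ := hTD.generic
  have hdisc := h83g_discr (R' := K[X]) B Cg M (FractionRing A[X]) (FractionRing B) hM0 bE hbE hD
  have hli := h83g_li (R' := K[X]) Cg M hTD.linearIndependent
  have hspan := h83g_span (R' := K[X]) Cg M hTD.span
  have hsc : (algebraMap A[X] K[X] s).eval (c : K) ≠ 0 := by
    rw [halgP, Polynomial.eval_map]
    have h1 : Polynomial.eval₂ (algebraMap A K) (c : K) s = algebraMap A K (s.eval c) :=
      Polynomial.eval₂_at_apply (algebraMap A K) c
    rw [h1]
    exact (map_ne_zero_iff _ (IsFractionRing.injective A K)).mpr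
      (h83g_eval_ne_zero A hTD.s_sub_one c)
  obtain ⟨hfinP, hcount⟩ := hT K Cg n (fun i => algebraMap B Cg (e i)) (algebraMap A[X] K[X] s)
    hli hspan (c : K) hsc
  -- the root multiplicity
  have hrm : (D.map A.subtype).rootMultiplicity (c : K)
      = (Algebra.discr K[X] (fun i => algebraMap B Cg (e i))).rootMultiplicity (c : K) := by
    have hDK : D.map A.subtype = algebraMap A[X] K[X] D := rfl
    rw [hDK, hdisc]
    by_cases h0 : Algebra.discr K[X] (fun i => algebraMap B Cg (e i)) = 0
    · rw [h0, mul_zero]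
    · have hs0 : algebraMap A[X] K[X] s ^ n ≠ 0 := by
        refine pow_ne_zero _ fun h => hsc ?_
        rw [h, Polynomial.eval_zero]
      rw [Polynomial.rootMultiplicity_mul (mul_ne_zero hs0 h0)]
      have h1 : (algebraMap A[X] K[X] s ^ n).rootMultiplicity (c : K) = 0 := by
        refine Polynomial.rootMultiplicity_eq_zero ?_
        rw [Polynomial.IsRoot.def, Polynomial.eval_pow]
        exact pow_ne_zero _ hsc
      rw [h1, zero_add]
  -- the points
  have hev : Function.Surjective (Polynomial.evalRingHom (c : K)) := fun k =>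
    ⟨C k, by rw [Polynomial.coe_evalRingHom, Polynomial.eval_C]⟩
  have hpt : ∀ ψ : h74_Pt A (algebraMap A[X] B) c,
      ∃ Ψ : Cg →+* K, (∀ b : B, Ψ (algebraMap B Cg b) = ((algebraMap A K).comp ψ.1) b) ∧
        ∀ q : K[X], Ψ (algebraMap K[X] Cg q) = Polynomial.evalRingHom (c : K) q := by
    intro ψ
    refine h83g_point B Cg M (Polynomial.evalRingHom (c : K)) ((algebraMap A K).comp ψ.1) ?_
    intro q
    rw [RingHom.comp_apply, ψ.2 q, halgP, Polynomial.coe_evalRingHom, Polynomial.eval_map]
    exact (Polynomial.eval₂_at_apply (algebraMap A K) c).symm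
  choose Ψ hΨB hΨR using hpt
  have hmax : ∀ ψ : h74_Pt A (algebraMap A[X] B) c, (RingHom.ker (Ψ ψ)).IsMaximal := by
    intro ψ
    refine RingHom.ker_isMaximal_of_surjective (Ψ ψ) fun k => ?_
    obtain ⟨q, hq⟩ := hev k
    exact ⟨algebraMap K[X] Cg q, by rw [hΨR, hq]⟩
  have hmem : ∀ ψ : h74_Pt A (algebraMap A[X] B) c,
      algebraMap K[X] Cg (X - C (c : K)) ∈ RingHom.ker (Ψ ψ) := by
    intro ψ
    rw [RingHom.mem_ker, hΨR, Polynomial.coe_evalRingHom, Polynomial.eval_sub, Polynomial.eval_X,
      Polynomial.eval_C, sub_self]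
  let F : h74_Pt A (algebraMap A[X] B) c →
      {P : Ideal Cg // P.IsMaximal ∧ algebraMap K[X] Cg (X - C (c : K)) ∈ P} :=
    fun ψ => ⟨RingHom.ker (Ψ ψ), hmax ψ, hmem ψ⟩
  have hF : Function.Injective F := by
    intro ψ ψ' h
    have hker : RingHom.ker (Ψ ψ) = RingHom.ker (Ψ ψ') := congrArg Subtype.val h
    have h1 := h83g_point_inj B Cg (Polynomial.evalRingHom (c : K)) hev _ _ (Ψ ψ) (Ψ ψ')
      (hΨB ψ) (hΨR ψ) (hΨB ψ') (hΨR ψ') hker
    apply Subtype.ext
    ext b
    have h2 := congrArg (fun f : B →+* K => f b) h1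
    exact congrArg Subtype.val (IsFractionRing.injective A K h2)
  haveI := hfinP
  have hfin : Finite (h74_Pt A (algebraMap A[X] B) c) := Finite.of_injective F hF
  refine ⟨hfin, ?_⟩
  have hcard : Nat.card (h74_Pt A (algebraMap A[X] B) c)
      ≤ Nat.card {P : Ideal Cg // P.IsMaximal ∧ algebraMap K[X] Cg (X - C (c : K)) ∈ P} :=
    Nat.card_le_card_of_injective F hF
  rw [hrm]
  omega

end Final

end Fermat.Agent.Red.SM.Core

end
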