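import Mathlib
import Fermat.Agent.Red.SM.DeltaIC
import Fermat.Agent.Red.SM.SepDeriv

/-!
# P-RED / R-SM, SM-CORE-SPEC: the special fibre, generic form (helper72)

Generic setting: `R` a commutative ring, `I` an ideal with an isomorphism `σ : R ⧸ I ≃+* k[X]`
(`k` an algebraically closed field of characteristic `p`), `B` an `R`-algebra, `P = I B`,
`ρ : B → k((q))` a ring homomorphism with kernel `P`, compatible with the constants and with
`d(ρ x)/dq ≠ 0`, and `bQ` a basis of `B ⧸ P` over `R ⧸ I`.  Then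

* `σ (disc bQ) ≠ 0` (`h72s_discr_ne_zero`), and
* if `ord_a σ(disc bQ) + #{maximal ideals of B over P and X = a} ≤ n` for all `a : k`, then
  `B ⧸ P` is a Dedekind domain (`h72s_isDedekindDomain`).
-/

set_option autoImplicit false
set_option linter.unusedSectionVars false
set_option linter.style.haveILetI false

open Polynomial

noncomputable section

namespace Fermat.Agent.Red.SM.Core

section Generic

variable {R : Type*} [CommRing R] (I : Ideal R) {k : Type*} [Field k]
  {B : Type*} [CommRing B] [Algebra R B]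

/-- the `k[X]`-algebra structure on `B ⧸ I B` given by `σ : R ⧸ I ≃+* k[X]`. -/
@[reducible] def h72s_algX (σ : R ⧸ I ≃+* k[X]) : Algebra k[X] (B ⧸ I.map (algebraMap R B)) :=
  ((algebraMap (R ⧸ I) (B ⧸ I.map (algebraMap R B))).comp
    (σ.symm : k[X] →+* R ⧸ I)).toAlgebra

/-- the `k`-algebra structure on `B ⧸ I B` given by `σ : R ⧸ I ≃+* k[X]`. -/
@[reducible] def h72s_algK (σ : R ⧸ I ≃+* k[X]) : Algebra k (B ⧸ I.map (algebraMap R B)) :=
  (((algebraMap (R ⧸ I) (B ⧸ I.map (algebraMap R B))).comp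
    (σ.symm : k[X] →+* R ⧸ I)).comp (C : k →+* k[X])).toAlgebra

lemma h72s_isScalarTower (σ : R ⧸ I ≃+* k[X]) :
    letI := h72s_algX (B := B) I σ
    letI := h72s_algK (B := B) I σ
    IsScalarTower k k[X] (B ⧸ I.map (algebraMap R B)) := by
  letI := h72s_algX (B := B) I σ
  letI := h72s_algK (B := B) I σ
  exact IsScalarTower.of_algebraMap_eq' rfl

lemma h72s_algebraMap_apply (σ : R ⧸ I ≃+* k[X]) (f : k[X]) :
    letI := h72s_algX (B := B) I σ
    algebraMap k[X] (B ⧸ I.map (algebraMap R B)) f =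
      algebraMap (R ⧸ I) (B ⧸ I.map (algebraMap R B)) (σ.symm f) := rfl

lemma h72s_algebraMap_of_eq (σ : R ⧸ I ≃+* k[X]) (f : k[X]) (r : R)
    (hr : σ (Ideal.Quotient.mk I r) = f) :
    letI := h72s_algX (B := B) I σ
    algebraMap k[X] (B ⧸ I.map (algebraMap R B)) f =
      Ideal.Quotient.mk (I.map (algebraMap R B)) (algebraMap R B r) := by
  letI := h72s_algX (B := B) I σ
  rw [h72s_algebraMap_apply, ← hr, RingEquiv.symm_apply_apply]
  rfl

/-- the basis over `k[X]` obtained from a basis over `R ⧸ I`. -/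
def h72s_basis (σ : R ⧸ I ≃+* k[X]) {n : ℕ}
    (bQ : Module.Basis (Fin n) (R ⧸ I) (B ⧸ I.map (algebraMap R B))) :
    letI := h72s_algX (B := B) I σ
    Module.Basis (Fin n) k[X] (B ⧸ I.map (algebraMap R B)) :=
  letI := h72s_algX (B := B) I σ
  bQ.mapCoeffs σ (fun c x => by
    rw [Algebra.smul_def, Algebra.smul_def, h72s_algebraMap_apply, RingEquiv.symm_apply_apply])

lemma h72s_basis_apply (σ : R ⧸ I ≃+* k[X]) {n : ℕ}
    (bQ : Module.Basis (Fin n) (R ⧸ I) (B ⧸ I.map (algebraMap R B))) (i : Fin n) :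
    letI := h72s_algX (B := B) I σ
    h72s_basis I σ bQ i = bQ i := by
  letI := h72s_algX (B := B) I σ
  simp [h72s_basis]

/-- the discriminant of the transported basis. -/
lemma h72s_discr (σ : R ⧸ I ≃+* k[X]) {n : ℕ}
    (bQ : Module.Basis (Fin n) (R ⧸ I) (B ⧸ I.map (algebraMap R B))) :
    letI := h72s_algX (B := B) I σ
    Algebra.discr k[X] (h72s_basis I σ bQ) = σ (Algebra.discr (R ⧸ I) bQ) := by
  letI := h72s_algX (B := B) I σ
  have he : (algebraMap k[X] (B ⧸ I.map (algebraMap R B))).comp (σ : R ⧸ I →+* k[X]) =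
      algebraMap (R ⧸ I) (B ⧸ I.map (algebraMap R B)) := by
    ext x
    simp [h72s_algebraMap_apply]
  rw [Algebra.discr_def, Algebra.discr_def]
  have : (σ : R ⧸ I →+* k[X]) (Algebra.traceMatrix (R ⧸ I) bQ).det =
      ((σ : R ⧸ I →+* k[X]).mapMatrix (Algebra.traceMatrix (R ⧸ I) bQ)).det :=
    RingHom.map_det _ _
  rw [show σ (Algebra.traceMatrix (R ⧸ I) bQ).det =
    (σ : R ⧸ I →+* k[X]) (Algebra.traceMatrix (R ⧸ I) bQ).det from rfl, this]
  congr 1
  refine Matrix.ext fun i j => ?_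
  simp only [Algebra.traceMatrix_apply, Algebra.traceForm_apply, RingHom.mapMatrix_apply,
    Matrix.map_apply, h72s_basis_apply]
  exact (Algebra.trace_eq_of_ringEquiv σ he _).symm

/-- the induced embedding of the special fibre into `k((q))`. -/
def h72s_rhoBar (ρ : B →+* LaurentSeries k) (hker : RingHom.ker ρ = I.map (algebraMap R B)) :
    (B ⧸ I.map (algebraMap R B)) →+* LaurentSeries k :=
  Ideal.Quotient.lift _ ρ (fun b hb => by rw [← hker] at hb; exact hb)

lemma h72s_rhoBar_mk (ρ : B →+* LaurentSeries k) (hker : RingHom.ker ρ = I.map (algebraMap R B))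
    (b : B) : h72s_rhoBar I ρ hker (Ideal.Quotient.mk _ b) = ρ b := rfl

lemma h72s_rhoBar_injective (ρ : B →+* LaurentSeries k)
    (hker : RingHom.ker ρ = I.map (algebraMap R B)) :
    Function.Injective (h72s_rhoBar I ρ hker) := by
  rw [injective_iff_map_eq_zero]
  intro x hx
  obtain ⟨b, rfl⟩ := Ideal.Quotient.mk_surjective x
  rw [h72s_rhoBar_mk] at hx
  rw [Ideal.Quotient.eq_zero_iff_mem, ← hker]
  exact hx

lemma h72s_isDomain (ρ : B →+* LaurentSeries k) (hker : RingHom.ker ρ = I.map (algebraMap R B)) :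
    IsDomain (B ⧸ I.map (algebraMap R B)) :=
  Function.Injective.isDomain (h72s_rhoBar I ρ hker) (h72s_rhoBar_injective I ρ hker)

/-- **(1)** the discriminant of the special fibre does not vanish. -/
theorem h72s_discr_ne_zero [IsAlgClosed k] (p : ℕ) [Fact p.Prime] [CharP k p]
    (σ : R ⧸ I ≃+* k[X]) (ρ : B →+* LaurentSeries k)
    (hker : RingHom.ker ρ = I.map (algebraMap R B))
    (hρC : ∀ c : k, ∃ r : R, σ (Ideal.Quotient.mk I r) = C c ∧
      ρ (algebraMap R B r) = HahnSeries.C c)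
    (hρx : ∃ r : R, σ (Ideal.Quotient.mk I r) = X ∧
      Fermat.Agent.S24.laurentD k (ρ (algebraMap R B r)) ≠ 0)
    {n : ℕ} (bQ : Module.Basis (Fin n) (R ⧸ I) (B ⧸ I.map (algebraMap R B))) :
    σ (Algebra.discr (R ⧸ I) bQ) ≠ 0 := by
  letI := h72s_algX (B := B) I σ
  haveI := h72s_isDomain I ρ hker
  rw [← h72s_discr]
  refine h84_discr_ne_zero_of_embedding p (h72s_rhoBar I ρ hker) (h72s_rhoBar_injective I ρ hker)
    ?_ ?_ (h72s_basis I σ bQ)
  · intro c
    obtain ⟨r, hr, hρr⟩ := hρC c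
    rw [h72s_algebraMap_of_eq I σ (C c) r hr, h72s_rhoBar_mk, hρr]
  · obtain ⟨r, hr, hρr⟩ := hρx
    rw [h72s_algebraMap_of_eq I σ X r hr, h72s_rhoBar_mk]
    exact hρr

/-- the maximal ideals of `(B ⧸ P) ⧸ (t)` correspond to the maximal ideals of `B` containing `P`
and `t`. -/
lemma h72s_card_maxSpec {B : Type*} [CommRing B] (P : Ideal B) (t : B) (J : Ideal (B ⧸ P))
    (hJ : J = Ideal.span {Ideal.Quotient.mk P t}) :
    Nat.card (MaximalSpectrum ((B ⧸ P) ⧸ J)) =
      Nat.card {𝔫 : Ideal B // 𝔫.IsMaximal ∧ P ≤ 𝔫 ∧ t ∈ 𝔫} := by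
  have hπ : Function.Surjective ((Ideal.Quotient.mk J).comp (Ideal.Quotient.mk P)) :=
    Ideal.Quotient.mk_surjective.comp Ideal.Quotient.mk_surjective
  have hπP : ∀ b ∈ P, ((Ideal.Quotient.mk J).comp (Ideal.Quotient.mk P)) b = 0 := by
    intro b hb
    rw [RingHom.comp_apply, Ideal.Quotient.eq_zero_iff_mem.2 hb, map_zero]
  have hπr : ((Ideal.Quotient.mk J).comp (Ideal.Quotient.mk P)) t = 0 := by
    rw [RingHom.comp_apply, Ideal.Quotient.eq_zero_iff_mem, hJ]
    exact Ideal.mem_span_singleton_self _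
  have hker : ∀ (𝔫 : Ideal B), P ≤ 𝔫 → t ∈ 𝔫 →
      Ideal.comap ((Ideal.Quotient.mk J).comp (Ideal.Quotient.mk P)) ⊥ ≤ 𝔫 := by
    intro 𝔫 h1 h2 b hb
    rw [Ideal.mem_comap, Ideal.mem_bot, RingHom.comp_apply,
      Ideal.Quotient.eq_zero_iff_mem, hJ, Ideal.mem_span_singleton'] at hb
    obtain ⟨y', hy'⟩ := hb
    obtain ⟨y, rfl⟩ := Ideal.Quotient.mk_surjective y'
    rw [← map_mul, Ideal.Quotient.eq] at hy'
    have h3 : y * t - b ∈ 𝔫 := h1 hy'
    have h4 : y * t ∈ 𝔫 := 𝔫.mul_mem_left y h2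
    have h5 := 𝔫.sub_mem h4 h3
    simpa using h5
  refine Nat.card_congr
    { toFun := fun M => ⟨Ideal.comap ((Ideal.Quotient.mk J).comp (Ideal.Quotient.mk P)) M.asIdeal,
        Ideal.comap_isMaximal_of_surjective _ hπ (H := M.isMaximal),
        fun b hb => by rw [Ideal.mem_comap, hπP b hb]; exact M.asIdeal.zero_mem,
        by rw [Ideal.mem_comap, hπr]; exact M.asIdeal.zero_mem⟩
      invFun := fun 𝔫 => ⟨Ideal.map ((Ideal.Quotient.mk J).comp (Ideal.Quotient.mk P)) 𝔫.1, by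
        rcases Ideal.map_eq_top_or_isMaximal_of_surjective _ hπ 𝔫.2.1 with h | h
        · exfalso
          have h1 : Ideal.comap ((Ideal.Quotient.mk J).comp (Ideal.Quotient.mk P))
              (Ideal.map ((Ideal.Quotient.mk J).comp (Ideal.Quotient.mk P)) 𝔫.1) = 𝔫.1 := by
            rw [Ideal.comap_map_of_surjective _ hπ]
            exact sup_eq_left.2 (hker 𝔫.1 𝔫.2.2.1 𝔫.2.2.2)
          rw [h, Ideal.comap_top] at h1
          exact 𝔫.2.1.ne_top h1.symm
        · exact h⟩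
      left_inv := fun M => by
        apply MaximalSpectrum.ext
        exact Ideal.map_comap_of_surjective _ hπ M.asIdeal
      right_inv := fun 𝔫 => by
        apply Subtype.ext
        show Ideal.comap ((Ideal.Quotient.mk J).comp (Ideal.Quotient.mk P))
          (Ideal.map ((Ideal.Quotient.mk J).comp (Ideal.Quotient.mk P)) 𝔫.1) = 𝔫.1
        rw [Ideal.comap_map_of_surjective _ hπ]
        exact sup_eq_left.2 (hker 𝔫.1 𝔫.2.2.1 𝔫.2.2.2) }

/-- the maximal ideals of the fibre of `B ⧸ I B` over `X = a` correspond to the maximal ideals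
of `B` containing `I B` and (a lift of) `X - a`. -/
lemma h72s_pts_eq (σ : R ⧸ I ≃+* k[X]) (a : k) (r : R)
    (hr : σ (Ideal.Quotient.mk I r) = X - C a) :
    letI := h72s_algX (B := B) I σ
    letI := h72s_algK (B := B) I σ
    haveI := h72s_isScalarTower (B := B) I σ
    h2_pts k (B ⧸ I.map (algebraMap R B)) a =
      Nat.card {𝔫 : Ideal B // 𝔫.IsMaximal ∧ I.map (algebraMap R B) ≤ 𝔫 ∧
        algebraMap R B r ∈ 𝔫} := by
  letI := h72s_algX (B := B) I σ
  letI := h72s_algK (B := B) I σ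
  haveI := h72s_isScalarTower (B := B) I σ
  unfold h2_pts
  refine h72s_card_maxSpec (I.map (algebraMap R B)) (algebraMap R B r) _ ?_
  rw [h2_fib, h72s_algebraMap_of_eq I σ (X - C a) r hr]

/-- **(2)** the discriminant count implies that the special fibre is a Dedekind domain. -/
theorem h72s_isDedekindDomain [IsAlgClosed k] (p : ℕ) [Fact p.Prime] [CharP k p]
    (σ : R ⧸ I ≃+* k[X]) (ρ : B →+* LaurentSeries k)
    (hker : RingHom.ker ρ = I.map (algebraMap R B))
    (hρC : ∀ c : k, ∃ r : R, σ (Ideal.Quotient.mk I r) = C c ∧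
      ρ (algebraMap R B r) = HahnSeries.C c)
    (hρx : ∃ r : R, σ (Ideal.Quotient.mk I r) = X ∧
      Fermat.Agent.S24.laurentD k (ρ (algebraMap R B r)) ≠ 0)
    {n : ℕ} (bQ : Module.Basis (Fin n) (R ⧸ I) (B ⧸ I.map (algebraMap R B)))
    (hbound : ∀ a : k, ∃ r : R, σ (Ideal.Quotient.mk I r) = X - C a ∧
      (σ (Algebra.discr (R ⧸ I) bQ)).rootMultiplicity a +
        Nat.card {𝔫 : Ideal B // 𝔫.IsMaximal ∧ I.map (algebraMap R B) ≤ 𝔫 ∧
          algebraMap R B r ∈ 𝔫} ≤ n) :
    IsDedekindDomain (B ⧸ I.map (algebraMap R B)) := by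
  letI := h72s_algX (B := B) I σ
  letI := h72s_algK (B := B) I σ
  haveI := h72s_isScalarTower (B := B) I σ
  haveI := h72s_isDomain I ρ hker
  have hdisc : Algebra.discr k[X] (h72s_basis I σ bQ) ≠ 0 := by
    rw [h72s_discr]
    exact h72s_discr_ne_zero I p σ ρ hker hρC hρx bQ
  haveI : IsIntegrallyClosed (B ⧸ I.map (algebraMap R B)) := by
    refine h2_isIntegrallyClosed (h72s_basis I σ bQ) hdisc (fun a => ?_)
    obtain ⟨r, hr, hb⟩ := hbound a
    rw [h72s_pts_eq I σ a r hr, h72s_discr, Fintype.card_fin]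
    exact hb
  haveI : Module.Finite k[X] (B ⧸ I.map (algebraMap R B)) :=
    Module.Finite.of_basis (h72s_basis I σ bQ)
  haveI : Algebra.IsIntegral k[X] (B ⧸ I.map (algebraMap R B)) := inferInstance
  haveI : IsNoetherianRing (B ⧸ I.map (algebraMap R B)) :=
    isNoetherian_of_tower k[X] (isNoetherian_of_isNoetherianRing_of_finite k[X] _)
  haveI : Ring.DimensionLEOne (B ⧸ I.map (algebraMap R B)) :=
    Ring.DimensionLEOne.of_isIntegral k[X] _
  exact { }

end Generic

end Fermat.Agent.Red.SM.Core
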