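import Fermat.Agent.Red.SM.CoreSkeleton
import Fermat.Agent.Red.SM.CoreSpecial72Gen

/-!
# P-RED / R-SM, SM-CORE-SPEC: the special fibre (helper72)

`h72s_special : h74_Special`: in the setting of SM-CORE, the reduction `D mod 𝔪_A` of the
discriminant of TRANSFER-A does not vanish, and the discriminant count at every point of the
special fibre implies that `B ⧸ 𝔪_A B` is a Dedekind domain.

The proof instantiates the generic statements of `CoreSpecial72Gen.lean` at `R = A[X]`,
`I = 𝔪_A A[X]`, `σ = h72s_sigma A : A[X] ⧸ 𝔪_A A[X] ≃+* k[X]`.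
-/

set_option autoImplicit false
set_option linter.unusedSectionVars false
set_option linter.style.haveILetI false

open Polynomial

noncomputable section

namespace Fermat.Agent.Red.SM.Core

open Fermat.Agent.Red.SM.EtAbs

section Sigma

variable {K : Type*} [Field K] (A : ValuationSubring K)

lemma h72s_I_eq_ker :
    h74_I A = RingHom.ker (Polynomial.mapRingHom (IsLocalRing.residue A)) := by
  rw [Polynomial.ker_mapRingHom, IsLocalRing.ker_residue]
  rfl

lemma h72s_map_surjective :
    Function.Surjective (Polynomial.mapRingHom (IsLocalRing.residue A)) :=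
  Polynomial.map_surjective _ IsLocalRing.residue_surjective

/-- the isomorphism `A[X] ⧸ 𝔪_A A[X] ≃+* k[X]`. -/
def h72s_sigma : (A[X] ⧸ h74_I A) ≃+* (IsLocalRing.ResidueField A)[X] :=
  (Ideal.quotEquivOfEq (h72s_I_eq_ker A)).trans
    (RingHom.quotientKerEquivOfSurjective (h72s_map_surjective A))

lemma h72s_sigma_mk (f : A[X]) :
    h72s_sigma A (Ideal.Quotient.mk (h74_I A) f) = f.map (IsLocalRing.residue A) := by
  simp [h72s_sigma]

end Sigma

section Glue

attribute [local instance] FractionRing.liftAlgebra FractionRing.isScalarTower_liftAlgebra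

/-- **SM-CORE-SPEC** (special fibre). -/
theorem h72s_special.{u, v} : h74_Special.{u, v} := by
  intro K _ A _ p hp hchar B _ _ _ _ _ ρ hρker hρC hρx n e s D hTD
  haveI : Fact p.Prime := ⟨hp⟩
  haveI := hchar
  obtain ⟨bQ, -, hD⟩ := hTD.special
  have hσD : h72s_sigma A (Algebra.discr _ bQ) = D.map (IsLocalRing.residue A) := by
    rw [← hD, h72s_sigma_mk]
  have hC : ∀ c : IsLocalRing.ResidueField A, ∃ r : A[X],
      h72s_sigma A (Ideal.Quotient.mk (h74_I A) r) = C c ∧
        ρ (algebraMap A[X] B r) = HahnSeries.C c := by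
    intro c
    obtain ⟨a, rfl⟩ := IsLocalRing.residue_surjective c
    exact ⟨C a, by rw [h72s_sigma_mk, Polynomial.map_C], hρC a⟩
  have hx : ∃ r : A[X], h72s_sigma A (Ideal.Quotient.mk (h74_I A) r) = X ∧
      Fermat.Agent.S24.laurentD (IsLocalRing.ResidueField A) (ρ (algebraMap A[X] B r)) ≠ 0 :=
    ⟨X, by rw [h72s_sigma_mk, Polynomial.map_X], hρx⟩
  refine ⟨?_, ?_⟩
  · rw [← hσD]
    exact h72s_discr_ne_zero (h74_I A) p (h72s_sigma A) ρ hρker hC hx bQ
  · intro hbound
    refine h72s_isDedekindDomain (h74_I A) p (h72s_sigma A) ρ hρker hC hx bQ ?_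
    intro a
    obtain ⟨c, rfl⟩ := IsLocalRing.residue_surjective a
    refine ⟨X - C c, ?_, ?_⟩
    · rw [h72s_sigma_mk, Polynomial.map_sub, Polynomial.map_X, Polynomial.map_C]
    · rw [hσD]
      exact hbound c

end Glue

end Fermat.Agent.Red.SM.Core
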