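import Mathlib
import Fermat.Agent.Red.SM.DeltaIC
import Fermat.Agent.Red.SM.SepDeriv

/-!
# P-RED / R-SM, SM-CORE glue: the special fibre (helper53)

Mathlib + the landed leaves SEP (`h84_discr_ne_zero_of_embedding`) and DELTA
(`h2_isIntegrallyClosed`).

* `h53s_card_maxSpec` : the maximal spectrum of `C ⧸ span {t}` is counted by the maximal ideals of
  `C` containing `t`.
* `h53s_generic` : `Cb` a domain, free of rank `n` over a ring `P ≃ k[X]` (`k` algebraically
  closed of characteristic `p`), embedded into `k((q))` compatibly with the constants and with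
  `d x / d q ≠ 0`.  Then the discriminant is nonzero, and the discriminant count at every `a : k`
  implies that `Cb` is a Dedekind domain.
-/

set_option autoImplicit false
set_option linter.style.haveILetI false
set_option linter.unusedSectionVars false
set_option linter.unusedVariables false

open Polynomial

noncomputable section

namespace Fermat.Agent.Red.SM.Spec53

section Count

variable {C : Type*} [CommRing C]

/-- maximal ideals of a quotient `C ⧸ J` correspond to the maximal ideals of `C` containing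
`J`. -/
def h53s_maxSpecEquiv (J : Ideal C) :
    MaximalSpectrum (C ⧸ J) ≃ {Q : Ideal C // Q.IsMaximal ∧ J ≤ Q} where
  toFun m := ⟨Ideal.comap (Ideal.Quotient.mk J) m.asIdeal,
    Ideal.comap_isMaximal_of_surjective _ Ideal.Quotient.mk_surjective (K := m.asIdeal)
      (H := m.isMaximal),
    fun x hx => by
      rw [Ideal.mem_comap, Ideal.Quotient.eq_zero_iff_mem.2 hx]
      exact Ideal.zero_mem _⟩
  invFun Q := ⟨Ideal.map (Ideal.Quotient.mk J) Q.1,
    haveI := Q.2.1
    Ideal.IsMaximal.map_of_surjective_of_ker_le Ideal.Quotient.mk_surjective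
      (by rw [Ideal.mk_ker]; exact Q.2.2)⟩
  left_inv m := by
    apply MaximalSpectrum.ext
    exact Ideal.map_comap_of_surjective _ Ideal.Quotient.mk_surjective _
  right_inv Q := by
    apply Subtype.ext
    change Ideal.comap (Ideal.Quotient.mk J) (Ideal.map (Ideal.Quotient.mk J) Q.1) = Q.1
    rw [Ideal.comap_map_of_surjective _ Ideal.Quotient.mk_surjective, ← RingHom.ker_eq_comap_bot,
      Ideal.mk_ker]
    exact sup_eq_left.2 Q.2.2

theorem h53s_card_maxSpec (t : C) :
    Nat.card (MaximalSpectrum (C ⧸ Ideal.span {t})) =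
      Nat.card {Q : Ideal C // Q.IsMaximal ∧ t ∈ Q} := by
  rw [Nat.card_congr (h53s_maxSpecEquiv (Ideal.span {t}))]
  refine Nat.card_congr (Equiv.subtypeEquivRight fun Q => ?_)
  rw [Ideal.span_singleton_le_iff_mem]

/-- maximal ideals of `C ⧸ J` containing the class of `t` correspond to the maximal ideals of `C`
containing `J` and `t`. -/
def h53s_quotEquiv (J : Ideal C) (t : C) :
    {Q : Ideal (C ⧸ J) // Q.IsMaximal ∧ Ideal.Quotient.mk J t ∈ Q} ≃
      {𝔫 : Ideal C // 𝔫.IsMaximal ∧ J ≤ 𝔫 ∧ t ∈ 𝔫} where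
  toFun Q := ⟨Ideal.comap (Ideal.Quotient.mk J) Q.1,
    haveI := Q.2.1
    Ideal.comap_isMaximal_of_surjective _ Ideal.Quotient.mk_surjective,
    fun x hx => by
      rw [Ideal.mem_comap, Ideal.Quotient.eq_zero_iff_mem.2 hx]
      exact Ideal.zero_mem _,
    Q.2.2⟩
  invFun 𝔫 := ⟨Ideal.map (Ideal.Quotient.mk J) 𝔫.1,
    haveI := 𝔫.2.1
    Ideal.IsMaximal.map_of_surjective_of_ker_le Ideal.Quotient.mk_surjective
      (by rw [Ideal.mk_ker]; exact 𝔫.2.2.1),
    Ideal.mem_map_of_mem _ 𝔫.2.2.2⟩
  left_inv Q := by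
    apply Subtype.ext
    exact Ideal.map_comap_of_surjective _ Ideal.Quotient.mk_surjective _
  right_inv 𝔫 := by
    apply Subtype.ext
    change Ideal.comap (Ideal.Quotient.mk J) (Ideal.map (Ideal.Quotient.mk J) 𝔫.1) = 𝔫.1
    rw [Ideal.comap_map_of_surjective _ Ideal.Quotient.mk_surjective, ← RingHom.ker_eq_comap_bot,
      Ideal.mk_ker]
    exact sup_eq_left.2 𝔫.2.2.1

end Count

section Generic

variable {k : Type*} [Field k]
variable {P Cb : Type*} [CommRing P] [CommRing Cb] [Algebra P Cb]

/-- **Special fibre, generic form.** -/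
theorem h53s_generic [IsAlgClosed k] (p : ℕ) [Fact p.Prime] [CharP k p] [IsDomain Cb]
    (σ : P ≃+* k[X]) {n : ℕ} (bQ : Module.Basis (Fin n) P Cb)
    (φ : Cb →+* LaurentSeries k) (hφ : Function.Injective φ)
    (hφC : ∀ c : k, φ (algebraMap P Cb (σ.symm (C c))) = HahnSeries.C c)
    (hφX : Fermat.Agent.S24.laurentD k (φ (algebraMap P Cb (σ.symm X))) ≠ 0) :
    σ (Algebra.discr P bQ) ≠ 0 ∧
    ((∀ a : k, (σ (Algebra.discr P bQ)).rootMultiplicity a +
        Nat.card {Q : Ideal Cb // Q.IsMaximal ∧ algebraMap P Cb (σ.symm (X - C a)) ∈ Q} ≤ n) →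
      IsDedekindDomain Cb) := by
  classical
  letI algX : Algebra k[X] Cb := ((algebraMap P Cb).comp σ.symm.toRingHom).toAlgebra
  letI algk : Algebra k Cb := ((algebraMap k[X] Cb).comp (C : k →+* k[X])).toAlgebra
  haveI : IsScalarTower k k[X] Cb := IsScalarTower.of_algebraMap_eq (fun x => rfl)
  have halg : ∀ q : k[X], algebraMap k[X] Cb q = algebraMap P Cb (σ.symm q) := fun q => rfl
  have hsmul : ∀ (c : P) (x : Cb), σ c • x = c • x := by
    intro c x
    rw [Algebra.smul_def, Algebra.smul_def, halg, RingEquiv.symm_apply_apply]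
  let b' : Module.Basis (Fin n) k[X] Cb := bQ.mapCoeffs σ hsmul
  have hb' : ∀ i, b' i = bQ i := fun i => Module.Basis.mapCoeffs_apply bQ σ hsmul i
  have htr : ∀ x : Cb, σ (Algebra.trace P Cb x) = Algebra.trace k[X] Cb x :=
    Algebra.trace_eq_of_ringEquiv σ (by
      ext x
      simp only [RingHom.coe_comp, Function.comp_apply, RingHom.coe_coe, halg,
        RingEquiv.symm_apply_apply])
  have hdisc : Algebra.discr k[X] b' = σ (Algebra.discr P bQ) := by
    rw [Algebra.discr_def, Algebra.discr_def]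
    have h1 : σ (Algebra.traceMatrix P bQ).det =
        ((σ : P →+* k[X]).mapMatrix (Algebra.traceMatrix P bQ)).det :=
      RingHom.map_det (σ : P →+* k[X]) _
    rw [h1]
    congr 1
    ext i j
    simp only [Algebra.traceMatrix_apply, Algebra.traceForm_apply, RingHom.mapMatrix_apply,
      Matrix.map_apply, RingHom.coe_coe, hb', htr]
  have hne : Algebra.discr k[X] b' ≠ 0 :=
    h84_discr_ne_zero_of_embedding p φ hφ (fun c => by rw [halg]; exact hφC c)
      (by rw [halg]; exact hφX) b'
  refine ⟨hdisc ▸ hne, fun hbound => ?_⟩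
  haveI : IsIntegrallyClosed Cb := by
    refine h2_isIntegrallyClosed b' hne fun a => ?_
    rw [hdisc, h2_pts, h2_fib, h53s_card_maxSpec, Fintype.card_fin, halg]
    exact hbound a
  haveI : Module.Finite k[X] Cb := Module.Finite.of_basis b'
  haveI : Algebra.IsIntegral k[X] Cb := inferInstance
  haveI : IsNoetherianRing Cb :=
    isNoetherian_of_tower k[X] (isNoetherian_of_isNoetherianRing_of_finite k[X] Cb)
  haveI : Ring.DimensionLEOne Cb := Ring.DimensionLEOne.of_isIntegral k[X] Cb
  exact { }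

end Generic

section Val

universe u v

variable {A : Type u} [CommRing A] [IsLocalRing A]
variable {B : Type v} [CommRing B] [Algebra A[X] B]

/-- **Special fibre** over a local ring `A` with algebraically closed residue field `k` of
characteristic `p`: `B` an `A[X]`-algebra with a ring homomorphism `ρ : B → k((q))` of kernel
`𝔪_A B`, the residue map on constants, `d(ρ X)/dq ≠ 0`, and such that `B / 𝔪_A B` has a basis
over `A[X] / 𝔪_A A[X]` with discriminant `D mod 𝔪_A`.  Then `D mod 𝔪_A ≠ 0`, and the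
discriminant count at all `c : A` implies that `B / 𝔪_A B` is a Dedekind domain. -/
theorem h53s_special_val [IsAlgClosed (IsLocalRing.ResidueField A)]
    (p : ℕ) (hp : p.Prime) (hchar : CharP (IsLocalRing.ResidueField A) p)
    (ρ : B →+* LaurentSeries (IsLocalRing.ResidueField A))
    (hρker : RingHom.ker ρ =
      ((IsLocalRing.maximalIdeal A).map (algebraMap A A[X])).map (algebraMap A[X] B))
    (hρC : ∀ a : A, ρ (algebraMap A[X] B (C a)) = HahnSeries.C (IsLocalRing.residue A a))
    (hρx : Fermat.Agent.S24.laurentD (IsLocalRing.ResidueField A)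
      (ρ (algebraMap A[X] B X)) ≠ 0)
    (n : ℕ) (D : A[X])
    (hsp : ∃ bQ : Module.Basis (Fin n)
        (A[X] ⧸ (IsLocalRing.maximalIdeal A).map (algebraMap A A[X]))
        (B ⧸ ((IsLocalRing.maximalIdeal A).map (algebraMap A A[X])).map (algebraMap A[X] B)),
        Ideal.Quotient.mk ((IsLocalRing.maximalIdeal A).map (algebraMap A A[X])) D =
          Algebra.discr (A[X] ⧸ (IsLocalRing.maximalIdeal A).map (algebraMap A A[X])) bQ) :
    D.map (IsLocalRing.residue A) ≠ 0 ∧
    ((∀ c : A, (D.map (IsLocalRing.residue A)).rootMultiplicity (IsLocalRing.residue A c) +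
        Nat.card {𝔫 : Ideal B // 𝔫.IsMaximal ∧
          ((IsLocalRing.maximalIdeal A).map (algebraMap A A[X])).map (algebraMap A[X] B) ≤ 𝔫 ∧
          algebraMap A[X] B (X - C c) ∈ 𝔫} ≤ n) →
      IsDedekindDomain (B ⧸ ((IsLocalRing.maximalIdeal A).map (algebraMap A A[X])).map
        (algebraMap A[X] B))) := by
  classical
  haveI : Fact p.Prime := ⟨hp⟩
  haveI := hchar
  set I : Ideal A[X] := (IsLocalRing.maximalIdeal A).map (algebraMap A A[X]) with hI
  set J : Ideal B := I.map (algebraMap A[X] B) with hJ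
  obtain ⟨bQ, hD⟩ := hsp
  -- the isomorphism `A[X] / 𝔪 A[X] ≃ k[X]`
  let σ : (A[X] ⧸ I) ≃+* (IsLocalRing.ResidueField A)[X] :=
    (Ideal.polynomialQuotientEquivQuotientPolynomial (IsLocalRing.maximalIdeal A)).symm
  have hσ : ∀ q : A[X], σ (Ideal.Quotient.mk I q) = q.map (IsLocalRing.residue A) := fun q =>
    Ideal.polynomialQuotientEquivQuotientPolynomial_symm_mk (IsLocalRing.maximalIdeal A) q
  have hσs : ∀ q : A[X], σ.symm (q.map (IsLocalRing.residue A)) = Ideal.Quotient.mk I q :=
    fun q => by rw [RingEquiv.symm_apply_eq, hσ]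
  -- the special fibre is a domain, embedded by `ρ`
  haveI hJprime : J.IsPrime := by rw [← hρker]; exact RingHom.ker_isPrime ρ
  haveI : IsDomain (B ⧸ J) := Ideal.Quotient.isDomain J
  have hρJ : ∀ a ∈ J, ρ a = 0 := fun a ha => by
    rw [← hρker] at ha; exact ha
  let φ : (B ⧸ J) →+* LaurentSeries (IsLocalRing.ResidueField A) := Ideal.Quotient.lift J ρ hρJ
  have hφ : Function.Injective φ := (Ideal.injective_lift_iff hρJ).2 hρker
  have hφmk : ∀ y : B, φ (Ideal.Quotient.mk J y) = ρ y := fun y => Ideal.Quotient.lift_mk J ρ hρJ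
  have halg : ∀ q : A[X], algebraMap (A[X] ⧸ I) (B ⧸ J) (Ideal.Quotient.mk I q) =
      Ideal.Quotient.mk J (algebraMap A[X] B q) := fun q =>
    Ideal.Quotient.algebraMap_quotient_map_quotient q
  have hφC : ∀ c : IsLocalRing.ResidueField A,
      φ (algebraMap (A[X] ⧸ I) (B ⧸ J) (σ.symm (C c))) = HahnSeries.C c := by
    intro c
    obtain ⟨a, rfl⟩ := IsLocalRing.residue_surjective c
    have h1 : (C (IsLocalRing.residue A a) : (IsLocalRing.ResidueField A)[X]) =
        (C a : A[X]).map (IsLocalRing.residue A) := (Polynomial.map_C _).symm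
    rw [h1, hσs, halg, hφmk, hρC]
  have hφX : Fermat.Agent.S24.laurentD (IsLocalRing.ResidueField A)
      (φ (algebraMap (A[X] ⧸ I) (B ⧸ J) (σ.symm X))) ≠ 0 := by
    have h1 : (X : (IsLocalRing.ResidueField A)[X]) = (X : A[X]).map (IsLocalRing.residue A) :=
      (Polynomial.map_X _).symm
    rw [h1, hσs, halg, hφmk]
    exact hρx
  obtain ⟨h1, h2⟩ := h53s_generic p σ bQ φ hφ hφC hφX
  rw [← hD, hσ] at h1 h2
  refine ⟨h1, fun hbound => h2 fun a => ?_⟩
  obtain ⟨c, rfl⟩ := IsLocalRing.residue_surjective a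
  have h3 : (X - C (IsLocalRing.residue A c) : (IsLocalRing.ResidueField A)[X]) =
      (X - C c : A[X]).map (IsLocalRing.residue A) := by
    rw [Polynomial.map_sub, Polynomial.map_X, Polynomial.map_C]
  rw [h3, hσs, halg, Nat.card_congr (h53s_quotEquiv J (algebraMap A[X] B (X - C c)))]
  exact hbound c

end Val

end Fermat.Agent.Red.SM.Spec53
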