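import Mathlib
import Fermat.Agent.Red.SM.DeltaMat

/-!
# P-RED / SM: matrix lemma for the delta-lemma over a general base (helper2)

`P` a commutative ring, `π : P` such that `P ⧸ (π)` is a field.

* `h2p_pow_dvd_det_of_rank` : for a square matrix `T` over `P`,
  `π ^ (n - rank (T mod π))` divides `det T`.
-/

set_option autoImplicit false
set_option linter.style.haveILetI false
set_option linter.unusedSectionVars false
set_option linter.unusedSimpArgs false

open Matrix

noncomputable section

namespace Fermat.Agent.Red.SM

attribute [local instance] Ideal.Quotient.field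

variable {ι : Type*} [Fintype ι] [DecidableEq ι]
variable {P : Type*} [CommRing P] (π : P) [hmax : (Ideal.span ({π} : Set P)).IsMaximal]

/-- lift of a transvection modulo `π`. -/
def h2p_liftTransvec (t : Matrix.TransvectionStruct ι (P ⧸ Ideal.span ({π} : Set P))) :
    Matrix.TransvectionStruct ι P :=
  ⟨t.i, t.j, t.hij, Quotient.out t.c⟩

theorem h2p_liftTransvec_map (t : Matrix.TransvectionStruct ι (P ⧸ Ideal.span ({π} : Set P))) :
    (h2p_liftTransvec π t).toMatrix.map (Ideal.Quotient.mk (Ideal.span ({π} : Set P))) =
      t.toMatrix := by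
  ext i j
  simp only [h2p_liftTransvec, Matrix.TransvectionStruct.toMatrix, Matrix.transvection,
    Matrix.map_apply, Matrix.add_apply, map_add, Matrix.single_apply]
  congr 1
  · by_cases h : i = j
    · subst h; simp
    · simp [Matrix.one_apply_ne h]
  · split_ifs with h
    · exact Ideal.Quotient.mk_out t.c
    · exact map_zero _

theorem h2p_liftList_map (L : List (Matrix.TransvectionStruct ι (P ⧸ Ideal.span ({π} : Set P)))) :
    ((L.map (h2p_liftTransvec π)).map Matrix.TransvectionStruct.toMatrix).prod.map
        (Ideal.Quotient.mk (Ideal.span ({π} : Set P))) =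
      (L.map Matrix.TransvectionStruct.toMatrix).prod := by
  induction L with
  | nil =>
    simp only [List.map_nil, List.prod_nil]
    ext i j
    by_cases h : i = j
    · subst h; simp
    · simp [Matrix.one_apply_ne h]
  | cons t L ih =>
    simp only [List.map_cons, List.prod_cons]
    rw [Matrix.map_mul, h2p_liftTransvec_map, ih]

/-- For a square matrix `T` over `P`, the determinant of `T` is divisible by
`π ^ (n - rank (T mod π))`. -/
theorem h2p_pow_dvd_det_of_rank (T : Matrix ι ι P) :
    π ^ (Fintype.card ι - (T.map (Ideal.Quotient.mk (Ideal.span ({π} : Set P)))).rank) ∣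
      T.det := by
  classical
  set mk := Ideal.Quotient.mk (Ideal.span ({π} : Set P)) with hmk
  obtain ⟨L, L', D, hD⟩ :=
    Matrix.Pivot.exists_list_transvec_mul_mul_list_transvec_eq_diagonal (T.map mk)
  set Pm : Matrix ι ι (P ⧸ Ideal.span ({π} : Set P)) :=
    (L.map Matrix.TransvectionStruct.toMatrix).prod with hPm
  set Qm : Matrix ι ι (P ⧸ Ideal.span ({π} : Set P)) :=
    (L'.map Matrix.TransvectionStruct.toMatrix).prod with hQm
  have hPdet : Pm.det = 1 := Matrix.TransvectionStruct.det_toMatrix_prod L
  have hQdet : Qm.det = 1 := Matrix.TransvectionStruct.det_toMatrix_prod L'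
  set P' : Matrix ι ι P :=
    ((L.map (h2p_liftTransvec π)).map Matrix.TransvectionStruct.toMatrix).prod with hP'
  set Q' : Matrix ι ι P :=
    ((L'.map (h2p_liftTransvec π)).map Matrix.TransvectionStruct.toMatrix).prod with hQ'
  have hP'det : P'.det = 1 := Matrix.TransvectionStruct.det_toMatrix_prod _
  have hQ'det : Q'.det = 1 := Matrix.TransvectionStruct.det_toMatrix_prod _
  have hP'map : P'.map mk = Pm := h2p_liftList_map π L
  have hQ'map : Q'.map mk = Qm := h2p_liftList_map π L'
  set N : Matrix ι ι P := P' * T * Q' with hN
  have hNdet : N.det = T.det := by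
    rw [hN, Matrix.det_mul, Matrix.det_mul, hP'det, hQ'det, one_mul, mul_one]
  have hNev : N.map mk = Matrix.diagonal D := by
    rw [hN, Matrix.map_mul, Matrix.map_mul, hP'map, hQ'map, hD]
  set s : Finset ι := Finset.univ.filter (fun i => D i = 0) with hs
  have hrows : ∀ i ∈ s, ∀ j, π ∣ N i j := by
    intro i hi j
    rw [← Ideal.mem_span_singleton, ← Ideal.Quotient.eq_zero_iff_mem]
    have := congrFun (congrFun hNev i) j
    rw [Matrix.map_apply] at this
    rw [this]
    have hDi : D i = 0 := (Finset.mem_filter.1 hi).2
    by_cases hij : i = j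
    · subst hij; rw [Matrix.diagonal_apply_eq, hDi]
    · rw [Matrix.diagonal_apply_ne _ hij]
  have hdvd := h2_pow_dvd_det_of_rows N π s hrows
  rw [hNdet] at hdvd
  have hrank : (T.map mk).rank = Fintype.card {i // D i ≠ 0} := by
    rw [← Matrix.rank_diagonal, ← hD]
    rw [Matrix.rank_mul_eq_left_of_isUnit_det Qm _ (by rw [hQdet]; exact isUnit_one),
      Matrix.rank_mul_eq_right_of_isUnit_det Pm _ (by rw [hPdet]; exact isUnit_one)]
  have hcard : s.card = Fintype.card ι - (T.map mk).rank := by
    rw [hrank]
    have h1 : Fintype.card {i // D i ≠ 0} = (Finset.univ.filter (fun i => D i ≠ 0)).card :=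
      Fintype.card_subtype _
    have h2 : (Finset.univ.filter (fun i => D i = 0)).card +
        (Finset.univ.filter (fun i => D i ≠ 0)).card = Fintype.card ι := by
      have := Finset.card_filter_add_card_filter_not (s := (Finset.univ : Finset ι))
        (fun i => D i = 0)
      simpa using this
    rw [h1, hs]
    omega
  rw [← hcard]
  exact hdvd

end Fermat.Agent.Red.SM

end
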