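import Mathlib

/-!
# P-RED / SM: the fibre of a finite free `P`-algebra at a maximal ideal `(π)` (helper2)

`C` is a `P`-algebra, free with basis `b`; `π : P` generates a maximal ideal, `κ = P ⧸ (π)`.
`h2p_fib π C` is the ideal `π C` and `h2p_coordEquiv π b : C ⧸ π C ≃ₗ[κ] (ι → κ)` the coordinate
isomorphism.
-/

set_option autoImplicit false
set_option linter.style.haveILetI false
set_option linter.unusedSectionVars false
set_option linter.unusedSimpArgs false

open Module

noncomputable section

namespace Fermat.Agent.Red.SM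

section Coord

variable {P : Type*} [CommRing P] (π : P) (C : Type*) [CommRing C] [Algebra P C]

/-- the ideal `π C`. -/
abbrev h2p_fib : Ideal C := (Ideal.span ({π} : Set P)).map (algebraMap P C)

variable {C}
variable {ι : Type*} [Fintype ι] [DecidableEq ι] (b : Basis ι P C)

theorem h2p_mem_fib_iff {y : C} : y ∈ h2p_fib π C ↔ ∃ z : C, y = π • z := by
  rw [h2p_fib, Ideal.map_span, Set.image_singleton, Ideal.mem_span_singleton']
  constructor
  · rintro ⟨z, rfl⟩
    exact ⟨z, by rw [Algebra.smul_def, mul_comm]⟩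
  · rintro ⟨z, rfl⟩
    exact ⟨z, by rw [Algebra.smul_def, mul_comm]⟩

theorem h2p_mk_eq_zero_iff (x : P) :
    Ideal.Quotient.mk (Ideal.span ({π} : Set P)) x = 0 ↔ π ∣ x := by
  rw [Ideal.Quotient.eq_zero_iff_mem, Ideal.mem_span_singleton]

/-- the coordinates of `y` in the basis `b`, modulo `π`. -/
def h2p_coord : C →ₗ[P] (ι → P ⧸ Ideal.span ({π} : Set P)) where
  toFun y i := Ideal.Quotient.mk _ (b.repr y i)
  map_add' x y := by
    ext i
    simp
  map_smul' c y := by
    ext i
    simp only [map_smul, Finsupp.coe_smul, Pi.smul_apply, smul_eq_mul, map_mul,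
      RingHom.id_apply]
    rw [Algebra.smul_def]
    rfl

@[simp]
theorem h2p_coord_apply (y : C) (i : ι) :
    h2p_coord π b y i = Ideal.Quotient.mk _ (b.repr y i) := rfl

theorem h2p_coord_eq_zero_iff {y : C} : h2p_coord π b y = 0 ↔ y ∈ h2p_fib π C := by
  rw [h2p_mem_fib_iff]
  constructor
  · intro h
    have h1 : ∀ i, π ∣ b.repr y i := by
      intro i
      rw [← h2p_mk_eq_zero_iff]
      have := congrFun h i
      simpa using this
    choose q hq using h1
    refine ⟨∑ i, q i • b i, ?_⟩
    conv_lhs => rw [← b.sum_repr y]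
    rw [Finset.smul_sum]
    refine Finset.sum_congr rfl fun i _ => ?_
    rw [hq i, mul_smul]
  · rintro ⟨z, rfl⟩
    ext i
    simp only [h2p_coord_apply, map_smul, Finsupp.coe_smul, Pi.smul_apply, smul_eq_mul,
      Pi.zero_apply, h2p_mk_eq_zero_iff]
    exact Dvd.intro _ rfl

theorem h2p_coord_surjective : Function.Surjective (h2p_coord π b) := by
  intro v
  refine ⟨∑ i, (Quotient.out (v i) : P) • b i, ?_⟩
  ext i
  simp only [h2p_coord_apply, map_sum, map_smul, Finsupp.coe_finsetSum, Finsupp.coe_smul,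
    Finset.sum_apply, Pi.smul_apply, smul_eq_mul, Basis.repr_self]
  rw [Finset.sum_eq_single i]
  · simp only [Finsupp.single_eq_same, mul_one]
    exact Ideal.Quotient.mk_out (v i)
  · intro j _ hji
    simp [Finsupp.single_apply, hji]
  · intro h
    exact absurd (Finset.mem_univ i) h

theorem h2p_ker_coord :
    LinearMap.ker (h2p_coord π b) = (h2p_fib π C).restrictScalars P := by
  ext y
  rw [LinearMap.mem_ker, h2p_coord_eq_zero_iff, Submodule.restrictScalars_mem]

/-- the coordinate isomorphism, `P`-linear version. -/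
def h2p_coordEquivP : (C ⧸ h2p_fib π C) ≃ₗ[P] (ι → P ⧸ Ideal.span ({π} : Set P)) :=
  ((Submodule.Quotient.restrictScalarsEquiv P (h2p_fib π C)).symm.trans
    (Submodule.quotEquivOfEq _ _ (h2p_ker_coord π b).symm)).trans
    (LinearMap.quotKerEquivOfSurjective (h2p_coord π b) (h2p_coord_surjective π b))

/-- the coordinate isomorphism `C ⧸ π C ≃ κⁿ`. -/
def h2p_coordEquiv :
    (C ⧸ h2p_fib π C) ≃ₗ[P ⧸ Ideal.span ({π} : Set P)] (ι → P ⧸ Ideal.span ({π} : Set P)) :=
  LinearEquiv.extendScalarsOfSurjective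
    (Ideal.Quotient.mk_surjective (I := Ideal.span ({π} : Set P))) (h2p_coordEquivP π b)

@[simp]
theorem h2p_coordEquiv_mk (y : C) :
    h2p_coordEquiv π b (Ideal.Quotient.mk (h2p_fib π C) y) = h2p_coord π b y := rfl

attribute [local instance] Ideal.Quotient.field

variable [hmax : (Ideal.span ({π} : Set P)).IsMaximal]

include b in
theorem h2p_finrank_fib :
    finrank (P ⧸ Ideal.span ({π} : Set P)) (C ⧸ h2p_fib π C) = Fintype.card ι := by
  rw [LinearEquiv.finrank_eq (h2p_coordEquiv π b), Module.finrank_fintype_fun_eq_card]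

include b in
theorem h2p_finite_fib : Module.Finite (P ⧸ Ideal.span ({π} : Set P)) (C ⧸ h2p_fib π C) :=
  Module.Finite.equiv (h2p_coordEquiv π b).symm

end Coord

end Fermat.Agent.Red.SM

end
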