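import Mathlib
import Fermat.Agent.Red.SM.DeltaArt
import Fermat.Agent.Red.SM.DeltaRank
import Fermat.Agent.Red.SM.DeltaPCoord

/-!
# P-RED / SM: rank bounds at a maximal ideal `(π)` of the base (helper2)

`C` is a finite free `P`-algebra with basis `b`, `π : P` generates a maximal ideal with
algebraically closed residue field `κ = P ⧸ (π)`.

* `h2p_pts π C` : the number of maximal ideals of `C / π C`.
* `h2p_rank_gram_le` : the Gram matrix of the trace form modulo `π` has rank `≤ h2p_pts π C`.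
* `h2p_rank_hom_le` : for `φ : C → C₁`, the matrix of `φ` modulo `π` has rank
  `≤ (n - h2p_pts π C₁) + h2p_pts π C`.
-/

set_option autoImplicit false
set_option linter.style.haveILetI false
set_option linter.unusedSectionVars false
set_option linter.unusedSimpArgs false

open Module Matrix

noncomputable section

namespace Fermat.Agent.Red.SM

attribute [local instance] Ideal.Quotient.field

variable {P : Type*} [CommRing P] (π : P) (C : Type*) [CommRing C] [Algebra P C]

/-- the number of points of `C` over `π`. -/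
def h2p_pts : ℕ := Nat.card (MaximalSpectrum (C ⧸ h2p_fib π C))

variable {C}
variable {ι : Type*} [Fintype ι] [DecidableEq ι] (b : Basis ι P C)

include b in
/-- the trace of an element which is nilpotent modulo `π` vanishes modulo `π`. -/
theorem h2p_mk_trace_eq_zero [hmax : (Ideal.span ({π} : Set P)).IsMaximal] (z : C)
    (hz : IsNilpotent (Ideal.Quotient.mk (h2p_fib π C) z)) :
    Ideal.Quotient.mk (Ideal.span ({π} : Set P)) (Algebra.trace P C z) = 0 := by
  obtain ⟨m, hm⟩ := hz
  rw [← map_pow, Ideal.Quotient.eq_zero_iff_mem, h2p_mem_fib_iff] at hm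
  obtain ⟨w, hw⟩ := hm
  rw [Algebra.trace_eq_matrix_trace b z]
  set mk := Ideal.Quotient.mk (Ideal.span ({π} : Set P)) with hmk
  set Mz := Algebra.leftMulMatrix b z with hMz
  set Nz : Matrix ι ι (P ⧸ Ideal.span ({π} : Set P)) := Mz.map mk with hNz
  have h1 : Mz ^ m = π • Algebra.leftMulMatrix b w := by
    rw [hMz, ← map_pow, hw, map_smul]
  have h2 : Nz ^ m = 0 := by
    have h3 : Nz ^ m = (Mz ^ m).map mk := by
      have := map_pow (RingHom.mapMatrix mk : Matrix ι ι P →+* _) Mz m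
      rw [RingHom.mapMatrix_apply, RingHom.mapMatrix_apply] at this
      exact this.symm
    rw [h3, h1]
    ext i j
    simp only [Matrix.map_apply, Matrix.smul_apply, smul_eq_mul, map_mul, Matrix.zero_apply]
    have : mk π = 0 := (h2p_mk_eq_zero_iff π π).2 dvd_rfl
    rw [this, zero_mul]
  have h4 : IsNilpotent Nz.trace := Matrix.isNilpotent_trace_of_isNilpotent ⟨m, h2⟩
  have h5 : Nz.trace = 0 := h4.eq_zero
  have h6 : Nz.trace = mk (Mz.trace) := by
    simp only [Matrix.trace, Matrix.diag_apply, hNz, Matrix.map_apply, map_sum]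
  rw [← h6, h5]

/-- the Gram matrix of the trace form, modulo `π`. -/
def h2p_gram : Matrix ι ι (P ⧸ Ideal.span ({π} : Set P)) :=
  (Algebra.traceMatrix P b).map (Ideal.Quotient.mk (Ideal.span ({π} : Set P)))

theorem h2p_gram_mulVec_coord (y : C) (i : ι) :
    (h2p_gram π b *ᵥ h2p_coord π b y) i =
      Ideal.Quotient.mk (Ideal.span ({π} : Set P)) (Algebra.trace P C (b i * y)) := by
  have hy : b i * y = ∑ j, (b.repr y j) • (b i * b j) := by
    conv_lhs => rw [← b.sum_repr y]
    rw [Finset.mul_sum]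
    refine Finset.sum_congr rfl fun j _ => ?_
    rw [mul_smul_comm]
  rw [hy, map_sum, map_sum]
  simp only [Matrix.mulVec, dotProduct, h2p_gram, Matrix.map_apply, h2p_coord_apply,
    Algebra.traceMatrix_apply, Algebra.traceForm_apply]
  refine Finset.sum_congr rfl fun j _ => ?_
  rw [LinearMap.map_smul, smul_eq_mul, RingHom.map_mul, mul_comm]

variable [hmax : (Ideal.span ({π} : Set P)).IsMaximal]

variable (C) in
/-- the nilradical of the fibre, as a `κ`-subspace. -/
def h2p_nilSub : Submodule (P ⧸ Ideal.span ({π} : Set P)) (C ⧸ h2p_fib π C) :=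
  (nilradical (C ⧸ h2p_fib π C)).restrictScalars (P ⧸ Ideal.span ({π} : Set P))

theorem h2p_mem_nilSub {q : C ⧸ h2p_fib π C} : q ∈ h2p_nilSub π C ↔ IsNilpotent q := by
  rw [h2p_nilSub, Submodule.restrictScalars_mem, mem_nilradical]

include b in
theorem h2p_finrank_nilSub [IsAlgClosed (P ⧸ Ideal.span ({π} : Set P))] :
    finrank (P ⧸ Ideal.span ({π} : Set P)) (h2p_nilSub π C) + h2p_pts π C =
      Fintype.card ι := by
  haveI : Module.Finite (P ⧸ Ideal.span ({π} : Set P)) (C ⧸ h2p_fib π C) :=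
    h2p_finite_fib π b
  set r : (C ⧸ h2p_fib π C) →ₗ[P ⧸ Ideal.span ({π} : Set P)]
      ((C ⧸ h2p_fib π C) ⧸ nilradical (C ⧸ h2p_fib π C)) :=
    (Ideal.Quotient.mkₐ (P ⧸ Ideal.span ({π} : Set P))
      (nilradical (C ⧸ h2p_fib π C))).toLinearMap with hr
  have hsurj : Function.Surjective r :=
    Ideal.Quotient.mkₐ_surjective (P ⧸ Ideal.span ({π} : Set P)) _
  have hker : LinearMap.ker r = h2p_nilSub π C := by
    ext q
    rw [LinearMap.mem_ker, h2p_mem_nilSub, ← mem_nilradical]
    simp only [hr, AlgHom.toLinearMap_apply, Ideal.Quotient.mkₐ_eq_mk]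
    exact Ideal.Quotient.eq_zero_iff_mem
  have h1 := LinearMap.finrank_range_add_finrank_ker r
  rw [LinearMap.range_eq_top.2 hsurj, finrank_top, hker, h2p_finrank_fib π b,
    h2_finrank_quot_nilradical (P ⧸ Ideal.span ({π} : Set P)) (C ⧸ h2p_fib π C)] at h1
  rw [h2p_pts]
  omega

include b in
theorem h2p_pts_le [IsAlgClosed (P ⧸ Ideal.span ({π} : Set P))] :
    h2p_pts π C ≤ Fintype.card ι := by
  have := h2p_finrank_nilSub π b
  omega

/-- the Gram matrix of the trace form modulo `π` has rank at most the number of points over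
`π`. -/
theorem h2p_rank_gram_le [IsAlgClosed (P ⧸ Ideal.span ({π} : Set P))] :
    (h2p_gram π b).rank ≤ h2p_pts π C := by
  set f : (ι → P ⧸ Ideal.span ({π} : Set P)) →ₗ[P ⧸ Ideal.span ({π} : Set P)]
      (ι → P ⧸ Ideal.span ({π} : Set P)) := (h2p_gram π b).mulVecLin with hf
  have hrank : (h2p_gram π b).rank = finrank (P ⧸ Ideal.span ({π} : Set P))
      (LinearMap.range f) := rfl
  have h1 := LinearMap.finrank_range_add_finrank_ker f
  rw [Module.finrank_fintype_fun_eq_card] at h1
  have h2 : Submodule.map (h2p_coordEquiv π b).toLinearMap (h2p_nilSub π C) ≤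
      LinearMap.ker f := by
    rintro v ⟨q, hq, rfl⟩
    obtain ⟨y, rfl⟩ := Ideal.Quotient.mk_surjective q
    rw [SetLike.mem_coe, h2p_mem_nilSub] at hq
    rw [LinearMap.mem_ker]
    ext i
    simp only [hf, LinearEquiv.coe_coe, h2p_coordEquiv_mk, Matrix.mulVecLin_apply,
      Pi.zero_apply]
    rw [h2p_gram_mulVec_coord]
    apply h2p_mk_trace_eq_zero π b
    rw [map_mul]
    exact Commute.isNilpotent_mul_left (Commute.all _ _) hq
  have h3 : finrank (P ⧸ Ideal.span ({π} : Set P))
      (Submodule.map (h2p_coordEquiv π b).toLinearMap (h2p_nilSub π C)) =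
      finrank (P ⧸ Ideal.span ({π} : Set P)) (h2p_nilSub π C) :=
    LinearEquiv.finrank_map_eq (h2p_coordEquiv π b) (h2p_nilSub π C)
  have h4 := Submodule.finrank_mono h2
  have h5 := h2p_finrank_nilSub π b
  rw [hrank]
  omega

section Hom

variable {C₁ : Type*} [CommRing C₁] [Algebra P C₁]
  (b₁ : Basis ι P C₁) (φ : C →ₐ[P] C₁)

/-- the matrix of `φ`, modulo `π`. -/
def h2p_homMat : Matrix ι ι (P ⧸ Ideal.span ({π} : Set P)) :=
  (LinearMap.toMatrix b b₁ φ.toLinearMap).map (Ideal.Quotient.mk (Ideal.span ({π} : Set P)))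

theorem h2p_homMat_mulVec_coord (y : C) :
    h2p_homMat π b b₁ φ *ᵥ h2p_coord π b y = h2p_coord π b₁ (φ y) := by
  have h := LinearMap.toMatrix_mulVec_repr b b₁ φ.toLinearMap y
  ext i
  have hi := congrFun h i
  simp only [Matrix.mulVec, dotProduct, AlgHom.toLinearMap_apply] at hi
  simp only [Matrix.mulVec, dotProduct, h2p_homMat, Matrix.map_apply, h2p_coord_apply]
  rw [← hi, map_sum]
  refine Finset.sum_congr rfl fun j _ => ?_
  rw [map_mul]

theorem h2p_fib_le_comap : h2p_fib π C ≤ (h2p_fib π C₁).comap (φ : C →+* C₁) := by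
  intro y hy
  rw [h2p_mem_fib_iff] at hy
  obtain ⟨z, rfl⟩ := hy
  rw [Ideal.mem_comap, h2p_mem_fib_iff]
  exact ⟨φ z, by simp⟩

/-- the matrix of `φ` modulo `π` has rank at most
`(n - #points of C₁ over π) + #points of C over π`. -/
theorem h2p_rank_hom_le [IsAlgClosed (P ⧸ Ideal.span ({π} : Set P))] :
    (h2p_homMat π b b₁ φ).rank + h2p_pts π C₁ ≤ Fintype.card ι + h2p_pts π C := by
  haveI : Module.Finite (P ⧸ Ideal.span ({π} : Set P)) (C ⧸ h2p_fib π C) :=
    h2p_finite_fib π b
  haveI : Module.Finite (P ⧸ Ideal.span ({π} : Set P)) (C₁ ⧸ h2p_fib π C₁) :=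
    h2p_finite_fib π b₁
  have hsurjmk : Function.Surjective
      (algebraMap P (P ⧸ Ideal.span ({π} : Set P))) := Ideal.Quotient.mk_surjective
  set Q := C ⧸ h2p_fib π C with hQ
  set Q₁ := C₁ ⧸ h2p_fib π C₁ with hQ₁
  -- the induced maps
  set φbar : Q →ₐ[P] Q₁ := Ideal.quotientMapₐ (h2p_fib π C₁) φ (h2p_fib_le_comap π φ)
    with hφbar
  have hnil : nilradical Q ≤ (nilradical Q₁).comap (φbar : Q →+* Q₁) := by
    intro q hq
    rw [Ideal.mem_comap, mem_nilradical]
    exact (mem_nilradical.1 hq).map (φbar : Q →+* Q₁)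
  set ψP : (Q ⧸ nilradical Q) →ₐ[P] (Q₁ ⧸ nilradical Q₁) :=
    Ideal.quotientMapₐ (nilradical Q₁) φbar hnil with hψP
  set ψ : (Q ⧸ nilradical Q) →ₗ[P ⧸ Ideal.span ({π} : Set P)] (Q₁ ⧸ nilradical Q₁) :=
    LinearMap.extendScalarsOfSurjective hsurjmk ψP.toLinearMap with hψ
  -- the projection from coordinates
  set π' : (ι → P ⧸ Ideal.span ({π} : Set P)) →ₗ[P ⧸ Ideal.span ({π} : Set P)]
      (Q₁ ⧸ nilradical Q₁) :=
    (Ideal.Quotient.mkₐ (P ⧸ Ideal.span ({π} : Set P)) (nilradical Q₁)).toLinearMap ∘ₗ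
      (h2p_coordEquiv π b₁).symm.toLinearMap with hπ'
  set f : (ι → P ⧸ Ideal.span ({π} : Set P)) →ₗ[P ⧸ Ideal.span ({π} : Set P)]
      (ι → P ⧸ Ideal.span ({π} : Set P)) := (h2p_homMat π b b₁ φ).mulVecLin with hf
  have hrank : (h2p_homMat π b b₁ φ).rank =
      finrank (P ⧸ Ideal.span ({π} : Set P)) (LinearMap.range f) := rfl
  have h1 := h2_finrank_range_le f π'
  -- the kernel of π'
  have hker : finrank (P ⧸ Ideal.span ({π} : Set P)) (LinearMap.ker π') =
      finrank (P ⧸ Ideal.span ({π} : Set P)) (h2p_nilSub π C₁) := by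
    have : LinearMap.ker π' =
        Submodule.map (h2p_coordEquiv π b₁).toLinearMap (h2p_nilSub π C₁) := by
      ext v
      rw [LinearMap.mem_ker, Submodule.mem_map]
      constructor
      · intro hv
        refine ⟨(h2p_coordEquiv π b₁).symm v, ?_, by simp⟩
        rw [h2p_mem_nilSub, ← mem_nilradical]
        simp only [hπ', LinearMap.coe_comp, LinearEquiv.coe_coe, Function.comp_apply,
          AlgHom.toLinearMap_apply, Ideal.Quotient.mkₐ_eq_mk] at hv
        exact Ideal.Quotient.eq_zero_iff_mem.1 hv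
      · rintro ⟨q, hq, rfl⟩
        rw [h2p_mem_nilSub, ← mem_nilradical] at hq
        simp only [hπ', LinearMap.coe_comp, LinearEquiv.coe_coe, Function.comp_apply,
          AlgHom.toLinearMap_apply, Ideal.Quotient.mkₐ_eq_mk, LinearEquiv.symm_apply_apply]
        exact Ideal.Quotient.eq_zero_iff_mem.2 hq
    rw [this]
    exact LinearEquiv.finrank_map_eq (h2p_coordEquiv π b₁) (h2p_nilSub π C₁)
  -- the range of π' ∘ f
  have hrange : LinearMap.range (π' ∘ₗ f) ≤ LinearMap.range ψ := by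
    rintro w ⟨v, rfl⟩
    obtain ⟨y, rfl⟩ := h2p_coord_surjective π b v
    refine ⟨Ideal.Quotient.mk _ (Ideal.Quotient.mk _ y), ?_⟩
    simp only [hπ', hf, LinearMap.coe_comp, LinearEquiv.coe_coe, Function.comp_apply,
      AlgHom.toLinearMap_apply, Ideal.Quotient.mkₐ_eq_mk, Matrix.mulVecLin_apply]
    rw [h2p_homMat_mulVec_coord, ← h2p_coordEquiv_mk, LinearEquiv.symm_apply_apply]
    rfl
  have h2 := Submodule.finrank_mono hrange
  have h3 : finrank (P ⧸ Ideal.span ({π} : Set P)) (LinearMap.range ψ) ≤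
      finrank (P ⧸ Ideal.span ({π} : Set P)) (Q ⧸ nilradical Q) :=
    LinearMap.finrank_range_le _
  have h4 : finrank (P ⧸ Ideal.span ({π} : Set P)) (Q ⧸ nilradical Q) = h2p_pts π C :=
    h2_finrank_quot_nilradical (P ⧸ Ideal.span ({π} : Set P)) Q
  have h5 := h2p_finrank_nilSub π b₁
  rw [hrank]
  omega

end Hom

end Fermat.Agent.Red.SM

end
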