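import Mathlib
import Fermat.Agent.Red.SM.DeltaPMat
import Fermat.Agent.Red.SM.DeltaPRank

/-!
# P-RED / SM: the delta-lemma over a general base, pointwise form (helper2)

`P` a domain, `π : P` generating a maximal ideal with algebraically closed residue field,
`C ⊆ C₁` finite free `P`-algebras of the same rank `n`.  If

  `ord_π disc(C) + #{maximal ideals of C over π} ≤ n`,

then `π` does not divide the determinant of the transition matrix.

Main result: `h2p_delta_point`.
-/

set_option autoImplicit false
set_option linter.style.haveILetI false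
set_option linter.unusedSectionVars false
set_option linter.unusedSimpArgs false

open Module Matrix

noncomputable section

namespace Fermat.Agent.Red.SM

attribute [local instance] Ideal.Quotient.field

variable {P : Type*} [CommRing P] [IsDomain P] {C : Type*} [CommRing C] [Algebra P C]
variable {ι : Type*} [Fintype ι] [DecidableEq ι] (b : Basis ι P C)
variable {C₁ : Type*} [CommRing C₁] [Algebra P C₁]
  (b₁ : Basis ι P C₁) (φ : C →ₐ[P] C₁)

theorem h2p_det_ne_zero (hφ : Function.Injective φ) :
    (LinearMap.toMatrix b b₁ φ.toLinearMap).det ≠ 0 := by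
  intro h
  obtain ⟨v, hv, hTv⟩ := Matrix.exists_mulVec_eq_zero_iff.2 h
  set y : C := b.equivFun.symm v with hy
  have h1 : (b.repr y : ι → P) = v := by
    have := b.equivFun.apply_symm_apply v
    rw [← hy] at this
    exact this
  have h2 := LinearMap.toMatrix_mulVec_repr b b₁ φ.toLinearMap y
  rw [h1, hTv] at h2
  have h3 : b₁.repr (φ y) = 0 := by
    apply Finsupp.ext
    intro i
    have := congrFun h2 i
    simpa using this.symm
  have h4 : φ y = 0 := by
    have := congrArg b₁.repr.symm h3
    simpa using this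
  have h5 : y = 0 := hφ (by rw [h4, map_zero])
  apply hv
  rw [← h1, h5]
  simp

include b b₁ in
theorem h2p_trace_comp (hφ : Function.Injective φ) (y : C) :
    Algebra.trace P C₁ (φ y) = Algebra.trace P C y := by
  set T := LinearMap.toMatrix b b₁ φ.toLinearMap with hT
  set M := Algebra.leftMulMatrix b y with hM
  set M₁ := Algebra.leftMulMatrix b₁ (φ y) with hM₁
  have hd : T.det ≠ 0 := h2p_det_ne_zero b b₁ φ hφ
  have hcomm : T * M = M₁ * T := by
    rw [hT, hM, hM₁, Algebra.leftMulMatrix_apply, Algebra.leftMulMatrix_apply,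
      ← LinearMap.toMatrix_comp, ← LinearMap.toMatrix_comp]
    congr 1
    ext z
    simp
  have h1 : T.det * M.trace = T.det * M₁.trace := by
    have e1 : (T.adjugate * (T * M)).trace = T.det * M.trace := by
      rw [← Matrix.mul_assoc, Matrix.adjugate_mul, Matrix.smul_mul, Matrix.one_mul,
        Matrix.trace_smul, smul_eq_mul]
    have e2 : (T.adjugate * (M₁ * T)).trace = T.det * M₁.trace := by
      rw [Matrix.trace_mul_comm, Matrix.mul_assoc, Matrix.mul_adjugate, Matrix.mul_smul,
        Matrix.mul_one, Matrix.trace_smul, smul_eq_mul]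
    rw [← e1, ← e2, hcomm]
  have h2 := mul_left_cancel₀ hd h1
  rw [Algebra.trace_eq_matrix_trace b₁, Algebra.trace_eq_matrix_trace b, h2]

theorem h2p_discr_eq (hφ : Function.Injective φ) :
    Algebra.discr P b =
      (LinearMap.toMatrix b b₁ φ.toLinearMap).det ^ 2 * Algebra.discr P b₁ := by
  set T := LinearMap.toMatrix b b₁ φ.toLinearMap with hT
  have h1 : Algebra.discr P b = Algebra.discr P (fun i => φ (b i)) := by
    rw [Algebra.discr_def, Algebra.discr_def]
    congr 1
    refine Matrix.ext fun i j => ?_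
    rw [Algebra.traceMatrix_apply, Algebra.traceMatrix_apply, Algebra.traceForm_apply,
      Algebra.traceForm_apply, ← h2p_trace_comp b b₁ φ hφ (b i * b j), map_mul]
  have h2 : (fun i => φ (b i)) = (⇑b₁ : ι → C₁) ᵥ* T.map (algebraMap P C₁) := by
    ext j
    simp only [Matrix.vecMul, dotProduct, Matrix.map_apply]
    have := b₁.sum_repr (φ (b j))
    rw [← this]
    refine Finset.sum_congr rfl fun i _ => ?_
    rw [hT, LinearMap.toMatrix_apply, Algebra.smul_def, mul_comm]
    rfl
  rw [h1, h2, Algebra.discr_of_matrix_vecMul]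

/-- a square matrix over a field with zero determinant has rank `< n`. -/
theorem h2p_rank_lt_of_det_eq_zero {κ : Type*} [Field κ] (M : Matrix ι ι κ) (h : M.det = 0) :
    M.rank < Fintype.card ι := by
  obtain ⟨v, hv, hMv⟩ := Matrix.exists_mulVec_eq_zero_iff.2 h
  have h1 := LinearMap.finrank_range_add_finrank_ker M.mulVecLin
  rw [Module.finrank_fintype_fun_eq_card] at h1
  have h2 : 0 < finrank κ (LinearMap.ker M.mulVecLin) := by
    rw [Module.finrank_pos_iff_exists_ne_zero]
    refine ⟨⟨v, ?_⟩, ?_⟩
    · rw [LinearMap.mem_ker, Matrix.mulVecLin_apply, hMv]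
    · intro h0
      exact hv (congrArg Subtype.val h0)
  have h3 : M.rank = finrank κ (LinearMap.range M.mulVecLin) := rfl
  omega

variable (π : P) [hmax : (Ideal.span ({π} : Set P)).IsMaximal]

include b₁ in
/-- **The delta-lemma, pointwise form.** -/
theorem h2p_delta_point [IsAlgClosed (P ⧸ Ideal.span ({π} : Set P))]
    (hφ : Function.Injective φ)
    (hbound : ∀ m : ℕ, π ^ m ∣ Algebra.discr P b → m + h2p_pts π C ≤ Fintype.card ι) :
    ¬ π ∣ (LinearMap.toMatrix b b₁ φ.toLinearMap).det := by
  set T := LinearMap.toMatrix b b₁ φ.toLinearMap with hT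
  have hD := h2p_discr_eq b b₁ φ hφ
  rw [← hT] at hD
  set n := Fintype.card ι with hn
  set r := (h2p_homMat π b b₁ φ).rank with hr
  set g := (h2p_gram π b₁).rank with hg
  have h2 : π ^ (n - r) ∣ T.det := h2p_pow_dvd_det_of_rank π T
  have h3 : π ^ (n - g) ∣ Algebra.discr P b₁ := by
    rw [Algebra.discr_def]
    exact h2p_pow_dvd_det_of_rank π (Algebra.traceMatrix P b₁)
  have h4 : g ≤ h2p_pts π C₁ := h2p_rank_gram_le π b₁
  have h5 := h2p_rank_hom_le π b b₁ φ
  have h6 : h2p_pts π C₁ ≤ n := h2p_pts_le π b₁
  have h7 : r ≤ n := Matrix.rank_le_card_width _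
  have h8 : π ^ (2 * (n - r) + (n - g)) ∣ Algebra.discr P b := by
    rw [hD, pow_add, pow_mul']
    exact mul_dvd_mul (pow_dvd_pow_of_dvd h2 2) h3
  have h9 := hbound _ h8
  have h10 : r = n := by omega
  intro hdvd
  have h11 : (h2p_homMat π b b₁ φ).det = 0 := by
    have e : (h2p_homMat π b b₁ φ).det =
        Ideal.Quotient.mk (Ideal.span ({π} : Set P)) T.det := by
      rw [h2p_homMat, ← hT]
      exact (RingHom.map_det (Ideal.Quotient.mk (Ideal.span ({π} : Set P))) T).symm
    rw [e, h2p_mk_eq_zero_iff]
    exact hdvd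
  have h12 := h2p_rank_lt_of_det_eq_zero _ h11
  omega

end Fermat.Agent.Red.SM

end
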