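import Mathlib
import Fermat.Agent.Red.SM.DeltaP

/-!
# P-RED / SM: the delta-lemma over a principal ideal domain (helper2)

`h2_delta_pid`: let `P` be a principal ideal domain all of whose residue fields are
algebraically closed, and `C` a domain which is a finite free `P`-algebra with basis `b`.
If for every prime element `π` of `P`

  `ord_π disc(b) + #{maximal ideals of C containing π} ≤ rank C`,

then `C` is integrally closed.  All hypotheses are instance-free.
-/

set_option autoImplicit false
set_option linter.style.haveILetI false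
set_option linter.unusedSectionVars false
set_option linter.unusedSimpArgs false

open Module Matrix

noncomputable section

namespace Fermat.Agent.Red.SM

attribute [local instance] Ideal.Quotient.field

section Count

variable {C : Type*} [CommRing C] (I : Ideal C)

/-- maximal ideals of `C ⧸ I` correspond to maximal ideals of `C` containing `I`. -/
def h2p_maxSpecEquiv :
    MaximalSpectrum (C ⧸ I) ≃ {Q : Ideal C // Q.IsMaximal ∧ I ≤ Q} where
  toFun m := ⟨m.asIdeal.comap (Ideal.Quotient.mk I),
    Ideal.comap_isMaximal_of_surjective _ Ideal.Quotient.mk_surjective (K := m.asIdeal)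
      (H := m.isMaximal),
    by
      intro x hx
      rw [Ideal.mem_comap, Ideal.Quotient.eq_zero_iff_mem.2 hx]
      exact Ideal.zero_mem _⟩
  invFun Q := ⟨Q.1.map (Ideal.Quotient.mk I), by
    have hker : RingHom.ker (Ideal.Quotient.mk I) ≤ Q.1 := by
      rw [Ideal.mk_ker]; exact Q.2.2
    haveI := Q.2.1
    rcases Ideal.map_eq_top_or_isMaximal_of_surjective (Ideal.Quotient.mk I)
      Ideal.Quotient.mk_surjective Q.2.1 with h | h
    · exfalso
      have h1 : (Q.1.map (Ideal.Quotient.mk I)).comap (Ideal.Quotient.mk I) = Q.1 := by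
        rw [Ideal.comap_map_of_surjective _ Ideal.Quotient.mk_surjective,
          ← RingHom.ker_eq_comap_bot]
        exact sup_eq_left.2 hker
      rw [h, Ideal.comap_top] at h1
      exact Q.2.1.ne_top h1.symm
    · exact h⟩
  left_inv m := by
    apply MaximalSpectrum.ext
    exact Ideal.map_comap_of_surjective _ Ideal.Quotient.mk_surjective _
  right_inv Q := by
    apply Subtype.ext
    have hker : RingHom.ker (Ideal.Quotient.mk I) ≤ Q.1 := by
      rw [Ideal.mk_ker]; exact Q.2.2
    change (Q.1.map (Ideal.Quotient.mk I)).comap (Ideal.Quotient.mk I) = Q.1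
    rw [Ideal.comap_map_of_surjective _ Ideal.Quotient.mk_surjective, ← RingHom.ker_eq_comap_bot]
    exact sup_eq_left.2 hker

end Count

variable {P : Type*} [CommRing P] {C : Type*} [CommRing C] [Algebra P C]

theorem h2p_pts_eq (π : P) :
    h2p_pts π C = Nat.card {Q : Ideal C // Q.IsMaximal ∧ algebraMap P C π ∈ Q} := by
  rw [h2p_pts, Nat.card_congr (h2p_maxSpecEquiv (h2p_fib π C))]
  apply Nat.card_congr
  refine Equiv.subtypeEquivRight fun Q => ?_
  rw [h2p_fib, Ideal.map_span, Set.image_singleton, Ideal.span_singleton_le_iff_mem]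

/-- the residue field at `π` is algebraically closed if monic polynomials have roots
modulo `π`. -/
theorem h2p_isAlgClosed (π : P) [hmax : (Ideal.span ({π} : Set P)).IsMaximal]
    (hres : ∀ f : Polynomial P, f.Monic → f.natDegree ≠ 0 → ∃ c : P, π ∣ f.eval c) :
    IsAlgClosed (P ⧸ Ideal.span ({π} : Set P)) := by
  apply IsAlgClosed.of_exists_root
  intro p hp hirr
  set mk := Ideal.Quotient.mk (Ideal.span ({π} : Set P)) with hmk
  have hlift : p ∈ Polynomial.lifts mk := by
    rw [Polynomial.mem_lifts]
    exact Polynomial.map_surjective mk Ideal.Quotient.mk_surjective p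
  obtain ⟨f, hfp, hfdeg, hfmon⟩ := Polynomial.lifts_and_natDegree_eq_and_monic hlift hp
  have hdeg : f.natDegree ≠ 0 := by
    rw [hfdeg]
    exact (Polynomial.natDegree_pos_iff_degree_pos.2
      (Polynomial.degree_pos_of_irreducible hirr)).ne'
  obtain ⟨c, hc⟩ := hres f hfmon hdeg
  refine ⟨mk c, ?_⟩
  rw [← hfp, Polynomial.eval_map, Polynomial.eval₂_hom, h2p_mk_eq_zero_iff]
  exact hc

variable [IsDomain P] [IsPrincipalIdealRing P]
variable {ι : Type*} [Fintype ι] [DecidableEq ι]

theorem h2p_algebraMap_injective [Nontrivial C] (b : Basis ι P C) :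
    Function.Injective (algebraMap P C) := by
  rw [injective_iff_map_eq_zero]
  intro p hp
  have hne : Nonempty ι := by
    by_contra h
    rw [not_nonempty_iff] at h
    have : Subsingleton C := by
      refine ⟨fun x y => ?_⟩
      apply b.repr.injective
      apply Finsupp.ext
      intro i
      exact (h.false i).elim
    exact not_subsingleton C this
  obtain ⟨i⟩ := hne
  have h1 : p • b i = 0 := by rw [Algebra.smul_def, hp, zero_mul]
  have h2 := congrArg (fun w => b.repr w i) h1
  simpa using h2

/-- **The delta-lemma over a PID**, transition-matrix form: an injective algebra map between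
finite free algebras of the same rank is surjective. -/
theorem h2_delta_pid_core {C₁ : Type*} [CommRing C₁] [Algebra P C₁]
    (b : Basis ι P C) (b₁ : Basis ι P C₁) (φ : C →ₐ[P] C₁) (hφ : Function.Injective φ)
    (hres : ∀ π : P, Prime π →
      ∀ f : Polynomial P, f.Monic → f.natDegree ≠ 0 → ∃ c : P, π ∣ f.eval c)
    (hbound : ∀ π : P, Prime π → ∀ m : ℕ, π ^ m ∣ Algebra.discr P b →
      m + Nat.card {Q : Ideal C // Q.IsMaximal ∧ algebraMap P C π ∈ Q} ≤ Fintype.card ι) :
    Function.Surjective φ := by
  set T := LinearMap.toMatrix b b₁ φ.toLinearMap with hT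
  have hd : T.det ≠ 0 := h2p_det_ne_zero b b₁ φ hφ
  have hunit : IsUnit T.det := by
    by_contra hnu
    obtain ⟨p, hp, hpd⟩ := WfDvdMonoid.exists_irreducible_factor hnu hd
    have hprime : Prime p := UniqueFactorizationMonoid.irreducible_iff_prime.1 hp
    haveI hmax : (Ideal.span ({p} : Set P)).IsMaximal :=
      PrincipalIdealRing.isMaximal_of_irreducible hp
    haveI : IsAlgClosed (P ⧸ Ideal.span ({p} : Set P)) := h2p_isAlgClosed p (hres p hprime)
    refine h2p_delta_point b b₁ φ p hφ ?_ hpd
    intro m hm
    rw [h2p_pts_eq]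
    exact hbound p hprime m hm
  set e := LinearEquiv.ofIsUnitDet (f := φ.toLinearMap) (v := b) (v' := b₁) hunit with he
  intro z
  obtain ⟨y, hy⟩ := e.surjective z
  exact ⟨y, hy⟩

/-- **The delta-lemma over a PID**, integrally closed form. -/
theorem h2_delta_pid [IsDomain C] (b : Basis ι P C)
    (hres : ∀ π : P, Prime π →
      ∀ f : Polynomial P, f.Monic → f.natDegree ≠ 0 → ∃ c : P, π ∣ f.eval c)
    (hbound : ∀ π : P, Prime π → ∀ m : ℕ, π ^ m ∣ Algebra.discr P b →
      m + Nat.card {Q : Ideal C // Q.IsMaximal ∧ algebraMap P C π ∈ Q} ≤ Fintype.card ι) :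
    IsIntegrallyClosed C := by
  classical
  rw [isIntegrallyClosed_iff (FractionRing C)]
  intro z hz
  have hinjBK : Function.Injective (algebraMap C (FractionRing C)) :=
    IsFractionRing.injective C (FractionRing C)
  have hinj0 : Function.Injective (algebraMap P C) := h2p_algebraMap_injective b
  -- the inclusion
  set φ : C →ₐ[P] (Algebra.adjoin C {z}) :=
    IsScalarTower.toAlgHom P C (Algebra.adjoin C {z}) with hφdef
  have hφval : ∀ x : C, ((φ x : Algebra.adjoin C {z}) : FractionRing C) =
      algebraMap C (FractionRing C) x := fun x => rfl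
  have hφ : Function.Injective φ := by
    intro x y hxy
    apply hinjBK
    rw [← hφval, ← hφval, hxy]
  -- finiteness and freeness
  haveI : Module.Finite C (Algebra.adjoin C {z}) :=
    Module.Finite.iff_fg.2 hz.fg_adjoin_singleton
  haveI : Module.Finite P C := Module.Finite.of_basis b
  haveI : Module.Finite P (Algebra.adjoin C {z}) :=
    Module.Finite.trans C (Algebra.adjoin C {z})
  have hinj1 : Function.Injective (algebraMap P (Algebra.adjoin C {z})) := by
    intro p q hpq
    apply hinj0
    apply hφ
    have e1 : φ (algebraMap P C p) = algebraMap P (Algebra.adjoin C {z}) p :=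
      φ.commutes p
    have e2 : φ (algebraMap P C q) = algebraMap P (Algebra.adjoin C {z}) q :=
      φ.commutes q
    rw [e1, e2, hpq]
  haveI : Module.IsTorsionFree P (Algebra.adjoin C {z}) :=
    isTorsionFree_iff_algebraMap_injective.2 hinj1
  haveI : Module.Free P (Algebra.adjoin C {z}) := Module.free_of_finite_type_torsion_free'
  -- the rank
  have hrankB : finrank P C = Fintype.card ι := Module.finrank_eq_card_basis b
  have hge : finrank P C ≤ finrank P (Algebra.adjoin C {z}) :=
    LinearMap.finrank_le_finrank_of_injective (f := φ.toLinearMap) hφ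
  have hle : finrank P (Algebra.adjoin C {z}) ≤ finrank P C := by
    obtain ⟨d, hd, hdI⟩ := FractionalIdeal.isFractional_of_fg (S := nonZeroDivisors C)
      (P := FractionRing C) (I := Subalgebra.toSubmodule (Algebra.adjoin C {z}))
      hz.fg_adjoin_singleton
    have hd0 : d ≠ 0 := nonZeroDivisors.ne_zero hd
    -- the inclusion of `C` as a `P`-linear map
    set ιK : C →ₗ[P] FractionRing C :=
      (IsScalarTower.toAlgHom P C (FractionRing C)).toLinearMap with hιK
    have hιKinj : Function.Injective ιK := hinjBK
    set md : (Algebra.adjoin C {z}) →ₗ[P] FractionRing C :=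
      { toFun := fun x => d • (x : FractionRing C)
        map_add' := fun x y => by simp [smul_add]
        map_smul' := fun c x => by
          simp only [RingHom.id_apply]
          rw [Subalgebra.coe_smul, smul_comm] } with hmd
    have hmem : ∀ x, md x ∈ LinearMap.range ιK := by
      intro x
      obtain ⟨y, hy⟩ := hdI x x.2
      exact ⟨y, hy⟩
    set ψ : (Algebra.adjoin C {z}) →ₗ[P] C :=
      (LinearEquiv.ofInjective ιK hιKinj).symm.toLinearMap ∘ₗ
        (md.codRestrict (LinearMap.range ιK) hmem) with hψ
    have hψinj : Function.Injective ψ := by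
      intro x y hxy
      have h1 : md.codRestrict (LinearMap.range ιK) hmem x =
          md.codRestrict (LinearMap.range ιK) hmem y :=
        (LinearEquiv.ofInjective ιK hιKinj).symm.injective hxy
      have h2 : md x = md y := congrArg Subtype.val h1
      have h3 : d • (x : FractionRing C) = d • (y : FractionRing C) := h2
      rw [Algebra.smul_def, Algebra.smul_def] at h3
      have h4 : algebraMap C (FractionRing C) d ≠ 0 := by
        intro h
        exact hd0 (hinjBK (by rw [h, map_zero]))
      exact Subtype.ext (mul_left_cancel₀ h4 h3)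
    exact LinearMap.finrank_le_finrank_of_injective hψinj
  have hrank : finrank P (Algebra.adjoin C {z}) = Fintype.card ι := by omega
  set b₁ : Basis ι P (Algebra.adjoin C {z}) :=
    (Module.finBasisOfFinrankEq P (Algebra.adjoin C {z}) hrank).reindex
      (Fintype.equivFin ι).symm with hb₁
  have hsurj := h2_delta_pid_core b b₁ φ hφ hres hbound
  obtain ⟨y, hy⟩ := hsurj ⟨z, Algebra.subset_adjoin (Set.mem_singleton z)⟩
  refine ⟨y, ?_⟩
  rw [← hφval, hy]

end Fermat.Agent.Red.SM

end
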