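import Mathlib
import Fermat.Agent.Red.SM.CoreSkeleton
import Fermat.Agent.Red.SM.DeltaPID
import Fermat.Agent.Red.SM.SepDeriv

/-!
# P-RED / SM-CORE-SPEC: the special fibre (helper99, second seat)

`h99s_special : Fermat.Agent.Red.SM.Core.h74_Special`.

The proof is done over a generic base `R` with an ideal `I` and an isomorphism
`σ : R ⧸ I ≃+* k[X]` (`h99s_generic`), and instantiated at `R = A[X]`, `I = 𝔪_A A[X]` at the end.
-/

set_option autoImplicit false
set_option linter.style.haveILetI false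
set_option linter.unusedSectionVars false
set_option linter.unusedSimpArgs false
set_option linter.unusedVariables false

open Polynomial Module Matrix

noncomputable section

namespace Fermat.Agent.Red.SM

section Transport

variable {P P' C : Type*} [CommRing P] [CommRing P'] [CommRing C] [Algebra P C] [Algebra P' C]
  (σ : P ≃+* P') (hσ : ∀ (c : P) (x : C), σ c • x = c • x)
  {ι : Type*} [Fintype ι] [DecidableEq ι] (b : Basis ι P C)

theorem h99s_repr_mapCoeffs (x : C) (i : ι) :
    (b.mapCoeffs σ hσ).repr x i = σ (b.repr x i) := by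
  simp [Basis.mapCoeffs]

include b hσ in
theorem h99s_trace_mapCoeffs (x : C) : Algebra.trace P' C x = σ (Algebra.trace P C x) := by
  rw [Algebra.trace_eq_matrix_trace (b.mapCoeffs σ hσ), Algebra.trace_eq_matrix_trace b]
  simp only [Matrix.trace, Matrix.diag_apply, map_sum]
  refine Finset.sum_congr rfl fun i _ => ?_
  rw [Algebra.leftMulMatrix_eq_repr_mul, Algebra.leftMulMatrix_eq_repr_mul,
    Basis.mapCoeffs_apply, h99s_repr_mapCoeffs]

theorem h99s_discr_mapCoeffs :
    Algebra.discr P' (b.mapCoeffs σ hσ) = σ (Algebra.discr P b) := by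
  rw [Algebra.discr_def, Algebra.discr_def]
  have h1 : Algebra.traceMatrix P' (b.mapCoeffs σ hσ) =
      (Algebra.traceMatrix P b).map σ := by
    ext i j
    rw [Matrix.map_apply, Algebra.traceMatrix_apply, Algebra.traceMatrix_apply,
      Algebra.traceForm_apply, Algebra.traceForm_apply, Basis.mapCoeffs_apply,
      Basis.mapCoeffs_apply, h99s_trace_mapCoeffs σ hσ b]
  rw [h1]
  have h2 := (RingHom.map_det (σ : P →+* P') (Algebra.traceMatrix P b)).symm
  rw [RingHom.mapMatrix_apply] at h2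
  exact h2

end Transport

section MaxEquiv

variable {B : Type*} [CommRing B] (J : Ideal B) (y : B)

/-- maximal ideals of `B ⧸ J` containing the class of `y` correspond to the maximal ideals of
`B` containing `J` and `y`. -/
def h99s_maxEquiv :
    {Q : Ideal (B ⧸ J) // Q.IsMaximal ∧ Ideal.Quotient.mk J y ∈ Q} ≃
      {𝔫 : Ideal B // 𝔫.IsMaximal ∧ J ≤ 𝔫 ∧ y ∈ 𝔫} where
  toFun Q := ⟨Q.1.comap (Ideal.Quotient.mk J),
    haveI := Q.2.1
    Ideal.comap_isMaximal_of_surjective _ Ideal.Quotient.mk_surjective,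
    fun x hx => by
      rw [Ideal.mem_comap, Ideal.Quotient.eq_zero_iff_mem.2 hx]
      exact Q.1.zero_mem,
    Q.2.2⟩
  invFun 𝔫 := ⟨𝔫.1.map (Ideal.Quotient.mk J), by
    rcases Ideal.map_eq_top_or_isMaximal_of_surjective (Ideal.Quotient.mk J)
      Ideal.Quotient.mk_surjective 𝔫.2.1 with h | h
    · exfalso
      have h1 := congrArg (Ideal.comap (Ideal.Quotient.mk J)) h
      rw [Ideal.comap_map_of_surjective _ Ideal.Quotient.mk_surjective, Ideal.comap_top,
        ← RingHom.ker_eq_comap_bot, Ideal.mk_ker, sup_eq_left.2 𝔫.2.2.1] at h1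
      exact 𝔫.2.1.ne_top h1
    · exact h,
    Ideal.mem_map_of_mem _ 𝔫.2.2.2⟩
  left_inv Q := by
    apply Subtype.ext
    exact Ideal.map_comap_of_surjective _ Ideal.Quotient.mk_surjective _
  right_inv 𝔫 := by
    apply Subtype.ext
    change (𝔫.1.map (Ideal.Quotient.mk J)).comap (Ideal.Quotient.mk J) = 𝔫.1
    rw [Ideal.comap_map_of_surjective _ Ideal.Quotient.mk_surjective,
      ← RingHom.ker_eq_comap_bot, Ideal.mk_ker, sup_eq_left.2 𝔫.2.2.1]

end MaxEquiv

section Primes

variable {k : Type*} [Field k] [IsAlgClosed k]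

/-- over an algebraically closed field every prime polynomial is associated to some `X - a`. -/
theorem h99s_exists_associated {q : k[X]} (hq : Prime q) : ∃ a : k, Associated (X - C a) q := by
  have hirr : Irreducible q := hq.irreducible
  have hdeg : q.degree ≠ 0 := by
    rw [IsAlgClosed.degree_eq_one_of_irreducible k hirr]
    exact one_ne_zero
  obtain ⟨a, ha⟩ := IsAlgClosed.exists_root q hdeg
  refine ⟨a, ?_⟩
  exact (Polynomial.irreducible_X_sub_C a).associated_of_dvd hirr
    (Polynomial.dvd_iff_isRoot.2 ha)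

end Primes

section Generic

open Fermat.Agent.S24 (laurentD)

variable {R B : Type*} [CommRing R] [CommRing B] [Algebra R B]
variable {k : Type*} [Field k] [IsAlgClosed k]

/-- **SM-CORE-SPEC**, generic form. -/
theorem h99s_generic (I : Ideal R) (p : ℕ) (hp : p.Prime) [CharP k p]
    (σ : (R ⧸ I) ≃+* k[X])
    (ρ : B →+* LaurentSeries k) (hρker : RingHom.ker ρ = I.map (algebraMap R B))
    (hρC : ∀ c : k, ∃ r : R, σ (Ideal.Quotient.mk I r) = C c ∧
      ρ (algebraMap R B r) = HahnSeries.C c)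
    (hρX : ∃ r : R, σ (Ideal.Quotient.mk I r) = X ∧ laurentD k (ρ (algebraMap R B r)) ≠ 0)
    (n : ℕ) (bQ : Module.Basis (Fin n) (R ⧸ I) (B ⧸ I.map (algebraMap R B))) :
    σ (Algebra.discr (R ⧸ I) bQ) ≠ 0 ∧
    ((∀ a : k, ∃ r : R, σ (Ideal.Quotient.mk I r) = X - C a ∧
        (σ (Algebra.discr (R ⧸ I) bQ)).rootMultiplicity a +
          Nat.card {𝔫 : Ideal B // 𝔫.IsMaximal ∧ I.map (algebraMap R B) ≤ 𝔫 ∧
            algebraMap R B r ∈ 𝔫} ≤ n) →
      IsDedekindDomain (B ⧸ I.map (algebraMap R B))) := by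
  classical
  haveI : Fact p.Prime := ⟨hp⟩
  haveI hdomC : IsDomain (B ⧸ I.map (algebraMap R B)) := by
    rw [Ideal.Quotient.isDomain_iff_prime, ← hρker]
    exact RingHom.ker_isPrime ρ
  haveI hdomP : IsDomain (R ⧸ I) := σ.toMulEquiv.isDomain
  haveI hPID : IsPrincipalIdealRing (R ⧸ I) :=
    IsPrincipalIdealRing.of_surjective (σ.symm : k[X] →+* R ⧸ I) σ.symm.surjective
  have halg : ∀ r : R, algebraMap (R ⧸ I) (B ⧸ I.map (algebraMap R B)) (Ideal.Quotient.mk I r) =
      Ideal.Quotient.mk (I.map (algebraMap R B)) (algebraMap R B r) := fun r => rfl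
  -- the embedding
  set φ : (B ⧸ I.map (algebraMap R B)) →+* LaurentSeries k :=
    Ideal.Quotient.lift (I.map (algebraMap R B)) ρ (fun x hx => by
      rw [← RingHom.mem_ker, hρker]; exact hx) with hφ
  have hφinj : Function.Injective φ := by
    rw [injective_iff_map_eq_zero]
    intro y hy
    obtain ⟨y, rfl⟩ := Ideal.Quotient.mk_surjective y
    rw [hφ, Ideal.Quotient.lift_mk] at hy
    rw [Ideal.Quotient.eq_zero_iff_mem, ← hρker]
    exact hy
  -- part 1: the discriminant
  have hdisc : σ (Algebra.discr (R ⧸ I) bQ) ≠ 0 := by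
    letI alg' : Algebra k[X] (B ⧸ I.map (algebraMap R B)) :=
      ((algebraMap (R ⧸ I) (B ⧸ I.map (algebraMap R B))).comp
        (σ.symm : k[X] →+* R ⧸ I)).toAlgebra
    have hsmul : ∀ (c : R ⧸ I) (x : B ⧸ I.map (algebraMap R B)), σ c • x = c • x := by
      intro c x
      rw [Algebra.smul_def, Algebra.smul_def]
      change algebraMap (R ⧸ I) (B ⧸ I.map (algebraMap R B)) (σ.symm (σ c)) * x = _
      rw [σ.symm_apply_apply]
    have hφC : ∀ c : k, φ (algebraMap k[X] (B ⧸ I.map (algebraMap R B)) (C c)) =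
        HahnSeries.C c := by
      intro c
      obtain ⟨r, hr1, hr2⟩ := hρC c
      change φ (algebraMap (R ⧸ I) (B ⧸ I.map (algebraMap R B)) (σ.symm (C c))) = _
      rw [← hr1, σ.symm_apply_apply, halg, hφ, Ideal.Quotient.lift_mk, hr2]
    have hφX : laurentD k (φ (algebraMap k[X] (B ⧸ I.map (algebraMap R B)) X)) ≠ 0 := by
      obtain ⟨r, hr1, hr2⟩ := hρX
      change laurentD k (φ (algebraMap (R ⧸ I) (B ⧸ I.map (algebraMap R B)) (σ.symm X))) ≠ 0
      rw [← hr1, σ.symm_apply_apply, halg, hφ, Ideal.Quotient.lift_mk]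
      exact hr2
    have h1 := h84_discr_ne_zero_of_embedding p φ hφinj hφC hφX (bQ.mapCoeffs σ hsmul)
    rwa [h99s_discr_mapCoeffs σ hsmul bQ] at h1
  refine ⟨hdisc, fun hbound => ?_⟩
  -- part 2: integrally closed
  have hic : IsIntegrallyClosed (B ⧸ I.map (algebraMap R B)) := by
    apply h2_delta_pid bQ
    · intro π hπ f hf hdeg
      have hσπ : Prime (σ π) := (MulEquiv.prime_iff σ.toMulEquiv).2 hπ
      obtain ⟨a, ha⟩ := h99s_exists_associated hσπ
      set g : k[X] := (f.map (σ : (R ⧸ I) →+* k[X])).map (Polynomial.evalRingHom a) with hg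
      have hgm : g.Monic := (hf.map _).map _
      have hgdeg : g.degree ≠ 0 := by
        rw [Polynomial.degree_eq_natDegree hgm.ne_zero, hg, (hf.map _).natDegree_map,
          hf.natDegree_map]
        exact_mod_cast hdeg
      obtain ⟨t, ht⟩ := IsAlgClosed.exists_root g hgdeg
      refine ⟨σ.symm (C t), ?_⟩
      have h1 : σ (f.eval (σ.symm (C t))) = (f.map (σ : (R ⧸ I) →+* k[X])).eval (C t) := by
        have := Polynomial.eval_map_apply (p := f) (σ : (R ⧸ I) →+* k[X]) (σ.symm (C t))
        rw [RingEquiv.coe_toRingHom, σ.apply_symm_apply] at this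
        exact this.symm
      have h2 : (σ (f.eval (σ.symm (C t)))).eval a = 0 := by
        rw [h1]
        have := Polynomial.eval_map_apply (p := f.map (σ : (R ⧸ I) →+* k[X]))
          (Polynomial.evalRingHom a) (C t)
        rw [Polynomial.coe_evalRingHom, Polynomial.eval_C] at this
        rw [← this]
        exact ht
      have h3 : (X - C a) ∣ σ (f.eval (σ.symm (C t))) := Polynomial.dvd_iff_isRoot.2 h2
      have h4 : σ π ∣ σ (f.eval (σ.symm (C t))) := ha.symm.dvd.trans h3
      exact (map_dvd_iff σ).1 h4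
    · intro π hπ m hm
      have hσπ : Prime (σ π) := (MulEquiv.prime_iff σ.toMulEquiv).2 hπ
      obtain ⟨a, ha⟩ := h99s_exists_associated hσπ
      obtain ⟨r, hr, hle⟩ := hbound a
      have hm1 : m ≤ (σ (Algebra.discr (R ⧸ I) bQ)).rootMultiplicity a := by
        rw [Polynomial.le_rootMultiplicity_iff hdisc]
        have h1 : σ π ^ m ∣ σ (Algebra.discr (R ⧸ I) bQ) := by
          rw [← map_pow]
          exact (map_dvd_iff σ).2 hm
        exact (ha.pow_pow (n := m)).dvd.trans h1
      have hassoc : Associated (Ideal.Quotient.mk I r) π := by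
        have h1 : Associated (σ (Ideal.Quotient.mk I r)) (σ π) := by rw [hr]; exact ha
        obtain ⟨u, hu⟩ := h1
        refine ⟨Units.map (σ.symm : k[X] →* R ⧸ I) u, ?_⟩
        apply σ.injective
        rw [map_mul, ← hu]
        congr 1
        simp
      have hcard : Nat.card {Q : Ideal (B ⧸ I.map (algebraMap R B)) // Q.IsMaximal ∧
          algebraMap (R ⧸ I) (B ⧸ I.map (algebraMap R B)) π ∈ Q} =
          Nat.card {𝔫 : Ideal B // 𝔫.IsMaximal ∧ I.map (algebraMap R B) ≤ 𝔫 ∧
            algebraMap R B r ∈ 𝔫} := by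
        rw [← Nat.card_congr (h99s_maxEquiv (I.map (algebraMap R B)) (algebraMap R B r))]
        refine Nat.card_congr (Equiv.subtypeEquivRight fun Q => ?_)
        rw [← halg]
        obtain ⟨u, hu⟩ := hassoc
        constructor
        · rintro ⟨h1, h2⟩
          refine ⟨h1, ?_⟩
          have h3 : algebraMap (R ⧸ I) (B ⧸ I.map (algebraMap R B)) (Ideal.Quotient.mk I r) =
              algebraMap (R ⧸ I) (B ⧸ I.map (algebraMap R B)) π *
                algebraMap (R ⧸ I) (B ⧸ I.map (algebraMap R B)) ((u⁻¹ : (R ⧸ I)ˣ) : R ⧸ I) := by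
            rw [← map_mul, ← hu, mul_assoc, Units.mul_inv, mul_one]
          rw [h3]
          exact Ideal.mul_mem_right _ _ h2
        · rintro ⟨h1, h2⟩
          refine ⟨h1, ?_⟩
          rw [← hu, map_mul]
          exact Ideal.mul_mem_right _ _ h2
      rw [hcard, Fintype.card_fin]
      omega
  -- Dedekind
  haveI : Module.Finite (R ⧸ I) (B ⧸ I.map (algebraMap R B)) := Module.Finite.of_basis bQ
  haveI : Algebra.IsIntegral (R ⧸ I) (B ⧸ I.map (algebraMap R B)) := inferInstance
  haveI : IsNoetherianRing (B ⧸ I.map (algebraMap R B)) :=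
    isNoetherian_of_tower (R ⧸ I)
      (isNoetherian_of_isNoetherianRing_of_finite (R ⧸ I) (B ⧸ I.map (algebraMap R B)))
  haveI : Ring.DimensionLEOne (B ⧸ I.map (algebraMap R B)) :=
    Ring.DimensionLEOne.of_isIntegral (R ⧸ I) (B ⧸ I.map (algebraMap R B))
  exact { }

end Generic

section Concrete

open Fermat.Agent.Red.SM.Core Fermat.Agent.Red.SM.EtAbs

attribute [local instance] FractionRing.liftAlgebra FractionRing.isScalarTower_liftAlgebra

universe u v

/-- **SM-CORE-SPEC**: the special fibre statement frozen in `CoreSkeleton.lean`. -/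
theorem h99s_special : Fermat.Agent.Red.SM.Core.h74_Special.{u, v} := by
  intro K _ A _ p hp hchar B _ _ _ _ _ ρ hρker hρC hρx n e s D hTD
  obtain ⟨bQ, hbQ1, hbQ2⟩ := hTD.special
  haveI := hchar
  set σ : (A[X] ⧸ h74_I A) ≃+* (IsLocalRing.ResidueField A)[X] :=
    (Ideal.polynomialQuotientEquivQuotientPolynomial (IsLocalRing.maximalIdeal A)).symm with hσ
  have hσmk : ∀ q : A[X], σ (Ideal.Quotient.mk (h74_I A) q) = q.map (IsLocalRing.residue A) :=
    fun q => Ideal.polynomialQuotientEquivQuotientPolynomial_symm_mk _ q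
  have hC : ∀ c : IsLocalRing.ResidueField A, ∃ r : A[X],
      σ (Ideal.Quotient.mk (h74_I A) r) = C c ∧
        ρ (algebraMap A[X] B r) = HahnSeries.C c := by
    intro c
    obtain ⟨c, rfl⟩ := IsLocalRing.residue_surjective c
    exact ⟨C c, by rw [hσmk, Polynomial.map_C], hρC c⟩
  have hX : ∃ r : A[X], σ (Ideal.Quotient.mk (h74_I A) r) = X ∧
      Fermat.Agent.S24.laurentD (IsLocalRing.ResidueField A) (ρ (algebraMap A[X] B r)) ≠ 0 :=
    ⟨X, by rw [hσmk, Polynomial.map_X], hρx⟩
  obtain ⟨h1, h2⟩ := h99s_generic (h74_I A) p hp σ ρ hρker hC hX n bQ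
  have hD : σ (Algebra.discr (A[X] ⧸ h74_I A) bQ) = D.map (IsLocalRing.residue A) := by
    rw [← hbQ2, hσmk]
  rw [hD] at h1 h2
  refine ⟨h1, fun hb => h2 fun a => ?_⟩
  obtain ⟨c, rfl⟩ := IsLocalRing.residue_surjective a
  refine ⟨X - C c, ?_, hb c⟩
  rw [hσmk, Polynomial.map_sub, Polynomial.map_X, Polynomial.map_C]

end Concrete

end Fermat.Agent.Red.SM

end
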