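import Mathlib

/-!
# P-RED / SM: normality at the cusps, abstract core (Mathlib only)

Let `O` be an integrally closed noetherian domain with fraction field `E`, `s ≠ 0` an element of
the Jacobson radical of `O` (for instance a uniformiser of a discrete valuation ring), `L / E` a
finite separable extension of degree `n` and `φ i : L →ₐ[E] Ω` (`i : ι`, `card ι = n`) pairwise
distinct embeddings into a field `Ω` with a subring `R` such that `E ∩ R ⊆ O`
(think of `Ω = k((x))`, `R = k[[x]]`, the `φ i` the expansions at the cusps).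

* `isIntegral_of_forall_mem` : an element of `L` all of whose conjugates `φ i x` lie in `R` is
  integral over `O`.
* `mem_of_isIntegral` : if every integral element of `L` is congruent modulo `s R` (at all
  `φ i` simultaneously) to an element of the subalgebra `B`, then `B` contains the integral
  closure of `O` in `L`.
-/

set_option autoImplicit false

open Polynomial

namespace Fermat.Agent.Red.SM.CuspAbs

section embeddings

variable {E L Ω : Type*} [Field E] [Field L] [Field Ω] [Algebra E L] [Algebra E Ω]
  [FiniteDimensional E L] [Algebra.IsSeparable E L]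

/-- `n = [L : E]` pairwise distinct embeddings exhaust the embeddings into any algebraically
closed extension. -/
theorem exists_eq_comp {ι : Type*} [Fintype ι] (φ : ι → (L →ₐ[E] Ω))
    (hφ : Function.Injective φ) (hcard : Fintype.card ι = Module.finrank E L)
    (Ω' : Type*) [Field Ω'] [IsAlgClosed Ω'] [Algebra Ω Ω'] [Algebra E Ω']
    [IsScalarTower E Ω Ω'] (ψ : L →ₐ[E] Ω') :
    ∃ i, ψ = (IsScalarTower.toAlgHom E Ω Ω').comp (φ i) := by
  classical
  let F : ι → (L →ₐ[E] Ω') := fun i => (IsScalarTower.toAlgHom E Ω Ω').comp (φ i)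
  have hF : Function.Injective F := by
    intro i j hij
    apply hφ
    ext x
    have h1 : F i x = F j x := by rw [hij]
    exact (algebraMap Ω Ω').injective h1
  have hc : Fintype.card ι = Fintype.card (L →ₐ[E] Ω') := by
    rw [hcard, AlgHom.card]
  have hb : Function.Bijective F :=
    (Fintype.bijective_iff_injective_and_card F).2 ⟨hF, hc⟩
  obtain ⟨i, hi⟩ := hb.2 ψ
  exact ⟨i, hi.symm⟩

end embeddings

section integral

variable {O E L Ω : Type*} [CommRing O] [Field E] [Algebra O E]
  [Field L] [Algebra E L] [Algebra O L] [IsScalarTower O E L]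
  [FiniteDimensional E L] [Algebra.IsSeparable E L] [Field Ω] [Algebra E Ω]

theorem esymm_mem_subring {S : Type*} [CommRing S] (T : Subring S) (m : Multiset S)
    (hm : ∀ a ∈ m, a ∈ T) (k : ℕ) : m.esymm k ∈ T := by
  classical
  rw [Multiset.esymm]
  refine Subring.multiset_sum_mem T _ ?_
  intro a ha
  rw [Multiset.mem_map] at ha
  obtain ⟨t, ht, rfl⟩ := ha
  refine Subring.multiset_prod_mem T _ ?_
  intro b hb
  exact hm b (Multiset.mem_of_le (Multiset.mem_powersetCard.1 ht).1 hb)

/-- an element all of whose conjugates lie in `R` is integral over `O`. -/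
theorem isIntegral_of_forall_mem (R : Subring Ω)
    (hER : ∀ e : E, algebraMap E Ω e ∈ R → e ∈ (algebraMap O E).range)
    {ι : Type*} [Fintype ι] (φ : ι → (L →ₐ[E] Ω)) (hφ : Function.Injective φ)
    (hcard : Fintype.card ι = Module.finrank E L)
    (x : L) (hx : ∀ i, φ i x ∈ R) : IsIntegral O x := by
  classical
  let Ω' := AlgebraicClosure Ω
  have hst : IsScalarTower E Ω Ω' := inferInstance
  have hxint : IsIntegral E x := Algebra.IsIntegral.isIntegral x
  set m := minpoly E x with hm
  have hmonic : m.Monic := minpoly.monic hxint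
  set m' := m.map (algebraMap E Ω') with hm'
  have hsplit : m'.Splits := IsAlgClosed.splits _
  have hmonic' : m'.Monic := hmonic.map _
  let R' : Subring Ω' := R.map (algebraMap Ω Ω')
  -- the roots lie in `R'`
  have hroots : ∀ a ∈ m'.roots, a ∈ R' := by
    intro a ha
    have h1 : a ∈ m.rootSet Ω' := by
      rw [Polynomial.mem_rootSet_of_ne hmonic.ne_zero, Polynomial.aeval_def,
        ← Polynomial.eval_map]
      exact (Polynomial.mem_roots hmonic'.ne_zero).1 ha
    rw [← Algebra.IsAlgebraic.range_eval_eq_rootSet_minpoly (A := Ω') x] at h1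
    obtain ⟨ψ, rfl⟩ := h1
    obtain ⟨i, rfl⟩ := exists_eq_comp φ hφ hcard Ω' ψ
    exact ⟨φ i x, hx i, rfl⟩
  -- the coefficients lie in `R'`
  have hcoeff : ∀ k, m'.coeff k ∈ R' := by
    intro k
    by_cases hk : k ≤ m'.natDegree
    · rw [Polynomial.coeff_eq_esymm_roots_of_splits hsplit hk, hmonic'.leadingCoeff, one_mul]
      refine Subring.mul_mem _ ?_ (esymm_mem_subring R' _ hroots _)
      exact Subring.pow_mem _ (Subring.neg_mem _ (Subring.one_mem _)) _
    · rw [Polynomial.coeff_eq_zero_of_natDegree_lt (not_le.1 hk)]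
      exact Subring.zero_mem _
  -- hence in `O`
  have hO : ∀ k, m.coeff k ∈ (algebraMap O E).range := by
    intro k
    apply hER
    obtain ⟨r, hr, hrk⟩ := hcoeff k
    have h2 : algebraMap Ω Ω' r = algebraMap Ω Ω' (algebraMap E Ω (m.coeff k)) := by
      rw [hrk, hm', Polynomial.coeff_map]
      rfl
    rw [← (algebraMap Ω Ω').injective h2]
    exact hr
  have hlift : m ∈ Polynomial.lifts (algebraMap O E) := by
    rw [Polynomial.lifts_iff_coeff_lifts]
    intro k
    obtain ⟨a, ha⟩ := hO k
    exact ⟨a, ha⟩
  obtain ⟨p, hp, -, hpm⟩ := Polynomial.lifts_and_degree_eq_and_monic hlift hmonic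
  refine ⟨p, hpm, ?_⟩
  have h3 : Polynomial.eval₂ (algebraMap O L) x p
      = Polynomial.eval₂ (algebraMap E L) x (p.map (algebraMap O E)) := by
    rw [Polynomial.eval₂_map, IsScalarTower.algebraMap_eq O E L]
  rw [h3, hp]
  exact minpoly.aeval E x

end integral

section main

variable {O E L Ω : Type*} [CommRing O] [IsDomain O] [IsNoetherianRing O] [IsIntegrallyClosed O]
  [Field E] [Algebra O E] [IsFractionRing O E]
  [Field L] [Algebra E L] [Algebra O L] [IsScalarTower O E L]
  [FiniteDimensional E L] [Algebra.IsSeparable E L] [Field Ω] [Algebra E Ω]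

/-- **normality from expansions.**  If every integral element of `L` agrees modulo `s R`, at
all embeddings simultaneously, with an element of `B`, then `B` contains every integral
element. -/
theorem mem_of_isIntegral (s : O) (hs0 : s ≠ 0) (hsJ : s ∈ Ideal.jacobson (⊥ : Ideal O))
    (R : Subring Ω) (hER : ∀ e : E, algebraMap E Ω e ∈ R → e ∈ (algebraMap O E).range)
    {ι : Type*} [Fintype ι] (φ : ι → (L →ₐ[E] Ω)) (hφ : Function.Injective φ)
    (hcard : Fintype.card ι = Module.finrank E L)
    (B : Subalgebra O L)
    (hsurj : ∀ f : L, IsIntegral O f → ∃ g ∈ B, ∀ i, ∃ r ∈ R,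
      φ i (f - g) = algebraMap E Ω (algebraMap O E s) * r)
    (f : L) (hf : IsIntegral O f) : f ∈ B := by
  classical
  let B' : Subalgebra O L := integralClosure O L
  have hnoeth : IsNoetherian O ↥B' := IsIntegralClosure.isNoetherian O E L ↥B'
  have hfg : (Subalgebra.toSubmodule B').FG := by
    have : Module.Finite O ↥(Subalgebra.toSubmodule B') :=
      Module.Finite.of_surjective (LinearMap.id : ↥B' →ₗ[O] ↥B') Function.surjective_id
    exact Module.Finite.iff_fg.1 this
  have hsE : algebraMap O E s ≠ 0 := by
    intro h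
    exact hs0 ((IsFractionRing.injective O E) (by rw [h, map_zero]))
  have hsL : algebraMap O L s ≠ 0 := by
    rw [IsScalarTower.algebraMap_apply O E L]
    intro h
    exact hsE ((algebraMap E L).injective (by rw [h, map_zero]))
  have hsΩ : algebraMap E Ω (algebraMap O E s) ≠ 0 := by
    intro h
    exact hsE ((algebraMap E Ω).injective (by rw [h, map_zero]))
  have hle : Subalgebra.toSubmodule B' ≤
      Subalgebra.toSubmodule B ⊔ (Ideal.span {s}) • Subalgebra.toSubmodule B' := by
    intro y hy
    have hy' : IsIntegral O y := hy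
    obtain ⟨g, hg, hr⟩ := hsurj y hy'
    set x : L := (algebraMap O L s)⁻¹ * (y - g) with hxdef
    have hxR : ∀ i, φ i x ∈ R := by
      intro i
      obtain ⟨r, hrR, hri⟩ := hr i
      have h1 : φ i x = r := by
        rw [hxdef, map_mul, map_inv₀, hri]
        have h2 : φ i (algebraMap O L s) = algebraMap E Ω (algebraMap O E s) := by
          rw [IsScalarTower.algebraMap_apply O E L, AlgHom.commutes]
        rw [h2, ← mul_assoc, inv_mul_cancel₀ hsΩ, one_mul]
      rw [h1]
      exact hrR
    have hxint : IsIntegral O x := isIntegral_of_forall_mem R hER φ hφ hcard x hxR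
    have hyx : y = g + s • x := by
      rw [hxdef, Algebra.smul_def, ← mul_assoc, mul_inv_cancel₀ hsL, one_mul]
      ring
    rw [hyx]
    refine Submodule.add_mem_sup hg ?_
    exact Submodule.smul_mem_smul (Ideal.mem_span_singleton_self s) hxint
  have hJ : Ideal.span {s} ≤ Ideal.jacobson (⊥ : Ideal O) := by
    rw [Ideal.span_le]
    intro a ha
    rw [Set.mem_singleton_iff] at ha
    rw [ha]
    exact hsJ
  have hfinal := Submodule.le_of_le_smul_of_le_jacobson_bot hfg hJ hle
  exact hfinal hf

end main

end Fermat.Agent.Red.SM.CuspAbs
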