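import Mathlib

/-!
# P-RED / R-SM, SM-DICT (helper25): valuation subrings over a Dedekind domain

`R` is a Dedekind domain with fraction field `F`.  Mathlib only.

* `h25d_exists_heightOne` : a valuation subring `W ≠ ⊤` of `F` containing `R` is the valuation
  ring of a height-one prime `P` of `R` (its centre).
* `h25d_heightOne_unique` : that prime is unique.
* `h25d_mem_nonunits_iff` : `f ∈ 𝔪_W ↔ v_P(f) < 1`; `h25d_algebraMap_mem_nonunits_iff` :
  for `r : R`, `r ∈ 𝔪_W ↔ r ∈ P`.
* `h25d_exists_mul_of_mem_sq` : if `ξ ∈ P ^ 2` then `ξ = y * z` with `y, z ∈ 𝔪_W`.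
* `h25d_mem_sq_of_mul` : if `ξ = y * z` with `y, z ∈ 𝔪_W` then `ξ ∈ P ^ 2`.
* `h25d_not_mem_sq_of_unram` : the "unramified" hypothesis in the shape of
  `CoreBranch.unram` implies `ξ ∉ P ^ 2` for every height-one prime `P ∋ ξ`.
-/

set_option autoImplicit false

noncomputable section

namespace Fermat.Agent.Red.SM

open IsDedekindDomain WithZero

variable {F : Type*} [Field F]
variable {R : Type*} [CommRing R] [IsDedekindDomain R] [Algebra R F] [IsFractionRing R F]

/-- the valuation ring of a height-one prime contains `R`. -/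
theorem h25d_algebraMap_mem (P : HeightOneSpectrum R) (r : R) :
    algebraMap R F r ∈ (P.valuation F).valuationSubring := by
  rw [Valuation.mem_valuationSubring_iff]
  exact P.valuation_le_one r

/-- the valuation ring of a height-one prime is not the whole field. -/
theorem h25d_valuationSubring_ne_top (P : HeightOneSpectrum R) :
    (P.valuation F).valuationSubring ≠ ⊤ := by
  intro h
  obtain ⟨ϖ, hϖ'⟩ := P.valuation_exists_uniformizer' F
  have hϖ : P.valuation F (algebraMap R F ϖ) = exp (-1 : ℤ) := hϖ'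
  have hϖ0 : algebraMap R F ϖ ≠ 0 := by
    intro h0
    rw [h0, map_zero] at hϖ
    exact absurd hϖ.symm (by simp)
  have h1 : (algebraMap R F ϖ)⁻¹ ∈ (P.valuation F).valuationSubring := by
    rw [h]; exact ValuationSubring.mem_top _
  rw [Valuation.mem_valuationSubring_iff, map_inv₀, hϖ] at h1
  have h2 : (exp (-1 : ℤ) : ℤᵐ⁰)⁻¹ = exp (1 : ℤ) := by
    rw [← exp_neg]; simp
  rw [h2] at h1
  have h3 : (exp (1 : ℤ) : ℤᵐ⁰) ≤ exp (0 : ℤ) := by simpa using h1
  rw [exp_le_exp] at h3
  omega

/-- `f` is a non-unit of the valuation ring of `P` iff `v_P(f) < 1`. -/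
theorem h25d_mem_nonunits_iff (P : HeightOneSpectrum R) (f : F) :
    f ∈ (P.valuation F).valuationSubring.nonunits ↔ P.valuation F f < 1 := by
  rw [ValuationSubring.mem_nonunits_iff_exists_mem_maximalIdeal]
  constructor
  · rintro ⟨hf, hm⟩
    have hint := Valuation.valuationSubring.integers (P.valuation F)
    have hnu : ¬ IsUnit (⟨f, hf⟩ : (P.valuation F).valuationSubring) := hm
    have hle : P.valuation F f ≤ 1 := hf
    rcases lt_or_eq_of_le hle with h | h
    · exact h
    · exact absurd (hint.isUnit_iff_valuation_eq_one.mpr h) hnu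
  · intro h
    have hf : f ∈ (P.valuation F).valuationSubring := h.le
    refine ⟨hf, ?_⟩
    have hint := Valuation.valuationSubring.integers (P.valuation F)
    have hnu : ¬ IsUnit (⟨f, hf⟩ : (P.valuation F).valuationSubring) := by
      intro hu
      have := hint.isUnit_iff_valuation_eq_one.mp hu
      exact absurd this (ne_of_lt h)
    exact hnu

/-- for `r : R`: `r` is a non-unit of the valuation ring of `P` iff `r ∈ P`. -/
theorem h25d_algebraMap_mem_nonunits_iff (P : HeightOneSpectrum R) (r : R) :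
    algebraMap R F r ∈ (P.valuation F).valuationSubring.nonunits ↔ r ∈ P.asIdeal := by
  rw [h25d_mem_nonunits_iff, HeightOneSpectrum.valuation_lt_one_iff_mem]

/-- **centre**: a valuation subring `W ≠ ⊤` of `F = Frac R` containing the Dedekind domain `R`
is the valuation ring of a height-one prime of `R`. -/
theorem h25d_exists_heightOne (W : ValuationSubring F)
    (hR : ∀ r : R, algebraMap R F r ∈ W) (hW : W ≠ ⊤) :
    ∃ P : HeightOneSpectrum R, (P.valuation F).valuationSubring = W := by
  classical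
  let ι : R →+* W := (algebraMap R F).codRestrict W.toSubring hR
  have hι : ∀ r, ((ι r : W) : F) = algebraMap R F r := fun _ => rfl
  let p : Ideal R := (IsLocalRing.maximalIdeal W).comap ι
  have hpprime : p.IsPrime := Ideal.comap_isPrime ι _
  have hunit : ∀ r : R, r ∉ p → (algebraMap R F r)⁻¹ ∈ W := by
    intro r hr
    have h1 : ι r ∉ IsLocalRing.maximalIdeal W := hr
    have h2 : IsUnit (ι r) := by
      by_contra hnu
      exact h1 hnu
    obtain ⟨w, hw⟩ := h2.exists_right_inv
    have h3 : algebraMap R F r * (w : F) = 1 := by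
      have := congrArg (Subtype.val) hw
      simpa [hι] using this
    rw [inv_eq_of_mul_eq_one_right h3]
    exact w.2
  have hpbot : p ≠ ⊥ := by
    intro hbot
    apply hW
    refine SetLike.ext fun x => ⟨fun _ => ValuationSubring.mem_top x, fun _ => ?_⟩
    obtain ⟨a, b, hb, rfl⟩ := IsFractionRing.div_surjective (A := R) x
    have hb0 : b ≠ 0 := nonZeroDivisors.ne_zero hb
    have hbp : b ∉ p := by
      rw [hbot, Ideal.mem_bot]
      exact hb0
    rw [div_eq_mul_inv]
    exact mul_mem (hR a) (hunit b hbp)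
  let P : HeightOneSpectrum R := ⟨p, hpprime, hpbot⟩
  refine ⟨P, ?_⟩
  rw [← HeightOneSpectrum.valuationSubringAtPrime_eq_valuationSubring]
  refine ValuationSubring.eq_of_le_of_ne_top _ ?_ hW
  rintro x ⟨a, s, hs, rfl⟩
  exact mul_mem (hR a) (hunit s hs)

/-- the centre is unique. -/
theorem h25d_heightOne_unique {P Q : HeightOneSpectrum R}
    (h : (P.valuation F).valuationSubring = (Q.valuation F).valuationSubring) : P = Q :=
  HeightOneSpectrum.eq_of_valuation_isEquiv_valuation
    ((Valuation.isEquiv_iff_valuationSubring _ _).mpr h)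

/-- an element of `ℤᵐ⁰` which is `< 1` is `≤ exp (-1)`. -/
theorem h25d_le_exp_neg_one_of_lt_one {x : ℤᵐ⁰} (hx : x < 1) : x ≤ exp (-1 : ℤ) := by
  rcases eq_or_ne x 0 with rfl | hx0
  · exact zero_le
  · have h1 : log x < 0 := by
      rw [log_lt_iff_lt_exp hx0]
      simpa using hx
    have h2 : log x ≤ -1 := by omega
    exact le_exp_of_log_le h2

/-- a product of two non-units of the valuation ring of `P` has valuation `≤ exp (-2)`. -/
theorem h25d_valuation_mul_le (P : HeightOneSpectrum R) {y z : F}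
    (hy : y ∈ (P.valuation F).valuationSubring.nonunits)
    (hz : z ∈ (P.valuation F).valuationSubring.nonunits) :
    P.valuation F (y * z) ≤ exp (-2 : ℤ) := by
  have h1 := h25d_le_exp_neg_one_of_lt_one ((h25d_mem_nonunits_iff P y).mp hy)
  have h2 := h25d_le_exp_neg_one_of_lt_one ((h25d_mem_nonunits_iff P z).mp hz)
  rw [map_mul]
  calc P.valuation F y * P.valuation F z ≤ exp (-1 : ℤ) * exp (-1 : ℤ) := mul_le_mul' h1 h2
    _ = exp (-2 : ℤ) := by rw [← exp_add]; norm_num

/-- `ξ ∈ P ^ 2 ↔ v_P(ξ) ≤ exp (-2)`. -/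
theorem h25d_mem_sq_iff (P : HeightOneSpectrum R) (ξ : R) :
    ξ ∈ P.asIdeal ^ 2 ↔ P.valuation F (algebraMap R F ξ) ≤ exp (-2 : ℤ) := by
  have h1 : P.valuation F (algebraMap R F ξ) = P.intValuation ξ :=
    P.valuation_of_algebraMap ξ
  rw [h1, ← P.intValuation_le_pow_iff_mem ξ 2]
  norm_num

/-- if `ξ = y * z` with `y, z ∈ 𝔪_W`, `W` the valuation ring of `P`, then `ξ ∈ P ^ 2`. -/
theorem h25d_mem_sq_of_mul (P : HeightOneSpectrum R) (ξ : R) {y z : F}
    (hy : y ∈ (P.valuation F).valuationSubring.nonunits)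
    (hz : z ∈ (P.valuation F).valuationSubring.nonunits)
    (h : algebraMap R F ξ = y * z) : ξ ∈ P.asIdeal ^ 2 := by
  rw [h25d_mem_sq_iff (F := F), h]
  exact h25d_valuation_mul_le P hy hz

/-- if `ξ ∈ P ^ 2` then `ξ = y * z` with `y, z` non-units of the valuation ring of `P`. -/
theorem h25d_exists_mul_of_mem_sq (P : HeightOneSpectrum R) (ξ : R) (h : ξ ∈ P.asIdeal ^ 2) :
    ∃ y ∈ (P.valuation F).valuationSubring.nonunits,
      ∃ z ∈ (P.valuation F).valuationSubring.nonunits, algebraMap R F ξ = y * z := by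
  obtain ⟨ϖ, hϖ'⟩ := P.valuation_exists_uniformizer' F
  have hϖ : P.valuation F (algebraMap R F ϖ) = exp (-1 : ℤ) := hϖ'
  have hϖ0 : algebraMap R F ϖ ≠ 0 := by
    intro h0
    rw [h0, map_zero] at hϖ
    exact absurd hϖ.symm (by simp)
  have hϖnu : algebraMap R F ϖ ∈ (P.valuation F).valuationSubring.nonunits := by
    rw [h25d_mem_nonunits_iff, hϖ]
    rw [← exp_zero, exp_lt_exp]
    norm_num
  refine ⟨algebraMap R F ϖ, hϖnu, algebraMap R F ξ * (algebraMap R F ϖ)⁻¹, ?_, ?_⟩
  · rw [h25d_mem_nonunits_iff, map_mul, map_inv₀, hϖ]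
    have h1 := (h25d_mem_sq_iff (F := F) P ξ).mp h
    have h2 : (exp (-1 : ℤ) : ℤᵐ⁰)⁻¹ = exp (1 : ℤ) := by
      rw [← exp_neg]; simp
    rw [h2]
    calc P.valuation F (algebraMap R F ξ) * exp (1 : ℤ)
        ≤ exp (-2 : ℤ) * exp (1 : ℤ) := mul_le_mul' h1 le_rfl
      _ = exp (-1 : ℤ) := by rw [← exp_add]; norm_num
      _ < 1 := by rw [← exp_zero, exp_lt_exp]; norm_num
  · field_simp

/-- the "unramified" hypothesis, in the shape of `CoreBranch.unram`, implies `ξ ∉ P ^ 2` for
every height-one prime `P`. -/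
theorem h25d_not_mem_sq_of_unram (ξ : R)
    (hunr : ∀ W : ValuationSubring F, (∀ r : R, algebraMap R F r ∈ W) →
      algebraMap R F ξ ∈ W.nonunits →
      ∀ y ∈ W.nonunits, ∀ z ∈ W.nonunits, algebraMap R F ξ ≠ y * z)
    (P : HeightOneSpectrum R) : ξ ∉ P.asIdeal ^ 2 := by
  intro h
  obtain ⟨y, hy, z, hz, hyz⟩ := h25d_exists_mul_of_mem_sq (F := F) P ξ h
  have hξ : algebraMap R F ξ ∈ (P.valuation F).valuationSubring.nonunits := by
    rw [h25d_algebraMap_mem_nonunits_iff]
    exact Ideal.pow_le_self (by norm_num) h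
  exact hunr _ (h25d_algebraMap_mem P) hξ y hy z hz hyz

end Fermat.Agent.Red.SM
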