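import Mathlib
import Fermat.Agent.Red.SM.DictVal
import Fermat.Agent.Red.SM.CoreG3

/-!
# P-RED / R-SM, SM-DICT (helper25): unramified values in ring-element form, points of the fibre

Mathlib only (plus `h2_pts`, `h2_fib` of `Red/SM/DeltaRank`, `DeltaCoord` and helper60's
`h60g3_pts_eq_card`).  Ingredients of the bridge `h74_SmCore → SMCoreV`.

* `h25d_exists_mul_of_mem_sq_ring` : `C` Dedekind, `P` maximal, `ξ ∈ P ^ 2`
  ⇒ `∃ y z ∈ P, w ∉ P, ξ * w = y * z` (no valuation subrings, no fraction field).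
* `h25d_not_mem_sq_of_ring` : the contrapositive.
* `h25d_exists_point_of_maximal` : `K` algebraically closed, `C` finite over `K[X]`, `P` a
  maximal ideal of `C` containing `X - c` ⇒ a ring hom `ψ : C → K` with kernel `P`,
  `ψ (q) = q.eval c` for `q : K[X]` (and `ψ` is `K`-linear).
* `h25d_not_mem_sq_of_phi` : unramifiedness in `φ`-form (every `K`-point `ψ` of `C` over `c`:
  `(X - c) * w ≠ y * z` for `ψ y = ψ z = 0`, `ψ w ≠ 0`) ⇒ `X - c ∉ P ^ 2` for all maximal `P`.
* `h25d_pts_eq_card_of_phi` : ... ⇒ `h2_pts K C c = Fintype.card ι`.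
* `h25d_exists_points_of_phi` : ... ⇒ `Fintype.card ι` pairwise distinct `K`-points of `C`
  over `c`.
-/

set_option autoImplicit false
set_option linter.style.haveILetI false
set_option linter.unusedSectionVars false

noncomputable section

namespace Fermat.Agent.Red.SM

open IsDedekindDomain WithZero Polynomial Module

section Ring

variable {C : Type*} [CommRing C] [IsDedekindDomain C]

/-- **P²-form, ring elements only.**  In a Dedekind domain `C`, if `ξ ∈ P ^ 2` for a maximal
ideal `P`, then `ξ * w = y * z` for some `y, z ∈ P` and `w ∉ P`. -/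
theorem h25d_exists_mul_of_mem_sq_ring (P : Ideal C) [hP : P.IsMaximal] (ξ : C)
    (h : ξ ∈ P ^ 2) : ∃ y ∈ P, ∃ z ∈ P, ∃ w, w ∉ P ∧ ξ * w = y * z := by
  classical
  by_cases hP0 : P = ⊥
  · subst hP0
    have hξ : ξ = 0 := by
      have h1 : ((⊥ : Ideal C) ^ 2) = ⊥ := by
        rw [Ideal.bot_pow (by norm_num)]
      rw [h1, Ideal.mem_bot] at h
      exact h
    refine ⟨0, Ideal.zero_mem _, 0, Ideal.zero_mem _, 1, ?_, by rw [hξ]; ring⟩
    rw [Ideal.mem_bot]
    exact one_ne_zero
  · let v : HeightOneSpectrum C := ⟨P, hP.isPrime, hP0⟩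
    obtain ⟨ϖ, hϖ⟩ := v.intValuation_exists_uniformizer
    have hϖ0 : ϖ ≠ 0 := by
      rintro rfl
      rw [map_zero] at hϖ
      exact absurd hϖ.symm (by simp)
    have hϖP : ϖ ∈ P := by
      have h1 : v.intValuation ϖ < 1 := by
        rw [hϖ, ← exp_zero, exp_lt_exp]
        norm_num
      exact (v.intValuation_lt_one_iff_mem ϖ).mp h1
    have hξv : v.valuation (FractionRing C) (algebraMap C (FractionRing C) ξ) ≤ exp (-2 : ℤ) :=
      (h25d_mem_sq_iff (F := FractionRing C) v ξ).mp h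
    have hϖv : v.valuation (FractionRing C) (algebraMap C (FractionRing C) ϖ) = exp (-1 : ℤ) := by
      rw [HeightOneSpectrum.valuation_of_algebraMap]
      exact hϖ
    have hϖF : algebraMap C (FractionRing C) ϖ ≠ 0 := by
      intro h0
      exact hϖ0 ((IsFractionRing.injective C (FractionRing C)) (by rw [h0, map_zero]))
    have hf : v.valuation (FractionRing C)
        (algebraMap C (FractionRing C) ξ * ((algebraMap C (FractionRing C) ϖ) ^ 2)⁻¹) ≤ 1 := by
      rw [map_mul, map_inv₀, map_pow, hϖv]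
      have h2 : ((exp (-1 : ℤ) : ℤᵐ⁰) ^ 2)⁻¹ = exp (2 : ℤ) := by
        rw [← exp_nsmul, ← exp_neg]
        norm_num
      rw [h2]
      calc v.valuation (FractionRing C) (algebraMap C (FractionRing C) ξ) * exp (2 : ℤ)
          ≤ exp (-2 : ℤ) * exp (2 : ℤ) := mul_le_mul' hξv le_rfl
        _ = 1 := by rw [← exp_add]; norm_num
    have hf' : (algebraMap C (FractionRing C) ξ * ((algebraMap C (FractionRing C) ϖ) ^ 2)⁻¹)
        ∈ HeightOneSpectrum.valuationSubringAtPrime (FractionRing C) v := by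
      rw [HeightOneSpectrum.valuationSubringAtPrime_eq_valuationSubring]
      exact hf
    obtain ⟨a, s, hs, hfa⟩ := hf'
    refine ⟨ϖ, hϖP, ϖ * a, P.mul_mem_right _ hϖP, s, hs, ?_⟩
    apply IsFractionRing.injective C (FractionRing C)
    have hsF : algebraMap C (FractionRing C) s ≠ 0 := by
      intro h0
      have : s = 0 := (IsFractionRing.injective C (FractionRing C)) (by rw [h0, map_zero])
      apply hs
      rw [this]
      exact Ideal.zero_mem _
    simp only [map_mul]
    have hfa' : algebraMap C (FractionRing C) ξ * ((algebraMap C (FractionRing C) ϖ) ^ 2)⁻¹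
        = algebraMap C (FractionRing C) a * (algebraMap C (FractionRing C) s)⁻¹ := hfa
    field_simp at hfa'
    linear_combination hfa'

/-- the contrapositive: if `ξ * w ≠ y * z` for all `y, z ∈ P`, `w ∉ P`, then `ξ ∉ P ^ 2`. -/
theorem h25d_not_mem_sq_of_ring (P : Ideal C) [P.IsMaximal] (ξ : C)
    (hunr : ∀ y ∈ P, ∀ z ∈ P, ∀ w, w ∉ P → ξ * w ≠ y * z) : ξ ∉ P ^ 2 := by
  intro h
  obtain ⟨y, hy, z, hz, w, hw, hyz⟩ := h25d_exists_mul_of_mem_sq_ring P ξ h
  exact hunr y hy z hz w hw hyz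

end Ring

section Points

variable {K : Type*} [Field K] [IsAlgClosed K]
  {C : Type*} [CommRing C] [Algebra K C] [Algebra K[X] C] [IsScalarTower K K[X] C]

/-- **points from maximal ideals.**  `K` algebraically closed, `C` finite over `K[X]`, `P` a
maximal ideal of `C` containing `X - c`: there is a `K`-algebra hom `ψ : C → K` with kernel `P`;
it restricts to evaluation at `c` on `K[X]`. -/
theorem h25d_exists_algHom_of_maximal [Module.Finite K[X] C] (c : K) (P : Ideal C)
    [hP : P.IsMaximal] (hc : algebraMap K[X] C (X - Polynomial.C c) ∈ P) :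
    ∃ ψ : C →ₐ[K] K, RingHom.ker (ψ : C →+* K) = P ∧
      ∀ q : K[X], ψ (algebraMap K[X] C q) = q.eval c := by
  classical
  letI : Field (C ⧸ P) := Ideal.Quotient.field P
  haveI : Algebra.FiniteType K[X] C := inferInstance
  haveI : Algebra.FiniteType K C := Algebra.FiniteType.trans (S := K[X]) inferInstance inferInstance
  haveI : Algebra.FiniteType K (C ⧸ P) :=
    Algebra.FiniteType.of_surjective (Ideal.Quotient.mkₐ K P) (Ideal.Quotient.mkₐ_surjective K P)
  haveI : Module.Finite K (C ⧸ P) := finite_of_finite_type_of_isJacobsonRing K (C ⧸ P)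
  haveI : Algebra.IsIntegral K (C ⧸ P) := Algebra.IsIntegral.of_finite K (C ⧸ P)
  have hbij : Function.Bijective (algebraMap K (C ⧸ P)) :=
    IsAlgClosed.algebraMap_bijective_of_isIntegral
  let e : K ≃ₐ[K] (C ⧸ P) := AlgEquiv.ofBijective (Algebra.ofId K (C ⧸ P)) hbij
  let ψ : C →ₐ[K] K := (e.symm : (C ⧸ P) →ₐ[K] K).comp (Ideal.Quotient.mkₐ K P)
  have hψ : ∀ y : C, ψ y = 0 ↔ y ∈ P := by
    intro y
    have h1 : ψ y = e.symm (Ideal.Quotient.mk P y) := rfl
    rw [h1, map_eq_zero_iff _ e.symm.injective, Ideal.Quotient.eq_zero_iff_mem]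
  refine ⟨ψ, ?_, ?_⟩
  · ext y
    rw [RingHom.mem_ker]
    exact hψ y
  · intro q
    -- `ψ ∘ algebraMap : K[X] →ₐ[K] K` sends `X` to `c`
    have hX : ψ (algebraMap K[X] C X) = c := by
      have h1 := (hψ _).mpr hc
      rw [map_sub, map_sub, sub_eq_zero] at h1
      rw [h1]
      have h2 : algebraMap K[X] C (Polynomial.C c) = algebraMap K C c := by
        rw [← Polynomial.algebraMap_eq, ← IsScalarTower.algebraMap_apply]
      rw [h2, AlgHom.commutes]
      rfl
    let θ : K[X] →ₐ[K] K := ψ.comp (IsScalarTower.toAlgHom K K[X] C)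
    have hθ : θ = Polynomial.aeval c := by
      apply Polynomial.algHom_ext
      rw [Polynomial.aeval_X]
      exact hX
    have h3 : ψ (algebraMap K[X] C q) = θ q := rfl
    rw [h3, hθ, Polynomial.coe_aeval_eq_eval]

/-- ring hom form of `h25d_exists_algHom_of_maximal`. -/
theorem h25d_exists_point_of_maximal [Module.Finite K[X] C] (c : K) (P : Ideal C)
    [P.IsMaximal] (hc : algebraMap K[X] C (X - Polynomial.C c) ∈ P) :
    ∃ ψ : C →+* K, RingHom.ker ψ = P ∧ (∀ q : K[X], ψ (algebraMap K[X] C q) = q.eval c) ∧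
      ∀ a : K, ψ (algebraMap K C a) = a := by
  obtain ⟨ψ, h1, h2⟩ := h25d_exists_algHom_of_maximal c P hc
  exact ⟨ψ, h1, h2, fun a => ψ.commutes a⟩

end Points

section Count

variable {K : Type*} [Field K] [IsAlgClosed K]
  {C : Type*} [CommRing C] [IsDedekindDomain C] [Algebra K C] [Algebra K[X] C]
  [IsScalarTower K K[X] C]
  {ι : Type*} [Fintype ι] [DecidableEq ι]

/-- **φ-form ⇒ P²-form.**  If every `K`-point `ψ` of `C` over `c` is unramified in the sense
`(X - c) * w ≠ y * z` for `ψ y = ψ z = 0`, `ψ w ≠ 0`, then `X - c ∉ P ^ 2` for every maximal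
ideal `P ∋ X - c`. -/
theorem h25d_not_mem_sq_of_phi [Module.Finite K[X] C] (c : K)
    (hunr : ∀ ψ : C →+* K, (∀ q : K[X], ψ (algebraMap K[X] C q) = q.eval c) →
      ∀ y z w : C, ψ y = 0 → ψ z = 0 → ψ w ≠ 0 →
        algebraMap K[X] C (X - Polynomial.C c) * w ≠ y * z)
    (P : Ideal C) (hP : P.IsMaximal) (hc : algebraMap K[X] C (X - Polynomial.C c) ∈ P) :
    algebraMap K[X] C (X - Polynomial.C c) ∉ P ^ 2 := by
  obtain ⟨ψ, hker, hψ, -⟩ := h25d_exists_point_of_maximal c P hc
  refine h25d_not_mem_sq_of_ring P _ fun y hy z hz w hw => ?_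
  refine hunr ψ hψ y z w ?_ ?_ ?_
  · rw [← RingHom.mem_ker, hker]; exact hy
  · rw [← RingHom.mem_ker, hker]; exact hz
  · rw [Ne, ← RingHom.mem_ker, hker]; exact hw

/-- **φ-form ⇒ the fibre over `c` has `n` points.** -/
theorem h25d_pts_eq_card_of_phi (b : Basis ι K[X] C) (c : K)
    (hunr : ∀ ψ : C →+* K, (∀ q : K[X], ψ (algebraMap K[X] C q) = q.eval c) →
      ∀ y z w : C, ψ y = 0 → ψ z = 0 → ψ w ≠ 0 →
        algebraMap K[X] C (X - Polynomial.C c) * w ≠ y * z) :
    h2_pts K C c = Fintype.card ι := by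
  haveI : Module.Finite K[X] C := Module.Finite.of_basis b
  exact h60g3_pts_eq_card b c fun P hP hc => h25d_not_mem_sq_of_phi c hunr P hP hc

/-- the `K`-points of `C` over `c`. -/
def h25d_Pt (K : Type*) [Field K] (C : Type*) [CommRing C] [Algebra K[X] C] (c : K) : Type _ :=
  {ψ : C →+* K // ∀ q : K[X], ψ (algebraMap K[X] C q) = q.eval c}

/-- maximal ideals of the fibre inject into the `K`-points over `c`. -/
theorem h25d_exists_injective_pt [Module.Finite K[X] C] (c : K) :
    ∃ g : MaximalSpectrum (C ⧸ h2_fib K C c) → h25d_Pt K C c, Function.Injective g := by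
  classical
  have hex : ∀ 𝔪 : MaximalSpectrum (C ⧸ h2_fib K C c),
      ∃ ψ : C →+* K, RingHom.ker ψ = 𝔪.asIdeal.comap (Ideal.Quotient.mk (h2_fib K C c)) ∧
        (∀ q : K[X], ψ (algebraMap K[X] C q) = q.eval c) := by
    intro 𝔪
    haveI : (𝔪.asIdeal.comap (Ideal.Quotient.mk (h2_fib K C c))).IsMaximal :=
      Ideal.comap_isMaximal_of_surjective _ Ideal.Quotient.mk_surjective
    have hc : algebraMap K[X] C (X - Polynomial.C c)
        ∈ 𝔪.asIdeal.comap (Ideal.Quotient.mk (h2_fib K C c)) := by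
      rw [Ideal.mem_comap]
      have : Ideal.Quotient.mk (h2_fib K C c) (algebraMap K[X] C (X - Polynomial.C c)) = 0 := by
        rw [Ideal.Quotient.eq_zero_iff_mem]
        exact Ideal.subset_span rfl
      rw [this]
      exact Ideal.zero_mem _
    obtain ⟨ψ, h1, h2, -⟩ := h25d_exists_point_of_maximal c _ hc
    exact ⟨ψ, h1, h2⟩
  choose g hg1 hg2 using hex
  refine ⟨fun 𝔪 => ⟨g 𝔪, hg2 𝔪⟩, ?_⟩
  intro 𝔪 𝔫 h
  have h1 : g 𝔪 = g 𝔫 := congrArg Subtype.val h
  have h2 : 𝔪.asIdeal.comap (Ideal.Quotient.mk (h2_fib K C c))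
      = 𝔫.asIdeal.comap (Ideal.Quotient.mk (h2_fib K C c)) := by
    rw [← hg1 𝔪, ← hg1 𝔫, h1]
  have h3 : 𝔪.asIdeal = 𝔫.asIdeal :=
    Ideal.comap_injective_of_surjective _ Ideal.Quotient.mk_surjective h2
  exact MaximalSpectrum.ext h3

/-- **φ-form ⇒ `n` pairwise distinct `K`-points over `c`**, `n` the rank of `C` over `K[X]`. -/
theorem h25d_exists_points_of_phi (b : Basis ι K[X] C) (c : K)
    (hunr : ∀ ψ : C →+* K, (∀ q : K[X], ψ (algebraMap K[X] C q) = q.eval c) →
      ∀ y z w : C, ψ y = 0 → ψ z = 0 → ψ w ≠ 0 →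
        algebraMap K[X] C (X - Polynomial.C c) * w ≠ y * z) :
    ∃ ψ : Fin (Fintype.card ι) → h25d_Pt K C c, Function.Injective ψ := by
  classical
  haveI : Module.Finite K[X] C := Module.Finite.of_basis b
  have hcard : Nat.card (MaximalSpectrum (C ⧸ h2_fib K C c)) = Fintype.card ι :=
    h25d_pts_eq_card_of_phi b c hunr
  obtain ⟨g, hg⟩ := h25d_exists_injective_pt (K := K) (C := C) c
  rcases Nat.eq_zero_or_pos (Fintype.card ι) with h0 | hpos
  · refine ⟨fun i => (Fin.elim0 (h0 ▸ i)), fun i => (Fin.elim0 (h0 ▸ i))⟩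
  · haveI : Finite (MaximalSpectrum (C ⧸ h2_fib K C c)) :=
      Nat.finite_of_card_ne_zero (by rw [hcard]; omega)
    let e : MaximalSpectrum (C ⧸ h2_fib K C c) ≃ Fin (Fintype.card ι) :=
      Finite.equivFinOfCardEq hcard
    exact ⟨g ∘ e.symm, hg.comp e.symm.injective⟩

end Count

end Fermat.Agent.Red.SM
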