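import Mathlib

/-!
# P-RED / SM: unit discriminant implies integrally closed

Mathlib-only leaf.  Let `A` be an integrally closed domain and `B` a domain which is a free
`A`-module of finite rank with a basis `b` whose discriminant `det (Tr (b i * b j))` is a unit
of `A`.  Then `B` is integrally closed.  If moreover `A` is a Dedekind domain, so is `B`.
-/

set_option autoImplicit false
set_option linter.unusedSectionVars false
set_option linter.style.haveILetI false
set_option linter.overlappingInstances false

open scoped nonZeroDivisors

namespace Fermat.Agent.Red.SM.DiscrNormal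

variable {A B ι : Type*} [CommRing A] [IsDomain A] [CommRing B] [IsDomain B] [Algebra A B]
  [Fintype ι] [DecidableEq ι]

/-- A vector over the fraction field which is mapped into `A ^ ι` by a matrix over `A` with unit
determinant has entries in `A`. -/
theorem exists_of_mulVec_of_isUnit_det {K : Type*} [Field K] [Algebra A K]
    (T : Matrix ι ι A) (hT : IsUnit T.det) (c : ι → K) (a : ι → A)
    (h : (T.map (algebraMap A K)).mulVec c = fun j => algebraMap A K (a j)) :
    ∃ c' : ι → A, ∀ i, c i = algebraMap A K (c' i) := by
  refine ⟨T⁻¹.mulVec a, fun i => ?_⟩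
  have h1 : (T⁻¹.map (algebraMap A K)) * (T.map (algebraMap A K)) = 1 := by
    rw [← Matrix.map_mul, Matrix.nonsing_inv_mul T hT]
    exact Matrix.map_one _ (map_zero _) (map_one _)
  have h2 : c = (T⁻¹.map (algebraMap A K)).mulVec (fun j => algebraMap A K (a j)) := by
    rw [← h, Matrix.mulVec_mulVec, h1, Matrix.one_mulVec]
  rw [h2]
  simp only [Matrix.mulVec, dotProduct, Matrix.map_apply, map_sum, map_mul]

/-- The core statement, for arbitrary fraction fields `K` of `A` and `L` of `B`. -/
theorem exists_algebraMap_eq_of_isUnit_discr (b : Module.Basis ι A B) [IsIntegrallyClosed A]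
    (h : IsUnit (Algebra.discr A b))
    (K L : Type*) [Field K] [Field L] [Algebra A K] [IsFractionRing A K] [Algebra B L]
    [IsFractionRing B L] [Algebra K L] [Algebra A L] [IsScalarTower A K L] [IsScalarTower A B L]
    (x : L) (hx : IsIntegral B x) : ∃ y : B, algebraMap B L y = x := by
  classical
  haveI : Module.Free A B := Module.Free.of_basis b
  haveI : Module.Finite A B := Module.Finite.of_basis b
  haveI : Algebra.IsIntegral A B := inferInstance
  haveI : FaithfulSMul A B := inferInstance
  haveI : IsLocalization (Algebra.algebraMapSubmonoid B A⁰) L := inferInstance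
  let bK : Module.Basis ι K L := b.localizationLocalization K A⁰ L
  haveI : FiniteDimensional K L := Module.Finite.of_basis bK
  have hxA : IsIntegral A x := isIntegral_trans x hx
  -- traces of `x * b j` are in `A`
  have htr : ∀ j, ∃ a : A, algebraMap A K a = Algebra.trace K L (x * algebraMap B L (b j)) := by
    intro j
    have hint : IsIntegral A (x * algebraMap B L (b j)) :=
      hxA.mul ((Algebra.IsIntegral.isIntegral (R := A) (b j)).algebraMap)
    exact IsIntegrallyClosed.isIntegral_iff.mp (Algebra.isIntegral_trace hint)
  choose a ha using htr
  -- the coordinates of `x`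
  let c : ι → K := fun i => bK.repr x i
  have hxc : x = ∑ i, c i • algebraMap B L (b i) := by
    conv_lhs => rw [← bK.sum_repr x]
    refine Finset.sum_congr rfl fun i _ => ?_
    rw [Module.Basis.localizationLocalization_apply]
  have hmul : ((Algebra.traceMatrix A b).map (algebraMap A K)).mulVec c =
      fun j => algebraMap A K (a j) := by
    funext j
    rw [ha j]
    simp only [Matrix.mulVec, dotProduct, Matrix.map_apply, Algebra.traceMatrix_apply,
      Algebra.traceForm_apply]
    conv_rhs => rw [hxc, Finset.sum_mul, map_sum]
    refine Finset.sum_congr rfl fun i _ => ?_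
    have e1 : c i • (algebraMap B L) (b i) * (algebraMap B L) (b j) =
        c i • algebraMap B L (b j * b i) := by
      rw [smul_mul_assoc, map_mul, mul_comm]
    rw [e1, map_smul, smul_eq_mul, Algebra.trace_localization A A⁰ (Rₘ := K) (Sₘ := L),
      mul_comm]
  obtain ⟨c', hc'⟩ := exists_of_mulVec_of_isUnit_det (Algebra.traceMatrix A b) h c a hmul
  refine ⟨∑ i, c' i • b i, ?_⟩
  rw [hxc, map_sum]
  refine Finset.sum_congr rfl fun i _ => ?_
  rw [hc' i, Algebra.smul_def, map_mul, ← IsScalarTower.algebraMap_apply A B L,
    IsScalarTower.algebraMap_apply A K L, ← Algebra.smul_def]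

/-- **Unit discriminant implies integrally closed.** -/
theorem isIntegrallyClosed_of_isUnit_discr (b : Module.Basis ι A B) [IsIntegrallyClosed A]
    (h : IsUnit (Algebra.discr A b)) : IsIntegrallyClosed B := by
  classical
  haveI : Module.Free A B := Module.Free.of_basis b
  haveI : Module.Finite A B := Module.Finite.of_basis b
  haveI : FaithfulSMul A B := inferInstance
  haveI : FaithfulSMul A (FractionRing B) := by
    rw [faithfulSMul_iff_algebraMap_injective, IsScalarTower.algebraMap_eq A B (FractionRing B)]
    exact (IsFractionRing.injective B (FractionRing B)).comp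
      (FaithfulSMul.algebraMap_injective A B)
  letI : Algebra (FractionRing A) (FractionRing B) := FractionRing.liftAlgebra A (FractionRing B)
  haveI : IsScalarTower A (FractionRing A) (FractionRing B) :=
    FractionRing.isScalarTower_liftAlgebra A (FractionRing B)
  rw [isIntegrallyClosed_iff (FractionRing B)]
  intro x hx
  exact exists_algebraMap_eq_of_isUnit_discr b h (FractionRing A) (FractionRing B) x hx

/-- **Unit discriminant over a Dedekind domain implies Dedekind.** -/
theorem isDedekindDomain_of_isUnit_discr (b : Module.Basis ι A B) [IsDedekindDomain A]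
    (h : IsUnit (Algebra.discr A b)) : IsDedekindDomain B := by
  haveI : Module.Finite A B := Module.Finite.of_basis b
  haveI : Algebra.IsIntegral A B := inferInstance
  haveI : IsIntegrallyClosed B := isIntegrallyClosed_of_isUnit_discr b h
  haveI : IsNoetherianRing B :=
    isNoetherian_of_tower A (isNoetherian_of_isNoetherianRing_of_finite A B)
  haveI : Ring.DimensionLEOne B := Ring.DimensionLEOne.of_isIntegral A B
  exact { }

end Fermat.Agent.Red.SM.DiscrNormal
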