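import Fermat.Agent.Red.SM.EtAbsTrace
import Fermat.Agent.Red.SM.DiscrNormal

/-!
# P-RED / SM-ABS: abstract étaleness of the special fibre

Mathlib-only.  `R ⊆ B` is a finite extension of domains (`R` = chart of the base level,
`B` = chart of level `M`), `I` a prime ideal of `R` (`= 𝔪_A R`), `S₀` a multiplicative set of
nonzero elements of `R` ("constants") with the content property.

* `h53_sm_abs` : if `e` lifts an `R/I`-basis of `B/IB`, the generic fibre has a basis `f` whose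
  discriminant divides a constant, and some family `y` has discriminant nonzero modulo `I`, then
  `B/IB` is free over `R/I` with **unit** discriminant.
* `h53_sm_abs_integrallyClosed`, `h53_sm_abs_dedekind` : hence `B/IB` is integrally closed, resp.
  a Dedekind domain, as soon as it is a domain and `R/I` is integrally closed, resp. Dedekind.
-/

set_option autoImplicit false
set_option linter.style.haveILetI false
set_option linter.unusedSectionVars false
set_option linter.unusedVariables false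

open scoped nonZeroDivisors

namespace Fermat.Agent.Red.SM.EtAbs

section Change

variable {R B : Type*} [CommRing R] [IsDomain R] [CommRing B] [IsDomain B] [Algebra R B]
  (K₀ K₁ : Type*) [Field K₀] [Field K₁] [Algebra R K₀] [IsFractionRing R K₀]
  [Algebra B K₁] [IsFractionRing B K₁] [Algebra K₀ K₁] [Algebra R K₁]
  [IsScalarTower R K₀ K₁] [IsScalarTower R B K₁]
  {ι : Type*} [Fintype ι] [DecidableEq ι]

/-- the discriminant of a scaled family. -/
theorem h53_discr_smul (c : K₀) (y : ι → K₁) :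
    Algebra.discr K₀ (fun i => c • y i) = (c ^ Fintype.card ι) ^ 2 * Algebra.discr K₀ y := by
  have h1 : (fun i => c • y i) = Matrix.vecMul y ((c • (1 : Matrix ι ι K₀)).map (algebraMap K₀ K₁)) := by
    funext j
    simp only [Matrix.vecMul, dotProduct, Matrix.map_apply, Matrix.smul_apply, Matrix.one_apply,
      smul_eq_mul, mul_ite, mul_one, mul_zero]
    rw [Finset.sum_eq_single j]
    · simp [Algebra.smul_def, mul_comm]
    · intro i _ hij
      simp [hij]
    · intro h; exact absurd (Finset.mem_univ j) h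
  rw [h1, Algebra.discr_of_matrix_vecMul, Matrix.det_smul, Matrix.det_one, mul_one]

/-- change of family: the discriminant of any family of `B` in terms of the discriminant of a
basis generating `B` up to `s`. -/
theorem h53_discr_change (bE : Module.Basis ι K₀ K₁) (e : ι → B)
    (hbE : ∀ i, bE i = algebraMap B K₁ (e i)) (s : R)
    (hspan : ∀ b : B, ∃ c : ι → R, s • b = ∑ i, c i • e i) (y : ι → B) :
    ∃ P : R, (algebraMap R K₀ s ^ Fintype.card ι) ^ 2 *
        Algebra.discr K₀ (fun i => algebraMap B K₁ (y i)) =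
      algebraMap R K₀ P ^ 2 * Algebra.discr K₀ bE := by
  classical
  choose P hP using fun j => hspan (y j)
  refine ⟨Matrix.det (Matrix.of fun i j => P j i), ?_⟩
  rw [← h53_discr_smul, RingHom.map_det, ← Algebra.discr_of_matrix_vecMul]
  congr 1
  funext j
  simp only [Matrix.vecMul, dotProduct, Matrix.map_apply, RingHom.mapMatrix_apply,
    Matrix.of_apply]
  rw [← h53_map_smul K₀ K₁, hP j, h53_map_sum_smul K₀ K₁]
  refine Finset.sum_congr rfl fun i _ => ?_
  rw [hbE i, Algebra.smul_def, mul_comm]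

end Change

end Fermat.Agent.Red.SM.EtAbs

namespace Fermat.Agent.Red.SM.EtAbs

section Main

variable {R B : Type*} [CommRing R] [IsDomain R] [CommRing B] [IsDomain B] [Algebra R B]
  [FaithfulSMul R B] [Module.Finite R B]
  (K₀ K₁ : Type*) [Field K₀] [Field K₁] [Algebra R K₀] [IsFractionRing R K₀]
  [Algebra B K₁] [IsFractionRing B K₁] [Algebra K₀ K₁] [Algebra R K₁]
  [IsScalarTower R K₀ K₁] [IsScalarTower R B K₁]

/-- the discriminant of a reindexed family. -/
theorem h53_discr_comp_equiv {ι κ : Type*} [Fintype ι] [DecidableEq ι] [Fintype κ]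
    [DecidableEq κ] (σ : ι ≃ κ) (y : κ → K₁) :
    Algebra.discr K₀ (fun i => y (σ i)) = Algebra.discr K₀ y := by
  rw [Algebra.discr_def, Algebra.discr_def]
  have h : Algebra.traceMatrix K₀ (fun i => y (σ i)) =
      (Algebra.traceMatrix K₀ y).submatrix σ σ := by
    ext i j
    simp [Algebra.traceMatrix_apply]
  rw [h, Matrix.det_submatrix_equiv_self]

/-- **SM-ABS.**  Abstract étaleness of the special fibre: `B / I B` is free over `R / I` with
unit discriminant. -/
theorem h53_sm_abs (I : Ideal R) [I.IsPrime]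
    (S₀ : Submonoid R) (h0 : (0 : R) ∉ S₀)
    (hC1 : ∀ x : R, x ≠ 0 → ∃ a ∈ S₀, ∃ x₀ : R, x₀ ∉ I ∧ x = a * x₀)
    (hC2 : ∀ a ∈ S₀, ∀ a' ∈ S₀, a ∣ a' ∨ ∃ c ∈ I, a = a' * c)
    {ι κ : Type*} [Fintype ι] [DecidableEq ι] [Fintype κ] [DecidableEq κ]
    (e : ι → B)
    (he1 : ∀ b : B, ∃ c : ι → R, b - ∑ i, c i • e i ∈ I.map (algebraMap R B))
    (he2 : ∀ c : ι → R, ∑ i, c i • e i ∈ I.map (algebraMap R B) → ∀ i, c i ∈ I)
    (f : κ → B)
    (hf1 : ∀ b : B, ∃ a ∈ S₀, ∃ c : κ → R, a • b = ∑ i, c i • f i)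
    (hf2 : ∃ x : R, ∃ a ∈ S₀,
      Algebra.discr K₀ (fun i => algebraMap B K₁ (f i)) * algebraMap R K₀ x = algebraMap R K₀ a)
    (y : κ → B)
    (hy : ∃ d : R, d ∉ I ∧
      Algebra.discr K₀ (fun i => algebraMap B K₁ (y i)) = algebraMap R K₀ d) :
    ∃ b : Module.Basis ι (R ⧸ I) (B ⧸ I.map (algebraMap R B)),
      (∀ i, b i = Ideal.Quotient.mk _ (e i)) ∧ IsUnit (Algebra.discr (R ⧸ I) b) := by
  classical
  have hinj0 : Function.Injective (algebraMap R K₀) := IsFractionRing.injective R K₀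
  have hI1 : (1 : R) ∉ I := fun h => ‹I.IsPrime›.ne_top ((Ideal.eq_top_iff_one I).2 h)
  -- the lifted basis
  have hli := h53_linearIndependent I S₀ h0 hC1 hC2 e he2
  obtain ⟨s, hs, hspan⟩ := h53_exists_s I e he1
  have hsI : s ∉ I := fun h => hI1 (by
    have := I.sub_mem h hs
    simpa using this)
  have hs0 : s ≠ 0 := fun h => hsI (h ▸ I.zero_mem)
  have hs0' : algebraMap R K₀ s ≠ 0 := by rwa [Ne, map_eq_zero_iff _ hinj0]
  obtain ⟨bE, hbE⟩ := h53_exists_basis K₀ K₁ e hli s hs0 hspan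
  obtain ⟨bQ, hbQ⟩ := h53_exists_basis_quot I e he1 he2
  obtain ⟨τ, hτ1, hτ2⟩ := h53_exists_trace K₀ K₁ I bE bQ e hbE hbQ s hs hspan
  obtain ⟨hD1, hD2⟩ := h53_discr_compat K₀ K₁ I s τ hτ1 hτ2 e
  set D : R := Matrix.det (Matrix.of fun i j => τ (e i * e j)) with hD
  have hbE' : (fun i => algebraMap B K₁ (e i)) = ⇑bE := funext fun i => (hbE i).symm
  have hbQ' : (fun i => Ideal.Quotient.mk (I.map (algebraMap R B)) (e i)) = ⇑bQ :=
    funext fun i => (hbQ i).symm
  rw [hbE'] at hD1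
  rw [hbQ'] at hD2
  refine ⟨bQ, hbQ, ?_⟩
  rw [← hD2]
  -- the index types have the same cardinality
  obtain ⟨d, hdI, hd⟩ := hy
  obtain ⟨x, a, ha, hfx⟩ := hf2
  have ha0 : a ≠ 0 := fun h => h0 (h ▸ ha)
  have hd0 : d ≠ 0 := fun h => hdI (h ▸ I.zero_mem)
  haveI : Module.Finite K₀ K₁ := Module.Finite.of_basis bE
  have hcard1 : Fintype.card κ ≤ Fintype.card ι := by
    have hliy : LinearIndependent K₀ (fun i => algebraMap B K₁ (y i)) := by
      by_contra h
      have := Algebra.discr_zero_of_not_linearIndependent K₀ h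
      rw [hd, map_eq_zero_iff _ hinj0] at this
      exact hd0 this
    rw [← Module.finrank_eq_card_basis bE]
    exact hliy.fintype_card_le_finrank
  have hcard2 : Fintype.card ι ≤ Fintype.card κ := by
    rw [← Module.finrank_eq_card_basis bE]
    refine finrank_le_of_span_eq_top (v := fun i => algebraMap B K₁ (f i)) ?_
    rw [eq_top_iff]
    rintro z -
    obtain ⟨b, r, hr, hb⟩ := h53_exists_num_den (R := R) (B := B) K₀ K₁ z
    obtain ⟨a', ha', c, hc⟩ := hf1 b
    have ha'0 : a' ≠ 0 := fun h => h0 (h ▸ ha')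
    have hr' : algebraMap R K₀ r ≠ 0 := by rwa [Ne, map_eq_zero_iff _ hinj0]
    have ha'' : algebraMap R K₀ a' ≠ 0 := by rwa [Ne, map_eq_zero_iff _ hinj0]
    have h1 : algebraMap R K₀ a' • algebraMap R K₀ r • z =
        ∑ i, algebraMap R K₀ (c i) • algebraMap B K₁ (f i) := by
      rw [hb, ← h53_map_smul K₀ K₁, hc, h53_map_sum_smul K₀ K₁]
    have h2 : z = (algebraMap R K₀ r)⁻¹ • (algebraMap R K₀ a')⁻¹ •
        ∑ i, algebraMap R K₀ (c i) • algebraMap B K₁ (f i) := by
      rw [← h1, smul_smul, smul_smul, smul_smul]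
      field_simp
      rw [one_smul]
    rw [h2]
    refine Submodule.smul_mem _ _ (Submodule.smul_mem _ _ (Submodule.sum_mem _ fun i _ => ?_))
    exact Submodule.smul_mem _ _ (Submodule.subset_span ⟨i, rfl⟩)
  have hcard : Fintype.card ι = Fintype.card κ := le_antisymm hcard2 hcard1
  let σ : ι ≃ κ := Fintype.equivOfCardEq hcard
  -- the two changes of family
  obtain ⟨Py, hPy⟩ := h53_discr_change K₀ K₁ bE e hbE s hspan (fun i => y (σ i))
  obtain ⟨Pf, hPf⟩ := h53_discr_change K₀ K₁ bE e hbE s hspan (fun i => f (σ i))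
  rw [h53_discr_comp_equiv K₀ K₁ σ (fun i => algebraMap B K₁ (y i)), hd] at hPy
  rw [h53_discr_comp_equiv K₀ K₁ σ (fun i => algebraMap B K₁ (f i))] at hPf
  set n := Fintype.card ι with hn
  -- identities in `R`
  have hy' : (s ^ n) ^ 3 * d = Py ^ 2 * D := by
    apply hinj0
    simp only [map_mul, map_pow]
    rw [hD1]
    linear_combination (algebraMap R K₀ s ^ n) * hPy
  have hf' : (s ^ n) ^ 3 * a = D * (Pf ^ 2 * x) := by
    apply hinj0
    simp only [map_mul, map_pow]
    rw [hD1, ← hfx]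
    linear_combination (algebraMap R K₀ s ^ n * algebraMap R K₀ x) * hPf
  have hDI : D ∉ I := by
    intro h
    have h1 : (s ^ n) ^ 3 * d ∈ I := hy' ▸ I.mul_mem_left _ h
    rcases ‹I.IsPrime›.mem_or_mem h1 with h2 | h2
    · exact hsI (‹I.IsPrime›.mem_of_pow_mem _ (‹I.IsPrime›.mem_of_pow_mem _ h2))
    · exact hdI h2
  obtain ⟨X', hX'⟩ := h53_dvd_of_dvd_mul I S₀ h0 hC1 hC2 ha hDI (Dvd.intro_left _ hf')
  have hfin : D * X' = (s ^ n) ^ 3 := by
    apply mul_left_cancel₀ ha0
    rw [show a * (D * X') = D * (a * X') by ring, ← hX', ← hf']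
    ring
  have hs1 : Ideal.Quotient.mk I s = 1 := by
    rw [← sub_eq_zero, ← map_one (Ideal.Quotient.mk I), ← map_sub,
      Ideal.Quotient.eq_zero_iff_mem]
    exact hs
  refine IsUnit.of_mul_eq_one (Ideal.Quotient.mk I X') ?_
  rw [← map_mul, hfin, map_pow, map_pow, hs1, one_pow, one_pow]

end Main

end Fermat.Agent.Red.SM.EtAbs

namespace Fermat.Agent.Red.SM.EtAbs

section Corollaries

variable {R B : Type*} [CommRing R] [IsDomain R] [CommRing B] [IsDomain B] [Algebra R B]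
  [FaithfulSMul R B] [Module.Finite R B]
  (K₀ K₁ : Type*) [Field K₀] [Field K₁] [Algebra R K₀] [IsFractionRing R K₀]
  [Algebra B K₁] [IsFractionRing B K₁] [Algebra K₀ K₁] [Algebra R K₁]
  [IsScalarTower R K₀ K₁] [IsScalarTower R B K₁]

/-- lying over: `I B ∩ R = I` for a prime `I` of `R`. -/
theorem h53_comap_map_le (I : Ideal R) [I.IsPrime] :
    (I.map (algebraMap R B)).comap (algebraMap R B) ≤ I := by
  haveI : Algebra.IsIntegral R B := Algebra.IsIntegral.of_finite R B
  obtain ⟨Q, -, -, hQ⟩ := Ideal.exists_ideal_over_prime_of_isIntegral I (⊥ : Ideal B)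
    (by
      rw [← RingHom.ker_eq_comap_bot,
        (RingHom.injective_iff_ker_eq_bot _).1 (FaithfulSMul.algebraMap_injective R B)]
      exact bot_le)
  have h1 : I.map (algebraMap R B) ≤ Q := by
    rw [Ideal.map_le_iff_le_comap, hQ]
  calc (I.map (algebraMap R B)).comap (algebraMap R B) ≤ Q.comap (algebraMap R B) :=
        Ideal.comap_mono h1
    _ = I := hQ

theorem h53_algebraMap_quot_injective (I : Ideal R) [I.IsPrime] :
    Function.Injective (algebraMap (R ⧸ I) (B ⧸ I.map (algebraMap R B))) := by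
  rw [injective_iff_map_eq_zero]
  intro x hx
  obtain ⟨r, rfl⟩ := Ideal.Quotient.mk_surjective x
  rw [Ideal.Quotient.algebraMap_quotient_map_quotient, Ideal.Quotient.eq_zero_iff_mem] at hx
  rw [Ideal.Quotient.eq_zero_iff_mem]
  exact h53_comap_map_le I hx

/-- **existence of a lifted basis**: if `R / I` is a principal ideal domain and `B / I B` is a
domain, then a basis of `B / I B` over `R / I` exists and can be lifted. -/
theorem h53_exists_lift_basis (I : Ideal R) [I.IsPrime] [IsPrincipalIdealRing (R ⧸ I)]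
    [IsDomain (B ⧸ I.map (algebraMap R B))] :
    ∃ (n : ℕ) (e : Fin n → B),
      (∀ b : B, ∃ c : Fin n → R, b - ∑ i, c i • e i ∈ I.map (algebraMap R B)) ∧
      (∀ c : Fin n → R, ∑ i, c i • e i ∈ I.map (algebraMap R B) → ∀ i, c i ∈ I) := by
  classical
  haveI : Module.Finite R (B ⧸ I.map (algebraMap R B)) :=
    Module.Finite.of_surjective (Ideal.Quotient.mkₐ R (I.map (algebraMap R B))).toLinearMap
      (Ideal.Quotient.mkₐ_surjective R _)
  haveI : Module.Finite (R ⧸ I) (B ⧸ I.map (algebraMap R B)) :=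
    Module.Finite.of_restrictScalars_finite R (R ⧸ I) (B ⧸ I.map (algebraMap R B))
  haveI : Module.IsTorsionFree (R ⧸ I) (B ⧸ I.map (algebraMap R B)) :=
    Module.isTorsionFree_iff_algebraMap_injective.2 (h53_algebraMap_quot_injective I)
  obtain ⟨n, bQ⟩ := Module.basisOfFiniteTypeTorsionFree' (R := R ⧸ I)
    (M := B ⧸ I.map (algebraMap R B))
  choose e he using fun i => Ideal.Quotient.mk_surjective (bQ i)
  have hsum : ∀ c : Fin n → R, Ideal.Quotient.mk (I.map (algebraMap R B)) (∑ i, c i • e i) =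
      ∑ i, Ideal.Quotient.mk I (c i) • bQ i := by
    intro c
    rw [map_sum]
    refine Finset.sum_congr rfl fun i _ => ?_
    rw [← he i, Ideal.Quotient.mk_smul_mk_quotient_map_quotient, Algebra.smul_def]
  refine ⟨n, e, fun b => ?_, fun c hc i => ?_⟩
  · choose c hc using fun i => Ideal.Quotient.mk_surjective (bQ.repr (Ideal.Quotient.mk _ b) i)
    refine ⟨c, ?_⟩
    rw [← Ideal.Quotient.eq_zero_iff_mem, map_sub, hsum, sub_eq_zero]
    conv_lhs => rw [← bQ.sum_repr (Ideal.Quotient.mk _ b)]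
    exact Finset.sum_congr rfl fun i _ => by rw [hc i]
  · rw [← Ideal.Quotient.eq_zero_iff_mem, hsum] at hc
    have h1 := (Fintype.linearIndependent_iff.1 bQ.linearIndependent) _ hc i
    rwa [Ideal.Quotient.eq_zero_iff_mem] at h1

/-- **SM-ABS, integrally closed form.** -/
theorem h53_sm_abs_integrallyClosed (I : Ideal R) [I.IsPrime]
    [IsIntegrallyClosed (R ⧸ I)] [IsDomain (B ⧸ I.map (algebraMap R B))]
    (S₀ : Submonoid R) (h0 : (0 : R) ∉ S₀)
    (hC1 : ∀ x : R, x ≠ 0 → ∃ a ∈ S₀, ∃ x₀ : R, x₀ ∉ I ∧ x = a * x₀)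
    (hC2 : ∀ a ∈ S₀, ∀ a' ∈ S₀, a ∣ a' ∨ ∃ c ∈ I, a = a' * c)
    {ι κ : Type*} [Fintype ι] [DecidableEq ι] [Fintype κ] [DecidableEq κ]
    (e : ι → B)
    (he1 : ∀ b : B, ∃ c : ι → R, b - ∑ i, c i • e i ∈ I.map (algebraMap R B))
    (he2 : ∀ c : ι → R, ∑ i, c i • e i ∈ I.map (algebraMap R B) → ∀ i, c i ∈ I)
    (f : κ → B)
    (hf1 : ∀ b : B, ∃ a ∈ S₀, ∃ c : κ → R, a • b = ∑ i, c i • f i)
    (hf2 : ∃ x : R, ∃ a ∈ S₀,
      Algebra.discr K₀ (fun i => algebraMap B K₁ (f i)) * algebraMap R K₀ x = algebraMap R K₀ a)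
    (y : κ → B)
    (hy : ∃ d : R, d ∉ I ∧
      Algebra.discr K₀ (fun i => algebraMap B K₁ (y i)) = algebraMap R K₀ d) :
    IsIntegrallyClosed (B ⧸ I.map (algebraMap R B)) := by
  obtain ⟨b, -, hb⟩ := h53_sm_abs K₀ K₁ I S₀ h0 hC1 hC2 e he1 he2 f hf1 hf2 y hy
  exact Fermat.Agent.Red.SM.DiscrNormal.isIntegrallyClosed_of_isUnit_discr b hb

/-- **SM-ABS, Dedekind form**: if `R / I` is a principal ideal domain and `B / I B` is a domain,
the generic fibre has a basis with unit discriminant and the special fibre is separable, then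
`B / I B` is a Dedekind domain. -/
theorem h53_sm_abs_dedekind (I : Ideal R) [I.IsPrime]
    [IsPrincipalIdealRing (R ⧸ I)] [IsDomain (B ⧸ I.map (algebraMap R B))]
    (S₀ : Submonoid R) (h0 : (0 : R) ∉ S₀)
    (hC1 : ∀ x : R, x ≠ 0 → ∃ a ∈ S₀, ∃ x₀ : R, x₀ ∉ I ∧ x = a * x₀)
    (hC2 : ∀ a ∈ S₀, ∀ a' ∈ S₀, a ∣ a' ∨ ∃ c ∈ I, a = a' * c)
    {κ : Type*} [Fintype κ] [DecidableEq κ]
    (f : κ → B)
    (hf1 : ∀ b : B, ∃ a ∈ S₀, ∃ c : κ → R, a • b = ∑ i, c i • f i)
    (hf2 : ∃ x : R, ∃ a ∈ S₀,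
      Algebra.discr K₀ (fun i => algebraMap B K₁ (f i)) * algebraMap R K₀ x = algebraMap R K₀ a)
    (y : κ → B)
    (hy : ∃ d : R, d ∉ I ∧
      Algebra.discr K₀ (fun i => algebraMap B K₁ (y i)) = algebraMap R K₀ d) :
    IsDedekindDomain (B ⧸ I.map (algebraMap R B)) := by
  obtain ⟨n, e, he1, he2⟩ := h53_exists_lift_basis (B := B) I
  obtain ⟨b, -, hb⟩ := h53_sm_abs K₀ K₁ I S₀ h0 hC1 hC2 e he1 he2 f hf1 hf2 y hy
  exact Fermat.Agent.Red.SM.DiscrNormal.isDedekindDomain_of_isUnit_discr b hb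

end Corollaries

end Fermat.Agent.Red.SM.EtAbs

namespace Fermat.Agent.Red.SM.EtAbs

section ValuationRing

variable {A R B : Type*} [CommRing A] [IsDomain A] [ValuationRing A]
  [CommRing R] [IsDomain R] [Algebra A R] [FaithfulSMul A R]
  [CommRing B] [IsDomain B] [Algebra R B] [FaithfulSMul R B] [Module.Finite R B]
  (K₀ K₁ : Type*) [Field K₀] [Field K₁] [Algebra R K₀] [IsFractionRing R K₀]
  [Algebra B K₁] [IsFractionRing B K₁] [Algebra K₀ K₁] [Algebra R K₁]
  [IsScalarTower R K₀ K₁] [IsScalarTower R B K₁]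

/-- the constants: images of the nonzero elements of `A`. -/
def h53_constants (A R : Type*) [CommRing A] [CommRing R] [Algebra A R] : Submonoid R :=
  (nonZeroDivisors A).map (algebraMap A R)

theorem h53_zero_not_mem_constants : (0 : R) ∉ h53_constants A R := by
  rintro ⟨a, ha, h⟩
  have h1 : a = 0 := FaithfulSMul.algebraMap_injective A R (by rw [map_zero]; exact h)
  exact nonZeroDivisors.ne_zero ha h1

theorem h53_constants_total :
    ∀ a ∈ h53_constants A R, ∀ a' ∈ h53_constants A R,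
      a ∣ a' ∨ ∃ c ∈ (IsLocalRing.maximalIdeal A).map (algebraMap A R), a = a' * c := by
  rintro _ ⟨α, hα, rfl⟩ _ ⟨α', hα', rfl⟩
  rcases ValuationRing.dvd_total α α' with h | ⟨γ, rfl⟩
  · exact Or.inl (map_dvd (algebraMap A R) h)
  · by_cases hγ : IsUnit γ
    · left
      obtain ⟨u, rfl⟩ := hγ
      refine map_dvd (algebraMap A R) ⟨(↑u⁻¹ : A), ?_⟩
      rw [mul_assoc, Units.mul_inv, mul_one]
    · right
      refine ⟨algebraMap A R γ, Ideal.mem_map_of_mem _ ?_, map_mul _ _ _⟩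
      exact (IsLocalRing.mem_maximalIdeal γ).2 hγ

/-- **SM-ABS over a valuation ring** (Dedekind form).  `A` a valuation ring, `R` an `A`-algebra
with the Gauss content property, `I = 𝔪_A R` prime with `R / I` a principal ideal domain,
`B ⊇ R` finite with `B / 𝔪_A B` a domain. -/
theorem h53_sm_abs_dedekind_val
    [((IsLocalRing.maximalIdeal A).map (algebraMap A R)).IsPrime]
    [IsPrincipalIdealRing (R ⧸ (IsLocalRing.maximalIdeal A).map (algebraMap A R))]
    [IsDomain (B ⧸ ((IsLocalRing.maximalIdeal A).map (algebraMap A R)).map (algebraMap R B))]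
    (hC1 : ∀ x : R, x ≠ 0 → ∃ a : A, a ≠ 0 ∧ ∃ x₀ : R,
      x₀ ∉ (IsLocalRing.maximalIdeal A).map (algebraMap A R) ∧ x = a • x₀)
    {κ : Type*} [Fintype κ] [DecidableEq κ]
    (f : κ → B)
    (hf1 : ∀ b : B, ∃ a : A, a ≠ 0 ∧ ∃ c : κ → R, algebraMap A R a • b = ∑ i, c i • f i)
    (hf2 : ∃ x : R, ∃ a : A, a ≠ 0 ∧
      Algebra.discr K₀ (fun i => algebraMap B K₁ (f i)) * algebraMap R K₀ x =
        algebraMap R K₀ (algebraMap A R a))
    (y : κ → B)
    (hy : ∃ d : R, d ∉ (IsLocalRing.maximalIdeal A).map (algebraMap A R) ∧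
      Algebra.discr K₀ (fun i => algebraMap B K₁ (y i)) = algebraMap R K₀ d) :
    IsDedekindDomain
      (B ⧸ ((IsLocalRing.maximalIdeal A).map (algebraMap A R)).map (algebraMap R B)) := by
  have hmem : ∀ a : A, a ≠ 0 → algebraMap A R a ∈ h53_constants A R := fun a ha =>
    ⟨a, mem_nonZeroDivisors_of_ne_zero ha, rfl⟩
  refine h53_sm_abs_dedekind K₀ K₁ _ (h53_constants A R) h53_zero_not_mem_constants ?_
    h53_constants_total f ?_ ?_ y hy
  · intro x hx
    obtain ⟨a, ha, x₀, hx₀, rfl⟩ := hC1 x hx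
    exact ⟨algebraMap A R a, hmem a ha, x₀, hx₀, Algebra.smul_def a x₀⟩
  · intro b
    obtain ⟨a, ha, c, hc⟩ := hf1 b
    exact ⟨algebraMap A R a, hmem a ha, c, hc⟩
  · obtain ⟨x, a, ha, h⟩ := hf2
    exact ⟨x, algebraMap A R a, hmem a ha, h⟩

end ValuationRing

end Fermat.Agent.Red.SM.EtAbs
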