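import Fermat.Agent.Red.SM.EtAbsContent

/-!
# P-RED / SM-ABS: the two bases (generic fibre and special fibre) attached to a lifted basis
-/

set_option autoImplicit false
set_option linter.style.haveILetI false
set_option linter.unusedSectionVars false
set_option linter.unusedVariables false

open scoped nonZeroDivisors

namespace Fermat.Agent.Red.SM.EtAbs

section Generic

variable {R B : Type*} [CommRing R] [IsDomain R] [CommRing B] [IsDomain B] [Algebra R B]
  [FaithfulSMul R B] [Module.Finite R B]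
  (K₀ K₁ : Type*) [Field K₀] [Field K₁] [Algebra R K₀] [IsFractionRing R K₀]
  [Algebra B K₁] [IsFractionRing B K₁] [Algebra K₀ K₁] [Algebra R K₁]
  [IsScalarTower R K₀ K₁] [IsScalarTower R B K₁]

/-- every element of `K₁` is `b / r` with `b ∈ B`, `r ∈ R` nonzero. -/
theorem h53_exists_num_den (x : K₁) :
    ∃ (b : B) (r : R), r ≠ 0 ∧ algebraMap R K₀ r • x = algebraMap B K₁ b := by
  haveI : Algebra.IsIntegral R B := Algebra.IsIntegral.of_finite R B
  haveI : IsLocalization (Algebra.algebraMapSubmonoid B R⁰) K₁ := inferInstance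
  obtain ⟨⟨b, ⟨_, r, hr, rfl⟩⟩, hb⟩ :=
    IsLocalization.surj (Algebra.algebraMapSubmonoid B R⁰) x
  refine ⟨b, r, nonZeroDivisors.ne_zero hr, ?_⟩
  rw [← hb, Algebra.smul_def, ← IsScalarTower.algebraMap_apply R K₀ K₁,
    IsScalarTower.algebraMap_apply R B K₁, mul_comm]

/-- a family of `B` which is `R`-linearly independent and generates `B` up to a nonzero `s` is a
`K₀`-basis of `K₁`. -/
theorem h53_exists_basis {ι : Type*} [Fintype ι] (e : ι → B) (hli : LinearIndependent R e)
    (s : R) (hs : s ≠ 0) (hspan : ∀ b : B, ∃ c : ι → R, s • b = ∑ i, c i • e i) :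
    ∃ bE : Module.Basis ι K₀ K₁, ∀ i, bE i = algebraMap B K₁ (e i) := by
  classical
  let φ : B →ₗ[R] K₁ := (IsScalarTower.toAlgHom R B K₁).toLinearMap
  have hφ : ∀ b, φ b = algebraMap B K₁ b := fun _ => rfl
  have hinj : Function.Injective φ := by
    intro a b h
    rw [hφ, hφ] at h
    exact IsFractionRing.injective B K₁ h
  have hli1 : LinearIndependent R (fun i => algebraMap B K₁ (e i)) :=
    hli.map' φ (LinearMap.ker_eq_bot.2 hinj)
  have hli2 : LinearIndependent K₀ (fun i => algebraMap B K₁ (e i)) :=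
    (LinearIndependent.iff_fractionRing R K₀).1 hli1
  have hsp : ⊤ ≤ Submodule.span K₀ (Set.range fun i => algebraMap B K₁ (e i)) := by
    rintro x -
    obtain ⟨b, r, hr, hb⟩ := h53_exists_num_den (R := R) (B := B) K₀ K₁ x
    obtain ⟨c, hc⟩ := hspan b
    have hr' : algebraMap R K₀ r ≠ 0 := by
      rwa [Ne, map_eq_zero_iff _ (IsFractionRing.injective R K₀)]
    have hs' : algebraMap R K₀ s ≠ 0 := by
      rwa [Ne, map_eq_zero_iff _ (IsFractionRing.injective R K₀)]
    have h1 : algebraMap R K₀ s • algebraMap R K₀ r • x =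
        ∑ i, algebraMap R K₀ (c i) • algebraMap B K₁ (e i) := by
      rw [hb, algebraMap_smul, ← hφ, ← map_smul, hc, map_sum]
      refine Finset.sum_congr rfl fun i _ => ?_
      rw [algebraMap_smul, map_smul, hφ]
    have h2 : x = (algebraMap R K₀ r)⁻¹ • (algebraMap R K₀ s)⁻¹ •
        ∑ i, algebraMap R K₀ (c i) • algebraMap B K₁ (e i) := by
      rw [← h1, smul_smul, smul_smul, smul_smul]
      field_simp
      rw [one_smul]
    rw [h2]
    refine Submodule.smul_mem _ _ (Submodule.smul_mem _ _ (Submodule.sum_mem _ fun i _ => ?_))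
    exact Submodule.smul_mem _ _ (Submodule.subset_span ⟨i, rfl⟩)
  exact ⟨Module.Basis.mk hli2 hsp, fun i => Module.Basis.mk_apply hli2 hsp i⟩

end Generic

section Special

variable {R B : Type*} [CommRing R] [CommRing B] [Algebra R B] (I : Ideal R)

/-- a family of `B` whose images are independent and generate modulo `I B` gives a basis of
`B / I B` over `R / I`. -/
theorem h53_exists_basis_quot {ι : Type*} [Fintype ι] (e : ι → B)
    (he1 : ∀ b : B, ∃ c : ι → R, b - ∑ i, c i • e i ∈ I.map (algebraMap R B))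
    (he2 : ∀ c : ι → R, ∑ i, c i • e i ∈ I.map (algebraMap R B) → ∀ i, c i ∈ I) :
    ∃ bQ : Module.Basis ι (R ⧸ I) (B ⧸ I.map (algebraMap R B)),
      ∀ i, bQ i = Ideal.Quotient.mk _ (e i) := by
  classical
  have hsum : ∀ c : ι → R, ∑ i, Ideal.Quotient.mk I (c i) •
      Ideal.Quotient.mk (I.map (algebraMap R B)) (e i) =
      Ideal.Quotient.mk (I.map (algebraMap R B)) (∑ i, c i • e i) := by
    intro c
    rw [map_sum]
    refine Finset.sum_congr rfl fun i _ => ?_
    rw [Ideal.Quotient.mk_smul_mk_quotient_map_quotient, Algebra.smul_def]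
  have hli : LinearIndependent (R ⧸ I)
      (fun i => Ideal.Quotient.mk (I.map (algebraMap R B)) (e i)) := by
    rw [Fintype.linearIndependent_iff]
    intro c hc i
    choose c' hc' using fun i => Ideal.Quotient.mk_surjective (c i)
    have h1 : ∑ i, c' i • e i ∈ I.map (algebraMap R B) := by
      rw [← Ideal.Quotient.eq_zero_iff_mem, ← hsum, ← hc]
      refine Finset.sum_congr rfl fun i _ => ?_
      rw [hc' i]
    rw [← hc' i, Ideal.Quotient.eq_zero_iff_mem]
    exact he2 c' h1 i
  have hsp : ⊤ ≤ Submodule.span (R ⧸ I)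
      (Set.range fun i => Ideal.Quotient.mk (I.map (algebraMap R B)) (e i)) := by
    rintro x -
    obtain ⟨b, rfl⟩ := Ideal.Quotient.mk_surjective x
    obtain ⟨c, hc⟩ := he1 b
    have h1 : Ideal.Quotient.mk (I.map (algebraMap R B)) b =
        ∑ i, Ideal.Quotient.mk I (c i) •
          Ideal.Quotient.mk (I.map (algebraMap R B)) (e i) := by
      rw [hsum, ← sub_eq_zero, ← map_sub, Ideal.Quotient.eq_zero_iff_mem]
      exact hc
    rw [h1]
    exact Submodule.sum_mem _ fun i _ =>
      Submodule.smul_mem _ _ (Submodule.subset_span ⟨i, rfl⟩)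
  exact ⟨Module.Basis.mk hli hsp, fun i => Module.Basis.mk_apply hli hsp i⟩

end Special

end Fermat.Agent.Red.SM.EtAbs
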