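import Mathlib

set_option autoImplicit false
set_option linter.style.haveILetI false
set_option linter.unusedSectionVars false
set_option linter.unusedVariables false

open scoped nonZeroDivisors

namespace Fermat.Agent.Red.SM.EtAbs

section Content

variable {R : Type*} [CommRing R] [IsDomain R] (I : Ideal R) [I.IsPrime]
  (S₀ : Submonoid R)

/-- (C3): elements outside `I` are nonzerodivisors modulo every constant. -/
theorem h53_dvd_of_dvd_mul (h0 : (0 : R) ∉ S₀)
    (hC1 : ∀ x : R, x ≠ 0 → ∃ a ∈ S₀, ∃ x₀ : R, x₀ ∉ I ∧ x = a * x₀)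
    (hC2 : ∀ a ∈ S₀, ∀ a' ∈ S₀, a ∣ a' ∨ ∃ c ∈ I, a = a' * c)
    {a : R} (ha : a ∈ S₀) {u x : R} (hu : u ∉ I) (h : a ∣ u * x) : a ∣ x := by
  by_cases hx : x = 0
  · subst hx; exact dvd_zero a
  obtain ⟨ax, hax, x₀, hx₀, rfl⟩ := hC1 x hx
  rcases hC2 a ha ax hax with h1 | ⟨c, hc, rfl⟩
  · exact h1.mul_right x₀
  · exfalso
    obtain ⟨z, hz⟩ := h
    have hax0 : ax ≠ 0 := fun h' => h0 (h' ▸ hax)
    have h2 : u * x₀ = c * z := by
      apply mul_left_cancel₀ hax0
      linear_combination hz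
    have h3 : u * x₀ ∈ I := h2 ▸ I.mul_mem_right z hc
    rcases (Ideal.IsPrime.mem_or_mem ‹I.IsPrime› h3) with h4 | h4
    · exact hu h4
    · exact hx₀ h4

/-- content of a finite family. -/
theorem h53_family_content (h0 : (0 : R) ∉ S₀)
    (hC1 : ∀ x : R, x ≠ 0 → ∃ a ∈ S₀, ∃ x₀ : R, x₀ ∉ I ∧ x = a * x₀)
    (hC2 : ∀ a ∈ S₀, ∀ a' ∈ S₀, a ∣ a' ∨ ∃ c ∈ I, a = a' * c)
    {ι : Type*} [Finite ι] (c : ι → R) (hc : c ≠ 0) :
    ∃ a ∈ S₀, ∃ c₀ : ι → R, (∀ i, c i = a * c₀ i) ∧ ∃ i, c₀ i ∉ I := by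
  classical
  haveI := Fintype.ofFinite ι
  -- induction on the finite set of indices where we require divisibility
  have key : ∀ s : Finset ι, (∃ i ∈ s, c i ≠ 0) →
      ∃ a ∈ S₀, (∀ i ∈ s, a ∣ c i) ∧ ∃ i ∈ s, ∃ x₀ : R, x₀ ∉ I ∧ c i = a * x₀ := by
    intro s
    induction s using Finset.induction_on with
    | empty => rintro ⟨i, hi, -⟩; simp at hi
    | insert j s hj ih =>
      rintro ⟨i, hi, hci⟩
      by_cases hs : ∃ i ∈ s, c i ≠ 0
      · obtain ⟨a, ha, hdiv, i₀, hi₀, x₀, hx₀, hci₀⟩ := ih hs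
        by_cases hcj : c j = 0
        · refine ⟨a, ha, ?_, i₀, Finset.mem_insert_of_mem hi₀, x₀, hx₀, hci₀⟩
          intro i hi
          rcases Finset.mem_insert.1 hi with rfl | hi
          · rw [hcj]; exact dvd_zero a
          · exact hdiv i hi
        · obtain ⟨aj, haj, xj, hxj, hcj'⟩ := hC1 (c j) hcj
          rcases hC2 a ha aj haj with h1 | ⟨d, hd, rfl⟩
          · -- `a ∣ aj`
            refine ⟨a, ha, ?_, i₀, Finset.mem_insert_of_mem hi₀, x₀, hx₀, hci₀⟩
            intro i hi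
            rcases Finset.mem_insert.1 hi with rfl | hi
            · rw [hcj']; exact h1.mul_right xj
            · exact hdiv i hi
          · -- `a = aj * d`
            refine ⟨aj, haj, ?_, j, Finset.mem_insert_self j s, xj, hxj, hcj'⟩
            intro i hi
            rcases Finset.mem_insert.1 hi with rfl | hi
            · rw [hcj']; exact dvd_mul_right _ _
            · exact (dvd_mul_right aj d).trans (hdiv i hi)
      · simp only [not_exists, not_and, not_not] at hs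
        have hij : i = j := by
          rcases Finset.mem_insert.1 hi with h | h
          · exact h
          · exact absurd (hs i h) hci
        subst hij
        obtain ⟨aj, haj, xj, hxj, hcj'⟩ := hC1 (c i) hci
        refine ⟨aj, haj, ?_, i, Finset.mem_insert_self i s, xj, hxj, hcj'⟩
        intro k hk
        rcases Finset.mem_insert.1 hk with rfl | hk
        · rw [hcj']; exact dvd_mul_right _ _
        · rw [hs k hk]; exact dvd_zero _
  have hne : ∃ i ∈ (Finset.univ : Finset ι), c i ≠ 0 := by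
    by_contra h
    simp only [not_exists, not_and, not_not] at h
    exact hc (funext fun i => h i (Finset.mem_univ i))
  obtain ⟨a, ha, hdiv, i₀, -, x₀, hx₀, hci₀⟩ := key Finset.univ hne
  have ha0 : a ≠ 0 := fun h' => h0 (h' ▸ ha)
  choose c₀ hc₀ using fun i => hdiv i (Finset.mem_univ i)
  refine ⟨a, ha, c₀, hc₀, i₀, ?_⟩
  have : c₀ i₀ = x₀ := mul_left_cancel₀ ha0 ((hc₀ i₀).symm.trans hci₀)
  rw [this]; exact hx₀

end Content

section Indep

variable {R B : Type*} [CommRing R] [IsDomain R] [CommRing B] [IsDomain B] [Algebra R B]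
  [FaithfulSMul R B] (I : Ideal R) [I.IsPrime] (S₀ : Submonoid R)

/-- a lift of an independent family of the special fibre is linearly independent. -/
theorem h53_linearIndependent (h0 : (0 : R) ∉ S₀)
    (hC1 : ∀ x : R, x ≠ 0 → ∃ a ∈ S₀, ∃ x₀ : R, x₀ ∉ I ∧ x = a * x₀)
    (hC2 : ∀ a ∈ S₀, ∀ a' ∈ S₀, a ∣ a' ∨ ∃ c ∈ I, a = a' * c)
    {ι : Type*} [Fintype ι] (e : ι → B)
    (he2 : ∀ c : ι → R, ∑ i, c i • e i ∈ I.map (algebraMap R B) → ∀ i, c i ∈ I) :
    LinearIndependent R e := by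
  rw [Fintype.linearIndependent_iff]
  intro c hc
  by_contra hne
  simp only [not_forall] at hne
  have hc0 : c ≠ 0 := by
    intro h
    obtain ⟨i, hi⟩ := hne
    exact hi (by rw [h]; rfl)
  obtain ⟨a, ha, c₀, hc₀, i₀, hi₀⟩ := h53_family_content I S₀ h0 hC1 hC2 c hc0
  have ha0 : a ≠ 0 := fun h' => h0 (h' ▸ ha)
  have h1 : a • ∑ i, c₀ i • e i = 0 := by
    rw [Finset.smul_sum, ← hc]
    refine Finset.sum_congr rfl fun i _ => ?_
    rw [hc₀ i, mul_smul]
  have h2 : ∑ i, c₀ i • e i = 0 := by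
    rcases smul_eq_zero.1 h1 with h | h
    · exact absurd h ha0
    · exact h
  exact hi₀ (he2 c₀ (h2 ▸ Ideal.zero_mem _) i₀)

/-- **global Nakayama**: a lift of a generating family of the special fibre generates after
inverting some `s ≡ 1` modulo `I`. -/
theorem h53_exists_s [Module.Finite R B] {ι : Type*} [Fintype ι] (e : ι → B)
    (he1 : ∀ b : B, ∃ c : ι → R, b - ∑ i, c i • e i ∈ I.map (algebraMap R B)) :
    ∃ s : R, s - 1 ∈ I ∧ ∀ b : B, ∃ c : ι → R, s • b = ∑ i, c i • e i := by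
  classical
  let N : Submodule R B := Submodule.span R (Set.range e)
  -- `⊤ ≤ I • ⊤ ⊔ N`, so the quotient `B / N` satisfies `I (B/N) = B/N`
  let Q := B ⧸ N
  have hfg : (⊤ : Submodule R Q).FG := Module.Finite.fg_top
  have hle : (⊤ : Submodule R Q) ≤ I • (⊤ : Submodule R Q) := by
    rintro x -
    obtain ⟨b, rfl⟩ := N.mkQ_surjective x
    obtain ⟨c, hc⟩ := he1 b
    have h1 : N.mkQ b = N.mkQ (b - ∑ i, c i • e i) := by
      rw [map_sub, sub_eq_self.2]
      rw [Submodule.mkQ_apply, Submodule.Quotient.mk_eq_zero]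
      exact Submodule.sum_mem _ fun i _ => Submodule.smul_mem _ _ (Submodule.subset_span ⟨i, rfl⟩)
    rw [h1]
    -- elements of `I B` map into `I • ⊤`
    have h2 : ∀ z ∈ I.map (algebraMap R B), N.mkQ z ∈ I • (⊤ : Submodule R Q) := by
      intro z hz
      have hz' : z ∈ (I • ⊤ : Submodule R B) := by
        rw [Ideal.smul_top_eq_map]; exact hz
      have h3 : N.mkQ z ∈ (I • ⊤ : Submodule R B).map N.mkQ := Submodule.mem_map_of_mem hz'
      rw [Submodule.map_smul''] at h3
      exact Submodule.smul_mono le_rfl le_top h3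
    exact h2 _ hc
  obtain ⟨r, hr1, hr2⟩ := Submodule.exists_sub_one_mem_and_smul_eq_zero_of_fg_of_le_smul I
    (⊤ : Submodule R Q) hfg hle
  refine ⟨r, hr1, fun b => ?_⟩
  have h3 : r • N.mkQ b = 0 := hr2 _ Submodule.mem_top
  rw [← map_smul, Submodule.mkQ_apply, Submodule.Quotient.mk_eq_zero] at h3
  obtain ⟨c, hc⟩ := (Submodule.mem_span_range_iff_exists_fun R).1 h3
  exact ⟨c, hc.symm⟩

end Indep

end Fermat.Agent.Red.SM.EtAbs
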