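import Fermat.Agent.Red.SM.EtAbsBasis

/-!
# P-RED / SM-ABS: traces and discriminants on the generic and on the special fibre
-/

set_option autoImplicit false
set_option linter.style.haveILetI false
set_option linter.unusedSectionVars false
set_option linter.unusedVariables false

open scoped nonZeroDivisors

namespace Fermat.Agent.Red.SM.EtAbs

section Trace

variable {R B : Type*} [CommRing R] [IsDomain R] [CommRing B] [IsDomain B] [Algebra R B]
  (K₀ K₁ : Type*) [Field K₀] [Field K₁] [Algebra R K₀] [IsFractionRing R K₀]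
  [Algebra B K₁] [IsFractionRing B K₁] [Algebra K₀ K₁] [Algebra R K₁]
  [IsScalarTower R K₀ K₁] [IsScalarTower R B K₁]
  (I : Ideal R)
  {ι : Type*} [Fintype ι] [DecidableEq ι]

/-- the image in `K₁` of an `R`-linear combination. -/
theorem h53_map_sum_smul (c : ι → R) (e : ι → B) :
    algebraMap B K₁ (∑ i, c i • e i) = ∑ i, algebraMap R K₀ (c i) • algebraMap B K₁ (e i) := by
  rw [map_sum]
  refine Finset.sum_congr rfl fun i _ => ?_
  rw [Algebra.smul_def, map_mul, ← IsScalarTower.algebraMap_apply R B K₁,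
    IsScalarTower.algebraMap_apply R K₀ K₁, ← Algebra.smul_def]

theorem h53_map_smul (s : R) (b : B) :
    algebraMap B K₁ (s • b) = algebraMap R K₀ s • algebraMap B K₁ b := by
  rw [Algebra.smul_def, map_mul, ← IsScalarTower.algebraMap_apply R B K₁,
    IsScalarTower.algebraMap_apply R K₀ K₁, ← Algebra.smul_def]

/-- the coordinates on the generic fibre. -/
theorem h53_repr_generic (bE : Module.Basis ι K₀ K₁) (e : ι → B)
    (hbE : ∀ i, bE i = algebraMap B K₁ (e i)) (s : R) (b : B) (c : ι → R)
    (h : s • b = ∑ i, c i • e i) (i : ι) :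
    algebraMap R K₀ s * bE.repr (algebraMap B K₁ b) i = algebraMap R K₀ (c i) := by
  have h1 : algebraMap R K₀ s • algebraMap B K₁ b = ∑ i, algebraMap R K₀ (c i) • bE i := by
    rw [← h53_map_smul K₀ K₁, h, h53_map_sum_smul K₀ K₁]
    exact Finset.sum_congr rfl fun i _ => by rw [hbE i]
  have h2 := congrArg (fun x => bE.repr x i) h1
  simp only [map_smul, Finsupp.smul_apply, smul_eq_mul] at h2
  rw [h2, Module.Basis.repr_sum_self]

/-- the coordinates on the special fibre. -/
theorem h53_repr_special (bQ : Module.Basis ι (R ⧸ I) (B ⧸ I.map (algebraMap R B)))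
    (e : ι → B) (hbQ : ∀ i, bQ i = Ideal.Quotient.mk _ (e i)) (s : R) (hs : s - 1 ∈ I)
    (b : B) (c : ι → R) (h : s • b = ∑ i, c i • e i) (i : ι) :
    bQ.repr (Ideal.Quotient.mk _ b) i = Ideal.Quotient.mk I (c i) := by
  have hs1 : Ideal.Quotient.mk I s = 1 := by
    rw [← sub_eq_zero, ← map_one (Ideal.Quotient.mk I), ← map_sub,
      Ideal.Quotient.eq_zero_iff_mem]
    exact hs
  have h1 : Ideal.Quotient.mk (I.map (algebraMap R B)) b =
      ∑ i, Ideal.Quotient.mk I (c i) • bQ i := by
    have h2 : Ideal.Quotient.mk (I.map (algebraMap R B)) (s • b) =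
        Ideal.Quotient.mk I s • Ideal.Quotient.mk (I.map (algebraMap R B)) b := by
      rw [Ideal.Quotient.mk_smul_mk_quotient_map_quotient, Algebra.smul_def]
    rw [hs1, one_smul] at h2
    rw [← h2, h, map_sum]
    refine Finset.sum_congr rfl fun i _ => ?_
    rw [hbQ i, Ideal.Quotient.mk_smul_mk_quotient_map_quotient, Algebra.smul_def]
  rw [h1, Module.Basis.repr_sum_self]

/-- **the trace is compatible with reduction**: there is `τ : B → R` with
`τ b = s · Tr_{K₁/K₀} b` and `τ b ≡ Tr_{(B/IB)/(R/I)} (b mod I)`. -/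
theorem h53_exists_trace (bE : Module.Basis ι K₀ K₁)
    (bQ : Module.Basis ι (R ⧸ I) (B ⧸ I.map (algebraMap R B)))
    (e : ι → B) (hbE : ∀ i, bE i = algebraMap B K₁ (e i))
    (hbQ : ∀ i, bQ i = Ideal.Quotient.mk _ (e i)) (s : R) (hs : s - 1 ∈ I)
    (hspan : ∀ b : B, ∃ c : ι → R, s • b = ∑ i, c i • e i) :
    ∃ τ : B → R,
      (∀ b, algebraMap R K₀ (τ b) =
        algebraMap R K₀ s * Algebra.trace K₀ K₁ (algebraMap B K₁ b)) ∧
      (∀ b, Ideal.Quotient.mk I (τ b) =
        Algebra.trace (R ⧸ I) (B ⧸ I.map (algebraMap R B)) (Ideal.Quotient.mk _ b)) := by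
  classical
  choose M hM using fun (b : B) (j : ι) => hspan (b * e j)
  refine ⟨fun b => ∑ i, M b i i, fun b => ?_, fun b => ?_⟩
  · rw [Algebra.trace_eq_matrix_trace bE, Matrix.trace, map_sum, Finset.mul_sum]
    refine Finset.sum_congr rfl fun i _ => ?_
    rw [Matrix.diag_apply, Algebra.leftMulMatrix_eq_repr_mul, hbE i, ← map_mul]
    exact (h53_repr_generic K₀ K₁ bE e hbE s (b * e i) (M b i) (hM b i) i).symm
  · rw [Algebra.trace_eq_matrix_trace bQ, Matrix.trace, map_sum]
    refine Finset.sum_congr rfl fun i _ => ?_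
    rw [Matrix.diag_apply, Algebra.leftMulMatrix_eq_repr_mul, hbQ i, ← map_mul]
    exact (h53_repr_special I bQ e hbQ s hs (b * e i) (M b i) (hM b i) i).symm

/-- **the discriminant is compatible with reduction**. -/
theorem h53_discr_compat (s : R) (τ : B → R)
    (h1 : ∀ b, algebraMap R K₀ (τ b) =
      algebraMap R K₀ s * Algebra.trace K₀ K₁ (algebraMap B K₁ b))
    (h2 : ∀ b, Ideal.Quotient.mk I (τ b) =
      Algebra.trace (R ⧸ I) (B ⧸ I.map (algebraMap R B)) (Ideal.Quotient.mk _ b))
    {κ : Type*} [Fintype κ] [DecidableEq κ] (y : κ → B) :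
    algebraMap R K₀ (Matrix.det (Matrix.of fun i j => τ (y i * y j))) =
        algebraMap R K₀ s ^ Fintype.card κ *
          Algebra.discr K₀ (fun i => algebraMap B K₁ (y i)) ∧
      Ideal.Quotient.mk I (Matrix.det (Matrix.of fun i j => τ (y i * y j))) =
        Algebra.discr (R ⧸ I) (fun i => Ideal.Quotient.mk (I.map (algebraMap R B)) (y i)) := by
  constructor
  · rw [RingHom.map_det, Algebra.discr_def, ← Matrix.det_smul]
    congr 1
    ext i j
    simp only [RingHom.mapMatrix_apply, Matrix.map_apply, Matrix.of_apply, Matrix.smul_apply,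
      Algebra.traceMatrix_apply, Algebra.traceForm_apply, smul_eq_mul]
    rw [h1, map_mul]
  · rw [RingHom.map_det, Algebra.discr_def]
    congr 1
    ext i j
    simp only [RingHom.mapMatrix_apply, Matrix.map_apply, Matrix.of_apply,
      Algebra.traceMatrix_apply, Algebra.traceForm_apply]
    rw [h2, map_mul]

end Trace

end Fermat.Agent.Red.SM.EtAbs
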