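import Mathlib
import Fermat.Agent.Red.SM.H74BK
import Fermat.Agent.Red.SM.CoreSpecial53H

/-!
# P-RED / R-SM, SM-CORE (I-b): `SMCoreV` (helper74)

`h74_smCoreV_final : SMCoreV`, unconditional: the chain `h74_smCoreV` (Red/SM/H74Chain.lean) with
the special fibre `h53s_special` (helper53) and the generic fibre `h74_genericV`
(Red/SM/H74BK.lean; uses TAME `h99_h74_tame` (helper99), the points lemmas of helper52
(Red/SM/CorePts.lean), the count of helper60 (Red/SM/CoreG3.lean) and the point lift of helper83).
-/

set_option autoImplicit false

namespace Fermat.Agent.Red.SM.Core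

/-- **SM-CORE**, typeclass form over a valuation subring. -/
theorem h74_smCoreV_final : Fermat.Agent.Red.SM.SMCoreV :=
  h74_smCoreV Fermat.Agent.Red.SM.Spec53.h53s_special h74_genericV

end Fermat.Agent.Red.SM.Core
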