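import Fermat.Agent.Red.SM.H74Final
import Fermat.Agent.Red.SM.CoreAdapterV
import Fermat.Agent.Red.SM.Assembly

/-!
# P-RED / R-SM: `SMCore` is proved (helper74)

* `h74_smCore : SMCore` (unconditional) = adapter `h13_smCore_of_V` applied to
  `h74_smCoreV_final`.
* `h74_ifaceSmooth_of : InstInf → InstFin → S37.IfaceSmooth`.
-/

set_option autoImplicit false

namespace Fermat.Agent.Red.SM.Core

/-- **SM-CORE**, the frozen abstract interface of `Red/SM/CoreSkeleton.lean`. -/
theorem h74_smCore : Fermat.Agent.Red.SM.SMCore :=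
  Fermat.Agent.Red.SM.h13_smCore_of_V h74_smCoreV_final

/-- `IfaceSmooth` from the two instantiation statements. -/
theorem h74_ifaceSmooth_of (hInf : Fermat.Agent.Red.SM.InstInf)
    (hFin : Fermat.Agent.Red.SM.InstFin) : Fermat.Agent.S37.IfaceSmooth :=
  Fermat.Agent.Red.SM.ifaceSmooth_of h74_smCore hInf hFin

end Fermat.Agent.Red.SM.Core
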