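import Mathlib
import Fermat.Agent.Red.UnitDisc

/-!
# P-RED / SM: roots of a polynomial over a valuation ring and roots of its reduction

`K` an algebraically closed field, `A` a valuation subring, `P ∈ A[X]` with nonzero reduction.
The multiplicity of `c̄` as a root of the reduction `P̄` is the number of roots of `P` (counted
with multiplicity) in the open residue disc of `c`.

This is item (i) of the hypothesis check of the DELTA lemma (R-SM).  Helper names are prefixed
with `h60_`.
-/

set_option autoImplicit false

namespace Fermat.Agent.Red.SM

open Polynomial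

variable {K : Type*} [Field K]

/-- The number of roots (with multiplicity) of `P` in the open residue disc of `c`. -/
noncomputable def h60_discCount (A : ValuationSubring K) (P : (A : Type _)[X]) (c : A) : ℕ := by
  classical
  exact Multiset.card ((P.map A.subtype).roots.filter (fun r => r - (c : K) ∈ A.nonunits))

lemma h60_discCount_def (A : ValuationSubring K) (P : (A : Type _)[X]) (c : A)
    [DecidablePred (fun r : K => r - (c : K) ∈ A.nonunits)] :
    h60_discCount A P c =
      Multiset.card ((P.map A.subtype).roots.filter (fun r => r - (c : K) ∈ A.nonunits)) := by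
  unfold h60_discCount
  congr!

lemma h60_map_subtype_injective (A : ValuationSubring K) :
    Function.Injective (Polynomial.map (A.subtype) : (A : Type _)[X] → K[X]) :=
  Polynomial.map_injective _ Subtype.coe_injective

/-- A root in the residue disc of `c` is an element of `A` with the same residue. -/
lemma h60_root_mem (A : ValuationSubring K) (c : A) {r : K} (hr : r - (c : K) ∈ A.nonunits) :
    ∃ r' : A, (r' : K) = r ∧ IsLocalRing.residue A r' = IsLocalRing.residue A c := by
  have h1 : r - (c : K) ∈ A := A.nonunits_subset hr
  have h2 : r ∈ A := by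
    have := A.add_mem _ _ h1 c.2
    simpa using this
  refine ⟨⟨r, h2⟩, rfl, ?_⟩
  rw [← sub_eq_zero, ← map_sub, IsLocalRing.residue_eq_zero_iff]
  apply ValuationSubring.coe_mem_nonunits_iff.1
  simpa using hr

/-- **Roots of the reduction.**  The multiplicity of `c̄` as a root of `P̄` equals the number of
roots of `P` in the open residue disc of `c`. -/
theorem h60_rootMultiplicity_residue [IsAlgClosed K] (A : ValuationSubring K) :
    ∀ (n : ℕ) (P : (A : Type _)[X]), P.natDegree = n →
      P.map (IsLocalRing.residue A) ≠ 0 → ∀ c : A,
      (P.map (IsLocalRing.residue A)).rootMultiplicity (IsLocalRing.residue A c) =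
        h60_discCount A P c := by
  classical
  intro n
  induction n using Nat.strong_induction_on with
  | _ n ih =>
    intro P hn hP c
    rw [h60_discCount_def]
    have hP0 : P ≠ 0 := fun h => hP (by rw [h, Polynomial.map_zero])
    have hPK : P.map A.subtype ≠ 0 := fun h =>
      hP0 (h60_map_subtype_injective A (by rw [h, Polynomial.map_zero]))
    by_cases hex : ∃ r : K, (P.map A.subtype).IsRoot r ∧ r - (c : K) ∈ A.nonunits
    · obtain ⟨r, hr, hrc⟩ := hex
      obtain ⟨r', hr', hres⟩ := h60_root_mem A c hrc
      -- `r'` is a root of `P` in `A`
      have hroot : P.IsRoot r' := by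
        rw [Polynomial.IsRoot.def]
        have h3 : (P.map A.subtype).eval (A.subtype r') = A.subtype (P.eval r') :=
          Polynomial.eval_map_apply _ _
        rw [ValuationSubring.subtype_apply, hr', hr.eq_zero] at h3
        exact Subtype.coe_injective h3.symm
      obtain ⟨Q, hQ⟩ := Polynomial.dvd_iff_isRoot.2 hroot
      have hQ0 : Q ≠ 0 := fun h => hP0 (by rw [hQ, h, mul_zero])
      have hdeg : Q.natDegree < n := by
        rw [← hn, hQ, Polynomial.natDegree_mul (Polynomial.X_sub_C_ne_zero r') hQ0,
          Polynomial.natDegree_X_sub_C]
        omega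
      have hQres : Q.map (IsLocalRing.residue A) ≠ 0 := by
        intro h
        apply hP
        rw [hQ, Polynomial.map_mul, h, mul_zero]
      have key := ih Q.natDegree hdeg Q rfl hQres c
      rw [h60_discCount_def] at key
      -- the reduction
      have h1 : P.map (IsLocalRing.residue A) =
          (X - C (IsLocalRing.residue A c)) * Q.map (IsLocalRing.residue A) := by
        rw [hQ, Polynomial.map_mul, Polynomial.map_sub, Polynomial.map_X, Polynomial.map_C, hres]
      have h1ne : (X - C (IsLocalRing.residue A c)) * Q.map (IsLocalRing.residue A) ≠ 0 := by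
        rw [← h1]; exact hP
      rw [h1, Polynomial.rootMultiplicity_mul h1ne, Polynomial.rootMultiplicity_X_sub_C_self,
        key]
      -- the roots
      have h2 : P.map A.subtype = (X - C r) * Q.map A.subtype := by
        rw [hQ, Polynomial.map_mul, Polynomial.map_sub, Polynomial.map_X, Polynomial.map_C,
          ValuationSubring.subtype_apply, hr']
      have h2ne : (X - C r) * Q.map A.subtype ≠ 0 := by
        rw [← h2]; exact hPK
      rw [h2, Polynomial.roots_mul h2ne, Polynomial.roots_X_sub_C, Multiset.filter_add,
        Multiset.card_add, Multiset.filter_singleton, if_pos hrc, Multiset.card_singleton]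
    · -- no root in the disc: `P c` is a unit
      push Not at hex
      have hu := Fermat.Agent.Red.UnitDisc.h29_isUnit_eval A P hP c hex
      have h0 : ¬ (P.map (IsLocalRing.residue A)).IsRoot (IsLocalRing.residue A c) := by
        intro h
        rw [Polynomial.IsRoot.def, Polynomial.eval_map, Polynomial.eval₂_hom,
          IsLocalRing.residue_eq_zero_iff] at h
        exact (IsLocalRing.mem_maximalIdeal _).mp h hu
      rw [Polynomial.rootMultiplicity_eq_zero h0]
      symm
      rw [Multiset.card_eq_zero, Multiset.filter_eq_nil]
      intro r hr
      exact hex r ((Polynomial.mem_roots hPK).1 hr)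

/-- **Roots of the reduction**, final form. -/
theorem h60_rootMultiplicity_residue_eq [IsAlgClosed K] (A : ValuationSubring K)
    (P : (A : Type _)[X]) (hP : P.map (IsLocalRing.residue A) ≠ 0) (c : A) :
    (P.map (IsLocalRing.residue A)).rootMultiplicity (IsLocalRing.residue A c) =
      h60_discCount A P c :=
  h60_rootMultiplicity_residue A P.natDegree P rfl hP c

/-- If at most one root `c₀` of `P` lies in the open residue disc of `c`, the multiplicity of
`c̄` as a root of `P̄` is the multiplicity of `c₀` as a root of `P`. -/
theorem h60_rootMultiplicity_residue_of_unique [IsAlgClosed K] (A : ValuationSubring K)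
    (P : (A : Type _)[X]) (hP : P.map (IsLocalRing.residue A) ≠ 0) (c : A) (c₀ : K)
    (hc₀ : c₀ - (c : K) ∈ A.nonunits)
    (huniq : ∀ r : K, (P.map A.subtype).IsRoot r → r - (c : K) ∈ A.nonunits → r = c₀) :
    (P.map (IsLocalRing.residue A)).rootMultiplicity (IsLocalRing.residue A c) =
      (P.map A.subtype).rootMultiplicity c₀ := by
  classical
  rw [h60_rootMultiplicity_residue_eq A P hP c, h60_discCount_def]
  have hP0 : P ≠ 0 := fun h => hP (by rw [h, Polynomial.map_zero])
  have hPK : P.map A.subtype ≠ 0 := fun h =>
    hP0 (h60_map_subtype_injective A (by rw [h, Polynomial.map_zero]))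
  rw [← Polynomial.count_roots]
  have h1 : (P.map A.subtype).roots.filter (fun r => r - (c : K) ∈ A.nonunits) =
      (P.map A.subtype).roots.filter (fun r => c₀ = r) := by
    apply Multiset.filter_congr
    intro r hr
    constructor
    · intro h
      exact (huniq r ((Polynomial.mem_roots hPK).1 hr) h).symm
    · intro h
      rw [← h]; exact hc₀
  rw [h1, ← Multiset.countP_eq_card_filter, Multiset.count]

/-- If no root of `P` lies in the open residue disc of `c`, then `c̄` is not a root of `P̄`. -/
theorem h60_rootMultiplicity_residue_of_none [IsAlgClosed K] (A : ValuationSubring K)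
    (P : (A : Type _)[X]) (hP : P.map (IsLocalRing.residue A) ≠ 0) (c : A)
    (hnone : ∀ r : K, (P.map A.subtype).IsRoot r → r - (c : K) ∉ A.nonunits) :
    (P.map (IsLocalRing.residue A)).rootMultiplicity (IsLocalRing.residue A c) = 0 := by
  classical
  rw [h60_rootMultiplicity_residue_eq A P hP c, h60_discCount_def]
  have hP0 : P ≠ 0 := fun h => hP (by rw [h, Polynomial.map_zero])
  have hPK : P.map A.subtype ≠ 0 := fun h =>
    hP0 (h60_map_subtype_injective A (by rw [h, Polynomial.map_zero]))
  rw [Multiset.card_eq_zero, Multiset.filter_eq_nil]
  intro r hr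
  exact hnone r ((Polynomial.mem_roots hPK).1 hr)

end Fermat.Agent.Red.SM
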