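import Mathlib
import Fermat.Agent.S24.LaurentDeriv

/-!
# P-RED / R-SM, generic leaf: separability from a derivation

* `h41_isSeparable_of_derivation` (abstract): `E ⊆ Q` fields of characteristic `ℓ`, `D` an
  additive map on `Q` with the Leibniz rule, `t` with `D t ≠ 0`, `D E ⊆ E · D t`, and every
  element of `E` killed by `D` is an `ℓ`-th power in `E`.  Then every element of `Q` which is
  algebraic over `E` is separable over `E`.
* `h41_isSeparable_adjoin_of_laurentD_ne_zero`: for a perfect field `k` and a Laurent series `t`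
  with `t' ≠ 0` (e.g. `ord t` prime to the characteristic), every Laurent series algebraic over
  `k(t)` is separable over `k(t)`.
-/

set_option autoImplicit false
set_option linter.unusedSectionVars false

open Polynomial

namespace Fermat.Agent.Red.SM

section Abstract

variable {E Q : Type*} [Field E] [Field Q] [Algebra E Q]

/-- Leibniz rule for powers. -/
theorem h41_D_pow (D : Q →+ Q) (hD : ∀ x y, D (x * y) = x * D y + y * D x) (x : Q) (n : ℕ) :
    D (x ^ n) = n * x ^ (n - 1) * D x := by
  have h1 : D 1 = 0 := by
    have := hD 1 1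
    simp only [mul_one, one_mul] at this
    have h2 : D 1 + D 1 = D 1 + 0 := by rw [add_zero]; exact this.symm
    exact add_left_cancel h2
  induction n with
  | zero => simp [h1]
  | succ n ih =>
    rw [pow_succ, hD, ih]
    rcases n with _ | n
    · simp
    · simp only [Nat.add_sub_cancel, Nat.cast_add, Nat.cast_one]
      rw [pow_succ]
      ring

theorem h41_D_one (D : Q →+ Q) (hD : ∀ x y, D (x * y) = x * D y + y * D x) : D 1 = 0 := by
  have := h41_D_pow D hD 1 0
  simpa using this

/-- In characteristic `ℓ`, `D (x ^ ℓ) = 0`. -/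
theorem h41_D_pow_char (ℓ : ℕ) [CharP Q ℓ] (D : Q →+ Q)
    (hD : ∀ x y, D (x * y) = x * D y + y * D x) (x : Q) : D (x ^ ℓ) = 0 := by
  rw [h41_D_pow D hD, CharP.cast_eq_zero, zero_mul, zero_mul]

/-- **Separability from a derivation** (abstract form). -/
theorem h41_isSeparable_of_derivation (ℓ : ℕ) [hℓ : Fact ℓ.Prime] [CharP E ℓ]
    (D : Q →+ Q) (hD : ∀ x y, D (x * y) = x * D y + y * D x)
    (t : Q) (ht : D t ≠ 0)
    (h1 : ∀ a : E, ∃ a' : E, D (algebraMap E Q a) = algebraMap E Q a' * D t)
    (h2 : ∀ a : E, D (algebraMap E Q a) = 0 → ∃ b : E, b ^ ℓ = a)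
    (z : Q) (hz : IsIntegral E z) : IsSeparable E z := by
  classical
  have : CharP Q ℓ := charP_of_injective_algebraMap (algebraMap E Q).injective ℓ
  have hℓ0 : 0 < ℓ := hℓ.out.pos
  have hℓ1 : 1 < ℓ := hℓ.out.one_lt
  unfold IsSeparable
  rcases Polynomial.separable_or ℓ (minpoly.irreducible hz) with hsep | ⟨-, g, hg, hgP⟩
  · exact hsep
  exfalso
  -- `z ^ ℓ` is a root of `g`
  have hgz : aeval (z ^ ℓ) g = 0 := by
    rw [← Polynomial.expand_aeval, hgP, minpoly.aeval]
  have hg0 : g ≠ 0 := hg.ne_zero
  have hz1 : IsIntegral E (z ^ ℓ) := hz.pow ℓ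
  set G := minpoly E (z ^ ℓ) with hG
  have hGmonic : G.Monic := minpoly.monic hz1
  have hGdeg : G.natDegree ≤ g.natDegree :=
    natDegree_le_natDegree (minpoly.degree_le_of_ne_zero E _ hg0 hgz)
  have hgpos : 0 < g.natDegree := hg.natDegree_pos
  have hPdeg : (minpoly E z).natDegree = g.natDegree * ℓ := by
    rw [← hgP, natDegree_expand]
  have hGP : G.natDegree < (minpoly E z).natDegree := by
    rw [hPdeg]
    calc G.natDegree ≤ g.natDegree := hGdeg
      _ = g.natDegree * 1 := (mul_one _).symm
      _ < g.natDegree * ℓ := Nat.mul_lt_mul_of_pos_left hℓ1 hgpos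
  set n := G.natDegree with hn
  -- coefficientwise derivative
  choose a' ha' using fun i : ℕ => h1 (G.coeff i)
  have hDz : D (z ^ ℓ) = 0 := h41_D_pow_char ℓ D hD z
  have hDpow : ∀ i : ℕ, D ((z ^ ℓ) ^ i) = 0 := by
    intro i
    rw [h41_D_pow D hD, hDz, mul_zero]
  have hsum : ∑ i ∈ Finset.range (n + 1), algebraMap E Q (a' i) * (z ^ ℓ) ^ i = 0 := by
    have h0 : D (aeval (z ^ ℓ) G) = 0 := by rw [minpoly.aeval, map_zero]
    rw [aeval_eq_sum_range, map_sum] at h0
    have h3 : ∀ i ∈ Finset.range (n + 1), D (G.coeff i • (z ^ ℓ) ^ i) =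
        (algebraMap E Q (a' i) * (z ^ ℓ) ^ i) * D t := by
      intro i _
      rw [Algebra.smul_def, hD, hDpow, mul_zero, zero_add, ha']
      ring
    rw [Finset.sum_congr rfl h3, ← Finset.sum_mul] at h0
    exact (mul_eq_zero.mp h0).resolve_right ht
  -- the polynomial `∂G`
  set dG : E[X] := ∑ i ∈ Finset.range n, Polynomial.monomial i (a' i) with hdG
  have ha'n : a' n = 0 := by
    have h4 := ha' n
    rw [hn, ← Polynomial.leadingCoeff, hGmonic.leadingCoeff, map_one, h41_D_one D hD] at h4
    have h5 := (mul_eq_zero.mp h4.symm).resolve_right ht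
    exact (map_eq_zero _).mp h5
  have hdGz : aeval (z ^ ℓ) dG = 0 := by
    rw [hdG, map_sum]
    rw [Finset.sum_range_succ, ha'n, map_zero, zero_mul, add_zero] at hsum
    rw [← hsum]
    refine Finset.sum_congr rfl fun i _ => ?_
    rw [aeval_monomial]
  have hdGdeg : dG.degree < G.degree := by
    rw [hdG]
    refine lt_of_le_of_lt (Polynomial.degree_sum_le _ _) ?_
    rw [Finset.sup_lt_iff (by rw [bot_lt_iff_ne_bot]; exact fun h => hGmonic.ne_zero (degree_eq_bot.mp h))]
    intro i hi
    refine lt_of_le_of_lt (degree_monomial_le _ _) ?_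
    rw [Polynomial.degree_eq_natDegree hGmonic.ne_zero]
    exact_mod_cast Finset.mem_range.mp hi
  have hdG0 : dG = 0 := by
    by_contra hne
    exact absurd (minpoly.degree_le_of_ne_zero E _ hne hdGz) (not_le.mpr hdGdeg)
  have ha'0 : ∀ i, a' i = 0 := by
    intro i
    by_cases hi : i < n
    · have h6 : dG.coeff i = a' i := by
        rw [hdG, Polynomial.finsetSum_coeff]
        rw [Finset.sum_eq_single i]
        · rw [coeff_monomial, if_pos rfl]
        · intro j _ hji
          rw [coeff_monomial, if_neg hji]
        · intro hi'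
          exact absurd (Finset.mem_range.mpr hi) hi'
      rw [← h6, hdG0, coeff_zero]
    · have h7 := ha' i
      rcases Nat.eq_or_lt_of_le (not_lt.mp hi) with h8 | h8
      · rw [← h8]; exact ha'n
      · rw [Polynomial.coeff_eq_zero_of_natDegree_lt (hn ▸ h8), map_zero, map_zero] at h7
        have h9 := (mul_eq_zero.mp h7.symm).resolve_right ht
        exact (map_eq_zero _).mp h9
  -- the coefficients of `G` are `ℓ`-th powers
  have hroot : ∀ i, ∃ b : E, b ^ ℓ = G.coeff i := by
    intro i
    apply h2
    rw [ha' i, ha'0 i, map_zero, zero_mul]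
  choose b hb using hroot
  set H : E[X] := ∑ i ∈ Finset.range (n + 1), Polynomial.monomial i (b i) with hH
  have hHz : aeval z H ^ ℓ = 0 := by
    rw [hH, map_sum, sum_pow_char ℓ]
    have h10 : aeval (z ^ ℓ) G = 0 := minpoly.aeval E _
    rw [aeval_eq_sum_range] at h10
    rw [← h10]
    refine Finset.sum_congr rfl fun i _ => ?_
    rw [aeval_monomial, mul_pow, ← map_pow, hb, Algebra.smul_def, ← pow_mul, ← pow_mul, mul_comm i ℓ]
  have hHz' : aeval z H = 0 := pow_eq_zero_iff (hℓ0.ne') |>.mp hHz
  have hHcoeff : H.coeff n = b n := by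
    rw [hH, Polynomial.finsetSum_coeff, Finset.sum_eq_single n]
    · rw [coeff_monomial, if_pos rfl]
    · intro j _ hjn
      rw [coeff_monomial, if_neg hjn]
    · intro hn'
      exact absurd (Finset.mem_range.mpr (Nat.lt_succ_self n)) hn'
  have hbn : b n ≠ 0 := by
    intro h0
    have := hb n
    rw [h0, zero_pow hℓ0.ne', hn, ← Polynomial.leadingCoeff, hGmonic.leadingCoeff] at this
    exact zero_ne_one this
  have hH0 : H ≠ 0 := by
    intro h0
    rw [h0, coeff_zero] at hHcoeff
    exact hbn hHcoeff.symm
  have hHdeg : H.natDegree ≤ n := by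
    rw [hH]
    refine Polynomial.natDegree_sum_le_of_forall_le _ _ fun i hi => ?_
    exact (natDegree_monomial_le _).trans (Nat.lt_succ_iff.mp (Finset.mem_range.mp hi))
  have hle := natDegree_le_natDegree (minpoly.degree_le_of_ne_zero E z hH0 hHz')
  omega

end Abstract

section Laurent

open Fermat.Agent.S24 IntermediateField

variable {k : Type*} [Field k]

theorem h41_laurentD_leibniz (x y : LaurentSeries k) :
    laurentD k (x * y) = x * laurentD k y + y * laurentD k x := by
  rw [laurentD_mul]

theorem h41_laurentD_algebraMap (c : k) :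
    laurentD k (algebraMap k (LaurentSeries k) c) = 0 := by
  have h1 : algebraMap k (PowerSeries k) c = PowerSeries.C c := by simp
  have h : algebraMap k (LaurentSeries k) c = HahnSeries.C c := by
    rw [HahnSeries.algebraMap_apply', h1, HahnSeries.ofPowerSeries_C]
  rw [h, laurentD_C]

/-- chain rule for polynomials. -/
theorem h41_laurentD_aeval (t : LaurentSeries k) (f : k[X]) :
    laurentD k (aeval t f) = aeval t (derivative f) * laurentD k t := by
  induction f using Polynomial.induction_on' with
  | add f g hf hg => rw [map_add, map_add, hf, hg, derivative_add, map_add, add_mul]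
  | monomial n c =>
    rw [aeval_monomial, h41_laurentD_leibniz, h41_laurentD_algebraMap, mul_zero, add_zero,
      h41_D_pow _ h41_laurentD_leibniz, derivative_monomial, aeval_monomial, map_mul, map_natCast]
    ring

/-- quotient rule (also valid, trivially, for a zero denominator). -/
theorem h41_laurentD_div (x y : LaurentSeries k) :
    laurentD k (x / y) = (laurentD k x * y - x * laurentD k y) / y ^ 2 := by
  by_cases hy : y = 0
  · subst hy; simp
  have h1 : laurentD k (x / y * y) = laurentD k x := by rw [div_mul_cancel₀ _ hy]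
  rw [h41_laurentD_leibniz] at h1
  have h2 : y * laurentD k (x / y) = laurentD k x - x / y * laurentD k y := by
    rw [← h1]; ring
  have h3 : laurentD k (x / y) = (y * (y * laurentD k (x / y))) / y ^ 2 := by
    field_simp
  rw [h3, h2]
  congr 1
  field_simp

/-- a Laurent series with nonzero derivative is transcendental over a perfect field. -/
theorem h41_transcendental_of_laurentD_ne_zero [PerfectField k] (t : LaurentSeries k)
    (ht : laurentD k t ≠ 0) : Transcendental k t := by
  intro halg
  have hint : IsIntegral k t := halg.isIntegral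
  have hsep : (minpoly k t).Separable := PerfectField.separable_of_irreducible
    (minpoly.irreducible hint)
  have h1 : laurentD k (aeval t (minpoly k t)) = 0 := by rw [minpoly.aeval, map_zero]
  rw [h41_laurentD_aeval] at h1
  exact hsep.aeval_derivative_ne_zero (minpoly.aeval k t) ((mul_eq_zero.mp h1).resolve_right ht)

/-- over a perfect field of characteristic `ℓ`, a polynomial with zero derivative is an `ℓ`-th
power. -/
theorem h41_exists_pow_eq_of_derivative_eq_zero [PerfectField k] (ℓ : ℕ) [hℓ : Fact ℓ.Prime]
    [CharP k ℓ] (h : k[X]) (hh : derivative h = 0) : ∃ h₂ : k[X], h₂ ^ ℓ = h := by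
  refine ⟨(contract ℓ h).map ((frobeniusEquiv k ℓ).symm : k →+* k), ?_⟩
  rw [← map_frobenius_expand, map_expand, Polynomial.map_map]
  have : (frobenius k ℓ).comp ((frobeniusEquiv k ℓ).symm : k →+* k) = RingHom.id k := by
    ext x
    simp
  rw [this, Polynomial.map_id, expand_contract ℓ hh hℓ.out.ne_zero]

/-- **Separability over `k(t)` inside `k((q))`.**  For a perfect field `k` and a Laurent series `t`
with nonzero derivative, every Laurent series which is algebraic over `k(t)` is separable over
`k(t)`. -/
theorem h41_isSeparable_adjoin_of_laurentD_ne_zero [PerfectField k] (t : LaurentSeries k)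
    (ht : laurentD k t ≠ 0) (z : LaurentSeries k) (hz : IsIntegral k⟮t⟯ z) :
    IsSeparable k⟮t⟯ z := by
  classical
  obtain ⟨p, hp⟩ := ExpChar.exists k
  rcases hp with _ | ⟨hprime⟩
  · -- characteristic zero
    have : CharZero k⟮t⟯ := charZero_of_injective_algebraMap (algebraMap k k⟮t⟯).injective
    exact (minpoly.irreducible hz).separable
  · -- characteristic `p`
    have : Fact p.Prime := ⟨hprime⟩
    have : CharP k⟮t⟯ p := charP_of_injective_algebraMap (algebraMap k k⟮t⟯).injective p
    set g : k⟮t⟯ := AdjoinSimple.gen k t with hg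
    have hgt : algebraMap k⟮t⟯ (LaurentSeries k) g = t := AdjoinSimple.algebraMap_gen k t
    have hae : ∀ f : k[X], algebraMap k⟮t⟯ (LaurentSeries k) (aeval g f) = aeval t f := by
      intro f
      rw [← aeval_algebraMap_apply, hgt]
    have hrep : ∀ a : k⟮t⟯, ∃ r s : k[X], a = aeval g r / aeval g s := by
      intro a
      obtain ⟨r, s, hrs⟩ := (mem_adjoin_simple_iff k (a : LaurentSeries k)).mp a.2
      refine ⟨r, s, ?_⟩
      apply (algebraMap k⟮t⟯ (LaurentSeries k)).injective
      rw [map_div₀, hae, hae]
      exact hrs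
    have htr := h41_transcendental_of_laurentD_ne_zero t ht
    refine h41_isSeparable_of_derivation p (laurentD k) h41_laurentD_leibniz t ht ?_ ?_ z hz
    · intro a
      obtain ⟨r, s, rfl⟩ := hrep a
      refine ⟨(aeval g (derivative r) * aeval g s - aeval g r * aeval g (derivative s)) /
        aeval g s ^ 2, ?_⟩
      rw [map_div₀, hae, hae, h41_laurentD_div, h41_laurentD_aeval, h41_laurentD_aeval,
        map_div₀, map_sub, map_mul, map_mul, map_pow, hae, hae, hae, hae]
      ring
    · intro a ha
      obtain ⟨r, s, rfl⟩ := hrep a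
      by_cases hs : aeval g s = 0
      · exact ⟨0, by rw [hs, div_zero, zero_pow hprime.ne_zero]⟩
      have hs' : aeval t s ≠ 0 := by
        rw [← hae]
        exact fun h => hs ((map_eq_zero _).mp h)
      -- `h = r * s ^ (p - 1)` has zero derivative
      set h : k[X] := r * s ^ (p - 1) with hh
      have hps : s ^ (p - 1) * s = s ^ p := by
        rw [← pow_succ, Nat.sub_add_cancel hprime.one_le]
      have hps' : aeval t s ^ (p - 1) * aeval t s = aeval t s ^ p := by
        rw [← pow_succ, Nat.sub_add_cancel hprime.one_le]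
      have h1 : aeval t h = aeval t r / aeval t s * aeval t s ^ p := by
        rw [hh, map_mul, map_pow, ← hps']
        field_simp
      have h2 : laurentD k (aeval t h) = 0 := by
        rw [h1, h41_laurentD_leibniz]
        rw [map_div₀, hae, hae] at ha
        have : CharP (LaurentSeries k) p :=
          charP_of_injective_algebraMap (algebraMap k (LaurentSeries k)).injective p
        rw [ha, h41_D_pow_char p _ h41_laurentD_leibniz]
        simp
      rw [h41_laurentD_aeval] at h2
      have h3 : aeval t (derivative h) = 0 := (mul_eq_zero.mp h2).resolve_right ht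
      have h4 : derivative h = 0 := by
        by_contra hne
        exact htr ⟨_, hne, h3⟩
      have : CharP k p := inferInstance
      obtain ⟨h₂, hh₂⟩ := h41_exists_pow_eq_of_derivative_eq_zero p h h4
      refine ⟨aeval g h₂ / aeval g s, ?_⟩
      have hps'' : aeval g s ^ (p - 1) * aeval g s = aeval g s ^ p := by
        rw [← pow_succ, Nat.sub_add_cancel hprime.one_le]
      rw [div_pow, ← map_pow, hh₂, hh, map_mul, map_pow, ← hps'']
      field_simp

end Laurent

end Fermat.Agent.Red.SM
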