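import Fermat.Agent.Red.SM.TID3Id

/-!
# P-RED / R-SM, leaf SM-TID (case `ℓ = 3`), helper97: the identity `j t₂² = (t₂ + 256)³`
in hypothesis form

For ANY function `t : ℍ → ℂ` with the data `T97_Data t T` (holomorphic, nowhere zero,
`1`-periodic, Fricke relation `t(-1/(2τ)) t(τ) = 2¹²`, expansion `T = q⁻¹ - 24 + O(q)`):
* `T97_identity` : `jAn τ * t τ ^ 2 = (t τ + 256) ^ 3`;
* `T97_fricke_twin` : `jAt 2 τ * t τ = (t τ + 16) ^ 3`.
Mirror of helper80's `TID3Sym` / `TID3Id` (level 3) at level 2: the conjugates of `t` are `t`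
and `V_b(τ) = 4096 / t((τ + b)/2)`, `b = 0, 1`; `T` permutes them as `(t)(V₀ V₁)` and `S` as
`(t V₀)(V₁)`; the elementary symmetric functions are `j - 768`, `196608`, `-16777216`.
-/

set_option autoImplicit false

open ModularCurve UpperHalfPlane Complex
open scoped MatrixGroups Manifold Real

noncomputable section

namespace Fermat.Agent.Red.SM.TID

open Fermat.Agent.S28

/-- analytic data of `t₂` (hypothesis form): holomorphic, nonvanishing, `1`-periodic, Fricke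
relation `t(-1/(2τ)) t(τ) = 2¹²`, expansion `q⁻¹ - 24 + O(q)`. -/
structure T97_Data (t : ℍ → ℂ) (T : LaurentSeries ℂ) : Prop where
  holo : Holo t
  ne_zero : ∀ τ : ℍ, t τ ≠ 0
  per : ∀ τ : ℍ, t ((1 : ℝ) +ᵥ τ) = t τ
  fricke : ∀ τ τ' : ℍ, (τ' : ℂ) = -1 / (2 * (τ : ℂ)) → t τ' * t τ = 4096
  exp : HasTExp 1 t T
  jet : Jet T (-1) 1 (-24)

/-- the function on `ℂ` attached to a function on `ℍ`. -/
def T97_tC (t : ℍ → ℂ) (z : ℂ) : ℂ := t (ofComplex z)

theorem T97_tC_eq (t : ℍ → ℂ) {z : ℂ} (hz : 0 < z.im) : T97_tC t z = t ⟨z, hz⟩ := by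
  rw [T97_tC, UpperHalfPlane.ofComplex_apply_of_im_pos hz]

theorem T97_tC_coe (t : ℍ → ℂ) (τ : ℍ) : T97_tC t (τ : ℂ) = t τ := by
  rw [T97_tC, UpperHalfPlane.ofComplex_apply]

section

variable {t : ℍ → ℂ} {T : LaurentSeries ℂ} (D : T97_Data t T)
include D

theorem T97_tC_ne_zero {z : ℂ} (hz : 0 < z.im) : T97_tC t z ≠ 0 := by
  rw [T97_tC_eq t hz]
  exact D.ne_zero _

theorem T97_tC_add_one {z : ℂ} (hz : 0 < z.im) : T97_tC t (z + 1) = T97_tC t z := by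
  have hz1 : 0 < (z + 1).im := by simpa using hz
  rw [T97_tC_eq t hz, T97_tC_eq t hz1, ← D.per ⟨z, hz⟩]
  congr 1
  apply UpperHalfPlane.ext
  rw [UpperHalfPlane.coe_vadd]
  simp [add_comm]

theorem T97_tC_sub_one {z : ℂ} (hz : 0 < z.im) : T97_tC t (z - 1) = T97_tC t z := by
  have hz1 : 0 < (z - 1).im := by simpa using hz
  have h := T97_tC_add_one D hz1
  rw [sub_add_cancel] at h
  exact h.symm

theorem T97_fricke {z : ℂ} (hz : 0 < z.im) :
    T97_tC t (-1 / (2 * z)) * T97_tC t z = 4096 := by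
  have hz2 : 0 < (-1 / (2 * z)).im := by
    have h2 : 0 < (2 * z).im := by simpa using hz
    exact h80_im_S h2
  rw [T97_tC_eq t hz, T97_tC_eq t hz2]
  exact D.fricke ⟨z, hz⟩ ⟨_, hz2⟩ rfl

theorem T97_differentiableOn_tC : DifferentiableOn ℂ (T97_tC t) {z : ℂ | 0 < z.im} := by
  have h := D.holo
  rw [Holo, UpperHalfPlane.mdifferentiable_iff] at h
  exact h

end

theorem T97_im_fricke {z : ℂ} (hz : 0 < z.im) : 0 < (-1 / (2 * z)).im := by
  have h2 : 0 < (2 * z).im := by simpa using hz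
  exact h80_im_S h2

theorem T97_im_div2 {z : ℂ} (hz : 0 < z.im) (b : ℤ) : 0 < ((z + b) / 2).im := by
  have h : ((z + b) / 2).im = z.im / 2 := by
    rw [show (z + (b : ℂ)) / 2 = (z + (b : ℂ)) * ((2 : ℝ) : ℂ)⁻¹ by push_cast; ring]
    rw [← Complex.ofReal_inv, Complex.im_mul_ofReal]
    simp
    ring
  rw [h]
  positivity

/-- `V_b(z) = 4096 / t((z + b)/2)`. -/
def T97_VC (t : ℍ → ℂ) (b : ℤ) (z : ℂ) : ℂ := 4096 * (T97_tC t ((z + b) / 2))⁻¹

section

variable {t : ℍ → ℂ} {T : LaurentSeries ℂ} (D : T97_Data t T)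
include D

theorem T97_VC_ne_zero {z : ℂ} (hz : 0 < z.im) (b : ℤ) : T97_VC t b z ≠ 0 :=
  mul_ne_zero (by norm_num) (inv_ne_zero (T97_tC_ne_zero D (T97_im_div2 hz b)))

omit D in
/-- `T`: `V_b(z + 1) = V_{b+1}(z)`. -/
theorem T97_VC_add_one (b : ℤ) (z : ℂ) : T97_VC t b (z + 1) = T97_VC t (b + 1) z := by
  unfold T97_VC
  congr 3
  push_cast
  ring

/-- `V₂ = V₀`. -/
theorem T97_VC_two {z : ℂ} (hz : 0 < z.im) : T97_VC t 2 z = T97_VC t 0 z := by
  unfold T97_VC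
  have h : (z + ((2 : ℤ) : ℂ)) / 2 = (z + ((0 : ℤ) : ℂ)) / 2 + 1 := by
    push_cast
    ring
  rw [h, T97_tC_add_one D (T97_im_div2 hz 0)]

/-- `S`: `t(-1/z) = V₀(z)`. -/
theorem T97_tC_S {z : ℂ} (hz : 0 < z.im) : T97_tC t (-1 / z) = T97_VC t 0 z := by
  have h3 := T97_im_div2 hz 0
  have hf := T97_fricke D h3
  have e : 2 * ((z + ((0 : ℤ) : ℂ)) / 2) = z := by
    push_cast
    ring
  rw [e] at hf
  unfold T97_VC
  have hne := T97_tC_ne_zero D h3
  rw [eq_mul_inv_iff_mul_eq₀ hne]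
  exact hf

/-- `S`: `V₀(-1/z) = t(z)`. -/
theorem T97_VC_zero_S {z : ℂ} (hz : 0 < z.im) : T97_VC t 0 (-1 / z) = T97_tC t z := by
  have hf := T97_fricke D hz
  have e : (-1 / z + ((0 : ℤ) : ℂ)) / 2 = -1 / (2 * z) := by
    push_cast
    rw [add_zero, div_div, mul_comm]
  unfold T97_VC
  rw [e]
  have hne := T97_tC_ne_zero D (T97_im_fricke hz)
  rw [← hf, mul_comm (T97_tC t (-1 / (2 * z))) (T97_tC t z), mul_assoc, mul_inv_cancel₀ hne,
    mul_one]

/-- `S`: `V₁(-1/z) = V₁(z)`. -/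
theorem T97_VC_one_S {z : ℂ} (hz : 0 < z.im) : T97_VC t 1 (-1 / z) = T97_VC t 1 z := by
  have hz0 := h80_ne_zero_of_im hz
  -- `u = (z - 1)/2`
  have hu : 0 < ((z + ((-1 : ℤ) : ℂ)) / 2).im := T97_im_div2 hz (-1)
  set u : ℂ := (z + ((-1 : ℤ) : ℂ)) / 2 with hudef
  have hu0 := h80_ne_zero_of_im hu
  have hz1 : z - 1 ≠ 0 := by
    intro h
    apply hu0
    rw [hudef]
    push_cast
    rw [← sub_eq_add_neg, h, zero_div]
  -- `u₂ = -1/(2u) - 1`
  have hw : 0 < (-1 / (2 * u)).im := T97_im_fricke hu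
  have hu2 : 0 < (-1 / (2 * u) - 1).im := by
    simpa using hw
  have h1 := T97_fricke D hu
  have h2 := T97_fricke D hu2
  rw [T97_tC_sub_one D hw] at h2
  have h2u : 2 * u = z - 1 := by
    rw [hudef]
    push_cast
    ring
  have e2a : -1 / (2 * u) - 1 = -z / (z - 1) := by
    rw [h2u]
    field_simp
    ring
  have e2 : -1 / (2 * (-1 / (2 * u) - 1)) = (-1 / z + ((1 : ℤ) : ℂ)) / 2 := by
    rw [e2a]
    push_cast
    field_simp
    ring
  have e3 : (z + ((1 : ℤ) : ℂ)) / 2 = u + 1 := by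
    rw [hudef]
    push_cast
    ring
  rw [e2] at h2
  unfold T97_VC
  rw [e3, T97_tC_add_one D hu]
  have hne1 := T97_tC_ne_zero D hu
  have hne2 := T97_tC_ne_zero D hw
  have key : T97_tC t ((-1 / z + ((1 : ℤ) : ℂ)) / 2) = T97_tC t u := by
    apply mul_right_cancel₀ hne2
    rw [h2, mul_comm, h1]
  rw [key]

end

/-! ### elementary symmetric functions of three variables -/

/-- `e₁`. -/
def T97_e1 {R : Type*} [CommRing R] (a b c : R) : R := a + (b + c)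

/-- `e₂`. -/
def T97_e2 {R : Type*} [CommRing R] (a b c : R) : R := a * (b + c) + b * c

/-- `e₃`. -/
def T97_e3 {R : Type*} [CommRing R] (a b c : R) : R := a * (b * c)

/-- a polynomial in the conjugates. -/
def T97_sym (t : ℍ → ℂ) (P : ℂ → ℂ → ℂ → ℂ) (z : ℂ) : ℂ :=
  P (T97_tC t z) (T97_VC t 0 z) (T97_VC t 1 z)

/-- the function on `ℍ` attached to a polynomial in the conjugates. -/
def T97_symH (t : ℍ → ℂ) (P : ℂ → ℂ → ℂ → ℂ) (τ : ℍ) : ℂ := T97_sym t P (τ : ℂ)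

section

variable {t : ℍ → ℂ} {T : LaurentSeries ℂ} (D : T97_Data t T)
include D

theorem T97_sym_T (P : ℂ → ℂ → ℂ → ℂ) (hP : ∀ a b c, P a c b = P a b c) {z : ℂ}
    (hz : 0 < z.im) : T97_sym t P (z + 1) = T97_sym t P z := by
  unfold T97_sym
  rw [T97_tC_add_one D hz, T97_VC_add_one, T97_VC_add_one]
  norm_num
  rw [T97_VC_two D hz]
  exact hP _ _ _

theorem T97_sym_S (P : ℂ → ℂ → ℂ → ℂ) (hP : ∀ a b c, P b a c = P a b c) {z : ℂ}
    (hz : 0 < z.im) : T97_sym t P (-1 / z) = T97_sym t P z := by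
  unfold T97_sym
  rw [T97_tC_S D hz, T97_VC_zero_S D hz, T97_VC_one_S D hz]
  exact hP _ _ _

theorem T97_symH_smul (P : ℂ → ℂ → ℂ → ℂ) (hT : ∀ a b c, P a c b = P a b c)
    (hS : ∀ a b c, P b a c = P a b c) (γ : SL(2, ℤ)) (τ : ℍ) :
    T97_symH t P (γ • τ) = T97_symH t P τ := by
  refine h80_inv_of_ST _ (fun τ => ?_) (fun τ => ?_) γ τ
  · unfold T97_symH
    rw [UpperHalfPlane.modular_S_smul]
    have e : ((UpperHalfPlane.mk (-(τ : ℂ))⁻¹ τ.im_inv_neg_coe_pos : ℍ) : ℂ) = -1 / (τ : ℂ) := by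
      rw [UpperHalfPlane.coe_mk, neg_div, one_div, inv_neg]
    rw [e]
    exact T97_sym_S D P hS τ.im_pos
  · unfold T97_symH
    rw [UpperHalfPlane.modular_T_smul, UpperHalfPlane.coe_vadd]
    have e : (((1 : ℝ) : ℂ) + (τ : ℂ)) = (τ : ℂ) + 1 := by
      push_cast
      ring
    rw [e]
    exact T97_sym_T D P hT τ.im_pos

end


/-! ### holomorphy -/

theorem T97_mapsTo_div2 (b : ℤ) :
    Set.MapsTo (fun z : ℂ => (z + b) / 2) {z : ℂ | 0 < z.im} {z : ℂ | 0 < z.im} :=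
  fun _ hz => T97_im_div2 hz b

section

variable {t : ℍ → ℂ} {T : LaurentSeries ℂ} (D : T97_Data t T)
include D

theorem T97_differentiableOn_VC (b : ℤ) :
    DifferentiableOn ℂ (T97_VC t b) {z : ℂ | 0 < z.im} := by
  have h1 : DifferentiableOn ℂ (fun z : ℂ => (z + b) / 2) {z : ℂ | 0 < z.im} := by
    fun_prop
  have h2 : DifferentiableOn ℂ (fun z : ℂ => T97_tC t ((z + b) / 2)) {z : ℂ | 0 < z.im} :=
    (T97_differentiableOn_tC D).comp h1 (T97_mapsTo_div2 b)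
  have h3 : DifferentiableOn ℂ (fun z : ℂ => (T97_tC t ((z + b) / 2))⁻¹) {z : ℂ | 0 < z.im} :=
    h2.inv (fun z hz => T97_tC_ne_zero D (T97_im_div2 hz b))
  exact h3.const_mul 4096

theorem T97_differentiableOn_e1 :
    DifferentiableOn ℂ (T97_sym t T97_e1) {z : ℂ | 0 < z.im} := by
  have d := T97_differentiableOn_tC D
  have d0 := T97_differentiableOn_VC D 0
  have d1 := T97_differentiableOn_VC D 1
  exact d.add (d0.add d1)

theorem T97_differentiableOn_e2 :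
    DifferentiableOn ℂ (T97_sym t T97_e2) {z : ℂ | 0 < z.im} := by
  have d := T97_differentiableOn_tC D
  have d0 := T97_differentiableOn_VC D 0
  have d1 := T97_differentiableOn_VC D 1
  exact (d.mul (d0.add d1)).add (d0.mul d1)

theorem T97_differentiableOn_e3 :
    DifferentiableOn ℂ (T97_sym t T97_e3) {z : ℂ | 0 < z.im} := by
  have d := T97_differentiableOn_tC D
  have d0 := T97_differentiableOn_VC D 0
  have d1 := T97_differentiableOn_VC D 1
  exact d.mul (d0.mul d1)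

end

/-! ### the square roots of unity -/

/-- `ω_b = exp (2πi b/2)` (in the shape produced by `HasTExp.affine`). -/
def T97_om (b : ℤ) : ℂ :=
  Complex.exp (2 * π * Complex.I * (b : ℂ) / (((2 : ℕ) : ℂ) * ((1 : ℕ) : ℂ)))

theorem T97_om_zero : T97_om 0 = 1 := by
  simp [T97_om]

theorem T97_om_one : T97_om 1 = -1 := by
  rw [T97_om]
  have e : 2 * (π : ℂ) * Complex.I * ((1 : ℤ) : ℂ) / (((2 : ℕ) : ℂ) * ((1 : ℕ) : ℂ)) =
      (π : ℂ) * Complex.I := by
    push_cast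
    ring
  rw [e, Complex.exp_pi_mul_I]

/-! ### expansions of the conjugates -/

/-- the formal series of `4096 / t₂`. -/
def T97_U (T : LaurentSeries ℂ) : LaurentSeries ℂ := HahnSeries.C 4096 * T⁻¹

/-- the formal series of the conjugate `V_b`: `q ↦ ω q` in `4096 / t₂`. -/
def T97_W (T : LaurentSeries ℂ) (ω : ℂ) : LaurentSeries ℂ := twistDil ω 1 (T97_U T)

/-- `τ ↦ (τ + b)/2` on `ℍ`. -/
def T97_phi (b : ℤ) (τ : ℍ) : ℍ := ⟨((τ : ℂ) + b) / 2, T97_im_div2 τ.im_pos b⟩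

section

variable {t : ℍ → ℂ} {T : LaurentSeries ℂ} (D : T97_Data t T)
include D

theorem T97_hasTExp_F : HasTExp 2 (fun τ : ℍ => T97_tC t (τ : ℂ)) (qExpand ℂ 2 T) :=
  (D.exp.of_one (N := 2)).congr (fun τ => (T97_tC_coe t τ).symm)

theorem T97_hasTExp_Ufun : HasTExp 1 (fun τ : ℍ => 4096 * (t τ)⁻¹) (T97_U T) :=
  (D.exp.inv one_pos D.ne_zero).const_mul one_pos 4096

theorem T97_hasTExp_V (b : ℤ) :
    HasTExp 2 (fun τ : ℍ => T97_VC t b (τ : ℂ)) (T97_W T (T97_om b)) := by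
  have h := (T97_hasTExp_Ufun D).affine (M := 1) (N := 2) (a := 1) (d := 2) (e := 1) (b := b)
    (by norm_num) one_pos (by norm_num) (by norm_num) (T97_phi b) (fun τ => by
      simp [T97_phi])
  refine h.congr (fun τ => ?_)
  unfold T97_VC
  rw [T97_tC_eq t (T97_im_div2 τ.im_pos b)]
  rfl

end

/-! ### jets -/

theorem T97_J4_qExpand {s : LaurentSeries ℂ} {a b : ℂ} (h : Jet s (-1) a b) :
    h80_J4 (qExpand ℂ 2 s) (-3) 0 a 0 b := by
  obtain ⟨h0, h1, h2⟩ := h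
  refine ⟨fun k hk => ?_, ?_, ?_, ?_, ?_⟩
  · by_cases hd : ((2 : ℕ) : ℤ) ∣ k
    · obtain ⟨n, rfl⟩ := hd
      rw [qExpand_coeff_mul]
      exact h0 n (by push_cast at hk; omega)
    · exact qExpand_coeff_of_not_dvd 2 s hd
  · exact qExpand_coeff_of_not_dvd 2 s (by norm_num)
  · have := qExpand_coeff_mul (R := ℂ) 2 s (-1)
    rw [show ((2 : ℕ) : ℤ) * (-1) = -3 + 1 by norm_num] at this
    rw [this, h1]
  · exact qExpand_coeff_of_not_dvd 2 s (by norm_num)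
  · have := qExpand_coeff_mul (R := ℂ) 2 s 0
    rw [show ((2 : ℕ) : ℤ) * 0 = -3 + 3 by norm_num] at this
    rw [this]
    simpa using h2

theorem T97_J4_J : h80_J4 (qExpand ℂ 2 (cEmb jq)) (-3) 0 1 0 744 :=
  T97_J4_qExpand h80_jet_jq

theorem T97_jet_U {T : LaurentSeries ℂ} (hT : Jet T (-1) 1 (-24)) :
    Jet (T97_U T) 1 4096 98304 := by
  have h1 := hT.inv one_ne_zero
  have h2 := (jet_C 4096).mul h1
  rw [T97_U]
  have e : (0 : ℤ) + -(-1) = 1 := by norm_num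
  rw [e] at h2
  exact h2.congr (by norm_num) (by norm_num)

theorem T97_J4_U {T : LaurentSeries ℂ} (hT : Jet T (-1) 1 (-24)) :
    h80_J4 (T97_U T) 0 0 4096 98304 ((T97_U T).coeff 3) := by
  obtain ⟨j0, j1, j2⟩ := T97_jet_U hT
  refine ⟨fun k hk => j0 k (by omega), j0 0 (by norm_num), ?_, ?_, ?_⟩
  · rw [show (0 : ℤ) + 1 = 1 by norm_num]
    exact j1
  · rw [show (0 : ℤ) + 2 = 1 + 1 by norm_num]
    exact j2
  · rw [show (0 : ℤ) + 3 = 3 by norm_num]

theorem T97_coeff_W (T : LaurentSeries ℂ) (ω : ℂ) (n : ℤ) :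
    (T97_W T ω).coeff n = (T97_U T).coeff n * ω ^ n := by
  have := coeff_twistDil_mul ω 1 (T97_U T) n
  rw [show ((1 : ℕ) : ℤ) * n = n by simp] at this
  exact this

theorem T97_J4_W {T : LaurentSeries ℂ} (hT : Jet T (-1) 1 (-24)) (ω : ℂ) :
    h80_J4 (T97_W T ω) 0 0 (4096 * ω) (98304 * ω ^ 2) ((T97_U T).coeff 3 * ω ^ 3) := by
  obtain ⟨j0, j1, j2, j3, j4⟩ := T97_J4_U hT
  refine ⟨fun k hk => ?_, ?_, ?_, ?_, ?_⟩
  · rw [T97_coeff_W, j0 k hk, zero_mul]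
  · rw [T97_coeff_W, j1, zero_mul]
  · rw [T97_coeff_W, j2]
    simp
  · rw [T97_coeff_W, j3]
    norm_num
  · rw [T97_coeff_W, j4]
    norm_num

section

variable {T : LaurentSeries ℂ} (hT : Jet T (-1) 1 (-24))
include hT

theorem T97_J4_F : h80_J4 (qExpand ℂ 2 T) (-3) 0 1 0 (-24) :=
  T97_J4_qExpand hT

theorem T97_J4_W0 :
    h80_J4 (T97_W T (T97_om 0)) 0 0 4096 98304 ((T97_U T).coeff 3) := by
  have h := T97_J4_W hT (T97_om 0)
  rw [T97_om_zero] at h ⊢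
  exact h.congr rfl (by norm_num) (by norm_num) (by norm_num)

theorem T97_J4_W1 :
    h80_J4 (T97_W T (T97_om 1)) 0 0 (-4096) 98304 (-(T97_U T).coeff 3) := by
  have h := T97_J4_W hT (T97_om 1)
  rw [T97_om_one] at h ⊢
  exact h.congr rfl (by norm_num) (by norm_num) (by ring)

/-- `ΣW`. -/
theorem T97_J4_sumW :
    h80_J4 (T97_W T (T97_om 0) + T97_W T (T97_om 1)) 0 0 0 196608 0 := by
  have h := (T97_J4_W0 hT).add (T97_J4_W1 hT)
  exact h.congr (by norm_num) (by norm_num) (by norm_num) (by ring)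

/-- `W₀ W₁`. -/
theorem T97_J4_pairW :
    h80_J4 (T97_W T (T97_om 0) * T97_W T (T97_om 1)) 0 0 0 (-16777216) 0 := by
  have h := ((T97_J4_W0 hT).mul (T97_J4_W1 hT)).of_eq (show (0 : ℤ) + 0 = 0 by norm_num)
  exact h.congr (by norm_num) (by norm_num) (by norm_num) (by ring)

theorem T97_J4_S1 :
    h80_J4 (qExpand ℂ 2 T + (T97_W T (T97_om 0) + T97_W T (T97_om 1)) -
      qExpand ℂ 2 (cEmb jq)) (-3) 0 0 0 (-768) := by
  have h := ((T97_J4_F hT).add ((T97_J4_sumW hT).shift3.of_eq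
    (show (0 : ℤ) - 3 = -3 by norm_num))).sub T97_J4_J
  exact h.congr (by norm_num) (by norm_num) (by norm_num) (by norm_num)

theorem T97_J4_S2 :
    h80_J4 (qExpand ℂ 2 T * (T97_W T (T97_om 0) + T97_W T (T97_om 1)) +
      T97_W T (T97_om 0) * T97_W T (T97_om 1)) (-3) 0 0 0 196608 := by
  have h := (((T97_J4_F hT).mul (T97_J4_sumW hT)).of_eq
    (show (-3 : ℤ) + 0 = -3 by norm_num)).add
    ((T97_J4_pairW hT).shift3.of_eq (show (0 : ℤ) - 3 = -3 by norm_num))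
  exact h.congr (by norm_num) (by norm_num) (by norm_num) (by norm_num)

theorem T97_J4_S3 :
    h80_J4 (qExpand ℂ 2 T * (T97_W T (T97_om 0) * T97_W T (T97_om 1))) (-3) 0 0 0
      (-16777216) := by
  have h := ((T97_J4_F hT).mul (T97_J4_pairW hT)).of_eq (show (-3 : ℤ) + 0 = -3 by norm_num)
  exact h.congr (by norm_num) (by norm_num) (by norm_num) (by norm_num)

end

/-! ### the level-one principle, period `2` -/

theorem T97_const_of_J4 {g : ℍ → ℂ} (hg : Holo g)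
    (hinv : ∀ (γ : SL(2, ℤ)) (τ : ℍ), g (γ • τ) = g τ) {S : LaurentSeries ℂ}
    (hS : HasTExp 2 g S) {a c d : ℂ} (hJ : h80_J4 S (-3) a 0 c d) (τ : ℍ) : g τ = d := by
  have hper : ∀ τ : ℍ, g ((1 : ℝ) +ᵥ τ) = g τ := by
    intro τ
    rw [← UpperHalfPlane.modular_T_smul]
    exact hinv _ τ
  obtain ⟨s₁, hs₁, hS₁⟩ := hS.to_one hper
  have hcoeff : ∀ n : ℤ, s₁.coeff n = S.coeff (2 * n) := by
    intro n
    rw [hS₁]
    have := qExpand_coeff_mul (R := ℂ) 2 s₁ n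
    rw [show ((2 : ℕ) : ℤ) = 2 by norm_num] at this
    exact this.symm
  have h0 : ∀ n : ℤ, n < 0 → s₁.coeff n = 0 := by
    intro n hn
    rw [hcoeff]
    rcases lt_or_eq_of_le (show n ≤ -1 by omega) with h | h
    · exact hJ.1 _ (by omega)
    · rw [h]
      have := hJ.2.2.1
      rw [show (-3 : ℤ) + 1 = 2 * -1 by norm_num] at this
      exact this
  have h := LevelOne.levelOne_const g hg hinv s₁ hs₁ h0 τ
  rw [h, hcoeff]
  have := hJ.2.2.2.2
  rw [show (-3 : ℤ) + 3 = 2 * 0 by norm_num] at this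
  exact this

/-! ### the symmetric functions are constant -/

theorem T97_hasTExp_jAn2 : HasTExp 2 jAn (qExpand ℂ 2 (cEmb jq)) :=
  hasTExp_jAn.of_one

section

variable {t : ℍ → ℂ} {T : LaurentSeries ℂ} (D : T97_Data t T)
include D

theorem T97_hasTExp_g1 :
    HasTExp 2 (fun τ : ℍ => T97_symH t T97_e1 τ - jAn τ)
      (qExpand ℂ 2 T + (T97_W T (T97_om 0) + T97_W T (T97_om 1)) -
        qExpand ℂ 2 (cEmb jq)) := by
  have hF := T97_hasTExp_F D
  have h0 := T97_hasTExp_V D 0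
  have h1 := T97_hasTExp_V D 1
  exact ((hF.add (h0.add h1)).sub T97_hasTExp_jAn2).congr (fun τ => rfl)

theorem T97_hasTExp_g2 :
    HasTExp 2 (T97_symH t T97_e2)
      (qExpand ℂ 2 T * (T97_W T (T97_om 0) + T97_W T (T97_om 1)) +
        T97_W T (T97_om 0) * T97_W T (T97_om 1)) := by
  have hF := T97_hasTExp_F D
  have h0 := T97_hasTExp_V D 0
  have h1 := T97_hasTExp_V D 1
  have h2 : 0 < 2 := by norm_num
  exact ((hF.mul h2 (h0.add h1)).add (h0.mul h2 h1)).congr (fun τ => rfl)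

theorem T97_hasTExp_g3 :
    HasTExp 2 (T97_symH t T97_e3)
      (qExpand ℂ 2 T * (T97_W T (T97_om 0) * T97_W T (T97_om 1))) := by
  have hF := T97_hasTExp_F D
  have h0 := T97_hasTExp_V D 0
  have h1 := T97_hasTExp_V D 1
  have h2 : 0 < 2 := by norm_num
  exact (hF.mul h2 (h0.mul h2 h1)).congr (fun τ => rfl)

theorem T97_holo_g1 : Holo (fun τ : ℍ => T97_symH t T97_e1 τ - jAn τ) := by
  have h1 : Holo (T97_symH t T97_e1) :=
    h80_holo_of_differentiableOn (T97_differentiableOn_e1 D)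
  have h2 := holo_jAn
  rw [Holo, UpperHalfPlane.mdifferentiable_iff] at h1 h2 ⊢
  exact (h1.sub h2).congr (fun z _ => rfl)

theorem T97_inv_g1 (γ : SL(2, ℤ)) (τ : ℍ) :
    T97_symH t T97_e1 (γ • τ) - jAn (γ • τ) = T97_symH t T97_e1 τ - jAn τ := by
  rw [jAn_smul, T97_symH_smul D T97_e1 (fun a b c => by unfold T97_e1; ring)
    (fun a b c => by unfold T97_e1; ring)]

theorem T97_e1_eq (τ : ℍ) : T97_symH t T97_e1 τ - jAn τ = -768 :=
  T97_const_of_J4 (T97_holo_g1 D) (T97_inv_g1 D) (T97_hasTExp_g1 D) (T97_J4_S1 D.jet) τ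

theorem T97_e2_eq (τ : ℍ) : T97_symH t T97_e2 τ = 196608 :=
  T97_const_of_J4 (h80_holo_of_differentiableOn (T97_differentiableOn_e2 D))
    (T97_symH_smul D T97_e2 (fun a b c => by unfold T97_e2; ring)
      (fun a b c => by unfold T97_e2; ring)) (T97_hasTExp_g2 D) (T97_J4_S2 D.jet) τ

theorem T97_e3_eq (τ : ℍ) : T97_symH t T97_e3 τ = -16777216 :=
  T97_const_of_J4 (h80_holo_of_differentiableOn (T97_differentiableOn_e3 D))
    (T97_symH_smul D T97_e3 (fun a b c => by unfold T97_e3; ring)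
      (fun a b c => by unfold T97_e3; ring)) (T97_hasTExp_g3 D) (T97_J4_S3 D.jet) τ

/-! ### the identities -/

/-- **the `t₂`-identity** `j t² = (t + 256)³`. -/
theorem T97_identity (τ : ℍ) : jAn τ * t τ ^ 2 = (t τ + 256) ^ 3 := by
  have h1 := T97_e1_eq D τ
  have h2 := T97_e2_eq D τ
  have h3 := T97_e3_eq D τ
  simp only [T97_symH, T97_sym, T97_e1, T97_e2, T97_e3] at h1 h2 h3
  rw [T97_tC_coe] at h1 h2 h3
  linear_combination (-(t τ) ^ 2) * h1 + (t τ) * h2 - h3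

end

/-- the Fricke involution `τ ↦ -1/(2τ)` on `ℍ`. -/
def T97_frickeH (τ : ℍ) : ℍ := ⟨-1 / (2 * (τ : ℂ)), T97_im_fricke τ.im_pos⟩

theorem T97_frickeH_eq (τ : ℍ) : T97_frickeH τ = ModularGroup.S • scaleH 2 τ := by
  rw [UpperHalfPlane.modular_S_smul]
  apply UpperHalfPlane.ext
  have h3 := h19_coe_scaleH 2 (by norm_num) τ
  simp only [T97_frickeH, UpperHalfPlane.coe_mk]
  rw [h3]
  push_cast
  rw [neg_div, one_div, inv_neg]

theorem T97_jAn_frickeH (τ : ℍ) : jAn (T97_frickeH τ) = jAt 2 τ := by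
  rw [T97_frickeH_eq, jAn_smul]
  rfl

/-- **the Fricke twin** `j(2τ) t = (t + 16)³`. -/
theorem T97_fricke_twin {t : ℍ → ℂ} {T : LaurentSeries ℂ} (D : T97_Data t T) (τ : ℍ) :
    jAt 2 τ * t τ = (t τ + 16) ^ 3 := by
  have h := T97_identity D (T97_frickeH τ)
  rw [T97_jAn_frickeH] at h
  have hut : t (T97_frickeH τ) * t τ = 4096 := D.fricke τ (T97_frickeH τ) rfl
  have ht0 := D.ne_zero τ
  set u := t (T97_frickeH τ)
  set x := t τ
  set J := jAt 2 τ
  have e1 : (u + 256) * x = 256 * (x + 16) := by linear_combination hut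
  have e3 : u ^ 2 * x ^ 2 = 4096 ^ 2 := by rw [← mul_pow, hut]
  have h5 : J * u ^ 2 * x ^ 3 = ((u + 256) * x) ^ 3 := by
    rw [h]
    ring
  rw [e1] at h5
  have h6 : J * u ^ 2 * x ^ 3 = 4096 ^ 2 * (J * x) := by
    calc J * u ^ 2 * x ^ 3 = (u ^ 2 * x ^ 2) * (J * x) := by ring
      _ = 4096 ^ 2 * (J * x) := by rw [e3]
  rw [h6] at h5
  have key : (4096 : ℂ) ^ 2 * (J * x) = 4096 ^ 2 * ((x + 16) ^ 3) := by
    rw [h5]
    ring
  exact mul_left_cancel₀ (by norm_num) key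

end Fermat.Agent.Red.SM.TID
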