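import Fermat.Agent.S28.TExp

/-!
# P-RED / SM-TID: two-term jets of Laurent series

`Jet s m a b` : `s = a q^m + b q^(m+1) + O(q^(m+2))`.  Calculus of jets under sums, products,
inverses, twists and the substitution `q ↦ q^N`.
-/

set_option autoImplicit false

open ModularCurve

noncomputable section

namespace Fermat.Agent.Red.SM.TID

open Fermat.Agent.S28 (twist coeff_twist coeff_single_mul_ofPowerSeries
  coeff_single_mul_ofPowerSeries_of_lt)

/-- `s = a q^m + b q^(m+1) + O(q^(m+2))`. -/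
def Jet (s : LaurentSeries ℂ) (m : ℤ) (a b : ℂ) : Prop :=
  (∀ k : ℤ, k < m → s.coeff k = 0) ∧ s.coeff m = a ∧ s.coeff (m + 1) = b

/-- the power series of the coefficients from `m` on. -/
def tailPS (s : LaurentSeries ℂ) (m : ℤ) : PowerSeries ℂ :=
  PowerSeries.mk fun i => s.coeff (m + i)

theorem eq_single_mul_tailPS {s : LaurentSeries ℂ} {m : ℤ} (h : ∀ k : ℤ, k < m → s.coeff k = 0) :
    s = HahnSeries.single m 1 * HahnSeries.ofPowerSeries ℤ ℂ (tailPS s m) := by
  ext n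
  rcases lt_or_ge n m with hn | hn
  · rw [h n hn, coeff_single_mul_ofPowerSeries_of_lt m _ hn]
  · obtain ⟨k, hk⟩ := Int.eq_ofNat_of_zero_le (sub_nonneg.mpr hn)
    have hn' : n = m + k := by omega
    rw [hn', coeff_single_mul_ofPowerSeries, tailPS, PowerSeries.coeff_mk]

theorem jet_single_mul (m : ℤ) (p : PowerSeries ℂ) :
    Jet (HahnSeries.single m 1 * HahnSeries.ofPowerSeries ℤ ℂ p) m
      (PowerSeries.coeff 0 p) (PowerSeries.coeff 1 p) := by
  refine ⟨fun k hk => coeff_single_mul_ofPowerSeries_of_lt m p hk, ?_, ?_⟩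
  · have := coeff_single_mul_ofPowerSeries m p 0
    simpa using this
  · have := coeff_single_mul_ofPowerSeries m p 1
    simpa using this

theorem Jet.exists_ps {s : LaurentSeries ℂ} {m : ℤ} {a b : ℂ} (h : Jet s m a b) :
    ∃ p : PowerSeries ℂ, s = HahnSeries.single m 1 * HahnSeries.ofPowerSeries ℤ ℂ p ∧
      PowerSeries.coeff 0 p = a ∧ PowerSeries.coeff 1 p = b := by
  refine ⟨tailPS s m, eq_single_mul_tailPS h.1, ?_, ?_⟩
  · rw [tailPS, PowerSeries.coeff_mk]
    simpa using h.2.1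
  · rw [tailPS, PowerSeries.coeff_mk]
    simpa using h.2.2

theorem single_one_mul_single_one (m m' : ℤ) :
    (HahnSeries.single m (1 : ℂ) : LaurentSeries ℂ) * HahnSeries.single m' 1 =
      HahnSeries.single (m + m') 1 := by
  rw [HahnSeries.single_mul_single, mul_one]

theorem single_mul_ofPS_mul (m m' : ℤ) (p p' : PowerSeries ℂ) :
    HahnSeries.single m (1 : ℂ) * HahnSeries.ofPowerSeries ℤ ℂ p *
      (HahnSeries.single m' 1 * HahnSeries.ofPowerSeries ℤ ℂ p') =
      HahnSeries.single (m + m') 1 * HahnSeries.ofPowerSeries ℤ ℂ (p * p') := by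
  rw [map_mul, ← single_one_mul_single_one]
  ring

theorem Jet.mul {s s' : LaurentSeries ℂ} {m m' : ℤ} {a b a' b' : ℂ} (h : Jet s m a b)
    (h' : Jet s' m' a' b') : Jet (s * s') (m + m') (a * a') (a * b' + b * a') := by
  obtain ⟨p, rfl, hp0, hp1⟩ := h.exists_ps
  obtain ⟨p', rfl, hp0', hp1'⟩ := h'.exists_ps
  rw [single_mul_ofPS_mul]
  have hj := jet_single_mul (m + m') (p * p')
  have h0 : PowerSeries.coeff 0 (p * p') = a * a' := by
    rw [PowerSeries.coeff_mul]
    simp [hp0, hp0']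
  have h1 : PowerSeries.coeff 1 (p * p') = a * b' + b * a' := by
    rw [PowerSeries.coeff_mul]
    rw [Finset.Nat.antidiagonal_succ]
    simp [hp0, hp0', hp1, hp1']
  rw [h0, h1] at hj
  exact hj

theorem Jet.add {s s' : LaurentSeries ℂ} {m : ℤ} {a b a' b' : ℂ} (h : Jet s m a b)
    (h' : Jet s' m a' b') : Jet (s + s') m (a + a') (b + b') := by
  refine ⟨fun k hk => ?_, ?_, ?_⟩
  · rw [HahnSeries.coeff_add, h.1 k hk, h'.1 k hk, add_zero]
  · rw [HahnSeries.coeff_add, h.2.1, h'.2.1]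
  · rw [HahnSeries.coeff_add, h.2.2, h'.2.2]

theorem Jet.neg {s : LaurentSeries ℂ} {m : ℤ} {a b : ℂ} (h : Jet s m a b) :
    Jet (-s) m (-a) (-b) := by
  refine ⟨fun k hk => ?_, ?_, ?_⟩
  · rw [HahnSeries.coeff_neg, h.1 k hk, neg_zero]
  · rw [HahnSeries.coeff_neg, h.2.1]
  · rw [HahnSeries.coeff_neg, h.2.2]

theorem Jet.sub {s s' : LaurentSeries ℂ} {m : ℤ} {a b a' b' : ℂ} (h : Jet s m a b)
    (h' : Jet s' m a' b') : Jet (s - s') m (a - a') (b - b') := by
  have := h.add h'.neg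
  simpa [sub_eq_add_neg] using this

/-- weakening by one step. -/
theorem Jet.shift {s : LaurentSeries ℂ} {m : ℤ} {a b : ℂ} (h : Jet s (m + 1) a b) :
    Jet s m 0 a :=
  ⟨fun k hk => h.1 k (by omega), h.1 m (by omega), h.2.1⟩

/-- weakening by two (or more) steps. -/
theorem Jet.shift_of_lt {s : LaurentSeries ℂ} {m m' : ℤ} {a b : ℂ} (h : Jet s m' a b)
    (hm : m + 1 < m') : Jet s m 0 0 :=
  ⟨fun k hk => h.1 k (by omega), h.1 m (by omega), h.1 (m + 1) hm⟩

theorem Jet.congr {s : LaurentSeries ℂ} {m : ℤ} {a b a' b' : ℂ} (h : Jet s m a b)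
    (ha : a = a') (hb : b = b') : Jet s m a' b' := by
  subst ha hb
  exact h

theorem jet_C (c : ℂ) : Jet (HahnSeries.C c : LaurentSeries ℂ) 0 c 0 := by
  refine ⟨fun k hk => ?_, ?_, ?_⟩
  · rw [HahnSeries.C_apply, HahnSeries.coeff_single_of_ne hk.ne]
  · rw [HahnSeries.C_apply, HahnSeries.coeff_single_same]
  · rw [HahnSeries.C_apply, HahnSeries.coeff_single_of_ne (by norm_num)]

theorem jet_one : Jet (1 : LaurentSeries ℂ) 0 1 0 := by
  have := jet_C 1
  rwa [map_one] at this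

theorem Jet.pow {s : LaurentSeries ℂ} {m : ℤ} {a b : ℂ} (h : Jet s m a b) (n : ℕ) :
    Jet (s ^ n) (n * m) (a ^ n) (n * a ^ (n - 1) * b) := by
  induction n with
  | zero =>
    simpa using jet_one
  | succ n ih =>
    rw [pow_succ]
    have := ih.mul h
    refine (show Jet (s ^ n * s) ((n + 1 : ℕ) * m) _ _ from ?_)
    have hm : (n : ℤ) * m + m = ((n + 1 : ℕ) : ℤ) * m := by push_cast; ring
    rw [← hm]
    refine this.congr (by ring) ?_
    rcases n with _ | n
    · simp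
    · simp only [Nat.add_sub_cancel]
      push_cast
      ring

theorem Jet.ne_zero {s : LaurentSeries ℂ} {m : ℤ} {a b : ℂ} (h : Jet s m a b) (ha : a ≠ 0) :
    s ≠ 0 := by
  rintro rfl
  exact ha (by simpa using h.2.1.symm)

theorem Jet.inv {s : LaurentSeries ℂ} {m : ℤ} {a b : ℂ} (h : Jet s m a b) (ha : a ≠ 0) :
    Jet s⁻¹ (-m) a⁻¹ (-(b / a ^ 2)) := by
  obtain ⟨p, hs, hp0, hp1⟩ := h.exists_ps
  have hc : PowerSeries.constantCoeff p ≠ 0 := by
    rw [← PowerSeries.coeff_zero_eq_constantCoeff_apply, hp0]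
    exact ha
  have hinv : s⁻¹ = HahnSeries.single (-m) 1 * HahnSeries.ofPowerSeries ℤ ℂ p⁻¹ := by
    apply inv_eq_of_mul_eq_one_right
    rw [hs, single_mul_ofPS_mul, PowerSeries.mul_inv_cancel p hc, add_neg_cancel]
    simp
  rw [hinv]
  have hj := jet_single_mul (-m) p⁻¹
  have h0 : PowerSeries.coeff 0 p⁻¹ = a⁻¹ := by
    rw [PowerSeries.coeff_zero_eq_constantCoeff_apply, PowerSeries.constantCoeff_inv,
      ← PowerSeries.coeff_zero_eq_constantCoeff_apply, hp0]
  have h1 : PowerSeries.coeff 1 p⁻¹ = -(b / a ^ 2) := by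
    have hmul : PowerSeries.coeff 1 (p * p⁻¹) = 0 := by
      rw [PowerSeries.mul_inv_cancel p hc]
      simp
    rw [PowerSeries.coeff_mul, Finset.Nat.antidiagonal_succ] at hmul
    simp only [Finset.Nat.antidiagonal_zero, Finset.map_singleton, Finset.sum_cons,
      Finset.sum_singleton] at hmul
    simp only [Function.Embedding.coe_prodMap, Function.Embedding.coeFn_mk, Prod.map_apply,
      Function.Embedding.refl_apply] at hmul
    rw [hp0, h0] at hmul
    simp only [Nat.succ_eq_add_one, zero_add, hp1] at hmul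
    have h3 : a * (a * PowerSeries.coeff 1 p⁻¹ + b * a⁻¹) = 0 := by rw [hmul, mul_zero]
    have h4 : a ^ 2 * PowerSeries.coeff 1 p⁻¹ + b = 0 := by
      have h5 : a * (b * a⁻¹) = b := by field_simp
      linear_combination h3 - h5
    have ha2 : a ^ 2 ≠ 0 := pow_ne_zero 2 ha
    rw [eq_neg_iff_add_eq_zero, ← mul_right_inj' ha2, mul_zero, mul_add, mul_div_cancel₀ _ ha2]
    exact h4
  rw [h0, h1] at hj
  exact hj

theorem Jet.twist {s : LaurentSeries ℂ} {m : ℤ} {a b : ℂ} (h : Jet s m a b) (ω : ℂ) :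
    Jet (twist ω s) m (a * ω ^ m) (b * ω ^ (m + 1)) := by
  refine ⟨fun k hk => ?_, ?_, ?_⟩
  · rw [coeff_twist, h.1 k hk, zero_mul]
  · rw [coeff_twist, h.2.1]
  · rw [coeff_twist, h.2.2]

end Fermat.Agent.Red.SM.TID
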