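import Fermat.Agent.S28.Bridge
import Fermat.Agent.S28.Invariance
import Fermat.Agent.S28.LevelOne
import Fermat.Agent.Red.SM.TIDJet

/-!
# P-RED / SM-TID (ℓ = 3): the analytic Hauptmodul `t₂ = Δ(τ)/Δ(2τ)` of `Γ₀(2)`

* `t2An τ = Δ(τ)/Δ(2τ)`, its two conjugates `t2B b τ = 2^12 Δ(τ)/Δ((τ+b)/2)` (`b = 0, 1`);
* the elementary symmetric functions of `t2An, t2B 0, t2B 1` are `SL(2, ℤ)`-invariant, and the
  level-one theorem identifies them: `e₁ = j - 768`, `e₂ = 196608`, `e₃ = -16777216`;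
* `t2An_identity : j · t₂² = (t₂ + 256)³`, `t2An_fricke : j(2τ) · t₂ = (t₂ + 16)³`.
-/

set_option autoImplicit false

open ModularCurve UpperHalfPlane Complex
open scoped MatrixGroups Manifold

noncomputable section

namespace Fermat.Agent.Red.SM.TID

open Fermat.Agent.S28

/-- analytic Hauptmodul of `Γ₀(2)`: `Δ(τ)/Δ(2τ)`. -/
def t2An (τ : ℍ) : ℂ := deltaAn τ * (deltaAt 2 τ)⁻¹

/-- `τ ↦ (τ + b)/2`. -/
def halfH (b : ℤ) (τ : ℍ) : ℍ := affH 1 (b : ℝ) 2 one_pos two_pos τ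

theorem coe_halfH (b : ℤ) (τ : ℍ) : ((halfH b τ : ℍ) : ℂ) = ((τ : ℂ) + (b : ℂ)) / 2 := by
  rw [halfH, coe_affH]
  push_cast
  ring

/-- the conjugates `2^12 Δ(τ)/Δ((τ+b)/2)` of `t2An`. -/
def t2B (b : ℤ) (τ : ℍ) : ℂ :=
  4096 * (ModularForm.discriminant τ * (ModularForm.discriminant (halfH b τ))⁻¹)

/-- transformation of `Δ` along an explicit Möbius relation. -/
theorem disc_of_eq (γ : SL(2, ℤ)) (z w : ℍ)
    (h : (z : ℂ) * ((γ 1 0 : ℂ) * (w : ℂ) + (γ 1 1 : ℂ)) =
      (γ 0 0 : ℂ) * (w : ℂ) + (γ 0 1 : ℂ)) :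
    ModularForm.discriminant z =
      ((γ 1 0 : ℂ) * (w : ℂ) + (γ 1 1 : ℂ)) ^ 12 * ModularForm.discriminant w := by
  have hz : z = γ • w := by
    apply UpperHalfPlane.ext
    rw [coe_specialLinearGroup_apply, eq_div_iff]
    · simpa using h
    · simpa using denom_ne_zero_SL γ w
  rw [hz, discriminant_smul]

theorem coe_ne_zero_H (τ : ℍ) : (τ : ℂ) ≠ 0 := UpperHalfPlane.ne_zero τ

/-- the matrix `(1 -1; 2 -1)`. -/
def gam2 : SL(2, ℤ) := ⟨!![1, -1; 2, -1], by simp [Matrix.det_fin_two]⟩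

theorem disc_T (τ : ℍ) :
    ModularForm.discriminant (ModularGroup.T • τ) = ModularForm.discriminant τ := by
  rw [discriminant_smul]
  simp [ModularGroup.T]

theorem disc_S (τ : ℍ) :
    ModularForm.discriminant (ModularGroup.S • τ) = (τ : ℂ) ^ 12 * ModularForm.discriminant τ := by
  rw [discriminant_smul]
  simp [ModularGroup.S]

theorem coe_S_smul (τ : ℍ) : ((ModularGroup.S • τ : ℍ) : ℂ) = -(τ : ℂ)⁻¹ := by
  rw [modular_S_smul]
  simp [inv_neg]

theorem coe_T_smul (τ : ℍ) : ((ModularGroup.T • τ : ℍ) : ℂ) = (τ : ℂ) + 1 := by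
  rw [modular_T_smul, coe_vadd]
  push_cast
  ring

/-! ## transformation under `T` and `S` -/

theorem t2An_T (τ : ℍ) : t2An (ModularGroup.T • τ) = t2An τ := by
  have hT : ModularGroup.T ∈ CongruenceSubgroup.Gamma0 2 := by
    rw [CongruenceSubgroup.Gamma0_mem]
    simp [ModularGroup.T]
  have h := deltaAt_smul_of_mem_Gamma0 2 2 dvd_rfl two_pos ModularGroup.T hT τ
  have h1 : ((ModularGroup.T 1 0 : ℤ) : ℂ) * (τ : ℂ) + ((ModularGroup.T 1 1 : ℤ) : ℂ) = 1 := by
    simp [ModularGroup.T]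
  rw [h1, one_pow, one_mul] at h
  rw [t2An, t2An, h, deltaAn, disc_T]

theorem t2An_vadd (τ : ℍ) : t2An ((1 : ℝ) +ᵥ τ) = t2An τ := by
  rw [← modular_T_smul, t2An_T]

theorem t2An_S (τ : ℍ) : t2An (ModularGroup.S • τ) = t2B 0 τ := by
  have hτ := coe_ne_zero_H τ
  have h1 : deltaAt 2 (ModularGroup.S • τ) =
      ((τ : ℂ) / 2) ^ 12 * ModularForm.discriminant (halfH 0 τ) := by
    rw [deltaAt]
    have := disc_of_eq ModularGroup.S (scaleH 2 (ModularGroup.S • τ)) (halfH 0 τ) (by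
      rw [coe_scaleH two_pos, coe_S_smul, coe_halfH]
      simp [ModularGroup.S]
      field_simp)
    rw [this, coe_halfH]
    simp [ModularGroup.S]
  have hne := ModularForm.discriminant_ne_zero (halfH 0 τ)
  rw [t2An, h1, deltaAn, disc_S, t2B]
  field_simp
  ring

theorem t2B_zero_S (τ : ℍ) : t2B 0 (ModularGroup.S • τ) = t2An τ := by
  have hτ := coe_ne_zero_H τ
  have h1 : ModularForm.discriminant (halfH 0 (ModularGroup.S • τ)) =
      (2 * (τ : ℂ)) ^ 12 * deltaAt 2 τ := by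
    rw [deltaAt]
    have := disc_of_eq ModularGroup.S (halfH 0 (ModularGroup.S • τ)) (scaleH 2 τ) (by
      rw [coe_scaleH two_pos, coe_halfH, coe_S_smul]
      simp [ModularGroup.S]
      field_simp)
    rw [this, coe_scaleH two_pos]
    simp [ModularGroup.S]
  have hne := deltaAt_ne_zero 2 τ
  rw [t2B, h1, disc_S, t2An, deltaAn]
  field_simp
  ring

theorem t2B_zero_T (τ : ℍ) : t2B 0 (ModularGroup.T • τ) = t2B 1 τ := by
  have h1 : halfH 0 (ModularGroup.T • τ) = halfH 1 τ := by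
    apply UpperHalfPlane.ext
    rw [coe_halfH, coe_halfH, coe_T_smul]
    push_cast
    ring
  rw [t2B, t2B, h1, disc_T]

theorem t2B_one_T (τ : ℍ) : t2B 1 (ModularGroup.T • τ) = t2B 0 τ := by
  have h1 : halfH 1 (ModularGroup.T • τ) = ModularGroup.T • halfH 0 τ := by
    apply UpperHalfPlane.ext
    rw [coe_halfH, coe_T_smul, coe_T_smul, coe_halfH]
    push_cast
    ring
  rw [t2B, t2B, h1, disc_T, disc_T]

theorem t2B_one_S (τ : ℍ) : t2B 1 (ModularGroup.S • τ) = t2B 1 τ := by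
  have hτ := coe_ne_zero_H τ
  have h1 : ModularForm.discriminant (halfH 1 (ModularGroup.S • τ)) =
      (τ : ℂ) ^ 12 * ModularForm.discriminant (halfH 1 τ) := by
    have := disc_of_eq gam2 (halfH 1 (ModularGroup.S • τ)) (halfH 1 τ) (by
      rw [coe_halfH, coe_halfH, coe_S_smul]
      simp [gam2]
      field_simp
      ring)
    rw [this, coe_halfH]
    simp only [gam2]
    congr 2
    simp
    ring
  have hne := ModularForm.discriminant_ne_zero (halfH 1 τ)
  rw [t2B, t2B, h1, disc_S]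
  field_simp

/-! ## invariance from the generators -/

theorem inv_of_ST (g : ℍ → ℂ) (hS : ∀ τ, g (ModularGroup.S • τ) = g τ)
    (hT : ∀ τ, g (ModularGroup.T • τ) = g τ) (γ : SL(2, ℤ)) (τ : ℍ) : g (γ • τ) = g τ := by
  have hγ : γ ∈ Subgroup.closure ({ModularGroup.S, ModularGroup.T} : Set SL(2, ℤ)) := by
    rw [SpecialLinearGroup.SL2Z_generators]
    trivial
  induction hγ using Subgroup.closure_induction generalizing τ with
  | mem x hx =>
    rcases hx with rfl | rfl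
    · exact hS τ
    · exact hT τ
  | one => rw [one_smul]
  | mul x y _ _ hx hy => rw [mul_smul, hx, hy]
  | inv x _ hx =>
    have := hx (x⁻¹ • τ)
    rw [smul_inv_smul] at this
    exact this.symm

/-! ## holomorphy -/

theorem halfH_eq_ofComplex (b : ℤ) {z : ℂ} (hz : 0 < z.im) :
    halfH b (ofComplex z) = ofComplex ((z + (b : ℂ)) / 2) := by
  have h2 : 0 < ((z + (b : ℂ)) / 2).im := by
    have : ((z + (b : ℂ)) / 2).im = z.im / 2 := by
      rw [show (2 : ℂ) = ((2 : ℝ) : ℂ) by norm_num, Complex.div_ofReal_im]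
      simp
    rw [this]
    positivity
  apply UpperHalfPlane.ext
  rw [coe_halfH, ofComplex_apply_of_im_pos hz, ofComplex_apply_of_im_pos h2]

theorem holo_comp_halfH {f : ℍ → ℂ} (hf : Holo f) (b : ℤ) :
    Holo (fun τ => f (halfH b τ)) := by
  rw [Holo, UpperHalfPlane.mdifferentiable_iff] at hf ⊢
  have hmaps : Set.MapsTo (fun z : ℂ => (z + (b : ℂ)) / 2) {z : ℂ | 0 < z.im}
      {z : ℂ | 0 < z.im} := by
    intro z hz
    have : ((z + (b : ℂ)) / 2).im = z.im / 2 := by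
      rw [show (2 : ℂ) = ((2 : ℝ) : ℂ) by norm_num, Complex.div_ofReal_im]
      simp
    change 0 < ((z + (b : ℂ)) / 2).im
    have hz' : 0 < z.im := hz
    rw [this]
    positivity
  have hdiff : DifferentiableOn ℂ (fun z : ℂ => (z + (b : ℂ)) / 2) {z : ℂ | 0 < z.im} :=
    ((differentiable_id.add_const (b : ℂ)).div_const 2).differentiableOn
  refine (hf.comp hdiff hmaps).congr ?_
  intro z hz
  simp only [Function.comp_apply]
  rw [halfH_eq_ofComplex b hz]

theorem holo_t2An : Holo t2An := by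
  have h1 := holo_discriminant
  have h2 := holo_deltaAt 2
  rw [Holo, UpperHalfPlane.mdifferentiable_iff] at h1 h2 ⊢
  refine (h1.div h2 ?_).congr ?_
  · intro z _
    exact deltaAt_ne_zero 2 _
  · intro z _
    simp only [Function.comp_apply, t2An, deltaAn, div_eq_mul_inv, Pi.div_apply]

theorem holo_t2B (b : ℤ) : Holo (t2B b) := by
  have h1 := holo_discriminant
  have h2 := holo_comp_halfH holo_discriminant b
  rw [Holo, UpperHalfPlane.mdifferentiable_iff] at h1 h2 ⊢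
  refine ((h1.div h2 ?_).const_smul (4096 : ℂ)).congr ?_
  · intro z _
    exact ModularForm.discriminant_ne_zero _
  · intro z _
    simp only [Function.comp_apply, t2B, div_eq_mul_inv, Pi.smul_apply, Pi.mul_apply,
      Pi.inv_apply, smul_eq_mul]

/-! ## jets of the basic series -/

theorem Jet.of_eq {s : LaurentSeries ℂ} {m m' : ℤ} {a b a' b' : ℂ} (h : Jet s m a b)
    (hm : m = m') (ha : a = a') (hb : b = b') : Jet s m' a' b' := by
  subst hm ha hb
  exact h

theorem jet_ofPS (p : PowerSeries ℂ) :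
    Jet (HahnSeries.ofPowerSeries ℤ ℂ p) 0 (PowerSeries.coeff 0 p) (PowerSeries.coeff 1 p) := by
  have h := jet_single_mul 0 p
  have e : (HahnSeries.single (0 : ℤ) (1 : ℂ) : LaurentSeries ℂ) = 1 := rfl
  rwa [e, one_mul] at h

theorem coeff_zero_etaProd : PowerSeries.coeff 0 etaProd = 1 := by
  rw [PowerSeries.coeff_zero_eq_constantCoeff_apply, constantCoeff_etaProd]

theorem coeff_one_etaProd : PowerSeries.coeff 1 etaProd = -1 := by
  rw [h19_etaProd_eq]
  have := PowerSeries.coeff_pentagonalSeries_pentagonal ℤ 1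
  have h1 : pentagonal 1 = 1 := by decide
  rw [h1] at this
  simpa using this

theorem coeff_one_dedekindEtaUnit : PowerSeries.coeff 1 dedekindEtaUnit = -24 := by
  rw [dedekindEtaUnit, PowerSeries.coeff_one_pow, coeff_one_etaProd, constantCoeff_etaProd]
  norm_num

theorem coeff_one_dedekindEtaUnitInv : PowerSeries.coeff 1 dedekindEtaUnitInv = 24 := by
  have h := congrArg (PowerSeries.coeff 1) dedekindEtaUnit_mul_inv
  rw [PowerSeries.coeff_one_mul, coeff_one_dedekindEtaUnit, constantCoeff_dedekindEtaUnitInv,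
    constantCoeff_dedekindEtaUnit, PowerSeries.coeff_one, if_neg (by norm_num)] at h
  linarith

theorem coeff_one_eisenstein4 : PowerSeries.coeff 1 eisenstein4 = 240 := by
  simp [eisenstein4]

theorem coeff_one_jNum : PowerSeries.coeff 1 jNum = 744 := by
  rw [jNum, PowerSeries.coeff_one_mul, PowerSeries.coeff_one_pow, coeff_one_eisenstein4,
    constantCoeff_eisenstein4, constantCoeff_dedekindEtaUnitInv, coeff_one_dedekindEtaUnitInv,
    map_pow, constantCoeff_eisenstein4]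
  norm_num

/-- jets of `cEmb (q^m · U)`. -/
theorem jet_cEmb_single_mul (m : ℤ) (U : PowerSeries ℚ) :
    Jet (cEmb (HahnSeries.single m (1 : ℚ) * HahnSeries.ofPowerSeries ℤ ℚ U)) m
      ((PowerSeries.coeff 0 U : ℚ) : ℂ) ((PowerSeries.coeff 1 U : ℚ) : ℂ) := by
  have h := jet_single_mul m (U.map (algebraMap ℚ ℂ))
  rw [PowerSeries.coeff_map, PowerSeries.coeff_map] at h
  have e : cEmb (HahnSeries.single m (1 : ℚ) * HahnSeries.ofPowerSeries ℤ ℚ U) =
      HahnSeries.single m (1 : ℂ) * HahnSeries.ofPowerSeries ℤ ℂ (U.map (algebraMap ℚ ℂ)) := by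
    rw [cEmb, map_mul, coeffMap_single, map_one, coeffMap_ofPowerSeries]
  rw [e]
  exact h

/-- `Δ = q - 24 q² + …`. -/
theorem jet_deltaC : Jet (cEmb deltaSeries) 1 1 (-24) := by
  have h := jet_cEmb_single_mul 1 dedekindEtaUnitQ
  rw [dedekindEtaUnitQ, PowerSeries.coeff_map, PowerSeries.coeff_map, coeff_one_dedekindEtaUnit,
    PowerSeries.coeff_zero_eq_constantCoeff_apply, constantCoeff_dedekindEtaUnit] at h
  have h' : Jet (cEmb deltaSeries) 1 _ _ := h
  exact h'.of_eq rfl (by simp) (by simp)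

/-- `j = q⁻¹ + 744 + …`. -/
theorem jet_jC : Jet (cEmb jq) (-1) 1 744 := by
  have h := jet_cEmb_single_mul (-1) jNumQ
  rw [jNumQ, PowerSeries.coeff_map, PowerSeries.coeff_map, coeff_one_jNum,
    PowerSeries.coeff_zero_eq_constantCoeff_apply, constantCoeff_jNum] at h
  have h' : Jet (cEmb jq) (-1) _ _ := h
  exact h'.of_eq rfl (by simp) (by simp)

/-- jets under `q ↦ q²`. -/
theorem Jet.qExpand_two {s : LaurentSeries ℂ} {m : ℤ} {a b : ℂ} (h : Jet s m a b) :
    Jet (qExpand ℂ 2 s) (2 * m) a 0 := by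
  refine ⟨fun k hk => ?_, ?_, ?_⟩
  · by_cases h2 : ((2 : ℕ) : ℤ) ∣ k
    · obtain ⟨c, rfl⟩ := h2
      rw [qExpand_coeff_mul]
      exact h.1 c (by push_cast at hk; omega)
    · exact qExpand_coeff_of_not_dvd 2 s h2
  · have := qExpand_coeff_mul (R := ℂ) 2 s m
    rw [← h.2.1, ← this]
    norm_num
  · refine qExpand_coeff_of_not_dvd 2 s ?_
    rintro ⟨c, hc⟩
    push_cast at hc
    omega

/-- reading off the `q`-jet from the `𝕋`-jet, `𝕋² = q`. -/
theorem jet_of_qExpand_two {s : LaurentSeries ℂ} {a : ℂ}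
    (h0 : ∀ k : ℤ, k < 2 → (qExpand ℂ 2 s).coeff k = 0) (h2 : (qExpand ℂ 2 s).coeff 2 = a) :
    Jet s 1 a (s.coeff 2) := by
  refine ⟨fun k hk => ?_, ?_, ?_⟩
  · have := qExpand_coeff_mul (R := ℂ) 2 s k
    rw [← this]
    exact h0 _ (by push_cast; omega)
  · have := qExpand_coeff_mul (R := ℂ) 2 s 1
    rw [← this, ← h2]
    norm_num
  · norm_num

theorem twistDil_one_right (ω : ℂ) (s : LaurentSeries ℂ) : twistDil ω 1 s = twist ω s := by
  rw [twistDil, qExpand_one_apply]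

/-! ## expansions -/

/-- the `q`-expansion of `t2An` (over `ℂ`). -/
def t2C : LaurentSeries ℂ := cEmb deltaSeries * (cEmb (deltaSub 2))⁻¹

theorem hasTExp_t2An_C : HasTExp 1 t2An t2C :=
  (hasTExp_deltaAn.mul one_pos (h19_hasTExp_deltaAt_inv 2 two_pos)).congr (fun _ => rfl)

theorem cEmb_deltaSub_two : cEmb (deltaSub 2) = qExpand ℂ 2 (cEmb deltaSeries) := by
  rw [deltaSub, dif_neg (by norm_num), deltaSeriesN, h19_cEmb_qExpand]

theorem jet_deltaC_two : Jet (qExpand ℂ 2 (cEmb deltaSeries)) 2 1 0 :=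
  (jet_deltaC.qExpand_two).of_eq (by norm_num) rfl rfl

/-- `t₂ = q⁻¹ - 24 + …`. -/
theorem jet_t2C : Jet t2C (-1) 1 (-24) := by
  have h2 : Jet (cEmb (deltaSub 2)) 2 1 0 := by
    rw [cEmb_deltaSub_two]
    exact jet_deltaC_two
  have h := jet_deltaC.mul (h2.inv one_ne_zero)
  have h' : Jet t2C _ _ _ := h
  exact h'.of_eq (by norm_num) (by norm_num) (by norm_num)

/-- the root of unity `exp(2πi b/2)`. -/
def omB (b : ℤ) : ℂ :=
  Complex.exp (2 * Real.pi * Complex.I * (b : ℂ) / (((2 : ℕ) : ℂ) * ((1 : ℕ) : ℂ)))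

theorem omB_zero : omB 0 = 1 := by
  simp [omB]

theorem omB_one : omB 1 = -1 := by
  rw [omB, ← Complex.exp_pi_mul_I]
  congr 1
  push_cast
  ring

/-- the `𝕋`-expansion (`𝕋² = q`) of `t2B b`. -/
def sigB (b : ℤ) : LaurentSeries ℂ :=
  HahnSeries.C 4096 *
    (qExpand ℂ 2 (cEmb deltaSeries) * (twistDil (omB b) 1 (cEmb deltaSeries))⁻¹)

theorem hasTExp_t2B (b : ℤ) : HasTExp 2 (t2B b) (sigB b) := by
  have h1 : HasTExp 2 deltaAn (qExpand ℂ 2 (cEmb deltaSeries)) := hasTExp_deltaAn.of_one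
  have h2 : HasTExp 2 (fun τ => deltaAn (halfH b τ)) (twistDil (omB b) 1 (cEmb deltaSeries)) :=
    hasTExp_deltaAn.affine (M := 1) (N := 2) (a := 1) (d := 2) (e := 1) (b := b) two_pos one_pos
      two_pos (by norm_num) (halfH b) (fun τ => by rw [coe_halfH]; push_cast; ring)
  have h3 := h2.inv two_pos (fun τ => ModularForm.discriminant_ne_zero _)
  exact ((h1.mul two_pos h3).const_mul two_pos 4096).congr (fun _ => rfl)

theorem jet_sigB_zero : Jet (sigB 0) 1 4096 98304 := by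
  have h1 : Jet (twistDil (omB 0) 1 (cEmb deltaSeries)) 1 1 (-24) := by
    rw [twistDil_one_right, omB_zero, twist_one]
    exact jet_deltaC
  have h := (jet_C 4096).mul (jet_deltaC_two.mul (h1.inv one_ne_zero))
  have h' : Jet (sigB 0) _ _ _ := h
  exact h'.of_eq (by norm_num) (by norm_num) (by norm_num)

theorem jet_sigB_one : Jet (sigB 1) 1 (-4096) 98304 := by
  have h1 : Jet (twistDil (omB 1) 1 (cEmb deltaSeries)) 1 (-1) (-24) := by
    rw [twistDil_one_right, omB_one]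
    refine (jet_deltaC.twist (-1)).of_eq rfl ?_ ?_
    · simp
    · have : ((-1 : ℂ)) ^ ((1 : ℤ) + 1) = 1 := by
        rw [show ((1 : ℤ) + 1) = ((2 : ℕ) : ℤ) by norm_num, zpow_natCast]
        norm_num
      rw [this, mul_one]
  have h := (jet_C 4096).mul (jet_deltaC_two.mul (h1.inv (by norm_num)))
  have h' : Jet (sigB 1) _ _ _ := h
  exact h'.of_eq (by norm_num) (by norm_num) (by norm_num)

/-- the sum of the two conjugates `t2B 0 + t2B 1`. -/
def sumB (τ : ℍ) : ℂ := t2B 0 τ + t2B 1 τ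

/-- the product of the two conjugates `t2B 0 * t2B 1`. -/
def prodB (τ : ℍ) : ℂ := t2B 0 τ * t2B 1 τ

theorem sumB_T (τ : ℍ) : sumB (ModularGroup.T • τ) = sumB τ := by
  rw [sumB, sumB, t2B_zero_T, t2B_one_T, add_comm]

theorem prodB_T (τ : ℍ) : prodB (ModularGroup.T • τ) = prodB τ := by
  rw [prodB, prodB, t2B_zero_T, t2B_one_T, mul_comm]

theorem exists_sumB : ∃ s₁ : LaurentSeries ℂ, HasTExp 1 sumB s₁ ∧ Jet s₁ 1 196608 (s₁.coeff 2) := by
  have h : HasTExp 2 sumB (sigB 0 + sigB 1) :=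
    ((hasTExp_t2B 0).add (hasTExp_t2B 1)).congr (fun _ => rfl)
  obtain ⟨s₁, hs₁, he⟩ := h.to_one (fun τ => by rw [← modular_T_smul, sumB_T])
  refine ⟨s₁, hs₁, ?_⟩
  have hj := jet_sigB_zero.add jet_sigB_one
  rw [he] at hj
  refine jet_of_qExpand_two (fun k hk => ?_) ?_
  · rcases lt_or_eq_of_le (show k ≤ 1 by omega) with h1 | h1
    · exact hj.1 k h1
    · rw [h1, hj.2.1]
      norm_num
  · have := hj.2.2
    rw [show ((1 : ℤ) + 1) = 2 by norm_num] at this
    rw [this]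
    norm_num

theorem exists_prodB :
    ∃ p₁ : LaurentSeries ℂ, HasTExp 1 prodB p₁ ∧ Jet p₁ 1 (-16777216) (p₁.coeff 2) := by
  have h : HasTExp 2 prodB (sigB 0 * sigB 1) :=
    ((hasTExp_t2B 0).mul two_pos (hasTExp_t2B 1)).congr (fun _ => rfl)
  obtain ⟨p₁, hp₁, he⟩ := h.to_one (fun τ => by rw [← modular_T_smul, prodB_T])
  refine ⟨p₁, hp₁, ?_⟩
  have hj := jet_sigB_zero.mul jet_sigB_one
  rw [he] at hj
  refine jet_of_qExpand_two (fun k hk => ?_) ?_
  · exact hj.1 k (by omega)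
  · have := hj.2.1
    rw [show ((1 : ℤ) + 1) = 2 by norm_num] at this
    rw [this]
    norm_num

/-! ## the symmetric functions are constants (resp. `j - 768`) -/

theorem holo_sumB : Holo sumB := by
  have h0 : MDiff (t2B 0) := holo_t2B 0
  have h1 : MDiff (t2B 1) := holo_t2B 1
  exact h0.add h1

theorem holo_prodB : Holo prodB := by
  have h0 : MDiff (t2B 0) := holo_t2B 0
  have h1 : MDiff (t2B 1) := holo_t2B 1
  exact h0.mul h1

theorem jet_coeff_of_neg_one {s : LaurentSeries ℂ} {c : ℂ} (h : Jet s (-1) 0 c) :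
    (∀ n : ℤ, n < 0 → s.coeff n = 0) ∧ s.coeff 0 = c := by
  refine ⟨fun n hn => ?_, ?_⟩
  · rcases lt_or_eq_of_le (show n ≤ -1 by omega) with h1 | h1
    · exact h.1 n h1
    · rw [h1, h.2.1]
  · have := h.2.2
    rwa [show ((-1 : ℤ) + 1) = 0 by norm_num] at this

theorem jet_coeff_of_zero {s : LaurentSeries ℂ} {c d : ℂ} (h : Jet s 0 c d) :
    (∀ n : ℤ, n < 0 → s.coeff n = 0) ∧ s.coeff 0 = c :=
  ⟨h.1, h.2.1⟩

/-- `e₁ = j - 768`. -/
theorem t2_sym_one (τ : ℍ) : t2An τ + sumB τ - jAn τ = -768 := by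
  obtain ⟨s₁, hs₁, hj₁⟩ := exists_sumB
  have hexp : HasTExp 1 (fun τ => t2An τ + sumB τ - jAn τ) (t2C + s₁ - cEmb jq) :=
    ((hasTExp_t2An_C.add hs₁).sub hasTExp_jAn).congr (fun _ => rfl)
  have hholo : MDiff (fun τ => t2An τ + sumB τ - jAn τ) := by
    have h0 : MDiff t2An := holo_t2An
    have h1 : MDiff sumB := holo_sumB
    have h2 : MDiff jAn := holo_jAn
    exact (h0.add h1).sub h2
  have hinv : ∀ (γ : SL(2, ℤ)) (τ : ℍ),
      (fun τ => t2An τ + sumB τ - jAn τ) (γ • τ) = (fun τ => t2An τ + sumB τ - jAn τ) τ := by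
    refine inv_of_ST (fun τ => t2An τ + sumB τ - jAn τ) (fun τ => ?_) (fun τ => ?_)
    · simp only [sumB, t2An_S, t2B_zero_S, t2B_one_S, jAn_smul]
      ring
    · simp only [sumB_T, t2An_T, jAn_smul]
  have hjet : Jet (t2C + s₁ - cEmb jq) (-1) 0 (-768) := by
    have h := (jet_t2C.add (hj₁.shift_of_lt (m := -1) (by norm_num))).sub jet_jC
    exact h.of_eq rfl (by norm_num) (by norm_num)
  obtain ⟨h0, hc⟩ := jet_coeff_of_neg_one hjet
  have := LevelOne.levelOne_const _ hholo hinv _ hexp h0 τ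
  rw [hc] at this
  exact this

/-- `e₂ = 196608`. -/
theorem t2_sym_two (τ : ℍ) : t2An τ * sumB τ + prodB τ = 196608 := by
  obtain ⟨s₁, hs₁, hj₁⟩ := exists_sumB
  obtain ⟨p₁, hp₁, hjp⟩ := exists_prodB
  have hexp : HasTExp 1 (fun τ => t2An τ * sumB τ + prodB τ) (t2C * s₁ + p₁) :=
    ((hasTExp_t2An_C.mul one_pos hs₁).add hp₁).congr (fun _ => rfl)
  have hholo : MDiff (fun τ => t2An τ * sumB τ + prodB τ) := by
    have h0 : MDiff t2An := holo_t2An
    have h1 : MDiff sumB := holo_sumB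
    have h2 : MDiff prodB := holo_prodB
    exact (h0.mul h1).add h2
  have hinv : ∀ (γ : SL(2, ℤ)) (τ : ℍ),
      (fun τ => t2An τ * sumB τ + prodB τ) (γ • τ) = (fun τ => t2An τ * sumB τ + prodB τ) τ := by
    refine inv_of_ST (fun τ => t2An τ * sumB τ + prodB τ) (fun τ => ?_) (fun τ => ?_)
    · simp only [sumB, prodB, t2An_S, t2B_zero_S, t2B_one_S]
      ring
    · simp only [sumB_T, prodB_T, t2An_T]
  have hjet : Jet (t2C * s₁ + p₁) 0 196608 (1 * s₁.coeff 2 + -24 * 196608 + -16777216) := by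
    have h := (jet_t2C.mul hj₁).add hjp.shift
    exact h.of_eq (by norm_num) (by norm_num) rfl
  obtain ⟨h0, hc⟩ := jet_coeff_of_zero hjet
  have := LevelOne.levelOne_const _ hholo hinv _ hexp h0 τ
  rw [hc] at this
  exact this

/-- `e₃ = -16777216`. -/
theorem t2_sym_three (τ : ℍ) : t2An τ * prodB τ = -16777216 := by
  obtain ⟨p₁, hp₁, hjp⟩ := exists_prodB
  have hexp : HasTExp 1 (fun τ => t2An τ * prodB τ) (t2C * p₁) :=
    (hasTExp_t2An_C.mul one_pos hp₁).congr (fun _ => rfl)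
  have hholo : MDiff (fun τ => t2An τ * prodB τ) := by
    have h0 : MDiff t2An := holo_t2An
    have h2 : MDiff prodB := holo_prodB
    exact h0.mul h2
  have hinv : ∀ (γ : SL(2, ℤ)) (τ : ℍ),
      (fun τ => t2An τ * prodB τ) (γ • τ) = (fun τ => t2An τ * prodB τ) τ := by
    refine inv_of_ST (fun τ => t2An τ * prodB τ) (fun τ => ?_) (fun τ => ?_)
    · simp only [prodB, t2An_S, t2B_zero_S, t2B_one_S]
      ring
    · simp only [prodB_T, t2An_T]
  have hjet : Jet (t2C * p₁) 0 (-16777216) (1 * p₁.coeff 2 + -24 * -16777216) := by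
    have h := jet_t2C.mul hjp
    exact h.of_eq (by norm_num) (by norm_num) rfl
  obtain ⟨h0, hc⟩ := jet_coeff_of_zero hjet
  have := LevelOne.levelOne_const _ hholo hinv _ hexp h0 τ
  rw [hc] at this
  exact this

/-! ## the two identities -/

/-- **`j · t₂² = (t₂ + 256)³`.** -/
theorem t2An_identity (τ : ℍ) : jAn τ * t2An τ ^ 2 = (t2An τ + 256) ^ 3 := by
  have h1 := t2_sym_one τ
  have h2 := t2_sym_two τ
  have h3 := t2_sym_three τ
  rw [sumB] at h1 h2
  rw [prodB] at h2 h3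
  linear_combination (-(t2An τ ^ 2)) * h1 + t2An τ * h2 - h3

theorem t2An_ne_zero (τ : ℍ) : t2An τ ≠ 0 :=
  mul_ne_zero (ModularForm.discriminant_ne_zero τ) (inv_ne_zero (deltaAt_ne_zero 2 τ))

/-- `t₂(-1/(2τ)) = 2^12 / t₂(τ)` (Fricke involution). -/
theorem t2An_fricke_inv (τ : ℍ) : t2An (ModularGroup.S • scaleH 2 τ) = 4096 * (t2An τ)⁻¹ := by
  have h1 : halfH 0 (scaleH 2 τ) = τ := by
    apply UpperHalfPlane.ext
    rw [coe_halfH, coe_scaleH two_pos]
    push_cast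
    ring
  rw [t2An_S, t2B, h1, t2An, deltaAn, deltaAt, mul_inv, inv_inv, mul_comm (ModularForm.discriminant _)]

/-- **`j(2τ) · t₂ = (t₂ + 16)³`.** -/
theorem t2An_fricke (τ : ℍ) : jAt 2 τ * t2An τ = (t2An τ + 16) ^ 3 := by
  have h := t2An_identity (ModularGroup.S • scaleH 2 τ)
  rw [jAn_smul, t2An_fricke_inv] at h
  have hne := t2An_ne_zero τ
  rw [jAt]
  field_simp at h
  linear_combination h / 16777216

end Fermat.Agent.Red.SM.TID
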