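import Fermat.Agent.Red.SM.TID3Id

/-!
# P-RED / R-SM, leaf SM-TID (case `ℓ = 3`, hedge helper99): the Hauptmodul
`t₂ = (η(τ)/η(2τ))^24`, analytic part

* `h99t_tC z = q⁻¹ ∏ ((1 - qⁿ)/(1 - q^{2n}))^24`, `q = exp (2πi z)`, as a function of `z : ℂ`;
* `h99t_t2An τ = h99t_tC τ` on `ℍ`; `h99t_hasTExp_t2An : HasTExp 1 h99t_t2An h99t_T`;
  holomorphy; non-vanishing;
* `h99t_tC_add_int` : periodicity; `h99t_tC_mul_eta` : `h99t_tC z * η(2z)^24 = η(z)^24`;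
* `h99t_fricke` : `h99t_tC (-1/(2z)) * h99t_tC z = 4096`.

The general lemmas of helper80's files `TID3*.lean` are reused.
-/

set_option autoImplicit false

open ModularCurve UpperHalfPlane Complex
open scoped MatrixGroups Manifold Real

noncomputable section

namespace Fermat.Agent.Red.SM.TID

open Fermat.Agent.S28

/-- `q⁻¹ ∏ ((1 - qⁿ)/(1 - q^{2n}))^24` as a function of `q`. -/
def h99t_tq (q : ℂ) : ℂ := q⁻¹ * (h80_Pq q ^ 24 * (h80_Pq (q ^ 2) ^ 24)⁻¹)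

theorem h99t_norm_sq_lt_one {q : ℂ} (hq : ‖q‖ < 1) : ‖q ^ 2‖ < 1 := by
  rw [norm_pow]
  exact pow_lt_one₀ (norm_nonneg _) hq (by norm_num)

theorem h99t_tq_ne_zero {q : ℂ} (hq0 : q ≠ 0) (hq : ‖q‖ < 1) : h99t_tq q ≠ 0 := by
  unfold h99t_tq
  exact mul_ne_zero (inv_ne_zero hq0)
    (mul_ne_zero (pow_ne_zero _ (h80_Pq_ne_zero hq))
      (inv_ne_zero (pow_ne_zero _ (h80_Pq_ne_zero (h99t_norm_sq_lt_one hq)))))

/-- `t₂` as a function of `z : ℂ` (meaningful for `0 < z.im`). -/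
def h99t_tC (z : ℂ) : ℂ := h99t_tq (Complex.exp (2 * π * Complex.I * z))

/-- the analytic `t₂` on `ℍ`. -/
def h99t_t2An (τ : ℍ) : ℂ := h99t_tC (τ : ℂ)

theorem h99t_tC_ne_zero {z : ℂ} (hz : 0 < z.im) : h99t_tC z ≠ 0 :=
  h99t_tq_ne_zero (Complex.exp_ne_zero _) (h80_norm_exp_lt_one hz)

theorem h99t_t2An_ne_zero (τ : ℍ) : h99t_t2An τ ≠ 0 := h99t_tC_ne_zero τ.im_pos

/-- periodicity -/
theorem h99t_tC_add_int (z : ℂ) (n : ℤ) : h99t_tC (z + n) = h99t_tC z := by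
  unfold h99t_tC
  congr 1
  rw [mul_add, Complex.exp_add]
  have : Complex.exp (2 * π * Complex.I * (n : ℂ)) = 1 := by
    have := Complex.exp_int_mul_two_pi_mul_I n
    rw [← this]
    congr 1
    ring
  rw [this, mul_one]

/-! ### the expansion -/

/-- the formal `t₂` over `ℂ`. -/
def h99t_T : LaurentSeries ℂ :=
  (HahnSeries.single (1 : ℤ) (1 : ℂ))⁻¹ * (h80_E ^ 24 * ((qExpand ℂ 2 h80_E) ^ 24)⁻¹)

theorem h99t_hasTExp_Pq2 :
    HasTExp 1 (fun τ => h80_Pq (tParam 1 τ ^ 2)) (qExpand ℂ 2 h80_E) := by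
  refine (h80_hasTExp_Pq.scale 2).congr (fun τ => ?_)
  rw [h19_tParam_scaleH 1 2 (by norm_num)]

theorem h99t_hasTExp_aux2 : HasTExp 1 (fun τ => h80_Pq (tParam 1 τ) ^ 24) (h80_E ^ 24) :=
  (h80_hasTExp_Pq.pow one_pos 24).congr (fun τ => by simp only [Pi.pow_apply])

theorem h99t_hasTExp_aux3 :
    HasTExp 1 (fun τ => h80_Pq (tParam 1 τ ^ 2) ^ 24) ((qExpand ℂ 2 h80_E) ^ 24) :=
  (h99t_hasTExp_Pq2.pow one_pos 24).congr (fun τ => by simp only [Pi.pow_apply])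

theorem h99t_hasTExp_aux4 :
    HasTExp 1 (fun τ => (h80_Pq (tParam 1 τ ^ 2) ^ 24)⁻¹) ((qExpand ℂ 2 h80_E) ^ 24)⁻¹ :=
  h99t_hasTExp_aux3.inv one_pos (fun τ =>
    pow_ne_zero 24 (h80_Pq_ne_zero (h99t_norm_sq_lt_one (norm_tParam_lt_one one_pos τ))))

theorem h99t_hasTExp_aux5 :
    HasTExp 1 (fun τ => h80_Pq (tParam 1 τ) ^ 24 * (h80_Pq (tParam 1 τ ^ 2) ^ 24)⁻¹)
      (h80_E ^ 24 * ((qExpand ℂ 2 h80_E) ^ 24)⁻¹) :=
  (h99t_hasTExp_aux2.mul one_pos h99t_hasTExp_aux4).congr (fun τ => by simp only [Pi.mul_apply])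

theorem h99t_hasTExp_aux6 :
    HasTExp 1 (fun τ => (tParam 1 τ)⁻¹ *
      (h80_Pq (tParam 1 τ) ^ 24 * (h80_Pq (tParam 1 τ ^ 2) ^ 24)⁻¹))
      ((HahnSeries.single (1 : ℤ) (1 : ℂ))⁻¹ * (h80_E ^ 24 * ((qExpand ℂ 2 h80_E) ^ 24)⁻¹)) :=
  (h80_hasTExp_aux1.mul one_pos h99t_hasTExp_aux5).congr (fun τ => by simp only [Pi.mul_apply])

theorem h99t_T_def : h99t_T =
    ((HahnSeries.single (1 : ℤ) (1 : ℂ))⁻¹ * (h80_E ^ 24 * ((qExpand ℂ 2 h80_E) ^ 24)⁻¹) :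
      LaurentSeries ℂ) := by
  rw [h99t_T]

theorem h99t_hasTExp_tq : HasTExp 1 (fun τ => h99t_tq (tParam 1 τ)) h99t_T := by
  rw [h99t_T_def]
  have hfun : (fun τ : ℍ => h99t_tq (tParam 1 τ)) = (fun τ => (tParam 1 τ)⁻¹ *
      (h80_Pq (tParam 1 τ) ^ 24 * (h80_Pq (tParam 1 τ ^ 2) ^ 24)⁻¹)) := by
    funext τ
    rw [h99t_tq]
  rw [hfun]
  exact h99t_hasTExp_aux6

theorem h99t_hasTExp_t2An : HasTExp 1 h99t_t2An h99t_T := by
  have hfun : h99t_t2An = (fun τ : ℍ => h99t_tq (tParam 1 τ)) := by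
    funext τ
    rw [h99t_t2An, h99t_tC, h80_tParam_one]
  rw [hfun]
  exact h99t_hasTExp_tq

/-! ### relation with the Dedekind eta function -/

open ModularForm in
theorem h99t_eta_pow (z : ℂ) :
    η z ^ 24 = Complex.exp (2 * π * Complex.I * z) *
      h80_Pq (Complex.exp (2 * π * Complex.I * z)) ^ 24 := by
  have h := h80_eta_pow z
  have e : η z ^ 24 = (η z ^ 12) ^ 2 := by ring
  rw [e, h, mul_pow, ← pow_mul, ← Complex.exp_nat_mul]
  congr 2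
  push_cast
  ring

open ModularForm in
theorem h99t_tC_mul_eta {z : ℂ} (hz : 0 < z.im) : h99t_tC z * η (2 * z) ^ 24 = η z ^ 24 := by
  have hq : ‖Complex.exp (2 * π * Complex.I * z)‖ < 1 := h80_norm_exp_lt_one hz
  have hP2 := h80_Pq_ne_zero (h99t_norm_sq_lt_one hq)
  have he2 : Complex.exp (2 * π * Complex.I * (2 * z)) = Complex.exp (2 * π * Complex.I * z) ^ 2 := by
    rw [← Complex.exp_nat_mul]
    congr 1
    push_cast
    ring
  have hq0 : Complex.exp (2 * π * Complex.I * z) ≠ 0 := Complex.exp_ne_zero _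
  rw [h99t_eta_pow z, h99t_eta_pow (2 * z), he2, h99t_tC, h99t_tq]
  have hP2' := pow_ne_zero 24 hP2
  field_simp

open ModularForm in
/-- `η(-1/z)^24 = z^12 η(z)^24`. -/
theorem h99t_eta_S {z : ℂ} (hz : 0 < z.im) : η (-1 / z) ^ 24 = z ^ 12 * η z ^ 24 := by
  have h := h80_eta_S hz
  have e : η (-1 / z) ^ 24 = (η (-1 / z) ^ 12) ^ 2 := by ring
  rw [e, h]
  ring

theorem h99t_im_fricke {z : ℂ} (hz : 0 < z.im) : 0 < (-1 / (2 * z)).im := by
  have h2 : 0 < (2 * z).im := by simpa using hz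
  exact h80_im_S h2

open ModularForm in
/-- **Fricke**: `t₂(-1/(2z)) t₂(z) = 2^12`. -/
theorem h99t_fricke {z : ℂ} (hz : 0 < z.im) : h99t_tC (-1 / (2 * z)) * h99t_tC z = 4096 := by
  have hz0 : z ≠ 0 := fun h => by simp [h] at hz
  have h2z : 0 < (2 * z).im := by simpa using hz
  have hw := h99t_im_fricke hz
  have h1 := h99t_tC_mul_eta hw
  have h2 := h99t_tC_mul_eta hz
  have e1 : 2 * (-1 / (2 * z)) = -1 / z := by
    field_simp
  have e2 : η (-1 / (2 * z)) ^ 24 = (2 * z) ^ 12 * η (2 * z) ^ 24 := h99t_eta_S h2z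
  have e3 : η (-1 / z) ^ 24 = z ^ 12 * η z ^ 24 := h99t_eta_S hz
  rw [e1, e2, e3] at h1
  have hη2 : η (2 * z) ^ 24 ≠ 0 := pow_ne_zero _ (ModularForm.eta_ne_zero h2z)
  have hz12 : z ^ 12 ≠ 0 := pow_ne_zero _ hz0
  have key : (h99t_tC (-1 / (2 * z)) * h99t_tC z - 4096) * (z ^ 12 * η (2 * z) ^ 24) = 0 := by
    rw [← h2] at h1
    linear_combination h1
  rcases mul_eq_zero.mp key with h | h
  · exact sub_eq_zero.mp h
  · exact absurd h (mul_ne_zero hz12 hη2)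

/-! ### holomorphy -/

open ModularForm in
theorem h99t_differentiableOn_tC : DifferentiableOn ℂ h99t_tC {z : ℂ | 0 < z.im} := by
  have h : DifferentiableOn ℂ (fun z => η z ^ 24 / η (2 * z) ^ 24) {z : ℂ | 0 < z.im} := by
    intro z hz
    have h2 : 0 < (2 * z).im := by simpa using hz
    have d1 : DifferentiableAt ℂ η z := differentiableAt_eta_of_mem_upperHalfPlaneSet hz
    have d2 : DifferentiableAt ℂ (fun z => η (2 * z)) z := by
      have := differentiableAt_eta_of_mem_upperHalfPlaneSet (z := 2 * z) h2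
      exact this.comp z (by fun_prop)
    exact ((d1.pow 24).div (d2.pow 24)
      (pow_ne_zero _ (ModularForm.eta_ne_zero h2))).differentiableWithinAt
  refine h.congr (fun z hz => ?_)
  have h2 : 0 < (2 * z).im := by simpa using hz
  have hη2 : η (2 * z) ^ 24 ≠ 0 := pow_ne_zero _ (ModularForm.eta_ne_zero h2)
  rw [eq_div_iff hη2]
  exact h99t_tC_mul_eta hz

theorem h99t_holo_t2An : Holo h99t_t2An :=
  h80_holo_of_differentiableOn h99t_differentiableOn_tC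

end Fermat.Agent.Red.SM.TID
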