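import Fermat.Agent.Red.SM.TID2H99An

/-!
# P-RED / R-SM, leaf SM-TID (case `ℓ = 3`, hedge helper99): the identity `j t₂² = (t₂ + 256)³`

The conjugates of `t = t₂` under `SL₂(ℤ)` are `t` and `V_b(τ) = 4096 / t((τ + b)/2)`, `b = 0, 1`.
`T` permutes them as `(t)(V₀ V₁)` and `S` as `(t V₀)(V₁)`.  The elementary symmetric functions
are holomorphic, `SL₂(ℤ)`-invariant, with expansions `j - 768 + O(q)`, `196608 + O(q)`,
`-16777216 + O(q)`; hence they are equal to these values.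
-/

set_option autoImplicit false

open ModularCurve UpperHalfPlane Complex
open scoped MatrixGroups Manifold Real

noncomputable section

namespace Fermat.Agent.Red.SM.TID

open Fermat.Agent.S28

/-! ### formal computations -/

/-- the Euler product in `q²`. -/
def h99t_E2 : PowerSeries ℂ := h19_expand 2 h80_E1

theorem h99t_C3_E2 : h80_C3 h99t_E2 1 0 (-1) := by
  refine ⟨?_, ?_, ?_⟩
  · rw [h99t_E2, h19_expand, PowerSeries.coeff_mk]
    simp [h80_C3_E1.1]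
  · rw [h99t_E2, h19_expand, PowerSeries.coeff_mk]
    simp
  · rw [h99t_E2, h19_expand, PowerSeries.coeff_mk]
    simp [h80_C3_E1.2.1]

theorem h99t_C3_E2_pow : h80_C3 (h99t_E2 ^ 24) 1 0 (-24) := by
  have h2 := h99t_C3_E2.pow_two
  have h4 := h2.pow_two
  have h8 := h4.pow_two
  have h16 := h8.pow_two
  have h24 := h16.mul h8
  have e' : (((h99t_E2 ^ 2) ^ 2) ^ 2) ^ 2 * ((h99t_E2 ^ 2) ^ 2) ^ 2 = h99t_E2 ^ 24 := by ring
  rw [e'] at h24
  exact h24.congr (by norm_num) (by norm_num) (by norm_num)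

theorem h99t_constantCoeff_E1_pow : PowerSeries.constantCoeff (h80_E1 ^ 24) ≠ 0 := by
  rw [← PowerSeries.coeff_zero_eq_constantCoeff, h80_C3_E1_pow24.1]
  exact one_ne_zero

theorem h99t_constantCoeff_E2_pow : PowerSeries.constantCoeff (h99t_E2 ^ 24) ≠ 0 := by
  rw [← PowerSeries.coeff_zero_eq_constantCoeff, h99t_C3_E2_pow.1]
  exact one_ne_zero

/-- `A = ∏ ((1 - qⁿ)/(1 - q^{2n}))^24`. -/
def h99t_A : PowerSeries ℂ := h80_E1 ^ 24 * (h99t_E2 ^ 24)⁻¹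

/-- `B = A⁻¹`. -/
def h99t_B : PowerSeries ℂ := h99t_E2 ^ 24 * (h80_E1 ^ 24)⁻¹

theorem h99t_A_mul_B : h99t_A * h99t_B = 1 := by
  have h1 := PowerSeries.mul_inv_cancel _ h99t_constantCoeff_E1_pow
  have h3 := PowerSeries.mul_inv_cancel _ h99t_constantCoeff_E2_pow
  rw [h99t_A, h99t_B]
  calc h80_E1 ^ 24 * (h99t_E2 ^ 24)⁻¹ * (h99t_E2 ^ 24 * (h80_E1 ^ 24)⁻¹)
      = (h80_E1 ^ 24 * (h80_E1 ^ 24)⁻¹) * (h99t_E2 ^ 24 * (h99t_E2 ^ 24)⁻¹) := by ring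
    _ = 1 := by rw [h1, h3, mul_one]

theorem h99t_C3_B : h80_C3 h99t_B 1 24 300 := by
  have h3 := PowerSeries.mul_inv_cancel _ h99t_constantCoeff_E1_pow
  have hinv := h80_C3_E1_pow24.of_mul_eq_one h3
  have := h99t_C3_E2_pow.mul hinv
  rw [h99t_B]
  exact this.congr (by norm_num) (by norm_num) (by norm_num)

theorem h99t_C3_A : h80_C3 h99t_A 1 (-24) 276 := by
  have h3 := PowerSeries.mul_inv_cancel _ h99t_constantCoeff_E2_pow
  have hinv := h99t_C3_E2_pow.of_mul_eq_one h3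
  have := h80_C3_E1_pow24.mul hinv
  rw [h99t_A]
  exact this.congr (by norm_num) (by norm_num) (by norm_num)

theorem h99t_T_eq :
    h99t_T = HahnSeries.single (-1 : ℤ) 1 * HahnSeries.ofPowerSeries ℤ ℂ h99t_A := by
  have h3 : (HahnSeries.ofPowerSeries ℤ ℂ (h99t_E2 ^ 24))⁻¹ =
      HahnSeries.ofPowerSeries ℤ ℂ (h99t_E2 ^ 24)⁻¹ := h80_ofPS_inv h99t_constantCoeff_E2_pow
  have hA : HahnSeries.ofPowerSeries ℤ ℂ h99t_A = HahnSeries.ofPowerSeries ℤ ℂ (h80_E1 ^ 24) *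
      (HahnSeries.ofPowerSeries ℤ ℂ (h99t_E2 ^ 24))⁻¹ := by
    rw [h3, ← map_mul, h99t_A]
  have hE2 : qExpand ℂ 2 h80_E = HahnSeries.ofPowerSeries ℤ ℂ h99t_E2 := by
    rw [h80_E_eq, h19_qExpand_ofPowerSeries, h99t_E2]
  rw [h99t_T_def, h80_single_one_inv, hE2, hA, h80_E_eq, map_pow, map_pow]

theorem h99t_T_inv_eq :
    h99t_T⁻¹ = HahnSeries.single (1 : ℤ) 1 * HahnSeries.ofPowerSeries ℤ ℂ h99t_B := by
  have hAB : HahnSeries.ofPowerSeries ℤ ℂ h99t_A * HahnSeries.ofPowerSeries ℤ ℂ h99t_B = 1 := by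
    rw [← map_mul, h99t_A_mul_B, map_one]
  have h : h99t_T * (HahnSeries.single (1 : ℤ) 1 * HahnSeries.ofPowerSeries ℤ ℂ h99t_B) = 1 := by
    rw [h99t_T_eq]
    calc HahnSeries.single (-1 : ℤ) (1 : ℂ) * HahnSeries.ofPowerSeries ℤ ℂ h99t_A *
          (HahnSeries.single (1 : ℤ) 1 * HahnSeries.ofPowerSeries ℤ ℂ h99t_B)
        = (HahnSeries.single (-1 : ℤ) (1 : ℂ) * HahnSeries.single (1 : ℤ) 1) *
          (HahnSeries.ofPowerSeries ℤ ℂ h99t_A * HahnSeries.ofPowerSeries ℤ ℂ h99t_B) := by ring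
      _ = 1 := by rw [hAB, h80_single_mul_single_one, mul_one]
  exact (eq_inv_of_mul_eq_one_right h).symm

/-! ### jets -/

theorem h99t_jet_T : Jet h99t_T (-1) 1 (-24) := by
  rw [h99t_T_eq]
  have h := jet_single_mul (-1) h99t_A
  rw [h99t_C3_A.1, h99t_C3_A.2.1] at h
  exact h

/-- `q ↦ q²` on a jet of order `-1`. -/
theorem h99t_jet_qExpand {s : LaurentSeries ℂ} {a b : ℂ} (h : Jet s (-1) a b) :
    Jet (qExpand ℂ 2 s) (-2) a 0 := by
  obtain ⟨h0, h1, -⟩ := h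
  refine ⟨fun k hk => ?_, ?_, ?_⟩
  · by_cases hd : ((2 : ℕ) : ℤ) ∣ k
    · obtain ⟨n, rfl⟩ := hd
      rw [qExpand_coeff_mul]
      exact h0 n (by push_cast at hk; omega)
    · exact qExpand_coeff_of_not_dvd 2 s hd
  · have := qExpand_coeff_mul (R := ℂ) 2 s (-1)
    rw [show ((2 : ℕ) : ℤ) * (-1) = -2 by norm_num] at this
    rw [this, h1]
  · exact qExpand_coeff_of_not_dvd 2 s (by norm_num)

/-- `q ↦ q²` on a series without pole. -/
theorem h99t_jet_qExpand_zero {s : LaurentSeries ℂ} {b : ℂ} (h : Jet s (-1) 0 b) :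
    Jet (qExpand ℂ 2 s) 0 b 0 := by
  obtain ⟨h0, h1, h2⟩ := h
  refine ⟨fun k hk => ?_, ?_, ?_⟩
  · by_cases hd : ((2 : ℕ) : ℤ) ∣ k
    · obtain ⟨n, rfl⟩ := hd
      rw [qExpand_coeff_mul]
      rcases lt_or_eq_of_le (show n ≤ -1 by push_cast at hk; omega) with hn | hn
      · exact h0 n hn
      · rw [hn]
        exact h1
    · exact qExpand_coeff_of_not_dvd 2 s hd
  · have := qExpand_coeff_mul (R := ℂ) 2 s 0
    rw [show ((2 : ℕ) : ℤ) * 0 = 0 by norm_num] at this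
    rw [this]
    simpa using h2
  · exact qExpand_coeff_of_not_dvd 2 s (by norm_num)

theorem h99t_jet_F : Jet (qExpand ℂ 2 h99t_T) (-2) 1 0 := h99t_jet_qExpand h99t_jet_T

theorem h99t_jet_TJ : Jet (qExpand ℂ 2 (h99t_T - cEmb jq)) 0 (-768) 0 := by
  have h := h99t_jet_T.sub h80_jet_jq
  exact h99t_jet_qExpand_zero (h.congr (by norm_num) (by norm_num))

/-- the formal series of `4096 / t₂`. -/
def h99t_U : LaurentSeries ℂ := HahnSeries.C 4096 * h99t_T⁻¹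

theorem h99t_jet_U : Jet h99t_U 1 4096 98304 := by
  have hU : h99t_U = HahnSeries.C 4096 * (HahnSeries.single (1 : ℤ) 1 *
      HahnSeries.ofPowerSeries ℤ ℂ h99t_B) := by
    rw [h99t_U, h99t_T_inv_eq]
  have hj := jet_single_mul 1 h99t_B
  obtain ⟨b0, b1, -⟩ := h99t_C3_B
  rw [b0, b1] at hj
  obtain ⟨j0, j1, j2⟩ := hj
  rw [hU]
  refine ⟨fun k hk => ?_, ?_, ?_⟩
  · rw [LevelOne.coeff_C_mul, j0 k hk, mul_zero]
  · rw [LevelOne.coeff_C_mul, j1, mul_one]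
  · rw [LevelOne.coeff_C_mul, j2]
    norm_num

/-- the formal series of the conjugate `V_b`: `q ↦ ω q` in `4096 / t₂`. -/
def h99t_W (ω : ℂ) : LaurentSeries ℂ := twistDil ω 1 h99t_U

theorem h99t_coeff_W (ω : ℂ) (n : ℤ) : (h99t_W ω).coeff n = h99t_U.coeff n * ω ^ n := by
  have := coeff_twistDil_mul ω 1 h99t_U n
  rw [show ((1 : ℕ) : ℤ) * n = n by simp] at this
  exact this

theorem h99t_jet_W (ω : ℂ) : Jet (h99t_W ω) 1 (4096 * ω) (98304 * ω ^ 2) := by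
  obtain ⟨j0, j1, j2⟩ := h99t_jet_U
  refine ⟨fun k hk => ?_, ?_, ?_⟩
  · rw [h99t_coeff_W, j0 k hk, zero_mul]
  · rw [h99t_coeff_W, j1]
    simp
  · rw [h99t_coeff_W, j2]
    norm_num

/-! ### the square roots of unity -/

/-- `ω_b = exp (2πi b/2)` (in the shape produced by `HasTExp.affine`). -/
def h99t_om (b : ℤ) : ℂ :=
  Complex.exp (2 * π * Complex.I * (b : ℂ) / (((2 : ℕ) : ℂ) * ((1 : ℕ) : ℂ)))

theorem h99t_om_zero : h99t_om 0 = 1 := by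
  simp [h99t_om]

theorem h99t_om_one : h99t_om 1 = -1 := by
  rw [h99t_om]
  have e : 2 * (π : ℂ) * Complex.I * ((1 : ℤ) : ℂ) / (((2 : ℕ) : ℂ) * ((1 : ℕ) : ℂ)) =
      (π : ℂ) * Complex.I := by
    push_cast
    ring
  rw [e, Complex.exp_pi_mul_I]

theorem h99t_jet_W0 : Jet (h99t_W (h99t_om 0)) 1 4096 98304 := by
  have h := h99t_jet_W (h99t_om 0)
  rw [h99t_om_zero] at h ⊢
  exact h.congr (by norm_num) (by norm_num)

theorem h99t_jet_W1 : Jet (h99t_W (h99t_om 1)) 1 (-4096) 98304 := by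
  have h := h99t_jet_W (h99t_om 1)
  rw [h99t_om_one] at h ⊢
  exact h.congr (by norm_num) (by norm_num)

theorem Jet.h99t_of_eq {s : LaurentSeries ℂ} {m m' : ℤ} {a b : ℂ} (h : Jet s m a b)
    (hm : m = m') : Jet s m' a b := by
  subst hm
  exact h

/-- `W₀ + W₁`. -/
theorem h99t_jet_sumW : Jet (h99t_W (h99t_om 0) + h99t_W (h99t_om 1)) 1 0 196608 :=
  (h99t_jet_W0.add h99t_jet_W1).congr (by norm_num) (by norm_num)

/-- `W₀ W₁`. -/
theorem h99t_jet_prodW : Jet (h99t_W (h99t_om 0) * h99t_W (h99t_om 1)) 2 (-16777216) 0 :=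
  ((h99t_jet_W0.mul h99t_jet_W1).h99t_of_eq (show (1 : ℤ) + 1 = 2 by norm_num)).congr
    (by norm_num) (by norm_num)

theorem h99t_jet_S1 :
    Jet (qExpand ℂ 2 (h99t_T - cEmb jq) + (h99t_W (h99t_om 0) + h99t_W (h99t_om 1)))
      0 (-768) 0 := by
  have h1 : Jet (h99t_W (h99t_om 0) + h99t_W (h99t_om 1)) 0 0 0 :=
    (h99t_jet_sumW.h99t_of_eq (show (1 : ℤ) = 0 + 1 by norm_num)).shift
  exact (h99t_jet_TJ.add h1).congr (by norm_num) (by norm_num)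

theorem h99t_jet_S2 :
    Jet (qExpand ℂ 2 h99t_T * (h99t_W (h99t_om 0) + h99t_W (h99t_om 1)) +
      h99t_W (h99t_om 0) * h99t_W (h99t_om 1)) (-1) 0 196608 := by
  have h1 := (h99t_jet_F.mul h99t_jet_sumW).h99t_of_eq (show (-2 : ℤ) + 1 = -1 by norm_num)
  have h2 : Jet (h99t_W (h99t_om 0) * h99t_W (h99t_om 1)) (-1) 0 0 :=
    h99t_jet_prodW.shift_of_lt (by norm_num)
  exact (h1.add h2).congr (by norm_num) (by norm_num)

theorem h99t_jet_S3 :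
    Jet (qExpand ℂ 2 h99t_T * (h99t_W (h99t_om 0) * h99t_W (h99t_om 1))) 0 (-16777216) 0 :=
  ((h99t_jet_F.mul h99t_jet_prodW).h99t_of_eq (show (-2 : ℤ) + 2 = 0 by norm_num)).congr
    (by norm_num) (by norm_num)

/-! ### the conjugates as functions on `ℂ` -/

/-- `V_b(z) = 4096 / t₂((z + b)/2)`. -/
def h99t_VC (b : ℤ) (z : ℂ) : ℂ := 4096 * (h99t_tC ((z + b) / 2))⁻¹

theorem h99t_im_div2 {z : ℂ} (hz : 0 < z.im) (b : ℤ) : 0 < ((z + b) / 2).im := by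
  have h : ((z + b) / 2).im = z.im / 2 := by
    rw [show (z + (b : ℂ)) / 2 = (z + (b : ℂ)) * ((2 : ℝ) : ℂ)⁻¹ by push_cast; ring]
    rw [← Complex.ofReal_inv, Complex.im_mul_ofReal]
    simp
    ring
  rw [h]
  positivity

theorem h99t_VC_ne_zero {z : ℂ} (hz : 0 < z.im) (b : ℤ) : h99t_VC b z ≠ 0 :=
  mul_ne_zero (by norm_num) (inv_ne_zero (h99t_tC_ne_zero (h99t_im_div2 hz b)))

/-- `T`: `V_b(z + 1) = V_{b+1}(z)`. -/
theorem h99t_VC_add_one (b : ℤ) (z : ℂ) : h99t_VC b (z + 1) = h99t_VC (b + 1) z := by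
  unfold h99t_VC
  congr 3
  push_cast
  ring

/-- `V₂ = V₀`. -/
theorem h99t_VC_two (z : ℂ) : h99t_VC 2 z = h99t_VC 0 z := by
  unfold h99t_VC
  have h : (z + ((2 : ℤ) : ℂ)) / 2 = (z + ((0 : ℤ) : ℂ)) / 2 + ((1 : ℤ) : ℂ) := by
    push_cast
    ring
  rw [h, h99t_tC_add_int]

/-- `S`: `t(-1/z) = V₀(z)`. -/
theorem h99t_tC_S {z : ℂ} (hz : 0 < z.im) : h99t_tC (-1 / z) = h99t_VC 0 z := by
  have h3 := h99t_im_div2 hz 0
  have hf := h99t_fricke h3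
  have e : 2 * ((z + ((0 : ℤ) : ℂ)) / 2) = z := by
    push_cast
    ring
  rw [e] at hf
  unfold h99t_VC
  have hne := h99t_tC_ne_zero h3
  rw [eq_mul_inv_iff_mul_eq₀ hne]
  exact hf

/-- `S`: `V₀(-1/z) = t(z)`. -/
theorem h99t_VC_zero_S {z : ℂ} (hz : 0 < z.im) : h99t_VC 0 (-1 / z) = h99t_tC z := by
  have hf := h99t_fricke hz
  have e : (-1 / z + ((0 : ℤ) : ℂ)) / 2 = -1 / (2 * z) := by
    push_cast
    rw [add_zero, div_div, mul_comm]
  unfold h99t_VC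
  rw [e]
  have hne := h99t_tC_ne_zero (h99t_im_fricke hz)
  rw [← hf, mul_comm (h99t_tC (-1 / (2 * z))) (h99t_tC z), mul_assoc, mul_inv_cancel₀ hne, mul_one]

/-- `S`: `V₁(-1/z) = V₁(z)`. -/
theorem h99t_VC_one_S {z : ℂ} (hz : 0 < z.im) : h99t_VC 1 (-1 / z) = h99t_VC 1 z := by
  have hz0 := h80_ne_zero_of_im hz
  -- `u = (z - 1)/2`
  have hu : 0 < ((z + ((-1 : ℤ) : ℂ)) / 2).im := h99t_im_div2 hz (-1)
  set u : ℂ := (z + ((-1 : ℤ) : ℂ)) / 2 with hudef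
  have hu0 := h80_ne_zero_of_im hu
  have hz1 : z - 1 ≠ 0 := by
    intro h
    apply hu0
    rw [hudef]
    push_cast
    rw [← sub_eq_add_neg, h, zero_div]
  -- `u₂ = -1/(2u) - 1`
  have hw : 0 < (-1 / (2 * u)).im := h99t_im_fricke hu
  have hu2 : 0 < (-1 / (2 * u) + ((-1 : ℤ) : ℂ)).im := by
    simpa using hw
  have h1 := h99t_fricke hu
  have h2 := h99t_fricke hu2
  rw [h99t_tC_add_int] at h2
  have h2u : 2 * u = z - 1 := by
    rw [hudef]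
    push_cast
    ring
  have e2a : -1 / (2 * u) + ((-1 : ℤ) : ℂ) = -z / (z - 1) := by
    rw [h2u]
    push_cast
    field_simp
    ring
  have e2 : -1 / (2 * (-1 / (2 * u) + ((-1 : ℤ) : ℂ))) = (-1 / z + ((1 : ℤ) : ℂ)) / 2 := by
    rw [e2a]
    push_cast
    field_simp
    ring
  have e3 : (z + ((1 : ℤ) : ℂ)) / 2 = u + ((1 : ℤ) : ℂ) := by
    rw [hudef]
    push_cast
    ring
  rw [e2] at h2
  unfold h99t_VC
  rw [e3, h99t_tC_add_int]
  have hne2 := h99t_tC_ne_zero hw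
  have key : h99t_tC ((-1 / z + ((1 : ℤ) : ℂ)) / 2) = h99t_tC u := by
    apply mul_right_cancel₀ hne2
    rw [h2, mul_comm, h1]
  rw [key]

/-! ### symmetric functions of three variables -/

/-- `e₁`. -/
def h99t_e1 {R : Type*} [CommRing R] (a b c : R) : R := a + (b + c)

/-- `e₂`. -/
def h99t_e2 {R : Type*} [CommRing R] (a b c : R) : R := a * (b + c) + b * c

/-- `e₃`. -/
def h99t_e3 {R : Type*} [CommRing R] (a b c : R) : R := a * (b * c)

/-- a polynomial in the conjugates. -/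
def h99t_sym (P : ℂ → ℂ → ℂ → ℂ) (z : ℂ) : ℂ :=
  P (h99t_tC z) (h99t_VC 0 z) (h99t_VC 1 z)

theorem h99t_sym_T (P : ℂ → ℂ → ℂ → ℂ) (hP : ∀ a b c, P a c b = P a b c) (z : ℂ) :
    h99t_sym P (z + 1) = h99t_sym P z := by
  unfold h99t_sym
  have h0 : h99t_tC (z + 1) = h99t_tC z := by
    have := h99t_tC_add_int z 1
    simpa using this
  rw [h0, h99t_VC_add_one, h99t_VC_add_one]
  norm_num
  rw [h99t_VC_two]
  exact hP _ _ _

theorem h99t_sym_S (P : ℂ → ℂ → ℂ → ℂ) (hP : ∀ a b c, P b a c = P a b c) {z : ℂ}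
    (hz : 0 < z.im) : h99t_sym P (-1 / z) = h99t_sym P z := by
  unfold h99t_sym
  rw [h99t_tC_S hz, h99t_VC_zero_S hz, h99t_VC_one_S hz]
  exact hP _ _ _

/-- the function on `ℍ` attached to a polynomial in the conjugates. -/
def h99t_symH (P : ℂ → ℂ → ℂ → ℂ) (τ : ℍ) : ℂ := h99t_sym P (τ : ℂ)

theorem h99t_symH_smul (P : ℂ → ℂ → ℂ → ℂ) (hT : ∀ a b c, P a c b = P a b c)
    (hS : ∀ a b c, P b a c = P a b c) (γ : SL(2, ℤ)) (τ : ℍ) :
    h99t_symH P (γ • τ) = h99t_symH P τ := by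
  refine h80_inv_of_ST _ (fun τ => ?_) (fun τ => ?_) γ τ
  · unfold h99t_symH
    rw [UpperHalfPlane.modular_S_smul]
    have e : ((UpperHalfPlane.mk (-(τ : ℂ))⁻¹ τ.im_inv_neg_coe_pos : ℍ) : ℂ) = -1 / (τ : ℂ) := by
      rw [UpperHalfPlane.coe_mk, neg_div, one_div, inv_neg]
    rw [e]
    exact h99t_sym_S P hS τ.im_pos
  · unfold h99t_symH
    rw [UpperHalfPlane.modular_T_smul, UpperHalfPlane.coe_vadd]
    have e : (((1 : ℝ) : ℂ) + (τ : ℂ)) = (τ : ℂ) + 1 := by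
      push_cast
      ring
    rw [e]
    exact h99t_sym_T P hT τ

/-! ### holomorphy -/

theorem h99t_mapsTo_div2 (b : ℤ) :
    Set.MapsTo (fun z : ℂ => (z + b) / 2) {z : ℂ | 0 < z.im} {z : ℂ | 0 < z.im} :=
  fun _ hz => h99t_im_div2 hz b

theorem h99t_differentiableOn_VC (b : ℤ) :
    DifferentiableOn ℂ (h99t_VC b) {z : ℂ | 0 < z.im} := by
  have h1 : DifferentiableOn ℂ (fun z : ℂ => (z + b) / 2) {z : ℂ | 0 < z.im} := by
    fun_prop
  have h2 : DifferentiableOn ℂ (fun z : ℂ => h99t_tC ((z + b) / 2)) {z : ℂ | 0 < z.im} :=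
    h99t_differentiableOn_tC.comp h1 (h99t_mapsTo_div2 b)
  have h3 : DifferentiableOn ℂ (fun z : ℂ => (h99t_tC ((z + b) / 2))⁻¹) {z : ℂ | 0 < z.im} :=
    h2.inv (fun z hz => h99t_tC_ne_zero (h99t_im_div2 hz b))
  exact h3.const_mul 4096

theorem h99t_differentiableOn_e1 :
    DifferentiableOn ℂ (h99t_sym h99t_e1) {z : ℂ | 0 < z.im} := by
  have d := h99t_differentiableOn_tC
  have d0 := h99t_differentiableOn_VC 0
  have d1 := h99t_differentiableOn_VC 1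
  exact d.add (d0.add d1)

theorem h99t_differentiableOn_e2 :
    DifferentiableOn ℂ (h99t_sym h99t_e2) {z : ℂ | 0 < z.im} := by
  have d := h99t_differentiableOn_tC
  have d0 := h99t_differentiableOn_VC 0
  have d1 := h99t_differentiableOn_VC 1
  exact (d.mul (d0.add d1)).add (d0.mul d1)

theorem h99t_differentiableOn_e3 :
    DifferentiableOn ℂ (h99t_sym h99t_e3) {z : ℂ | 0 < z.im} := by
  have d := h99t_differentiableOn_tC
  have d0 := h99t_differentiableOn_VC 0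
  have d1 := h99t_differentiableOn_VC 1
  exact d.mul (d0.mul d1)

/-! ### expansions of the conjugates -/

theorem h99t_hasTExp_F : HasTExp 2 (fun τ : ℍ => h99t_tC (τ : ℂ)) (qExpand ℂ 2 h99t_T) :=
  h99t_hasTExp_t2An.of_one

theorem h99t_hasTExp_Ufun : HasTExp 1 (fun τ : ℍ => 4096 * (h99t_t2An τ)⁻¹) h99t_U :=
  (h99t_hasTExp_t2An.inv one_pos h99t_t2An_ne_zero).const_mul one_pos 4096

/-- `τ ↦ (τ + b)/2` on `ℍ`. -/
def h99t_phi (b : ℤ) (τ : ℍ) : ℍ := ⟨((τ : ℂ) + b) / 2, h99t_im_div2 τ.im_pos b⟩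

theorem h99t_hasTExp_V (b : ℤ) :
    HasTExp 2 (fun τ : ℍ => h99t_VC b (τ : ℂ)) (h99t_W (h99t_om b)) := by
  have h := h99t_hasTExp_Ufun.affine (M := 1) (N := 2) (a := 1) (d := 2) (e := 1) (b := b)
    (by norm_num) one_pos (by norm_num) (by norm_num) (h99t_phi b) (fun τ => by
      simp [h99t_phi])
  exact h

/-! ### the level-one principle -/

theorem h99t_const_of_jet {g : ℍ → ℂ} (hg : Holo g)
    (hinv : ∀ (γ : SL(2, ℤ)) (τ : ℍ), g (γ • τ) = g τ) {S : LaurentSeries ℂ}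
    (hS : HasTExp 2 g S) (h0 : ∀ k : ℤ, k < 0 → S.coeff k = 0) (τ : ℍ) : g τ = S.coeff 0 := by
  have hper : ∀ τ : ℍ, g ((1 : ℝ) +ᵥ τ) = g τ := by
    intro τ
    rw [← UpperHalfPlane.modular_T_smul]
    exact hinv _ τ
  obtain ⟨s₁, hs₁, hS₁⟩ := hS.to_one hper
  have hcoeff : ∀ n : ℤ, s₁.coeff n = S.coeff (2 * n) := by
    intro n
    rw [hS₁]
    have := qExpand_coeff_mul (R := ℂ) 2 s₁ n
    rw [show ((2 : ℕ) : ℤ) = 2 by norm_num] at this
    exact this.symm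
  have h0' : ∀ n : ℤ, n < 0 → s₁.coeff n = 0 := by
    intro n hn
    rw [hcoeff]
    exact h0 _ (by omega)
  have h := LevelOne.levelOne_const g hg hinv s₁ hs₁ h0' τ
  rw [h, hcoeff, mul_zero]

theorem h99t_const_of_jet0 {g : ℍ → ℂ} (hg : Holo g)
    (hinv : ∀ (γ : SL(2, ℤ)) (τ : ℍ), g (γ • τ) = g τ) {S : LaurentSeries ℂ}
    (hS : HasTExp 2 g S) {d b : ℂ} (hJ : Jet S 0 d b) (τ : ℍ) : g τ = d := by
  rw [h99t_const_of_jet hg hinv hS hJ.1 τ, hJ.2.1]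

theorem h99t_const_of_jet1 {g : ℍ → ℂ} (hg : Holo g)
    (hinv : ∀ (γ : SL(2, ℤ)) (τ : ℍ), g (γ • τ) = g τ) {S : LaurentSeries ℂ}
    (hS : HasTExp 2 g S) {d : ℂ} (hJ : Jet S (-1) 0 d) (τ : ℍ) : g τ = d := by
  have h0 : ∀ k : ℤ, k < 0 → S.coeff k = 0 := by
    intro k hk
    rcases lt_or_eq_of_le (show k ≤ -1 by omega) with h | h
    · exact hJ.1 k h
    · rw [h]
      exact hJ.2.1
  rw [h99t_const_of_jet hg hinv hS h0 τ]
  have := hJ.2.2
  rw [show (-1 : ℤ) + 1 = 0 by norm_num] at this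
  exact this

/-! ### the symmetric functions are constant -/

theorem h99t_hasTExp_jAn2 : HasTExp 2 jAn (qExpand ℂ 2 (cEmb jq)) :=
  hasTExp_jAn.of_one

theorem h99t_hasTExp_g1 :
    HasTExp 2 (fun τ : ℍ => h99t_symH h99t_e1 τ - jAn τ)
      (qExpand ℂ 2 (h99t_T - cEmb jq) + (h99t_W (h99t_om 0) + h99t_W (h99t_om 1))) := by
  have hF := h99t_hasTExp_F
  have h0 := h99t_hasTExp_V 0
  have h1 := h99t_hasTExp_V 1
  have h := ((hF.add (h0.add h1)).sub h99t_hasTExp_jAn2).congr (fun τ => rfl)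
  have e : qExpand ℂ 2 (h99t_T - cEmb jq) + (h99t_W (h99t_om 0) + h99t_W (h99t_om 1)) =
      qExpand ℂ 2 h99t_T + (h99t_W (h99t_om 0) + h99t_W (h99t_om 1)) -
        qExpand ℂ 2 (cEmb jq) := by
    rw [map_sub]
    ring
  rw [e]
  exact h

theorem h99t_hasTExp_g2 :
    HasTExp 2 (h99t_symH h99t_e2)
      (qExpand ℂ 2 h99t_T * (h99t_W (h99t_om 0) + h99t_W (h99t_om 1)) +
        h99t_W (h99t_om 0) * h99t_W (h99t_om 1)) := by
  have hF := h99t_hasTExp_F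
  have h0 := h99t_hasTExp_V 0
  have h1 := h99t_hasTExp_V 1
  have h2 : 0 < 2 := by norm_num
  exact ((hF.mul h2 (h0.add h1)).add (h0.mul h2 h1)).congr (fun τ => rfl)

theorem h99t_hasTExp_g3 :
    HasTExp 2 (h99t_symH h99t_e3)
      (qExpand ℂ 2 h99t_T * (h99t_W (h99t_om 0) * h99t_W (h99t_om 1))) := by
  have hF := h99t_hasTExp_F
  have h0 := h99t_hasTExp_V 0
  have h1 := h99t_hasTExp_V 1
  have h2 : 0 < 2 := by norm_num
  exact (hF.mul h2 (h0.mul h2 h1)).congr (fun τ => rfl)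

theorem h99t_holo_g1 : Holo (fun τ : ℍ => h99t_symH h99t_e1 τ - jAn τ) := by
  have h1 : Holo (h99t_symH h99t_e1) := h80_holo_of_differentiableOn h99t_differentiableOn_e1
  have h2 := holo_jAn
  rw [Holo, UpperHalfPlane.mdifferentiable_iff] at h1 h2 ⊢
  exact (h1.sub h2).congr (fun z _ => rfl)

theorem h99t_inv_g1 (γ : SL(2, ℤ)) (τ : ℍ) :
    h99t_symH h99t_e1 (γ • τ) - jAn (γ • τ) = h99t_symH h99t_e1 τ - jAn τ := by
  rw [jAn_smul, h99t_symH_smul h99t_e1 (fun a b c => by unfold h99t_e1; ring)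
    (fun a b c => by unfold h99t_e1; ring)]

theorem h99t_e1_eq (τ : ℍ) : h99t_symH h99t_e1 τ - jAn τ = -768 :=
  h99t_const_of_jet0 h99t_holo_g1 h99t_inv_g1 h99t_hasTExp_g1 h99t_jet_S1 τ

theorem h99t_e2_eq (τ : ℍ) : h99t_symH h99t_e2 τ = 196608 :=
  h99t_const_of_jet1 (h80_holo_of_differentiableOn h99t_differentiableOn_e2)
    (h99t_symH_smul h99t_e2 (fun a b c => by unfold h99t_e2; ring)
      (fun a b c => by unfold h99t_e2; ring)) h99t_hasTExp_g2 h99t_jet_S2 τ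

theorem h99t_e3_eq (τ : ℍ) : h99t_symH h99t_e3 τ = -16777216 :=
  h99t_const_of_jet0 (h80_holo_of_differentiableOn h99t_differentiableOn_e3)
    (h99t_symH_smul h99t_e3 (fun a b c => by unfold h99t_e3; ring)
      (fun a b c => by unfold h99t_e3; ring)) h99t_hasTExp_g3 h99t_jet_S3 τ

/-! ### the identities -/

/-- **the `t₂`-identity** `j t² = (t + 256)³`. -/
theorem h99t_t2An_identity (τ : ℍ) :
    jAn τ * h99t_t2An τ ^ 2 = (h99t_t2An τ + 256) ^ 3 := by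
  have h1 := h99t_e1_eq τ
  have h2 := h99t_e2_eq τ
  have h3 := h99t_e3_eq τ
  simp only [h99t_symH, h99t_sym, h99t_e1, h99t_e2, h99t_e3] at h1 h2 h3
  have ht : h99t_t2An τ = h99t_tC (τ : ℂ) := rfl
  rw [ht]
  linear_combination (-(h99t_tC (τ : ℂ)) ^ 2) * h1 + (h99t_tC (τ : ℂ)) * h2 - h3

/-- the Fricke involution `τ ↦ -1/(2τ)` on `ℍ`. -/
def h99t_frickeH (τ : ℍ) : ℍ := ⟨-1 / (2 * (τ : ℂ)), h99t_im_fricke τ.im_pos⟩

theorem h99t_frickeH_eq (τ : ℍ) : h99t_frickeH τ = ModularGroup.S • scaleH 2 τ := by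
  rw [UpperHalfPlane.modular_S_smul]
  apply UpperHalfPlane.ext
  have h3 := h19_coe_scaleH 2 (by norm_num) τ
  simp only [h99t_frickeH, UpperHalfPlane.coe_mk]
  rw [h3]
  push_cast
  rw [neg_div, one_div, inv_neg]

theorem h99t_jAn_frickeH (τ : ℍ) : jAn (h99t_frickeH τ) = jAt 2 τ := by
  rw [h99t_frickeH_eq, jAn_smul]
  rfl

theorem h99t_t2An_frickeH (τ : ℍ) : h99t_t2An (h99t_frickeH τ) * h99t_t2An τ = 4096 :=
  h99t_fricke τ.im_pos

/-- **the Fricke twin** `j(2τ) t = (t + 16)³`. -/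
theorem h99t_t2An_fricke (τ : ℍ) : jAt 2 τ * h99t_t2An τ = (h99t_t2An τ + 16) ^ 3 := by
  have h := h99t_t2An_identity (h99t_frickeH τ)
  rw [h99t_jAn_frickeH] at h
  have hut := h99t_t2An_frickeH τ
  set u := h99t_t2An (h99t_frickeH τ)
  set t := h99t_t2An τ
  set J := jAt 2 τ
  have e1 : (u + 256) * t = 256 * (t + 16) := by linear_combination hut
  have e3 : u ^ 2 * t ^ 2 = 4096 ^ 2 := by rw [← mul_pow, hut]
  have h5 : J * u ^ 2 * t ^ 3 = ((u + 256) * t) ^ 3 := by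
    rw [h]
    ring
  rw [e1] at h5
  have h6 : J * u ^ 2 * t ^ 3 = 4096 ^ 2 * (J * t) := by
    calc J * u ^ 2 * t ^ 3 = (u ^ 2 * t ^ 2) * (J * t) := by ring
      _ = 4096 ^ 2 * (J * t) := by rw [e3]
  rw [h6] at h5
  have key : (4096 : ℂ) ^ 2 * (J * t) = 4096 ^ 2 * ((t + 16) ^ 3) := by
    rw [h5]
    ring
  exact mul_left_cancel₀ (by norm_num) key

end Fermat.Agent.Red.SM.TID
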