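import Fermat.Agent.S28.Bridge
import Fermat.Agent.S28.LevelOne
import Fermat.Agent.S28.Invariance

/-!
# P-RED / R-SM, leaf SM-TID (case `ℓ = 2`): the Hauptmodul `t₃ = (η(τ)/η(3τ))^12`, analytic part

* `h80_tC z = q⁻¹ ∏ ((1 - qⁿ)/(1 - q^{3n}))^12`, `q = exp (2πi z)`, as a function of `z : ℂ`;
* `t3An τ = h80_tC τ` on `ℍ`; `h80_hasTExp_t3An : HasTExp 1 t3An h80_T`; holomorphy; non-vanishing;
* `h80_tC_add_int` : periodicity; `h80_tC_eq_eta` : `h80_tC z = η(z)^12 / η(3z)^12`;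
* `h80_fricke` : `h80_tC (-1/(3z)) * h80_tC z = 729`.
-/

set_option autoImplicit false

open ModularCurve UpperHalfPlane Complex
open scoped MatrixGroups Manifold Real

noncomputable section

namespace Fermat.Agent.Red.SM.TID

open Fermat.Agent.S28

/-- the Euler product `∏ (1 - qⁿ)` as a function of `q`. -/
def h80_Pq (q : ℂ) : ℂ := ∏' n : ℕ, (1 - q ^ (n + 1))

theorem h80_Pq_ne_zero {q : ℂ} (hq : ‖q‖ < 1) : h80_Pq q ≠ 0 := h19_eulerProd_ne_zero hq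

/-- `q⁻¹ ∏ ((1 - qⁿ)/(1 - q^{3n}))^12` as a function of `q`. -/
def h80_tq (q : ℂ) : ℂ := q⁻¹ * (h80_Pq q ^ 12 * (h80_Pq (q ^ 3) ^ 12)⁻¹)

theorem h80_tq_ne_zero {q : ℂ} (hq0 : q ≠ 0) (hq : ‖q‖ < 1) : h80_tq q ≠ 0 := by
  have hq3 : ‖q ^ 3‖ < 1 := by
    rw [norm_pow]
    exact pow_lt_one₀ (norm_nonneg _) hq (by norm_num)
  unfold h80_tq
  exact mul_ne_zero (inv_ne_zero hq0)
    (mul_ne_zero (pow_ne_zero _ (h80_Pq_ne_zero hq)) (inv_ne_zero (pow_ne_zero _ (h80_Pq_ne_zero hq3))))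

/-- `t₃` as a function of `z : ℂ` (meaningful for `0 < z.im`). -/
def h80_tC (z : ℂ) : ℂ := h80_tq (Complex.exp (2 * π * Complex.I * z))

/-- the analytic `t₃` on `ℍ`. -/
def t3An (τ : ℍ) : ℂ := h80_tC (τ : ℂ)

theorem h80_tParam_one (τ : ℍ) : tParam 1 τ = Complex.exp (2 * π * Complex.I * (τ : ℂ)) := by
  simp [tParam, Function.Periodic.qParam]

theorem h80_norm_exp_lt_one {z : ℂ} (hz : 0 < z.im) :
    ‖Complex.exp (2 * π * Complex.I * z)‖ < 1 := by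
  have := norm_tParam_lt_one one_pos (⟨z, hz⟩ : ℍ)
  rwa [h80_tParam_one] at this

theorem h80_tC_ne_zero {z : ℂ} (hz : 0 < z.im) : h80_tC z ≠ 0 :=
  h80_tq_ne_zero (Complex.exp_ne_zero _) (h80_norm_exp_lt_one hz)

theorem t3An_ne_zero (τ : ℍ) : t3An τ ≠ 0 := h80_tC_ne_zero τ.im_pos

/-- periodicity -/
theorem h80_tC_add_int (z : ℂ) (n : ℤ) : h80_tC (z + n) = h80_tC z := by
  unfold h80_tC
  congr 1
  rw [mul_add, Complex.exp_add]
  have : Complex.exp (2 * π * Complex.I * (n : ℂ)) = 1 := by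
    have := Complex.exp_int_mul_two_pi_mul_I n
    rw [← this]
    congr 1
    ring
  rw [this, mul_one]

/-! ### the expansion -/

/-- the formal Euler product over `ℂ`. -/
def h80_E : LaurentSeries ℂ := HahnSeries.ofPowerSeries ℤ ℂ (etaProd.map (Int.castRingHom ℂ))

/-- the formal `t₃` over `ℂ`. -/
def h80_T : LaurentSeries ℂ :=
  (HahnSeries.single (1 : ℤ) (1 : ℂ))⁻¹ * (h80_E ^ 12 * ((qExpand ℂ 3 h80_E) ^ 12)⁻¹)

theorem h80_hasTExp_Pq : HasTExp 1 (fun τ => h80_Pq (tParam 1 τ)) h80_E :=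
  h19_hasTExp_eulerProd

theorem h80_hasTExp_Pq3 :
    HasTExp 1 (fun τ => h80_Pq (tParam 1 τ ^ 3)) (qExpand ℂ 3 h80_E) := by
  refine (h80_hasTExp_Pq.scale 3).congr (fun τ => ?_)
  rw [h19_tParam_scaleH 1 3 (by norm_num)]

theorem h80_hasTExp_aux1 :
    HasTExp 1 (fun τ => (tParam 1 τ)⁻¹) (HahnSeries.single (1 : ℤ) (1 : ℂ))⁻¹ :=
  (h19_hasTExp_tParam 1).inv one_pos (fun τ => tParam_ne_zero 1 τ)

theorem h80_hasTExp_aux2 : HasTExp 1 (fun τ => h80_Pq (tParam 1 τ) ^ 12) (h80_E ^ 12) :=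
  (h80_hasTExp_Pq.pow one_pos 12).congr (fun τ => by simp only [Pi.pow_apply])

theorem h80_hasTExp_aux3 :
    HasTExp 1 (fun τ => h80_Pq (tParam 1 τ ^ 3) ^ 12) ((qExpand ℂ 3 h80_E) ^ 12) :=
  (h80_hasTExp_Pq3.pow one_pos 12).congr (fun τ => by simp only [Pi.pow_apply])

theorem h80_hasTExp_aux4 :
    HasTExp 1 (fun τ => (h80_Pq (tParam 1 τ ^ 3) ^ 12)⁻¹) ((qExpand ℂ 3 h80_E) ^ 12)⁻¹ :=
  h80_hasTExp_aux3.inv one_pos (fun τ => by
    have hq : ‖tParam 1 τ ^ 3‖ < 1 := by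
      rw [norm_pow]
      exact pow_lt_one₀ (norm_nonneg _) (norm_tParam_lt_one one_pos τ) (by norm_num)
    exact pow_ne_zero 12 (h80_Pq_ne_zero hq))

theorem h80_hasTExp_aux5 :
    HasTExp 1 (fun τ => h80_Pq (tParam 1 τ) ^ 12 * (h80_Pq (tParam 1 τ ^ 3) ^ 12)⁻¹)
      (h80_E ^ 12 * ((qExpand ℂ 3 h80_E) ^ 12)⁻¹) :=
  (h80_hasTExp_aux2.mul one_pos h80_hasTExp_aux4).congr (fun τ => by simp only [Pi.mul_apply])

theorem h80_hasTExp_aux6 :
    HasTExp 1 (fun τ => (tParam 1 τ)⁻¹ *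
      (h80_Pq (tParam 1 τ) ^ 12 * (h80_Pq (tParam 1 τ ^ 3) ^ 12)⁻¹))
      ((HahnSeries.single (1 : ℤ) (1 : ℂ))⁻¹ * (h80_E ^ 12 * ((qExpand ℂ 3 h80_E) ^ 12)⁻¹)) :=
  (h80_hasTExp_aux1.mul one_pos h80_hasTExp_aux5).congr (fun τ => by simp only [Pi.mul_apply])

theorem h80_T_def : h80_T =
    ((HahnSeries.single (1 : ℤ) (1 : ℂ))⁻¹ * (h80_E ^ 12 * ((qExpand ℂ 3 h80_E) ^ 12)⁻¹) :
      LaurentSeries ℂ) := by
  unfold h80_T
  rfl

theorem h80_hasTExp_tq : HasTExp 1 (fun τ => h80_tq (tParam 1 τ)) h80_T := by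
  rw [h80_T_def]
  have hfun : (fun τ : ℍ => h80_tq (tParam 1 τ)) = (fun τ => (tParam 1 τ)⁻¹ *
      (h80_Pq (tParam 1 τ) ^ 12 * (h80_Pq (tParam 1 τ ^ 3) ^ 12)⁻¹)) := by
    funext τ
    rw [h80_tq]
  rw [hfun]
  exact h80_hasTExp_aux6

theorem h80_hasTExp_t3An : HasTExp 1 t3An h80_T := by
  have hfun : t3An = (fun τ : ℍ => h80_tq (tParam 1 τ)) := by
    funext τ
    rw [t3An, h80_tC, h80_tParam_one]
  rw [hfun]
  exact h80_hasTExp_tq

/-! ### relation with the Dedekind eta function -/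

open ModularForm in
theorem h80_eta_pow (z : ℂ) :
    η z ^ 12 = Complex.exp (π * Complex.I * z) *
      h80_Pq (Complex.exp (2 * π * Complex.I * z)) ^ 12 := by
  have h1 : (∏' n : ℕ, (1 - eta_q n z)) = h80_Pq (Complex.exp (2 * π * Complex.I * z)) := by
    unfold h80_Pq
    refine tprod_congr (fun n => ?_)
    rw [eta_q_eq_pow]
  have h2 : (Function.Periodic.qParam 24 z) ^ 12 = Complex.exp (π * Complex.I * z) := by
    rw [Function.Periodic.qParam, ← Complex.exp_nat_mul]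
    congr 1
    push_cast
    ring
  rw [ModularForm.eta, mul_pow, h1, h2]

open ModularForm in
theorem h80_tC_mul_eta {z : ℂ} (hz : 0 < z.im) : h80_tC z * η (3 * z) ^ 12 = η z ^ 12 := by
  have hq : ‖Complex.exp (2 * π * Complex.I * z)‖ < 1 := h80_norm_exp_lt_one hz
  have hq3 : ‖Complex.exp (2 * π * Complex.I * z) ^ 3‖ < 1 := by
    rw [norm_pow]
    exact pow_lt_one₀ (norm_nonneg _) hq (by norm_num)
  have hP3 := h80_Pq_ne_zero hq3
  have he3 : Complex.exp (2 * π * Complex.I * (3 * z)) = Complex.exp (2 * π * Complex.I * z) ^ 3 := by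
    rw [← Complex.exp_nat_mul]
    congr 1
    push_cast
    ring
  have hexp : (Complex.exp (2 * π * Complex.I * z))⁻¹ * Complex.exp (π * Complex.I * (3 * z)) =
      Complex.exp (π * Complex.I * z) := by
    rw [← Complex.exp_neg, ← Complex.exp_add]
    congr 1
    ring
  rw [h80_eta_pow z, h80_eta_pow (3 * z), he3, h80_tC, h80_tq]
  have hP3' := pow_ne_zero 12 hP3
  field_simp
  rw [← hexp]
  field_simp

theorem h80_csqrt_pow_12 {z : ℂ} (hz : z ≠ 0) : Complex.sqrt z ^ 12 = z ^ 6 := by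
  rw [_root_.sqrt_eq_exp hz, ← Complex.exp_nat_mul]
  have : ((12 : ℕ) : ℂ) * (Complex.log z / 2) = (6 : ℕ) * Complex.log z := by
    push_cast
    ring
  rw [this, Complex.exp_nat_mul, Complex.exp_log hz]

theorem h80_csqrt_I_pow_12 : Complex.sqrt Complex.I ^ 12 = -1 := by
  rw [h80_csqrt_pow_12 Complex.I_ne_zero, show 6 = 2 * 3 by norm_num, pow_mul, Complex.I_sq]
  norm_num

open ModularForm in
/-- `η(-1/z)^12 = - z^6 η(z)^12`. -/
theorem h80_eta_S {z : ℂ} (hz : 0 < z.im) : η (-1 / z) ^ 12 = -(z ^ 6 * η z ^ 12) := by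
  have hz0 : z ≠ 0 := fun h => by simp [h] at hz
  have he : η (-1 / z) = (Complex.sqrt Complex.I)⁻¹ * (Complex.sqrt z * η z) := by
    simpa using ModularForm.eta_comp_eq_csqrt_I_inv (show z ∈ upperHalfPlaneSet from hz)
  rw [he, mul_pow, mul_pow, inv_pow, h80_csqrt_I_pow_12, h80_csqrt_pow_12 hz0]
  ring

theorem h80_im_fricke {z : ℂ} (hz : 0 < z.im) : 0 < (-1 / (3 * z)).im := by
  have h3 : 0 < (3 * z).im := by simpa using hz
  have := UpperHalfPlane.im_inv_neg_coe_pos (⟨3 * z, h3⟩ : ℍ)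
  have h2 : (-1 / (3 * z)) = (-((3 * z) : ℂ))⁻¹ := by
    rw [neg_div, one_div, inv_neg]
  rw [h2]
  exact this

open ModularForm in
/-- **Fricke**: `t₃(-1/(3z)) t₃(z) = 3^6`. -/
theorem h80_fricke {z : ℂ} (hz : 0 < z.im) : h80_tC (-1 / (3 * z)) * h80_tC z = 729 := by
  have hz0 : z ≠ 0 := fun h => by simp [h] at hz
  have h3 : 0 < (3 * z).im := by simpa using hz
  have hw := h80_im_fricke hz
  have h1 := h80_tC_mul_eta hw
  have h2 := h80_tC_mul_eta hz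
  have e1 : 3 * (-1 / (3 * z)) = -1 / z := by
    field_simp
  have e2 : η (-1 / (3 * z)) ^ 12 = -((3 * z) ^ 6 * η (3 * z) ^ 12) := h80_eta_S h3
  have e3 : η (-1 / z) ^ 12 = -(z ^ 6 * η z ^ 12) := h80_eta_S hz
  rw [e1, e2, e3] at h1
  have hη3 : η (3 * z) ^ 12 ≠ 0 := pow_ne_zero _ (ModularForm.eta_ne_zero h3)
  have hz6 : z ^ 6 ≠ 0 := pow_ne_zero _ hz0
  have key : (h80_tC (-1 / (3 * z)) * h80_tC z - 729) * (z ^ 6 * η (3 * z) ^ 12) = 0 := by
    rw [← h2] at h1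
    linear_combination -h1
  rcases mul_eq_zero.mp key with h | h
  · exact sub_eq_zero.mp h
  · exact absurd h (mul_ne_zero hz6 hη3)

/-! ### holomorphy -/

open ModularForm in
theorem h80_differentiableOn_tC : DifferentiableOn ℂ h80_tC {z : ℂ | 0 < z.im} := by
  have h : DifferentiableOn ℂ (fun z => η z ^ 12 / η (3 * z) ^ 12) {z : ℂ | 0 < z.im} := by
    intro z hz
    have h3 : 0 < (3 * z).im := by simpa using hz
    have d1 : DifferentiableAt ℂ η z := differentiableAt_eta_of_mem_upperHalfPlaneSet hz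
    have d2 : DifferentiableAt ℂ (fun z => η (3 * z)) z := by
      have := differentiableAt_eta_of_mem_upperHalfPlaneSet (z := 3 * z) h3
      exact this.comp z (by fun_prop)
    exact ((d1.pow 12).div (d2.pow 12)
      (pow_ne_zero _ (ModularForm.eta_ne_zero h3))).differentiableWithinAt
  refine h.congr (fun z hz => ?_)
  have h3 : 0 < (3 * z).im := by simpa using hz
  have hη3 : η (3 * z) ^ 12 ≠ 0 := pow_ne_zero _ (ModularForm.eta_ne_zero h3)
  rw [eq_div_iff hη3]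
  exact h80_tC_mul_eta hz

theorem holo_t3An : Holo t3An := by
  rw [Holo, UpperHalfPlane.mdifferentiable_iff]
  refine h80_differentiableOn_tC.congr (fun z hz => ?_)
  simp only [Function.comp_apply, t3An]
  rw [UpperHalfPlane.ofComplex_apply_of_im_pos hz]

end Fermat.Agent.Red.SM.TID
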