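import Fermat.Agent.Red.SM.TID3An

/-!
# P-RED / R-SM, leaf SM-TID (case `ℓ = 2`): formal computations for `t₃`

Three-term coefficient calculus for power series, the formal series `h80_A` (`t₃ = q⁻¹ A`),
`h80_B = A⁻¹`, and their first coefficients `(1, -12, 54)`, `(1, 12, 90)`.
-/

set_option autoImplicit false

open ModularCurve UpperHalfPlane Complex
open scoped MatrixGroups Manifold Real

noncomputable section

namespace Fermat.Agent.Red.SM.TID

open Fermat.Agent.S28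

/-! ### three-term coefficient calculus -/

/-- the first three coefficients of `p` are `a, b, c`. -/
def h80_C3 (p : PowerSeries ℂ) (a b c : ℂ) : Prop :=
  PowerSeries.coeff 0 p = a ∧ PowerSeries.coeff 1 p = b ∧ PowerSeries.coeff 2 p = c

theorem h80_C3.mul {p q : PowerSeries ℂ} {a b c a' b' c' : ℂ} (hp : h80_C3 p a b c)
    (hq : h80_C3 q a' b' c') :
    h80_C3 (p * q) (a * a') (a * b' + b * a') (a * c' + b * b' + c * a') := by
  obtain ⟨h0, h1, h2⟩ := hp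
  obtain ⟨h0', h1', h2'⟩ := hq
  refine ⟨?_, ?_, ?_⟩
  · rw [PowerSeries.coeff_mul]
    simp [h0, h0']
  · rw [PowerSeries.coeff_mul, Finset.Nat.sum_antidiagonal_eq_sum_range_succ_mk]
    simp [Finset.sum_range_succ, h0, h0', h1, h1']
  · rw [PowerSeries.coeff_mul, Finset.Nat.sum_antidiagonal_eq_sum_range_succ_mk]
    simp [Finset.sum_range_succ, h0, h0', h1, h1', h2, h2']

theorem h80_C3.add {p q : PowerSeries ℂ} {a b c a' b' c' : ℂ} (hp : h80_C3 p a b c)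
    (hq : h80_C3 q a' b' c') : h80_C3 (p + q) (a + a') (b + b') (c + c') := by
  obtain ⟨h0, h1, h2⟩ := hp
  obtain ⟨h0', h1', h2'⟩ := hq
  exact ⟨by rw [map_add, h0, h0'], by rw [map_add, h1, h1'], by rw [map_add, h2, h2']⟩

theorem h80_C3.congr {p : PowerSeries ℂ} {a b c a' b' c' : ℂ} (hp : h80_C3 p a b c)
    (ha : a = a') (hb : b = b') (hc : c = c') : h80_C3 p a' b' c' := by
  subst ha hb hc
  exact hp

theorem h80_C3.one : h80_C3 1 1 0 0 := by
  refine ⟨?_, ?_, ?_⟩ <;> simp [PowerSeries.coeff_one]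

/-- inverse with leading coefficient `1`. -/
theorem h80_C3.of_mul_eq_one {p q : PowerSeries ℂ} {b c : ℂ} (hp : h80_C3 p 1 b c)
    (hpq : p * q = 1) : h80_C3 q 1 (-b) (b ^ 2 - c) := by
  have hq : h80_C3 q (PowerSeries.coeff 0 q) (PowerSeries.coeff 1 q) (PowerSeries.coeff 2 q) :=
    ⟨rfl, rfl, rfl⟩
  have h := hp.mul hq
  rw [hpq] at h
  obtain ⟨h0, h1, h2⟩ := h
  obtain ⟨e0, e1, e2⟩ := h80_C3.one
  rw [e0] at h0
  rw [e1] at h1
  rw [e2] at h2
  have q0 : PowerSeries.coeff 0 q = 1 := by linear_combination -h0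
  have q1 : PowerSeries.coeff 1 q = -b := by
    rw [q0] at h1
    linear_combination -h1
  have q2 : PowerSeries.coeff 2 q = b ^ 2 - c := by
    rw [q0, q1] at h2
    linear_combination -h2
  exact ⟨q0, q1, q2⟩

theorem h80_C3.pow_two {p : PowerSeries ℂ} {a b c : ℂ} (hp : h80_C3 p a b c) :
    h80_C3 (p ^ 2) (a * a) (a * b + b * a) (a * c + b * b + c * a) := by
  rw [sq]
  exact hp.mul hp

/-! ### the Euler product -/

/-- the Euler product as a power series over `ℂ`. -/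
def h80_E1 : PowerSeries ℂ := etaProd.map (Int.castRingHom ℂ)

theorem h80_E_eq : h80_E = HahnSeries.ofPowerSeries ℤ ℂ h80_E1 := rfl

theorem h80_coeff_etaProd_zero : PowerSeries.coeff 0 etaProd = 1 := by
  rw [PowerSeries.coeff_zero_eq_constantCoeff]
  exact constantCoeff_etaProd

theorem h80_coeff_etaProd_one : PowerSeries.coeff 1 etaProd = -1 := by
  rw [h19_etaProd_eq]
  have h := PowerSeries.coeff_pentagonalSeries_pentagonal (R := ℤ) 1
  have hp : pentagonal 1 = 1 := by decide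
  rw [hp] at h
  rw [h]
  simp

theorem h80_coeff_etaProd_two : PowerSeries.coeff 2 etaProd = -1 := by
  rw [h19_etaProd_eq]
  have h := PowerSeries.coeff_pentagonalSeries_pentagonal (R := ℤ) (-1)
  have hp : pentagonal (-1) = 2 := by decide
  rw [hp] at h
  rw [h]
  simp

theorem h80_C3_E1 : h80_C3 h80_E1 1 (-1) (-1) := by
  refine ⟨?_, ?_, ?_⟩
  · rw [h80_E1, PowerSeries.coeff_map, h80_coeff_etaProd_zero]; simp
  · rw [h80_E1, PowerSeries.coeff_map, h80_coeff_etaProd_one]; simp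
  · rw [h80_E1, PowerSeries.coeff_map, h80_coeff_etaProd_two]; simp

theorem h80_C3_E1_pow : h80_C3 (h80_E1 ^ 12) 1 (-12) 54 := by
  have h2 := h80_C3_E1.pow_two
  have h4 := h2.pow_two
  have h8 := h4.pow_two
  have h12 := h8.mul h4
  have e : (h80_E1 ^ 2) ^ 2 ^ 2 * (h80_E1 ^ 2) ^ 2 = h80_E1 ^ 12 := by ring
  have e' : ((h80_E1 ^ 2) ^ 2) ^ 2 * (h80_E1 ^ 2) ^ 2 = h80_E1 ^ 12 := by ring
  rw [e'] at h12
  exact h12.congr (by norm_num) (by norm_num) (by norm_num)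

/-- the Euler product in `q³`. -/
def h80_E3 : PowerSeries ℂ := h19_expand 3 h80_E1

theorem h80_C3_E3 : h80_C3 h80_E3 1 0 0 := by
  refine ⟨?_, ?_, ?_⟩
  · rw [h80_E3, h19_expand, PowerSeries.coeff_mk]
    simp [h80_C3_E1.1]
  · rw [h80_E3, h19_expand, PowerSeries.coeff_mk]
    simp
  · rw [h80_E3, h19_expand, PowerSeries.coeff_mk]
    simp

theorem h80_C3_E3_pow : h80_C3 (h80_E3 ^ 12) 1 0 0 := by
  have h2 := h80_C3_E3.pow_two
  have h4 := h2.pow_two
  have h8 := h4.pow_two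
  have h12 := h8.mul h4
  have e' : ((h80_E3 ^ 2) ^ 2) ^ 2 * (h80_E3 ^ 2) ^ 2 = h80_E3 ^ 12 := by ring
  rw [e'] at h12
  exact h12.congr (by norm_num) (by norm_num) (by norm_num)

theorem h80_constantCoeff_E1_pow : PowerSeries.constantCoeff (h80_E1 ^ 12) ≠ 0 := by
  rw [← PowerSeries.coeff_zero_eq_constantCoeff, h80_C3_E1_pow.1]
  exact one_ne_zero

theorem h80_constantCoeff_E3_pow : PowerSeries.constantCoeff (h80_E3 ^ 12) ≠ 0 := by
  rw [← PowerSeries.coeff_zero_eq_constantCoeff, h80_C3_E3_pow.1]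
  exact one_ne_zero

/-- `A = ∏ ((1 - qⁿ)/(1 - q^{3n}))^12`. -/
def h80_A : PowerSeries ℂ := h80_E1 ^ 12 * (h80_E3 ^ 12)⁻¹

/-- `B = A⁻¹`. -/
def h80_B : PowerSeries ℂ := h80_E3 ^ 12 * (h80_E1 ^ 12)⁻¹

theorem h80_A_mul_B : h80_A * h80_B = 1 := by
  have h1 := PowerSeries.mul_inv_cancel _ h80_constantCoeff_E1_pow
  have h3 := PowerSeries.mul_inv_cancel _ h80_constantCoeff_E3_pow
  rw [h80_A, h80_B]
  calc h80_E1 ^ 12 * (h80_E3 ^ 12)⁻¹ * (h80_E3 ^ 12 * (h80_E1 ^ 12)⁻¹)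
      = (h80_E1 ^ 12 * (h80_E1 ^ 12)⁻¹) * (h80_E3 ^ 12 * (h80_E3 ^ 12)⁻¹) := by ring
    _ = 1 := by rw [h1, h3, mul_one]

theorem h80_C3_B : h80_C3 h80_B 1 12 90 := by
  have h3 := PowerSeries.mul_inv_cancel _ h80_constantCoeff_E1_pow
  have hinv := h80_C3_E1_pow.of_mul_eq_one h3
  have := h80_C3_E3_pow.mul hinv
  rw [h80_B]
  exact this.congr (by norm_num) (by norm_num) (by norm_num)

theorem h80_C3_A : h80_C3 h80_A 1 (-12) 54 := by
  have h3 := PowerSeries.mul_inv_cancel _ h80_constantCoeff_E3_pow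
  have hinv := h80_C3_E3_pow.of_mul_eq_one h3
  have := h80_C3_E1_pow.mul hinv
  rw [h80_A]
  exact this.congr (by norm_num) (by norm_num) (by norm_num)

/-! ### `h80_T` in normal form -/

theorem h80_ofPS_inv {p : PowerSeries ℂ} (hp : PowerSeries.constantCoeff p ≠ 0) :
    (HahnSeries.ofPowerSeries ℤ ℂ p)⁻¹ = HahnSeries.ofPowerSeries ℤ ℂ p⁻¹ := by
  have h := PowerSeries.mul_inv_cancel _ hp
  have h2 : HahnSeries.ofPowerSeries ℤ ℂ p * HahnSeries.ofPowerSeries ℤ ℂ p⁻¹ = 1 := by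
    rw [← map_mul, h, map_one]
  exact (eq_inv_of_mul_eq_one_right h2).symm

theorem h80_single_mul_single_one :
    (HahnSeries.single (-1 : ℤ) (1 : ℂ) : LaurentSeries ℂ) * HahnSeries.single (1 : ℤ) 1 = 1 := by
  rw [HahnSeries.single_mul_single]
  simp

theorem h80_single_one_inv :
    (HahnSeries.single (1 : ℤ) (1 : ℂ) : LaurentSeries ℂ)⁻¹ = HahnSeries.single (-1 : ℤ) 1 := by
  have h : (HahnSeries.single (1 : ℤ) (1 : ℂ) : LaurentSeries ℂ) * HahnSeries.single (-1 : ℤ) 1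
      = 1 := by
    rw [mul_comm]
    exact h80_single_mul_single_one
  exact (eq_inv_of_mul_eq_one_right h).symm

theorem h80_T_eq : h80_T = HahnSeries.single (-1 : ℤ) 1 * HahnSeries.ofPowerSeries ℤ ℂ h80_A := by
  have h3 : (HahnSeries.ofPowerSeries ℤ ℂ (h80_E3 ^ 12))⁻¹ =
      HahnSeries.ofPowerSeries ℤ ℂ (h80_E3 ^ 12)⁻¹ := h80_ofPS_inv h80_constantCoeff_E3_pow
  have hA : HahnSeries.ofPowerSeries ℤ ℂ h80_A = HahnSeries.ofPowerSeries ℤ ℂ (h80_E1 ^ 12) *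
      (HahnSeries.ofPowerSeries ℤ ℂ (h80_E3 ^ 12))⁻¹ := by
    rw [h3, ← map_mul, h80_A]
  have hE3 : qExpand ℂ 3 h80_E = HahnSeries.ofPowerSeries ℤ ℂ h80_E3 := by
    rw [h80_E_eq, h19_qExpand_ofPowerSeries, h80_E3]
  rw [h80_T_def, h80_single_one_inv, hE3, hA, h80_E_eq, map_pow, map_pow]

theorem h80_T_inv_eq :
    h80_T⁻¹ = HahnSeries.single (1 : ℤ) 1 * HahnSeries.ofPowerSeries ℤ ℂ h80_B := by
  have hAB : HahnSeries.ofPowerSeries ℤ ℂ h80_A * HahnSeries.ofPowerSeries ℤ ℂ h80_B = 1 := by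
    rw [← map_mul, h80_A_mul_B, map_one]
  have h : h80_T * (HahnSeries.single (1 : ℤ) 1 * HahnSeries.ofPowerSeries ℤ ℂ h80_B) = 1 := by
    rw [h80_T_eq]
    calc HahnSeries.single (-1 : ℤ) (1 : ℂ) * HahnSeries.ofPowerSeries ℤ ℂ h80_A *
          (HahnSeries.single (1 : ℤ) 1 * HahnSeries.ofPowerSeries ℤ ℂ h80_B)
        = (HahnSeries.single (-1 : ℤ) (1 : ℂ) * HahnSeries.single (1 : ℤ) 1) *
          (HahnSeries.ofPowerSeries ℤ ℂ h80_A * HahnSeries.ofPowerSeries ℤ ℂ h80_B) := by ring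
      _ = 1 := by rw [hAB, h80_single_mul_single_one, mul_one]
  exact (eq_inv_of_mul_eq_one_right h).symm

end Fermat.Agent.Red.SM.TID
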