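import Fermat.Agent.Red.SM.TID3Sym

/-!
# P-RED / R-SM, leaf SM-TID (case `ℓ = 2`): the identity `j t₃³ = (t₃ + 27)(t₃ + 243)³`

The elementary symmetric functions of the four conjugates of `t₃` are holomorphic,
`SL₂(ℤ)`-invariant, and their expansions at `i∞` are `j - 756 + O(q)`, `196830 + O(q)`,
`-19131876 + O(q)`, `387420489 + O(q)`; hence they are equal to these values.
-/

set_option autoImplicit false

open ModularCurve UpperHalfPlane Complex
open scoped MatrixGroups Manifold Real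

noncomputable section

namespace Fermat.Agent.Red.SM.TID

open Fermat.Agent.S28

/-! ### holomorphy -/

theorem h80_mapsTo_div3 (b : ℤ) :
    Set.MapsTo (fun z : ℂ => (z + b) / 3) {z : ℂ | 0 < z.im} {z : ℂ | 0 < z.im} :=
  fun _ hz => h80_im_div3 hz b

theorem h80_differentiableOn_VC (b : ℤ) : DifferentiableOn ℂ (h80_VC b) {z : ℂ | 0 < z.im} := by
  have h1 : DifferentiableOn ℂ (fun z : ℂ => (z + b) / 3) {z : ℂ | 0 < z.im} := by
    fun_prop
  have h2 : DifferentiableOn ℂ (fun z : ℂ => h80_tC ((z + b) / 3)) {z : ℂ | 0 < z.im} :=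
    h80_differentiableOn_tC.comp h1 (h80_mapsTo_div3 b)
  have h3 : DifferentiableOn ℂ (fun z : ℂ => (h80_tC ((z + b) / 3))⁻¹) {z : ℂ | 0 < z.im} :=
    h2.inv (fun z hz => h80_tC_ne_zero (h80_im_div3 hz b))
  exact h3.const_mul 729

theorem h80_holo_of_differentiableOn {g : ℂ → ℂ}
    (hg : DifferentiableOn ℂ g {z : ℂ | 0 < z.im}) : Holo (fun τ : ℍ => g (τ : ℂ)) := by
  rw [Holo, UpperHalfPlane.mdifferentiable_iff]
  refine hg.congr (fun z hz => ?_)
  simp only [Function.comp_apply]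
  rw [UpperHalfPlane.ofComplex_apply_of_im_pos hz]

theorem h80_differentiableOn_e1 :
    DifferentiableOn ℂ (h80_sym h80_e1) {z : ℂ | 0 < z.im} := by
  have d := h80_differentiableOn_tC
  have d0 := h80_differentiableOn_VC 0
  have d1 := h80_differentiableOn_VC 1
  have d2 := h80_differentiableOn_VC 2
  exact d.add ((d0.add d1).add d2)

theorem h80_differentiableOn_e2 :
    DifferentiableOn ℂ (h80_sym h80_e2) {z : ℂ | 0 < z.im} := by
  have d := h80_differentiableOn_tC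
  have d0 := h80_differentiableOn_VC 0
  have d1 := h80_differentiableOn_VC 1
  have d2 := h80_differentiableOn_VC 2
  exact (d.mul ((d0.add d1).add d2)).add (((d0.mul d1).add (d0.mul d2)).add (d1.mul d2))

theorem h80_differentiableOn_e3 :
    DifferentiableOn ℂ (h80_sym h80_e3) {z : ℂ | 0 < z.im} := by
  have d := h80_differentiableOn_tC
  have d0 := h80_differentiableOn_VC 0
  have d1 := h80_differentiableOn_VC 1
  have d2 := h80_differentiableOn_VC 2
  exact (d.mul (((d0.mul d1).add (d0.mul d2)).add (d1.mul d2))).add ((d0.mul d1).mul d2)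

theorem h80_differentiableOn_e4 :
    DifferentiableOn ℂ (h80_sym h80_e4) {z : ℂ | 0 < z.im} := by
  have d := h80_differentiableOn_tC
  have d0 := h80_differentiableOn_VC 0
  have d1 := h80_differentiableOn_VC 1
  have d2 := h80_differentiableOn_VC 2
  exact d.mul ((d0.mul d1).mul d2)

/-! ### the cube roots of unity -/

/-- `ω_b = exp (2πi b/3)` (in the shape produced by `HasTExp.affine`). -/
def h80_om (b : ℤ) : ℂ :=
  Complex.exp (2 * π * Complex.I * (b : ℂ) / (((3 : ℕ) : ℂ) * ((1 : ℕ) : ℂ)))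

theorem h80_om_zero : h80_om 0 = 1 := by
  simp [h80_om]

theorem h80_om_eq (b : ℕ) : h80_om b = h80_om 1 ^ b := by
  rw [h80_om, h80_om, ← Complex.exp_nat_mul]
  congr 1
  push_cast
  ring

theorem h80_om_two : h80_om 2 = h80_om 1 ^ 2 := by
  have := h80_om_eq 2
  simpa using this

theorem h80_om_prim : IsPrimitiveRoot (h80_om 1) 3 := by
  have h := Complex.isPrimitiveRoot_exp 3 (by norm_num)
  have e : h80_om 1 = Complex.exp (2 * π * Complex.I / ((3 : ℕ) : ℂ)) := by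
    rw [h80_om]
    congr 1
    push_cast
    ring
  rw [e]
  exact h

theorem h80_om_cube : h80_om 1 ^ 3 = 1 := h80_om_prim.pow_eq_one

theorem h80_om_sum : 1 + h80_om 1 + h80_om 1 ^ 2 = 0 := by
  have h := h80_om_prim.geom_sum_eq_zero (by norm_num)
  simpa [Finset.sum_range_succ] using h

/-! ### expansions of the conjugates -/

theorem h80_hasTExp_F : HasTExp 3 (fun τ : ℍ => h80_tC (τ : ℂ)) (qExpand ℂ 3 h80_T) :=
  h80_hasTExp_t3An.of_one

theorem h80_hasTExp_Ufun : HasTExp 1 (fun τ : ℍ => 729 * (t3An τ)⁻¹) h80_U :=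
  (h80_hasTExp_t3An.inv one_pos t3An_ne_zero).const_mul one_pos 729

/-- `τ ↦ (τ + b)/3` on `ℍ`. -/
def h80_phi (b : ℤ) (τ : ℍ) : ℍ := ⟨((τ : ℂ) + b) / 3, h80_im_div3 τ.im_pos b⟩

theorem h80_hasTExp_V (b : ℤ) :
    HasTExp 3 (fun τ : ℍ => h80_VC b (τ : ℂ)) (h80_W (h80_om b)) := by
  have h := h80_hasTExp_Ufun.affine (M := 1) (N := 3) (a := 1) (d := 3) (e := 1) (b := b)
    (by norm_num) one_pos (by norm_num) (by norm_num) (h80_phi b) (fun τ => by
      simp [h80_phi])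
  exact h

/-! ### jets of the symmetric functions -/

theorem h80_J4.of_eq {s : LaurentSeries ℂ} {m m' : ℤ} {a b c d : ℂ} (h : h80_J4 s m a b c d)
    (hm : m = m') : h80_J4 s m' a b c d := by
  subst hm
  exact h

theorem h80_J4_W0 : h80_J4 (h80_W (h80_om 0)) 0 0 729 8748 65610 := by
  have h := h80_J4_W (h80_om 0)
  rw [h80_om_zero] at h ⊢
  exact h.congr rfl (by norm_num) (by norm_num) (by norm_num)

theorem h80_J4_W1 :
    h80_J4 (h80_W (h80_om 1)) 0 0 (729 * h80_om 1) (8748 * h80_om 1 ^ 2) 65610 := by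
  have h := h80_J4_W (h80_om 1)
  exact h.congr rfl rfl rfl (by rw [h80_om_cube, mul_one])

theorem h80_J4_W2 :
    h80_J4 (h80_W (h80_om 2)) 0 0 (729 * h80_om 1 ^ 2) (8748 * h80_om 1) 65610 := by
  have h := h80_J4_W (h80_om 2)
  rw [h80_om_two] at h ⊢
  have h3 := h80_om_cube
  refine h.congr rfl rfl ?_ ?_
  · linear_combination (8748 * h80_om 1) * h3
  · linear_combination (65610 * (h80_om 1 ^ 3 + 1)) * h3

/-- `ΣW`. -/
theorem h80_J4_sumW :
    h80_J4 (h80_W (h80_om 0) + h80_W (h80_om 1) + h80_W (h80_om 2)) 0 0 0 0 196830 := by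
  have h := (h80_J4_W0.add h80_J4_W1).add h80_J4_W2
  have h0 := h80_om_sum
  refine h.congr (by norm_num) ?_ ?_ (by norm_num)
  · linear_combination 729 * h0
  · linear_combination 8748 * h0

/-- `Σ_{b<b'} W_b W_b'`. -/
theorem h80_J4_pairW :
    h80_J4 (h80_W (h80_om 0) * h80_W (h80_om 1) + h80_W (h80_om 0) * h80_W (h80_om 2) +
      h80_W (h80_om 1) * h80_W (h80_om 2)) 0 0 0 0 (-19131876) := by
  have h := (((h80_J4_W0.mul h80_J4_W1).add (h80_J4_W0.mul h80_J4_W2)).add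
    (h80_J4_W1.mul h80_J4_W2)).of_eq (show (0 : ℤ) + 0 = 0 by norm_num)
  have h0 := h80_om_sum
  have h3 := h80_om_cube
  refine h.congr (by norm_num) (by norm_num) ?_ ?_
  · linear_combination 531441 * h0 + 531441 * h3
  · linear_combination (6377292 * 3) * h0 + (6377292 * h80_om 1) * h3

/-- `W₀ W₁ W₂`. -/
theorem h80_J4_prodW :
    h80_J4 (h80_W (h80_om 0) * h80_W (h80_om 1) * h80_W (h80_om 2)) 0 0 0 0 387420489 := by
  have h := ((h80_J4_W0.mul h80_J4_W1).mul h80_J4_W2).of_eq (show (0 : ℤ) + 0 + 0 = 0 by norm_num)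
  have h3 := h80_om_cube
  refine h.congr (by norm_num) (by norm_num) (by norm_num) ?_
  linear_combination 387420489 * h3

theorem h80_J4_S1 :
    h80_J4 (qExpand ℂ 3 h80_T +
      (h80_W (h80_om 0) + h80_W (h80_om 1) + h80_W (h80_om 2)) - qExpand ℂ 3 (cEmb jq))
      (-3) 0 0 0 (-756) := by
  have h := (h80_J4_F.add (h80_J4_sumW.shift3.of_eq (show (0 : ℤ) - 3 = -3 by norm_num))).sub
    h80_J4_J
  exact h.congr (by norm_num) (by norm_num) (by norm_num) (by norm_num)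

theorem h80_J4_S2 :
    h80_J4 (qExpand ℂ 3 h80_T * (h80_W (h80_om 0) + h80_W (h80_om 1) + h80_W (h80_om 2)) +
      (h80_W (h80_om 0) * h80_W (h80_om 1) + h80_W (h80_om 0) * h80_W (h80_om 2) +
        h80_W (h80_om 1) * h80_W (h80_om 2))) (-3) 0 0 0 196830 := by
  have h := ((h80_J4_F.mul h80_J4_sumW).of_eq (show (-3 : ℤ) + 0 = -3 by norm_num)).add
    (h80_J4_pairW.shift3.of_eq (show (0 : ℤ) - 3 = -3 by norm_num))
  exact h.congr (by norm_num) (by norm_num) (by norm_num) (by norm_num)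

theorem h80_J4_S3 :
    h80_J4 (qExpand ℂ 3 h80_T *
      (h80_W (h80_om 0) * h80_W (h80_om 1) + h80_W (h80_om 0) * h80_W (h80_om 2) +
        h80_W (h80_om 1) * h80_W (h80_om 2)) +
      h80_W (h80_om 0) * h80_W (h80_om 1) * h80_W (h80_om 2)) (-3) 0 0 0 (-19131876) := by
  have h := ((h80_J4_F.mul h80_J4_pairW).of_eq (show (-3 : ℤ) + 0 = -3 by norm_num)).add
    (h80_J4_prodW.shift3.of_eq (show (0 : ℤ) - 3 = -3 by norm_num))
  exact h.congr (by norm_num) (by norm_num) (by norm_num) (by norm_num)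

theorem h80_J4_S4 :
    h80_J4 (qExpand ℂ 3 h80_T * (h80_W (h80_om 0) * h80_W (h80_om 1) * h80_W (h80_om 2)))
      (-3) 0 0 0 387420489 := by
  have h := (h80_J4_F.mul h80_J4_prodW).of_eq (show (-3 : ℤ) + 0 = -3 by norm_num)
  exact h.congr (by norm_num) (by norm_num) (by norm_num) (by norm_num)

/-! ### the level-one principle -/

theorem h80_const_of_J4 {g : ℍ → ℂ} (hg : Holo g)
    (hinv : ∀ (γ : SL(2, ℤ)) (τ : ℍ), g (γ • τ) = g τ) {S : LaurentSeries ℂ}
    (hS : HasTExp 3 g S) {b c d : ℂ} (hJ : h80_J4 S (-3) 0 b c d) (τ : ℍ) : g τ = d := by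
  have hper : ∀ τ : ℍ, g ((1 : ℝ) +ᵥ τ) = g τ := by
    intro τ
    rw [← UpperHalfPlane.modular_T_smul]
    exact hinv _ τ
  obtain ⟨s₁, hs₁, hS₁⟩ := hS.to_one hper
  have hcoeff : ∀ n : ℤ, s₁.coeff n = S.coeff (3 * n) := by
    intro n
    rw [hS₁]
    have := qExpand_coeff_mul (R := ℂ) 3 s₁ n
    rw [show ((3 : ℕ) : ℤ) = 3 by norm_num] at this
    exact this.symm
  have h0 : ∀ n : ℤ, n < 0 → s₁.coeff n = 0 := by
    intro n hn
    rw [hcoeff]
    rcases lt_or_eq_of_le (show n ≤ -1 by omega) with h | h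
    · exact hJ.1 _ (by omega)
    · rw [h]
      exact hJ.2.1
  have h := LevelOne.levelOne_const g hg hinv s₁ hs₁ h0 τ
  rw [h, hcoeff]
  have := hJ.2.2.2.2
  rw [show (-3 : ℤ) + 3 = 3 * 0 by norm_num] at this
  exact this

/-! ### the symmetric functions are constant -/

theorem h80_hasTExp_jAn3 : HasTExp 3 jAn (qExpand ℂ 3 (cEmb jq)) :=
  hasTExp_jAn.of_one

theorem h80_hasTExp_g1 :
    HasTExp 3 (fun τ : ℍ => h80_symH h80_e1 τ - jAn τ)
      (qExpand ℂ 3 h80_T + (h80_W (h80_om 0) + h80_W (h80_om 1) + h80_W (h80_om 2)) -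
        qExpand ℂ 3 (cEmb jq)) := by
  have hF := h80_hasTExp_F
  have h0 := h80_hasTExp_V 0
  have h1 := h80_hasTExp_V 1
  have h2 := h80_hasTExp_V 2
  exact ((hF.add ((h0.add h1).add h2)).sub h80_hasTExp_jAn3).congr (fun τ => rfl)

theorem h80_hasTExp_g2 :
    HasTExp 3 (h80_symH h80_e2)
      (qExpand ℂ 3 h80_T * (h80_W (h80_om 0) + h80_W (h80_om 1) + h80_W (h80_om 2)) +
      (h80_W (h80_om 0) * h80_W (h80_om 1) + h80_W (h80_om 0) * h80_W (h80_om 2) +
        h80_W (h80_om 1) * h80_W (h80_om 2))) := by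
  have hF := h80_hasTExp_F
  have h0 := h80_hasTExp_V 0
  have h1 := h80_hasTExp_V 1
  have h2 := h80_hasTExp_V 2
  have h3 : 0 < 3 := by norm_num
  exact ((hF.mul h3 ((h0.add h1).add h2)).add
    (((h0.mul h3 h1).add (h0.mul h3 h2)).add (h1.mul h3 h2))).congr (fun τ => rfl)

theorem h80_hasTExp_g3 :
    HasTExp 3 (h80_symH h80_e3)
      (qExpand ℂ 3 h80_T *
      (h80_W (h80_om 0) * h80_W (h80_om 1) + h80_W (h80_om 0) * h80_W (h80_om 2) +
        h80_W (h80_om 1) * h80_W (h80_om 2)) +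
      h80_W (h80_om 0) * h80_W (h80_om 1) * h80_W (h80_om 2)) := by
  have hF := h80_hasTExp_F
  have h0 := h80_hasTExp_V 0
  have h1 := h80_hasTExp_V 1
  have h2 := h80_hasTExp_V 2
  have h3 : 0 < 3 := by norm_num
  exact ((hF.mul h3 (((h0.mul h3 h1).add (h0.mul h3 h2)).add (h1.mul h3 h2))).add
    ((h0.mul h3 h1).mul h3 h2)).congr (fun τ => rfl)

theorem h80_hasTExp_g4 :
    HasTExp 3 (h80_symH h80_e4)
      (qExpand ℂ 3 h80_T * (h80_W (h80_om 0) * h80_W (h80_om 1) * h80_W (h80_om 2))) := by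
  have hF := h80_hasTExp_F
  have h0 := h80_hasTExp_V 0
  have h1 := h80_hasTExp_V 1
  have h2 := h80_hasTExp_V 2
  have h3 : 0 < 3 := by norm_num
  exact (hF.mul h3 ((h0.mul h3 h1).mul h3 h2)).congr (fun τ => rfl)

theorem h80_holo_g1 : Holo (fun τ : ℍ => h80_symH h80_e1 τ - jAn τ) := by
  have h1 : Holo (h80_symH h80_e1) := h80_holo_of_differentiableOn h80_differentiableOn_e1
  have h2 := holo_jAn
  rw [Holo, UpperHalfPlane.mdifferentiable_iff] at h1 h2 ⊢
  exact (h1.sub h2).congr (fun z _ => rfl)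

theorem h80_inv_g1 (γ : SL(2, ℤ)) (τ : ℍ) :
    h80_symH h80_e1 (γ • τ) - jAn (γ • τ) = h80_symH h80_e1 τ - jAn τ := by
  rw [jAn_smul, h80_symH_smul h80_e1 (fun a b c d => by unfold h80_e1; ring)
    (fun a b c d => by unfold h80_e1; ring)]

theorem h80_e1_eq (τ : ℍ) : h80_symH h80_e1 τ - jAn τ = -756 :=
  h80_const_of_J4 h80_holo_g1 h80_inv_g1 h80_hasTExp_g1 h80_J4_S1 τ

theorem h80_e2_eq (τ : ℍ) : h80_symH h80_e2 τ = 196830 :=
  h80_const_of_J4 (h80_holo_of_differentiableOn h80_differentiableOn_e2)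
    (h80_symH_smul h80_e2 (fun a b c d => by unfold h80_e2; ring)
      (fun a b c d => by unfold h80_e2; ring)) h80_hasTExp_g2 h80_J4_S2 τ

theorem h80_e3_eq (τ : ℍ) : h80_symH h80_e3 τ = -19131876 :=
  h80_const_of_J4 (h80_holo_of_differentiableOn h80_differentiableOn_e3)
    (h80_symH_smul h80_e3 (fun a b c d => by unfold h80_e3; ring)
      (fun a b c d => by unfold h80_e3; ring)) h80_hasTExp_g3 h80_J4_S3 τ

theorem h80_e4_eq (τ : ℍ) : h80_symH h80_e4 τ = 387420489 :=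
  h80_const_of_J4 (h80_holo_of_differentiableOn h80_differentiableOn_e4)
    (h80_symH_smul h80_e4 (fun a b c d => by unfold h80_e4; ring)
      (fun a b c d => by unfold h80_e4; ring)) h80_hasTExp_g4 h80_J4_S4 τ

/-! ### the identities -/

/-- **the `t₃`-identity** `j t³ = (t + 27)(t + 243)³`. -/
theorem t3An_identity (τ : ℍ) :
    jAn τ * t3An τ ^ 3 = (t3An τ + 27) * (t3An τ + 243) ^ 3 := by
  have h1 := h80_e1_eq τ
  have h2 := h80_e2_eq τ
  have h3 := h80_e3_eq τ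
  have h4 := h80_e4_eq τ
  simp only [h80_symH, h80_sym, h80_e1, h80_e2, h80_e3, h80_e4] at h1 h2 h3 h4
  have ht : t3An τ = h80_tC (τ : ℂ) := rfl
  rw [ht]
  linear_combination (-(h80_tC (τ : ℂ)) ^ 3) * h1 + (h80_tC (τ : ℂ)) ^ 2 * h2 -
    (h80_tC (τ : ℂ)) * h3 + h4

/-- the Fricke involution `τ ↦ -1/(3τ)` on `ℍ`. -/
def h80_frickeH (τ : ℍ) : ℍ := ⟨-1 / (3 * (τ : ℂ)), h80_im_fricke τ.im_pos⟩

theorem h80_frickeH_eq (τ : ℍ) : h80_frickeH τ = ModularGroup.S • scaleH 3 τ := by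
  rw [UpperHalfPlane.modular_S_smul]
  apply UpperHalfPlane.ext
  have h3 := h19_coe_scaleH 3 (by norm_num) τ
  simp only [h80_frickeH, UpperHalfPlane.coe_mk]
  rw [h3]
  push_cast
  rw [neg_div, one_div, inv_neg]

theorem h80_jAn_frickeH (τ : ℍ) : jAn (h80_frickeH τ) = jAt 3 τ := by
  rw [h80_frickeH_eq, jAn_smul]
  rfl

theorem h80_t3An_frickeH (τ : ℍ) : t3An (h80_frickeH τ) * t3An τ = 729 :=
  h80_fricke τ.im_pos

/-- **the Fricke twin** `j(3τ) t = (t + 27)(t + 3)³`. -/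
theorem t3An_fricke (τ : ℍ) : jAt 3 τ * t3An τ = (t3An τ + 27) * (t3An τ + 3) ^ 3 := by
  have h := t3An_identity (h80_frickeH τ)
  rw [h80_jAn_frickeH] at h
  have hut := h80_t3An_frickeH τ
  set u := t3An (h80_frickeH τ)
  set t := t3An τ
  set J := jAt 3 τ
  have e1 : (u + 27) * t = 27 * (t + 27) := by linear_combination hut
  have e2 : (u + 243) * t = 243 * (t + 3) := by linear_combination hut
  have e3 : u ^ 3 * t ^ 3 = 729 ^ 3 := by rw [← mul_pow, hut]
  have h5 : J * u ^ 3 * t ^ 4 = ((u + 27) * t) * ((u + 243) * t) ^ 3 := by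
    rw [h]
    ring
  rw [e1, e2] at h5
  have h6 : J * u ^ 3 * t ^ 4 = 729 ^ 3 * (J * t) := by
    calc J * u ^ 3 * t ^ 4 = (u ^ 3 * t ^ 3) * (J * t) := by ring
      _ = 729 ^ 3 * (J * t) := by rw [e3]
  rw [h6] at h5
  have key : (729 : ℂ) ^ 3 * (J * t) = 729 ^ 3 * ((t + 27) * (t + 3) ^ 3) := by
    rw [h5]
    ring
  exact mul_left_cancel₀ (by norm_num) key

end Fermat.Agent.Red.SM.TID
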