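import Fermat.Agent.Red.SM.TID3Formal
import Fermat.Agent.Red.SM.TIDJet

/-!
# P-RED / R-SM, leaf SM-TID (case `ℓ = 2`): four-term jets

`h80_J4 s m a b c d` : `s = a q^m + b q^(m+1) + c q^(m+2) + d q^(m+3) + O(q^(m+4))`, with the
calculus needed for the four conjugates of `t₃`, and the jets of the basic series.
-/

set_option autoImplicit false

open ModularCurve UpperHalfPlane Complex
open scoped MatrixGroups Manifold Real

noncomputable section

namespace Fermat.Agent.Red.SM.TID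

open Fermat.Agent.S28

/-! ### four-term coefficient calculus for power series -/

/-- the first four coefficients of `p` are `a, b, c, d`. -/
def h80_C4 (p : PowerSeries ℂ) (a b c d : ℂ) : Prop :=
  PowerSeries.coeff 0 p = a ∧ PowerSeries.coeff 1 p = b ∧ PowerSeries.coeff 2 p = c ∧
    PowerSeries.coeff 3 p = d

theorem h80_C4.mul {p q : PowerSeries ℂ} {a b c d a' b' c' d' : ℂ} (hp : h80_C4 p a b c d)
    (hq : h80_C4 q a' b' c' d') :
    h80_C4 (p * q) (a * a') (a * b' + b * a') (a * c' + b * b' + c * a')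
      (a * d' + b * c' + c * b' + d * a') := by
  obtain ⟨h0, h1, h2, h3⟩ := hp
  obtain ⟨h0', h1', h2', h3'⟩ := hq
  refine ⟨?_, ?_, ?_, ?_⟩
  · rw [PowerSeries.coeff_mul]
    simp [h0, h0']
  · rw [PowerSeries.coeff_mul, Finset.Nat.sum_antidiagonal_eq_sum_range_succ_mk]
    simp [Finset.sum_range_succ, h0, h0', h1, h1']
  · rw [PowerSeries.coeff_mul, Finset.Nat.sum_antidiagonal_eq_sum_range_succ_mk]
    simp [Finset.sum_range_succ, h0, h0', h1, h1', h2, h2']
  · rw [PowerSeries.coeff_mul, Finset.Nat.sum_antidiagonal_eq_sum_range_succ_mk]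
    simp [Finset.sum_range_succ, h0, h0', h1, h1', h2, h2', h3, h3']

/-! ### four-term jets of Laurent series -/

/-- `s = a q^m + b q^(m+1) + c q^(m+2) + d q^(m+3) + O(q^(m+4))`. -/
def h80_J4 (s : LaurentSeries ℂ) (m : ℤ) (a b c d : ℂ) : Prop :=
  (∀ k : ℤ, k < m → s.coeff k = 0) ∧ s.coeff m = a ∧ s.coeff (m + 1) = b ∧
    s.coeff (m + 2) = c ∧ s.coeff (m + 3) = d

theorem h80_J4_single_mul (m : ℤ) (p : PowerSeries ℂ) :
    h80_J4 (HahnSeries.single m 1 * HahnSeries.ofPowerSeries ℤ ℂ p) m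
      (PowerSeries.coeff 0 p) (PowerSeries.coeff 1 p) (PowerSeries.coeff 2 p)
      (PowerSeries.coeff 3 p) := by
  refine ⟨fun k hk => coeff_single_mul_ofPowerSeries_of_lt m p hk, ?_, ?_, ?_, ?_⟩
  · have := coeff_single_mul_ofPowerSeries m p 0
    simpa using this
  · have := coeff_single_mul_ofPowerSeries m p 1
    simpa using this
  · have := coeff_single_mul_ofPowerSeries m p 2
    simpa using this
  · have := coeff_single_mul_ofPowerSeries m p 3
    simpa using this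

theorem h80_J4.exists_ps {s : LaurentSeries ℂ} {m : ℤ} {a b c d : ℂ} (h : h80_J4 s m a b c d) :
    ∃ p : PowerSeries ℂ, s = HahnSeries.single m 1 * HahnSeries.ofPowerSeries ℤ ℂ p ∧
      h80_C4 p a b c d := by
  refine ⟨tailPS s m, eq_single_mul_tailPS h.1, ?_, ?_, ?_, ?_⟩
  · rw [tailPS, PowerSeries.coeff_mk]
    simpa using h.2.1
  · rw [tailPS, PowerSeries.coeff_mk]
    simpa using h.2.2.1
  · rw [tailPS, PowerSeries.coeff_mk]
    simpa using h.2.2.2.1
  · rw [tailPS, PowerSeries.coeff_mk]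
    simpa using h.2.2.2.2

theorem h80_J4.mul {s s' : LaurentSeries ℂ} {m m' : ℤ} {a b c d a' b' c' d' : ℂ}
    (h : h80_J4 s m a b c d) (h' : h80_J4 s' m' a' b' c' d') :
    h80_J4 (s * s') (m + m') (a * a') (a * b' + b * a') (a * c' + b * b' + c * a')
      (a * d' + b * c' + c * b' + d * a') := by
  obtain ⟨p, rfl, hp⟩ := h.exists_ps
  obtain ⟨p', rfl, hp'⟩ := h'.exists_ps
  rw [single_mul_ofPS_mul]
  have hj := h80_J4_single_mul (m + m') (p * p')
  obtain ⟨e0, e1, e2, e3⟩ := hp.mul hp'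
  rw [e0, e1, e2, e3] at hj
  exact hj

theorem h80_J4.add {s s' : LaurentSeries ℂ} {m : ℤ} {a b c d a' b' c' d' : ℂ}
    (h : h80_J4 s m a b c d) (h' : h80_J4 s' m a' b' c' d') :
    h80_J4 (s + s') m (a + a') (b + b') (c + c') (d + d') := by
  refine ⟨fun k hk => ?_, ?_, ?_, ?_, ?_⟩
  · rw [HahnSeries.coeff_add, h.1 k hk, h'.1 k hk, add_zero]
  · rw [HahnSeries.coeff_add, h.2.1, h'.2.1]
  · rw [HahnSeries.coeff_add, h.2.2.1, h'.2.2.1]
  · rw [HahnSeries.coeff_add, h.2.2.2.1, h'.2.2.2.1]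
  · rw [HahnSeries.coeff_add, h.2.2.2.2, h'.2.2.2.2]

theorem h80_J4.neg {s : LaurentSeries ℂ} {m : ℤ} {a b c d : ℂ} (h : h80_J4 s m a b c d) :
    h80_J4 (-s) m (-a) (-b) (-c) (-d) := by
  refine ⟨fun k hk => ?_, ?_, ?_, ?_, ?_⟩
  · rw [HahnSeries.coeff_neg, h.1 k hk, neg_zero]
  · rw [HahnSeries.coeff_neg, h.2.1]
  · rw [HahnSeries.coeff_neg, h.2.2.1]
  · rw [HahnSeries.coeff_neg, h.2.2.2.1]
  · rw [HahnSeries.coeff_neg, h.2.2.2.2]

theorem h80_J4.sub {s s' : LaurentSeries ℂ} {m : ℤ} {a b c d a' b' c' d' : ℂ}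
    (h : h80_J4 s m a b c d) (h' : h80_J4 s' m a' b' c' d') :
    h80_J4 (s - s') m (a - a') (b - b') (c - c') (d - d') := by
  have := h.add h'.neg
  simpa [sub_eq_add_neg] using this

/-- weakening by three steps. -/
theorem h80_J4.shift3 {s : LaurentSeries ℂ} {m : ℤ} {a b c d : ℂ} (h : h80_J4 s m a b c d) :
    h80_J4 s (m - 3) 0 0 0 a := by
  refine ⟨fun k hk => h.1 k (by omega), h.1 _ (by omega), h.1 _ (by omega), h.1 _ (by omega), ?_⟩
  rw [show m - 3 + 3 = m by ring]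
  exact h.2.1

theorem h80_J4.congr {s : LaurentSeries ℂ} {m : ℤ} {a b c d a' b' c' d' : ℂ}
    (h : h80_J4 s m a b c d) (ha : a = a') (hb : b = b') (hc : c = c') (hd : d = d') :
    h80_J4 s m a' b' c' d' := by
  subst ha hb hc hd
  exact h

/-! ### jets of `q ↦ q³`-expansions -/

theorem h80_J4_qExpand {s : LaurentSeries ℂ} {a b : ℂ} (h : Jet s (-1) a b) :
    h80_J4 (qExpand ℂ 3 s) (-3) a 0 0 b := by
  obtain ⟨h0, h1, h2⟩ := h
  refine ⟨fun k hk => ?_, ?_, ?_, ?_, ?_⟩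
  · by_cases hd : ((3 : ℕ) : ℤ) ∣ k
    · obtain ⟨n, rfl⟩ := hd
      rw [qExpand_coeff_mul]
      exact h0 n (by push_cast at hk; omega)
    · exact qExpand_coeff_of_not_dvd 3 s hd
  · have := qExpand_coeff_mul (R := ℂ) 3 s (-1)
    rw [show ((3 : ℕ) : ℤ) * (-1) = -3 by norm_num] at this
    rw [this, h1]
  · exact qExpand_coeff_of_not_dvd 3 s (by norm_num)
  · exact qExpand_coeff_of_not_dvd 3 s (by norm_num)
  · have := qExpand_coeff_mul (R := ℂ) 3 s 0
    rw [show ((3 : ℕ) : ℤ) * 0 = -3 + 3 by norm_num] at this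
    rw [this]
    simpa using h2

theorem h80_jet_T : Jet h80_T (-1) 1 (-12) := by
  rw [h80_T_eq]
  have h := jet_single_mul (-1) h80_A
  rw [h80_C3_A.1, h80_C3_A.2.1] at h
  exact h

theorem h80_J4_F : h80_J4 (qExpand ℂ 3 h80_T) (-3) 1 0 0 (-12) :=
  h80_J4_qExpand h80_jet_T

/-! ### the jet of `j` -/

/-- the numerator of `j` over `ℂ`. -/
def h80_jNumC : PowerSeries ℂ := jNum.map (Int.castRingHom ℂ)

theorem h80_cEmb_jq :
    cEmb jq = HahnSeries.single (-1 : ℤ) 1 * HahnSeries.ofPowerSeries ℤ ℂ h80_jNumC := by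
  rw [cEmb, jq, map_mul, coeffMap_single, map_one, coeffMap_ofPowerSeries, jNumQ, h19_map_map_int,
    h80_jNumC]

theorem h80_C3_eisenstein4 :
    h80_C3 (eisenstein4.map (Int.castRingHom ℂ)) 1 240 2160 := by
  refine ⟨?_, ?_, ?_⟩
  · rw [PowerSeries.coeff_map, eisenstein4, PowerSeries.coeff_mk]
    simp
  · rw [PowerSeries.coeff_map, eisenstein4, PowerSeries.coeff_mk]
    simp
  · rw [PowerSeries.coeff_map, eisenstein4, PowerSeries.coeff_mk]
    have h2 : Nat.divisors 2 = {1, 2} := by decide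
    rw [h2]
    simp

theorem h80_C3_E1_pow24 : h80_C3 (h80_E1 ^ 24) 1 (-24) 252 := by
  have h12 := h80_C3_E1_pow
  have h24 := h12.mul h12
  have e : h80_E1 ^ 12 * h80_E1 ^ 12 = h80_E1 ^ 24 := by ring
  rw [e] at h24
  exact h24.congr (by norm_num) (by norm_num) (by norm_num)

theorem h80_map_dedekindEtaUnit :
    dedekindEtaUnit.map (Int.castRingHom ℂ) = h80_E1 ^ 24 := by
  rw [dedekindEtaUnit, map_pow, h80_E1]

theorem h80_C3_etaUnitInv :
    h80_C3 (dedekindEtaUnitInv.map (Int.castRingHom ℂ)) 1 24 324 := by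
  have h : h80_E1 ^ 24 * dedekindEtaUnitInv.map (Int.castRingHom ℂ) = 1 := by
    rw [← h80_map_dedekindEtaUnit, ← map_mul, dedekindEtaUnit_mul_inv, map_one]
  exact (h80_C3_E1_pow24.of_mul_eq_one h).congr rfl (by norm_num) (by norm_num)

theorem h80_C3_jNumC : h80_C3 h80_jNumC 1 744 196884 := by
  have h2 := h80_C3_eisenstein4.pow_two
  have h3 := h2.mul h80_C3_eisenstein4
  have h := h3.mul h80_C3_etaUnitInv
  have e : (eisenstein4.map (Int.castRingHom ℂ)) ^ 2 * eisenstein4.map (Int.castRingHom ℂ) *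
      dedekindEtaUnitInv.map (Int.castRingHom ℂ) = h80_jNumC := by
    rw [h80_jNumC, jNum, map_mul, map_pow]
    ring
  rw [e] at h
  exact h.congr (by norm_num) (by norm_num) (by norm_num)

theorem h80_jet_jq : Jet (cEmb jq) (-1) 1 744 := by
  rw [h80_cEmb_jq]
  have h := jet_single_mul (-1) h80_jNumC
  rw [h80_C3_jNumC.1, h80_C3_jNumC.2.1] at h
  exact h

theorem h80_J4_J : h80_J4 (qExpand ℂ 3 (cEmb jq)) (-3) 1 0 0 744 :=
  h80_J4_qExpand h80_jet_jq

/-! ### the jets of the conjugates -/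

/-- the formal series of `729 / t₃`. -/
def h80_U : LaurentSeries ℂ := HahnSeries.C 729 * h80_T⁻¹

theorem h80_J4_U : h80_J4 h80_U 0 0 729 8748 65610 := by
  have hU : h80_U = HahnSeries.C 729 * (HahnSeries.single (1 : ℤ) 1 *
      HahnSeries.ofPowerSeries ℤ ℂ h80_B) := by
    rw [h80_U, h80_T_inv_eq]
  have hj := h80_J4_single_mul 1 h80_B
  obtain ⟨b0, b1, b2⟩ := h80_C3_B
  rw [b0, b1, b2] at hj
  obtain ⟨j0, j1, j2, j3, -⟩ := hj
  rw [hU]
  refine ⟨fun k hk => ?_, ?_, ?_, ?_, ?_⟩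
  · rw [LevelOne.coeff_C_mul, j0 k (by omega), mul_zero]
  · rw [LevelOne.coeff_C_mul, j0 0 (by norm_num), mul_zero]
  · rw [LevelOne.coeff_C_mul]
    simp only [zero_add]
    rw [j1, mul_one]
  · rw [LevelOne.coeff_C_mul]
    rw [show (0 : ℤ) + 2 = 1 + 1 by norm_num, j2]
    norm_num
  · rw [LevelOne.coeff_C_mul]
    rw [show (0 : ℤ) + 3 = 1 + 2 by norm_num, j3]
    norm_num

/-- the formal series of the conjugate `V_b`: `q ↦ ω q` in `729 / t₃`. -/
def h80_W (ω : ℂ) : LaurentSeries ℂ := twistDil ω 1 h80_U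

theorem h80_coeff_W (ω : ℂ) (n : ℤ) : (h80_W ω).coeff n = h80_U.coeff n * ω ^ n := by
  have := coeff_twistDil_mul ω 1 h80_U n
  rw [show ((1 : ℕ) : ℤ) * n = n by simp] at this
  exact this

theorem h80_J4_W (ω : ℂ) : h80_J4 (h80_W ω) 0 0 (729 * ω) (8748 * ω ^ 2) (65610 * ω ^ 3) := by
  obtain ⟨j0, j1, j2, j3, j4⟩ := h80_J4_U
  refine ⟨fun k hk => ?_, ?_, ?_, ?_, ?_⟩
  · rw [h80_coeff_W, j0 k hk, zero_mul]
  · rw [h80_coeff_W, j1, zero_mul]
  · rw [h80_coeff_W, j2]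
    simp
  · rw [h80_coeff_W, j3]
    norm_num
  · rw [h80_coeff_W, j4]
    norm_num

end Fermat.Agent.Red.SM.TID
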