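import Fermat.Agent.Red.SM.TID3Id
import Fermat.Agent.S28.H52Alg

/-!
# P-RED / R-SM, leaf SM-TID (case `ℓ = 2`): the formal `t₃` over `ℤ` and `ℚ`

* `t3Z : LaurentSeries ℤ`, `t3 : LaurentSeries ℚ` : the formal `t₃ = q⁻¹ ∏ ((1-qⁿ)/(1-q^{3n}))^12`;
* `hasTExp_t3An : HasTExp 1 t3An (cEmb t3)`;
* `t3_identity`, `t3_fricke` : the identities in `LaurentSeries ℚ`;
* integrality and the leading term.
-/

set_option autoImplicit false

open ModularCurve UpperHalfPlane Complex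
open scoped MatrixGroups Manifold Real

noncomputable section

namespace Fermat.Agent.Red.SM.TID

open Fermat.Agent.S28

/-! ### the integral series -/

/-- `q ↦ q³` on integral power series. -/
def h80_expandZ (p : PowerSeries ℤ) : PowerSeries ℤ :=
  PowerSeries.mk fun n => if 3 ∣ n then PowerSeries.coeff (n / 3) p else 0

theorem h80_map_expandZ (p : PowerSeries ℤ) :
    (h80_expandZ p).map (Int.castRingHom ℂ) = h19_expand 3 (p.map (Int.castRingHom ℂ)) := by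
  ext n
  rw [PowerSeries.coeff_map, h80_expandZ, h19_expand, PowerSeries.coeff_mk, PowerSeries.coeff_mk]
  split_ifs with h
  · rw [PowerSeries.coeff_map]
  · simp

/-- the Euler product in `q³` over `ℤ`. -/
def h80_E3Z : PowerSeries ℤ := h80_expandZ etaProd

theorem h80_map_E3Z : h80_E3Z.map (Int.castRingHom ℂ) = h80_E3 := by
  rw [h80_E3Z, h80_map_expandZ, h80_E3, h80_E1]

theorem h80_constantCoeff_E3Z_pow : PowerSeries.constantCoeff (h80_E3Z ^ 12) = 1 := by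
  have h : PowerSeries.constantCoeff h80_E3Z = 1 := by
    rw [← PowerSeries.coeff_zero_eq_constantCoeff_apply, h80_E3Z, h80_expandZ,
      PowerSeries.coeff_mk]
    simp [constantCoeff_etaProd]
  rw [map_pow, h, one_pow]

/-- the inverse of `∏ (1 - q^{3n})^12` over `ℤ`. -/
def h80_E3ZInv : PowerSeries ℤ := PowerSeries.invOfUnit (h80_E3Z ^ 12) 1

theorem h80_E3Z_mul_inv : h80_E3Z ^ 12 * h80_E3ZInv = 1 :=
  PowerSeries.mul_invOfUnit _ _ (by rw [h80_constantCoeff_E3Z_pow]; rfl)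

/-- `A = ∏ ((1 - qⁿ)/(1 - q^{3n}))^12` over `ℤ`. -/
def h80_AZ : PowerSeries ℤ := etaProd ^ 12 * h80_E3ZInv

theorem h80_map_E3ZInv : h80_E3ZInv.map (Int.castRingHom ℂ) = (h80_E3 ^ 12)⁻¹ := by
  have h1 : h80_E3 ^ 12 * h80_E3ZInv.map (Int.castRingHom ℂ) = 1 := by
    rw [← h80_map_E3Z, ← map_pow, ← map_mul, h80_E3Z_mul_inv, map_one]
  have h2 := PowerSeries.mul_inv_cancel _ h80_constantCoeff_E3_pow
  calc h80_E3ZInv.map (Int.castRingHom ℂ)
      = (h80_E3 ^ 12 * (h80_E3 ^ 12)⁻¹) * h80_E3ZInv.map (Int.castRingHom ℂ) := by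
        rw [h2, one_mul]
    _ = (h80_E3 ^ 12 * h80_E3ZInv.map (Int.castRingHom ℂ)) * (h80_E3 ^ 12)⁻¹ := by ring
    _ = (h80_E3 ^ 12)⁻¹ := by rw [h1, one_mul]

theorem h80_map_AZ : h80_AZ.map (Int.castRingHom ℂ) = h80_A := by
  rw [h80_AZ, map_mul, map_pow, h80_map_E3ZInv, h80_A, h80_E1]

theorem h80_constantCoeff_AZ : PowerSeries.constantCoeff h80_AZ = 1 := by
  have h := congrArg (PowerSeries.constantCoeff (R := ℤ)) h80_E3Z_mul_inv
  rw [map_mul, h80_constantCoeff_E3Z_pow, one_mul, map_one] at h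
  rw [h80_AZ, map_mul, map_pow, constantCoeff_etaProd, one_pow, one_mul, h]

/-- the formal `t₃` over `ℤ`. -/
def t3Z : LaurentSeries ℤ :=
  HahnSeries.single (-1 : ℤ) 1 * HahnSeries.ofPowerSeries ℤ ℤ h80_AZ

/-- the formal `t₃` over `ℚ`. -/
def t3 : LaurentSeries ℚ := coeffMap (Int.castRingHom ℚ) t3Z

theorem t3_coeff (n : ℤ) : t3.coeff n = ((t3Z.coeff n : ℤ) : ℚ) := rfl

/-- integrality of the coefficients. -/
theorem t3_coeff_int (n : ℤ) : ∃ m : ℤ, t3.coeff n = m := ⟨t3Z.coeff n, rfl⟩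

theorem t3Z_coeff_of_lt {n : ℤ} (hn : n < -1) : t3Z.coeff n = 0 := by
  have h := HahnSeries.coeff_single_mul_add (r := (1 : ℤ))
    (x := HahnSeries.ofPowerSeries ℤ ℤ h80_AZ) (a := n - (-1)) (b := -1)
  rw [show n - (-1) + (-1) = n by ring] at h
  rw [t3Z, h, one_mul]
  exact ModularCurve.ofPowerSeries_coeff_of_neg _ (by omega)

theorem t3Z_coeff_neg_one : t3Z.coeff (-1) = 1 := by
  have h := HahnSeries.coeff_single_mul_add (r := (1 : ℤ))
    (x := HahnSeries.ofPowerSeries ℤ ℤ h80_AZ) (a := ((0 : ℕ) : ℤ)) (b := -1)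
  rw [show ((0 : ℕ) : ℤ) + (-1) = -1 by norm_num] at h
  rw [t3Z, h, one_mul, HahnSeries.ofPowerSeries_apply_coeff,
    PowerSeries.coeff_zero_eq_constantCoeff_apply, h80_constantCoeff_AZ]

theorem h80_coeffMapC_t3Z : coeffMap (Int.castRingHom ℂ) t3Z = h80_T := by
  rw [t3Z, map_mul, coeffMap_single, map_one, coeffMap_ofPowerSeries, h80_map_AZ, h80_T_eq]

/-- the formal `t₃` over `ℂ` is the coefficient embedding of `t3`. -/
theorem h80_cEmb_t3 : cEmb t3 = h80_T := by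
  rw [cEmb, t3, coeffMap_coeffMap, ← h80_coeffMapC_t3Z]
  exact coeffMap_congr (RingHom.ext fun c => by simp) t3Z

/-- **`q`-expansion of the analytic `t₃`.** -/
theorem hasTExp_t3An : HasTExp 1 t3An (cEmb t3) := by
  rw [h80_cEmb_t3]
  exact h80_hasTExp_t3An

theorem h80_cEmb_C (c : ℚ) : cEmb (HahnSeries.C c) = HahnSeries.C (c : ℂ) := by
  rw [cEmb, HahnSeries.C_apply, coeffMap_single, HahnSeries.C_apply]
  rfl

/-! ### the identities over `ℚ` -/

/-- **the `t₃`-identity** in `ℚ((q))`. -/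
theorem t3_identity :
    jq * t3 ^ 3 = (t3 + HahnSeries.C 27) * (t3 + HahnSeries.C 243) ^ 3 := by
  apply h52_cEmb_injective
  have h1 : HasTExp 1 (fun τ => jAn τ * t3An τ ^ 3) (cEmb (jq * t3 ^ 3)) := by
    rw [map_mul, map_pow]
    exact (hasTExp_jAn.mul one_pos (hasTExp_t3An.pow one_pos 3)).congr (fun τ => rfl)
  have h2 : HasTExp 1 (fun τ => (t3An τ + 27) * (t3An τ + 243) ^ 3)
      (cEmb ((t3 + HahnSeries.C 27) * (t3 + HahnSeries.C 243) ^ 3)) := by
    rw [map_mul, map_pow, map_add, map_add, h80_cEmb_C, h80_cEmb_C]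
    have c1 := HasTExp.const 1 ((27 : ℚ) : ℂ)
    have c2 := HasTExp.const 1 ((243 : ℚ) : ℂ)
    exact ((hasTExp_t3An.add c1).mul one_pos ((hasTExp_t3An.add c2).pow one_pos 3)).congr
      (fun τ => by simp)
  have h3 : HasTExp 1 (fun τ => jAn τ * t3An τ ^ 3)
      (cEmb ((t3 + HahnSeries.C 27) * (t3 + HahnSeries.C 243) ^ 3)) :=
    h2.congr (fun τ => (t3An_identity τ).symm)
  exact HasTExp.unique one_pos h1 h3

/-- **the Fricke twin** in `ℚ((q))`. -/
theorem t3_fricke :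
    jSub 3 * t3 = (t3 + HahnSeries.C 27) * (t3 + HahnSeries.C 3) ^ 3 := by
  apply h52_cEmb_injective
  have h1 : HasTExp 1 (fun τ => jAt 3 τ * t3An τ) (cEmb (jSub 3 * t3)) := by
    rw [map_mul]
    exact ((hasTExp_jAt 3 (by norm_num)).mul one_pos hasTExp_t3An).congr (fun τ => rfl)
  have h2 : HasTExp 1 (fun τ => (t3An τ + 27) * (t3An τ + 3) ^ 3)
      (cEmb ((t3 + HahnSeries.C 27) * (t3 + HahnSeries.C 3) ^ 3)) := by
    rw [map_mul, map_pow, map_add, map_add, h80_cEmb_C, h80_cEmb_C]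
    have c1 := HasTExp.const 1 ((27 : ℚ) : ℂ)
    have c2 := HasTExp.const 1 ((3 : ℚ) : ℂ)
    exact ((hasTExp_t3An.add c1).mul one_pos ((hasTExp_t3An.add c2).pow one_pos 3)).congr
      (fun τ => by simp)
  have h3 : HasTExp 1 (fun τ => jAt 3 τ * t3An τ)
      (cEmb ((t3 + HahnSeries.C 27) * (t3 + HahnSeries.C 3) ^ 3)) :=
    h2.congr (fun τ => (t3An_fricke τ).symm)
  exact HasTExp.unique one_pos h1 h3

/-- the Fricke twin with `qExpand ℚ 3 jq` spelled out. -/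
theorem t3_fricke' :
    qExpand ℚ 3 jq * t3 = (t3 + HahnSeries.C 27) * (t3 + HahnSeries.C 3) ^ 3 := by
  have h := t3_fricke
  have e : jSub 3 = qExpand ℚ 3 jq := by
    unfold jSub
    rw [dif_neg (by norm_num)]
  rw [e] at h
  exact h

/-! ### the leading term -/

theorem t3_eq : t3 = HahnSeries.single (-1 : ℤ) 1 *
    HahnSeries.ofPowerSeries ℤ ℚ (h80_AZ.map (Int.castRingHom ℚ)) := by
  rw [t3, t3Z, map_mul, coeffMap_single, map_one, coeffMap_ofPowerSeries]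

/-- `t₃ = q⁻¹ + …`. -/
theorem t3_isMonicOfOrder : IsMonicOfOrder t3 (-1) := by
  rw [t3_eq]
  have h1 := IsMonicOfOrder.single (-1)
  have hc : PowerSeries.constantCoeff (h80_AZ.map (Int.castRingHom ℚ)) = 1 := by
    rw [← PowerSeries.coeff_zero_eq_constantCoeff_apply, PowerSeries.coeff_map,
      PowerSeries.coeff_zero_eq_constantCoeff_apply, h80_constantCoeff_AZ]
    simp
  have h2 := IsMonicOfOrder.ofPowerSeries hc
  have := h1.mul h2
  rwa [add_zero] at this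

theorem t3_ne_zero : t3 ≠ 0 := t3_isMonicOfOrder.ne_zero

end Fermat.Agent.Red.SM.TID
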