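import Fermat.Agent.Red.SM.TID3Id
import Fermat.Agent.Red.SM.TID2

/-!
# P-RED / SM-TID (ℓ = 2): the formal Hauptmodul `t₃ = (η(q)/η(q³))^12 ∈ ℚ((q))`

Transfer of the analytic identities `t3An_identity`, `t3An_fricke` (helper80) to `ℚ((q))`:

* `t3q = q⁻¹ ∏ ((1 - qⁿ)/(1 - q^{3n}))^12`;
* `t3q_identity : jq * t3q ^ 3 = (t3q + C 27) * (t3q + C 243) ^ 3`;
* `t3q_fricke : qExpand ℚ 3 jq * t3q = (t3q + C 27) * (t3q + C 3) ^ 3`;
* `t3q_isMonicOfOrder`, `t3q_coeff_int`.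
-/

set_option autoImplicit false

open ModularCurve UpperHalfPlane Complex
open scoped MatrixGroups Manifold

noncomputable section

namespace Fermat.Agent.Red.SM.TID29

open Fermat.Agent.S28 Fermat.Agent.Red.SM.TID

/-- the formal Euler product over `ℚ`. -/
def eQ : LaurentSeries ℚ := HahnSeries.ofPowerSeries ℤ ℚ (etaProd.map (Int.castRingHom ℚ))

/-- the formal `t₃` over `ℚ`. -/
def t3q : LaurentSeries ℚ :=
  (HahnSeries.single (1 : ℤ) (1 : ℚ))⁻¹ * (eQ ^ 12 * ((qExpand ℚ 3 eQ) ^ 12)⁻¹)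

theorem cEmb_eQ : cEmb eQ = h80_E := by
  rw [eQ, h80_E, cEmb, coeffMap_ofPowerSeries, h19_map_map_int]

theorem cEmb_single_one :
    cEmb (HahnSeries.single (1 : ℤ) (1 : ℚ)) = HahnSeries.single (1 : ℤ) (1 : ℂ) := by
  rw [cEmb, coeffMap_single, map_one]

theorem cEmb_t3q : cEmb t3q = h80_T := by
  rw [h80_T_def, t3q, map_mul, map_inv₀, map_mul, map_pow, map_inv₀, map_pow, h19_cEmb_qExpand,
    cEmb_eQ, cEmb_single_one]

theorem hasTExp_t3An_q : HasTExp 1 t3An (cEmb t3q) := by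
  rw [cEmb_t3q]
  exact h80_hasTExp_t3An

/-- **`j · t₃³ = (t₃ + 27)(t₃ + 243)³`** in `ℚ((q))`. -/
theorem t3q_identity :
    jq * t3q ^ 3 = (t3q + HahnSeries.C 27) * (t3q + HahnSeries.C 243) ^ 3 := by
  apply cEmb_injective
  rw [map_mul, map_pow, map_mul, map_pow, map_add, map_add, cEmb_C, cEmb_C]
  have h1 : HasTExp 1 (fun τ => jAn τ * t3An τ ^ 3) (cEmb jq * cEmb t3q ^ 3) :=
    (hasTExp_jAn.mul one_pos (hasTExp_t3An_q.pow one_pos 3)).congr (fun _ => rfl)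
  have h2 : HasTExp 1 (fun τ => (t3An τ + 27) * (t3An τ + 243) ^ 3)
      ((cEmb t3q + HahnSeries.C (27 : ℂ)) * (cEmb t3q + HahnSeries.C (243 : ℂ)) ^ 3) :=
    ((hasTExp_t3An_q.add (HasTExp.const 1 27)).mul one_pos
      ((hasTExp_t3An_q.add (HasTExp.const 1 243)).pow one_pos 3)).congr (fun _ => rfl)
  have h3 := h1.congr t3An_identity
  have e1 : (((27 : ℚ)) : ℂ) = 27 := by norm_num
  have e2 : (((243 : ℚ)) : ℂ) = 243 := by norm_num
  rw [e1, e2]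
  exact HasTExp.unique one_pos h3 h2

theorem jSub_three : jSub 3 = qExpand ℚ 3 jq := by
  rw [jSub, dif_neg (by norm_num)]

/-- **`j(q³) · t₃ = (t₃ + 27)(t₃ + 3)³`** in `ℚ((q))`. -/
theorem t3q_fricke :
    qExpand ℚ 3 jq * t3q = (t3q + HahnSeries.C 27) * (t3q + HahnSeries.C 3) ^ 3 := by
  rw [← jSub_three]
  apply cEmb_injective
  rw [map_mul, map_mul, map_pow, map_add, map_add, cEmb_C, cEmb_C]
  have h1 : HasTExp 1 (fun τ => jAt 3 τ * t3An τ) (cEmb (jSub 3) * cEmb t3q) :=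
    ((hasTExp_jAt 3 (by norm_num)).mul one_pos hasTExp_t3An_q).congr (fun _ => rfl)
  have h2 : HasTExp 1 (fun τ => (t3An τ + 27) * (t3An τ + 3) ^ 3)
      ((cEmb t3q + HahnSeries.C (27 : ℂ)) * (cEmb t3q + HahnSeries.C (3 : ℂ)) ^ 3) :=
    ((hasTExp_t3An_q.add (HasTExp.const 1 27)).mul one_pos
      ((hasTExp_t3An_q.add (HasTExp.const 1 3)).pow one_pos 3)).congr (fun _ => rfl)
  have h3 := h1.congr t3An_fricke
  have e1 : (((27 : ℚ)) : ℂ) = 27 := by norm_num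
  have e2 : (((3 : ℚ)) : ℂ) = 3 := by norm_num
  rw [e1, e2]
  exact HasTExp.unique one_pos h3 h2

/-! ### integrality -/

theorem eQ_intMonic : h52_IntMonic eQ 0 := by
  refine ⟨etaProd, constantCoeff_etaProd, ?_⟩
  rw [eQ]
  have e : (HahnSeries.single (0 : ℤ) (1 : ℚ) : LaurentSeries ℚ) = 1 := rfl
  rw [e, one_mul]

theorem single_one_intMonic : h52_IntMonic (HahnSeries.single (1 : ℤ) (1 : ℚ)) 1 := by
  refine ⟨1, by simp, ?_⟩
  simp

theorem t3q_intMonic : h52_IntMonic t3q (-1) := by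
  have h := single_one_intMonic.inv.mul
    ((eQ_intMonic.pow 12).mul ((eQ_intMonic.qExpand 3).pow 12).inv)
  have e : (-1 : ℤ) + (((12 : ℕ) : ℤ) * 0 + -(((12 : ℕ) : ℤ) * (((3 : ℕ) : ℤ) * 0))) = -1 := by
    norm_num
  rw [e] at h
  exact h

/-- `t₃ = q⁻¹ + …`. -/
theorem t3q_isMonicOfOrder : IsMonicOfOrder t3q (-1) :=
  t3q_intMonic.isMonicOfOrder

/-- `t₃` has integer coefficients. -/
theorem t3q_coeff_int (n : ℤ) : ∃ m : ℤ, t3q.coeff n = m :=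
  t3q_intMonic.coeff_int n

end Fermat.Agent.Red.SM.TID29
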