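import Fermat.Agent.Red.SM.TID3Jet

/-!
# P-RED / R-SM, leaf SM-TID (case `ℓ = 2`): the four conjugates of `t₃`

The conjugates of `t = t₃` under `SL₂(ℤ)` are `t` and `V_b(τ) = 729 / t((τ + b)/3)`, `b = 0, 1, 2`.
`T` permutes them as `(t)(V₀ V₁ V₂)` and `S` as `(t V₀)(V₁ V₂)`; only the periodicity and the
Fricke relation of `t` are used.
-/

set_option autoImplicit false

open ModularCurve UpperHalfPlane Complex
open scoped MatrixGroups Manifold Real

noncomputable section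

namespace Fermat.Agent.Red.SM.TID

open Fermat.Agent.S28

/-! ### the conjugates as functions on `ℂ` -/

/-- `V_b(z) = 729 / t₃((z + b)/3)`. -/
def h80_VC (b : ℤ) (z : ℂ) : ℂ := 729 * (h80_tC ((z + b) / 3))⁻¹

theorem h80_im_div3 {z : ℂ} (hz : 0 < z.im) (b : ℤ) : 0 < ((z + b) / 3).im := by
  have h : ((z + b) / 3).im = z.im / 3 := by
    rw [show (z + (b : ℂ)) / 3 = (z + (b : ℂ)) * ((3 : ℝ) : ℂ)⁻¹ by push_cast; ring]
    rw [← Complex.ofReal_inv, Complex.im_mul_ofReal]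
    simp
    ring
  rw [h]
  positivity

theorem h80_im_S {z : ℂ} (hz : 0 < z.im) : 0 < (-1 / z).im := by
  have := UpperHalfPlane.im_inv_neg_coe_pos (⟨z, hz⟩ : ℍ)
  have h2 : (-1 / z) = (-(z : ℂ))⁻¹ := by
    rw [neg_div, one_div, inv_neg]
  rw [h2]
  exact this

theorem h80_ne_zero_of_im {z : ℂ} (hz : 0 < z.im) : z ≠ 0 := fun h => by simp [h] at hz

theorem h80_VC_ne_zero {z : ℂ} (hz : 0 < z.im) (b : ℤ) : h80_VC b z ≠ 0 :=
  mul_ne_zero (by norm_num) (inv_ne_zero (h80_tC_ne_zero (h80_im_div3 hz b)))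

/-- `T`: `V_b(z + 1) = V_{b+1}(z)`. -/
theorem h80_VC_add_one (b : ℤ) (z : ℂ) : h80_VC b (z + 1) = h80_VC (b + 1) z := by
  unfold h80_VC
  congr 3
  push_cast
  ring

/-- `V₃ = V₀`. -/
theorem h80_VC_three (z : ℂ) : h80_VC 3 z = h80_VC 0 z := by
  unfold h80_VC
  have h : (z + ((3 : ℤ) : ℂ)) / 3 = (z + ((0 : ℤ) : ℂ)) / 3 + ((1 : ℤ) : ℂ) := by
    push_cast
    ring
  rw [h, h80_tC_add_int]

/-- `S`: `t(-1/z) = V₀(z)`. -/
theorem h80_tC_S {z : ℂ} (hz : 0 < z.im) : h80_tC (-1 / z) = h80_VC 0 z := by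
  have hz0 := h80_ne_zero_of_im hz
  have h3 := h80_im_div3 hz 0
  have hf := h80_fricke h3
  have e : 3 * ((z + ((0 : ℤ) : ℂ)) / 3) = z := by
    push_cast
    ring
  rw [e] at hf
  unfold h80_VC
  have hne := h80_tC_ne_zero h3
  rw [eq_mul_inv_iff_mul_eq₀ hne]
  exact hf

/-- `S`: `V₀(-1/z) = t(z)`. -/
theorem h80_VC_zero_S {z : ℂ} (hz : 0 < z.im) : h80_VC 0 (-1 / z) = h80_tC z := by
  have hz0 := h80_ne_zero_of_im hz
  have hf := h80_fricke hz
  have e : (-1 / z + ((0 : ℤ) : ℂ)) / 3 = -1 / (3 * z) := by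
    push_cast
    rw [add_zero, div_div, mul_comm]
  unfold h80_VC
  rw [e]
  have hne := h80_tC_ne_zero (h80_im_fricke hz)
  rw [← hf, mul_comm (h80_tC (-1 / (3 * z))) (h80_tC z), mul_assoc, mul_inv_cancel₀ hne, mul_one]

/-- `S`: `V₁(-1/z) = V₂(z)`. -/
theorem h80_VC_one_S {z : ℂ} (hz : 0 < z.im) : h80_VC 1 (-1 / z) = h80_VC 2 z := by
  have hz0 := h80_ne_zero_of_im hz
  -- `u = (z - 1)/3`
  have hu : 0 < ((z + ((-1 : ℤ) : ℂ)) / 3).im := h80_im_div3 hz (-1)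
  set u : ℂ := (z + ((-1 : ℤ) : ℂ)) / 3 with hudef
  have hu0 := h80_ne_zero_of_im hu
  have hz1 : z - 1 ≠ 0 := by
    intro h
    apply hu0
    rw [hudef]
    push_cast
    rw [← sub_eq_add_neg, h, zero_div]
  -- `u₂ = -1/(3u) - 1`
  have hw : 0 < (-1 / (3 * u)).im := h80_im_fricke hu
  have hu2 : 0 < (-1 / (3 * u) + ((-1 : ℤ) : ℂ)).im := by
    simpa using hw
  have h1 := h80_fricke hu
  have h2 := h80_fricke hu2
  rw [h80_tC_add_int] at h2
  have h3u : 3 * u = z - 1 := by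
    rw [hudef]
    push_cast
    ring
  have e2a : -1 / (3 * u) + ((-1 : ℤ) : ℂ) = -z / (z - 1) := by
    rw [h3u]
    push_cast
    field_simp
    ring
  have e2 : -1 / (3 * (-1 / (3 * u) + ((-1 : ℤ) : ℂ))) = (-1 / z + ((1 : ℤ) : ℂ)) / 3 := by
    rw [e2a]
    push_cast
    field_simp
    ring
  have e3 : (z + ((2 : ℤ) : ℂ)) / 3 = u + ((1 : ℤ) : ℂ) := by
    rw [hudef]
    push_cast
    ring
  rw [e2] at h2
  unfold h80_VC
  rw [e3, h80_tC_add_int]
  have hne1 := h80_tC_ne_zero hu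
  have hne2 := h80_tC_ne_zero hw
  have key : h80_tC ((-1 / z + ((1 : ℤ) : ℂ)) / 3) = h80_tC u := by
    apply mul_right_cancel₀ hne2
    rw [h2, mul_comm, h1]
  rw [key]

/-- `S`: `V₂(-1/z) = V₁(z)`. -/
theorem h80_VC_two_S {z : ℂ} (hz : 0 < z.im) : h80_VC 2 (-1 / z) = h80_VC 1 z := by
  have hz0 := h80_ne_zero_of_im hz
  have h := h80_VC_one_S (h80_im_S hz)
  have e : -1 / (-1 / z) = z := by
    field_simp
  rw [e] at h
  exact h.symm

/-! ### elementary symmetric functions of four variables -/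

/-- `e₁`. -/
def h80_e1 {R : Type*} [CommRing R] (a b c d : R) : R := a + (b + c + d)

/-- `e₂`. -/
def h80_e2 {R : Type*} [CommRing R] (a b c d : R) : R := a * (b + c + d) + (b * c + b * d + c * d)

/-- `e₃`. -/
def h80_e3 {R : Type*} [CommRing R] (a b c d : R) : R := a * (b * c + b * d + c * d) + b * c * d

/-- `e₄`. -/
def h80_e4 {R : Type*} [CommRing R] (a b c d : R) : R := a * (b * c * d)

/-- a polynomial in the conjugates. -/
def h80_sym (P : ℂ → ℂ → ℂ → ℂ → ℂ) (z : ℂ) : ℂ :=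
  P (h80_tC z) (h80_VC 0 z) (h80_VC 1 z) (h80_VC 2 z)

theorem h80_sym_T (P : ℂ → ℂ → ℂ → ℂ → ℂ) (hP : ∀ a b c d, P a c d b = P a b c d) (z : ℂ) :
    h80_sym P (z + 1) = h80_sym P z := by
  unfold h80_sym
  have h0 : h80_tC (z + 1) = h80_tC z := by
    have := h80_tC_add_int z 1
    simpa using this
  rw [h0, h80_VC_add_one, h80_VC_add_one, h80_VC_add_one]
  norm_num
  rw [h80_VC_three]
  exact hP _ _ _ _

theorem h80_sym_S (P : ℂ → ℂ → ℂ → ℂ → ℂ) (hP : ∀ a b c d, P b a d c = P a b c d) {z : ℂ}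
    (hz : 0 < z.im) : h80_sym P (-1 / z) = h80_sym P z := by
  unfold h80_sym
  rw [h80_tC_S hz, h80_VC_zero_S hz, h80_VC_one_S hz, h80_VC_two_S hz]
  exact hP _ _ _ _

/-! ### functions on `ℍ` -/

/-- a function on `ℍ` invariant under `S` and `T` is `SL₂(ℤ)`-invariant. -/
theorem h80_inv_of_ST (g : ℍ → ℂ) (hS : ∀ τ, g (ModularGroup.S • τ) = g τ)
    (hT : ∀ τ, g (ModularGroup.T • τ) = g τ) (γ : SL(2, ℤ)) (τ : ℍ) : g (γ • τ) = g τ := by
  have hγ : γ ∈ Subgroup.closure {ModularGroup.S, ModularGroup.T} := by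
    simp [SpecialLinearGroup.SL2Z_generators]
  induction hγ using Subgroup.closure_induction generalizing τ with
  | one => rw [one_smul]
  | mem x hx =>
    simp only [Set.mem_insert_iff, Set.mem_singleton_iff] at hx
    rcases hx with rfl | rfl
    · exact hS τ
    · exact hT τ
  | mul x y _ _ hx hy => rw [mul_smul, hx, hy]
  | inv x _ hx =>
    have := hx (x⁻¹ • τ)
    rw [smul_inv_smul] at this
    exact this.symm

/-- the function on `ℍ` attached to a polynomial in the conjugates. -/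
def h80_symH (P : ℂ → ℂ → ℂ → ℂ → ℂ) (τ : ℍ) : ℂ := h80_sym P (τ : ℂ)

theorem h80_symH_smul (P : ℂ → ℂ → ℂ → ℂ → ℂ) (hT : ∀ a b c d, P a c d b = P a b c d)
    (hS : ∀ a b c d, P b a d c = P a b c d) (γ : SL(2, ℤ)) (τ : ℍ) :
    h80_symH P (γ • τ) = h80_symH P τ := by
  refine h80_inv_of_ST _ (fun τ => ?_) (fun τ => ?_) γ τ
  · unfold h80_symH
    rw [UpperHalfPlane.modular_S_smul]
    have e : ((UpperHalfPlane.mk (-(τ : ℂ))⁻¹ τ.im_inv_neg_coe_pos : ℍ) : ℂ) = -1 / (τ : ℂ) := by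
      rw [UpperHalfPlane.coe_mk, neg_div, one_div, inv_neg]
    rw [e]
    exact h80_sym_S P hS τ.im_pos
  · unfold h80_symH
    rw [UpperHalfPlane.modular_T_smul, UpperHalfPlane.coe_vadd]
    have e : (((1 : ℝ) : ℂ) + (τ : ℂ)) = (τ : ℂ) + 1 := by
      push_cast
      ring
    rw [e]
    exact h80_sym_T P hT τ

end Fermat.Agent.Red.SM.TID
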