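import Fermat.Agent.Red.SM.TID3Id
import Fermat.Agent.Red.SM.TIDRow55

/-!
# P-RED / R-SM, SM-TID: analytic ⇒ formal transfer for the Hauptmoduln `t₂`, `t₃` (helper13)

* generic transfer (`HasTExp.unique`): an analytic identity between `jAn` (resp. `jAt p`) and a
  function `tAn` with `HasTExp 1 tAn (cEmb t)` gives the identity in `LaurentSeries ℚ`;
* the formal series `h13t_t p k = q⁻¹ (E(q) / E(q^p))^k` over `ℚ`, image of an explicit series over
  `ℤ` with leading term `q⁻¹`; its analytic counterpart `h13t_An p k`;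
* level 3 (`ℓ = 2`): `h13t_data3 : h55t_Data3 (h13t_t 3 12)` from helper80's analytic identities;
* level 2 (`ℓ = 3`): `h13t_data2_of`, from the two analytic identities of `h13t_An 2 24`.
-/

set_option autoImplicit false

open ModularCurve UpperHalfPlane Complex
open scoped MatrixGroups Manifold Real

noncomputable section

namespace Fermat.Agent.Red.SM.TID13

open Fermat.Agent.S28 Fermat.Agent.Red.SM.TID

/-! ### generic transfer -/

theorem h13t_cEmb_injective : Function.Injective cEmb :=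
  (cEmb : LaurentSeries ℚ →+* LaurentSeries ℂ).injective

theorem h13t_cEmb_C (a : ℚ) :
    cEmb (HahnSeries.C a : LaurentSeries ℚ) = HahnSeries.C ((a : ℚ) : ℂ) := by
  show coeffMap (algebraMap ℚ ℂ) (HahnSeries.C a) = _
  rw [HahnSeries.C_apply, coeffMap_single, HahnSeries.C_apply]
  rfl

theorem h13t_hasTExp_addC {tAn : ℍ → ℂ} {s : LaurentSeries ℂ} (h : HasTExp 1 tAn s) (c : ℂ) :
    HasTExp 1 (fun τ => tAn τ + c) (s + HahnSeries.C c) :=
  (h.add (HasTExp.const 1 c)).congr (fun _ => rfl)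

theorem h13t_jSub (d : ℕ) [NeZero d] : jSub d = qExpand ℚ d jq := by
  rw [jSub, dif_neg (NeZero.ne d)]

/-- level 2, main identity. -/
theorem h13t_rel_two {t : LaurentSeries ℚ} {tAn : ℍ → ℂ} (hT : HasTExp 1 tAn (cEmb t))
    (hid : ∀ τ, jAn τ * tAn τ ^ 2 = (tAn τ + 256) ^ 3) :
    jq * t ^ 2 = (t + HahnSeries.C 256) ^ 3 := by
  apply h13t_cEmb_injective
  rw [map_mul, map_pow, map_pow, map_add, h13t_cEmb_C]
  have h1 : HasTExp 1 (fun τ => jAn τ * tAn τ ^ 2) (cEmb jq * cEmb t ^ 2) :=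
    (hasTExp_jAn.mul one_pos (hT.pow one_pos 2)).congr (fun _ => rfl)
  have h2 : HasTExp 1 (fun τ => (tAn τ + 256) ^ 3) ((cEmb t + HahnSeries.C 256) ^ 3) :=
    ((h13t_hasTExp_addC hT 256).pow one_pos 3).congr (fun _ => rfl)
  have h3 := HasTExp.unique one_pos (h1.congr hid) h2
  rw [h3]
  norm_num

/-- level 2, Fricke twin. -/
theorem h13t_fricke_two {t : LaurentSeries ℚ} {tAn : ℍ → ℂ} (hT : HasTExp 1 tAn (cEmb t))
    (hfr : ∀ τ, jAt 2 τ * tAn τ = (tAn τ + 16) ^ 3) :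
    qExpand ℚ 2 jq * t = (t + HahnSeries.C 16) ^ 3 := by
  apply h13t_cEmb_injective
  rw [map_mul, map_pow, map_add, h13t_cEmb_C, ← h13t_jSub 2]
  have h1 : HasTExp 1 (fun τ => jAt 2 τ * tAn τ) (cEmb (jSub 2) * cEmb t) :=
    ((hasTExp_jAt 2 (by norm_num)).mul one_pos hT).congr (fun _ => rfl)
  have h2 : HasTExp 1 (fun τ => (tAn τ + 16) ^ 3) ((cEmb t + HahnSeries.C 16) ^ 3) :=
    ((h13t_hasTExp_addC hT 16).pow one_pos 3).congr (fun _ => rfl)
  have h3 := HasTExp.unique one_pos (h1.congr hfr) h2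
  rw [h3]
  norm_num

/-- level 3, main identity. -/
theorem h13t_rel_three {t : LaurentSeries ℚ} {tAn : ℍ → ℂ} (hT : HasTExp 1 tAn (cEmb t))
    (hid : ∀ τ, jAn τ * tAn τ ^ 3 = (tAn τ + 27) * (tAn τ + 243) ^ 3) :
    jq * t ^ 3 = (t + HahnSeries.C 27) * (t + HahnSeries.C 243) ^ 3 := by
  apply h13t_cEmb_injective
  rw [map_mul, map_pow, map_mul, map_pow, map_add, map_add, h13t_cEmb_C, h13t_cEmb_C]
  have h1 : HasTExp 1 (fun τ => jAn τ * tAn τ ^ 3) (cEmb jq * cEmb t ^ 3) :=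
    (hasTExp_jAn.mul one_pos (hT.pow one_pos 3)).congr (fun _ => rfl)
  have h2 : HasTExp 1 (fun τ => (tAn τ + 27) * (tAn τ + 243) ^ 3)
      ((cEmb t + HahnSeries.C 27) * (cEmb t + HahnSeries.C 243) ^ 3) :=
    ((h13t_hasTExp_addC hT 27).mul one_pos ((h13t_hasTExp_addC hT 243).pow one_pos 3)).congr
      (fun _ => rfl)
  have h3 := HasTExp.unique one_pos (h1.congr hid) h2
  rw [h3]
  norm_num

/-- level 3, Fricke twin. -/
theorem h13t_fricke_three {t : LaurentSeries ℚ} {tAn : ℍ → ℂ} (hT : HasTExp 1 tAn (cEmb t))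
    (hfr : ∀ τ, jAt 3 τ * tAn τ = (tAn τ + 27) * (tAn τ + 3) ^ 3) :
    qExpand ℚ 3 jq * t = (t + HahnSeries.C 27) * (t + HahnSeries.C 3) ^ 3 := by
  apply h13t_cEmb_injective
  rw [map_mul, map_mul, map_pow, map_add, map_add, h13t_cEmb_C, h13t_cEmb_C, ← h13t_jSub 3]
  have h1 : HasTExp 1 (fun τ => jAt 3 τ * tAn τ) (cEmb (jSub 3) * cEmb t) :=
    ((hasTExp_jAt 3 (by norm_num)).mul one_pos hT).congr (fun _ => rfl)
  have h2 : HasTExp 1 (fun τ => (tAn τ + 27) * (tAn τ + 3) ^ 3)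
      ((cEmb t + HahnSeries.C 27) * (cEmb t + HahnSeries.C 3) ^ 3) :=
    ((h13t_hasTExp_addC hT 27).mul one_pos ((h13t_hasTExp_addC hT 3).pow one_pos 3)).congr
      (fun _ => rfl)
  have h3 := HasTExp.unique one_pos (h1.congr hfr) h2
  rw [h3]
  norm_num

/-! ### the formal series over `ℤ` -/

/-- `p(X^d)` for a power series over any ring. -/
def h13t_expand {R : Type*} [CommRing R] (d : ℕ) (p : PowerSeries R) : PowerSeries R :=
  PowerSeries.mk fun n => if d ∣ n then PowerSeries.coeff (n / d) p else 0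

theorem h13t_qExpand_ofPowerSeries {R : Type*} [CommRing R] (d : ℕ) [NeZero d]
    (p : PowerSeries R) :
    qExpand R d (HahnSeries.ofPowerSeries ℤ R p) =
      HahnSeries.ofPowerSeries ℤ R (h13t_expand d p) := by
  have hd : 0 < d := Nat.pos_of_ne_zero (NeZero.ne d)
  ext k
  rcases le_or_gt 0 k with hk | hk
  · lift k to ℕ using hk
    rw [HahnSeries.ofPowerSeries_apply_coeff, h13t_expand, PowerSeries.coeff_mk]
    split_ifs with h
    · obtain ⟨m, rfl⟩ := h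
      rw [Nat.mul_div_cancel_left _ hd]
      push_cast
      rw [qExpand_coeff_mul, HahnSeries.ofPowerSeries_apply_coeff]
    · apply qExpand_coeff_of_not_dvd
      intro h'
      exact h (by exact_mod_cast h')
  · rw [ofPowerSeries_coeff_of_neg _ hk]
    by_cases h : (d : ℤ) ∣ k
    · obtain ⟨m, rfl⟩ := h
      rw [qExpand_coeff_mul]
      apply ofPowerSeries_coeff_of_neg
      have : (0 : ℤ) < d := by exact_mod_cast hd
      by_contra hm
      rw [not_lt] at hm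
      nlinarith
    · exact qExpand_coeff_of_not_dvd _ _ h

theorem h13t_expand_map {R S : Type*} [CommRing R] [CommRing S] (f : R →+* S) (d : ℕ)
    (p : PowerSeries R) : (h13t_expand d p).map f = h13t_expand d (p.map f) := by
  ext n
  rw [PowerSeries.coeff_map, h13t_expand, h13t_expand, PowerSeries.coeff_mk, PowerSeries.coeff_mk]
  split_ifs with h
  · rw [PowerSeries.coeff_map]
  · rw [map_zero]

theorem h13t_constantCoeff_expand {R : Type*} [CommRing R] (d : ℕ) (p : PowerSeries R) :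
    PowerSeries.constantCoeff (h13t_expand d p) = PowerSeries.constantCoeff p := by
  rw [← PowerSeries.coeff_zero_eq_constantCoeff_apply, ← PowerSeries.coeff_zero_eq_constantCoeff_apply,
    h13t_expand, PowerSeries.coeff_mk, if_pos (dvd_zero d), Nat.zero_div]

theorem h13t_constantCoeff_etaProd : PowerSeries.constantCoeff etaProd = 1 := by
  rw [← PowerSeries.coeff_zero_eq_constantCoeff_apply]
  exact h80_coeff_etaProd_zero

/-- the denominator `E(q^p)^k` over `ℤ`. -/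
def h13t_uZ (p k : ℕ) : PowerSeries ℤ := h13t_expand p etaProd ^ k

theorem h13t_constantCoeff_uZ (p k : ℕ) : PowerSeries.constantCoeff (h13t_uZ p k) = 1 := by
  rw [h13t_uZ, map_pow, h13t_constantCoeff_expand, h13t_constantCoeff_etaProd, one_pow]

/-- the power series part `(E(q) / E(q^p))^k` over `ℤ`. -/
def h13t_gZ (p k : ℕ) : PowerSeries ℤ :=
  etaProd ^ k * PowerSeries.invOfUnit (h13t_uZ p k) 1

theorem h13t_uZ_mul_inv (p k : ℕ) :
    h13t_uZ p k * PowerSeries.invOfUnit (h13t_uZ p k) 1 = 1 :=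
  PowerSeries.mul_invOfUnit _ _ (by rw [h13t_constantCoeff_uZ]; rfl)

theorem h13t_constantCoeff_gZ (p k : ℕ) : PowerSeries.constantCoeff (h13t_gZ p k) = 1 := by
  have h := congrArg PowerSeries.constantCoeff (h13t_uZ_mul_inv p k)
  rw [map_mul, h13t_constantCoeff_uZ, one_mul, map_one] at h
  rw [h13t_gZ, map_mul, map_pow, h13t_constantCoeff_etaProd, one_pow, one_mul, h]

/-- the series `q⁻¹ (E(q) / E(q^p))^k` over `ℤ`. -/
def h13t_yZ (p k : ℕ) : LaurentSeries ℤ :=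
  HahnSeries.single (-1 : ℤ) 1 * HahnSeries.ofPowerSeries ℤ ℤ (h13t_gZ p k)

/-- the series `q⁻¹ (E(q) / E(q^p))^k` over `ℚ`. -/
def h13t_t (p k : ℕ) : LaurentSeries ℚ := coeffMap (Int.castRingHom ℚ) (h13t_yZ p k)

theorem h13t_intMonic (p k : ℕ) : TID55.h55t_IntMonic (h13t_t p k) := by
  refine ⟨h13t_yZ p k, rfl, fun n hn => ?_, ?_⟩
  · have h := HahnSeries.coeff_single_mul_add (r := (1 : ℤ))
      (x := HahnSeries.ofPowerSeries ℤ ℤ (h13t_gZ p k)) (a := n + 1) (b := -1)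
    rw [show n + 1 + -1 = n by ring] at h
    rw [h13t_yZ, h, one_mul]
    exact ofPowerSeries_coeff_of_neg _ (by omega)
  · have h := HahnSeries.coeff_single_mul_add (r := (1 : ℤ))
      (x := HahnSeries.ofPowerSeries ℤ ℤ (h13t_gZ p k)) (a := 0) (b := -1)
    rw [show (0 : ℤ) + -1 = -1 by ring] at h
    rw [h13t_yZ, h, one_mul]
    have h2 := HahnSeries.ofPowerSeries_apply_coeff (Γ := ℤ) (h13t_gZ p k) 0
    rw [Nat.cast_zero] at h2
    rw [h2, PowerSeries.coeff_zero_eq_constantCoeff_apply, h13t_constantCoeff_gZ]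

/-- the expansion over `ℂ`. -/
theorem h13t_cEmb_t (p k : ℕ) [NeZero p] :
    cEmb (h13t_t p k) =
      (HahnSeries.single (1 : ℤ) (1 : ℂ))⁻¹ * (h80_E ^ k * ((qExpand ℂ p h80_E) ^ k)⁻¹) := by
  have hf : (algebraMap ℚ ℂ).comp (Int.castRingHom ℚ) = Int.castRingHom ℂ :=
    RingHom.ext_int _ _
  have h1 : cEmb (h13t_t p k) = coeffMap (Int.castRingHom ℂ) (h13t_yZ p k) := by
    rw [h13t_t]
    show coeffMap (algebraMap ℚ ℂ) (coeffMap (Int.castRingHom ℚ) (h13t_yZ p k)) = _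
    rw [coeffMap_coeffMap, hf]
  rw [h1, h13t_yZ, map_mul, coeffMap_single, map_one, coeffMap_ofPowerSeries, h13t_gZ, map_mul,
    map_pow, map_mul, map_pow, h80_single_one_inv]
  have hE : HahnSeries.ofPowerSeries ℤ ℂ (etaProd.map (Int.castRingHom ℂ)) = h80_E := rfl
  have hu : HahnSeries.ofPowerSeries ℤ ℂ ((h13t_uZ p k).map (Int.castRingHom ℂ)) =
      (qExpand ℂ p h80_E) ^ k := by
    rw [h13t_uZ, map_pow, map_pow, h13t_expand_map, ← h13t_qExpand_ofPowerSeries, hE]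
  have hinv : HahnSeries.ofPowerSeries ℤ ℂ
      ((PowerSeries.invOfUnit (h13t_uZ p k) 1).map (Int.castRingHom ℂ)) =
      ((qExpand ℂ p h80_E) ^ k)⁻¹ := by
    have h := congrArg (fun x => HahnSeries.ofPowerSeries ℤ ℂ (x.map (Int.castRingHom ℂ)))
      (h13t_uZ_mul_inv p k)
    simp only [map_mul, map_one] at h
    rw [hu] at h
    exact eq_inv_of_mul_eq_one_right h
  rw [hE, hinv]

/-! ### the analytic function -/

/-- `q⁻¹ (P(q) / P(q^p))^k`, `q = exp(2πiτ)`. -/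
def h13t_An (p k : ℕ) (τ : ℍ) : ℂ :=
  (tParam 1 τ)⁻¹ * (h80_Pq (tParam 1 τ) ^ k * (h80_Pq (tParam 1 τ ^ p) ^ k)⁻¹)

theorem h13t_hasTExp_An (p k : ℕ) [NeZero p] :
    HasTExp 1 (h13t_An p k) (cEmb (h13t_t p k)) := by
  rw [h13t_cEmb_t]
  have hp : 0 < p := Nat.pos_of_ne_zero (NeZero.ne p)
  have h1 : HasTExp 1 (fun τ => h80_Pq (tParam 1 τ ^ p)) (qExpand ℂ p h80_E) :=
    (h80_hasTExp_Pq.scale p).congr (fun τ => by rw [h19_tParam_scaleH 1 p hp])
  have h2 : HasTExp 1 (fun τ => (h80_Pq (tParam 1 τ ^ p) ^ k)⁻¹)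
      ((qExpand ℂ p h80_E) ^ k)⁻¹ :=
    ((h1.pow one_pos k).congr (fun τ => by simp only [Pi.pow_apply])).inv one_pos (fun τ => by
      have hq : ‖tParam 1 τ ^ p‖ < 1 := by
        rw [norm_pow]
        exact pow_lt_one₀ (norm_nonneg _) (norm_tParam_lt_one one_pos τ) (NeZero.ne p)
      exact pow_ne_zero k (h80_Pq_ne_zero hq))
  have h3 : HasTExp 1 (fun τ => h80_Pq (tParam 1 τ) ^ k) (h80_E ^ k) :=
    (h80_hasTExp_Pq.pow one_pos k).congr (fun τ => by simp only [Pi.pow_apply])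
  exact (h80_hasTExp_aux1.mul one_pos (h3.mul one_pos h2)).congr (fun τ => by
    simp only [Pi.mul_apply, h13t_An])

theorem h13t_t3An_eq (τ : ℍ) : t3An τ = h13t_An 3 12 τ := by
  rw [t3An, h80_tC, ← h80_tParam_one, h80_tq, h13t_An]

/-! ### the two packages -/

/-- **level 3** (`ℓ = 2`), unconditional. -/
theorem h13t_data3 : TID55.h55t_Data3 (h13t_t 3 12) where
  ident := h13t_rel_three (h13t_hasTExp_An 3 12) (fun τ => by
    rw [← h13t_t3An_eq]; exact t3An_identity τ)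
  fricke := h13t_fricke_three (h13t_hasTExp_An 3 12) (fun τ => by
    rw [← h13t_t3An_eq]; exact t3An_fricke τ)
  int := h13t_intMonic 3 12

/-- **level 2** (`ℓ = 3`), from the two analytic identities of
`t₂ = q⁻¹ (P(q) / P(q²))^24 = Δ(τ)/Δ(2τ)`. -/
theorem h13t_data2_of
    (hid : ∀ τ : ℍ, jAn τ * h13t_An 2 24 τ ^ 2 = (h13t_An 2 24 τ + 256) ^ 3)
    (hfr : ∀ τ : ℍ, jAt 2 τ * h13t_An 2 24 τ = (h13t_An 2 24 τ + 16) ^ 3) :
    TID55.h55t_Data2 (h13t_t 2 24) where
  ident := h13t_rel_two (h13t_hasTExp_An 2 24) hid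
  fricke := h13t_fricke_two (h13t_hasTExp_An 2 24) hfr
  int := h13t_intMonic 2 24

/-- `RowTID` from the two analytic identities at level 2. -/
theorem h13t_rowTID_of
    (hid : ∀ τ : ℍ, jAn τ * h13t_An 2 24 τ ^ 2 = (h13t_An 2 24 τ + 256) ^ 3)
    (hfr : ∀ τ : ℍ, jAt 2 τ * h13t_An 2 24 τ = (h13t_An 2 24 τ + 16) ^ 3) :
    Inst.RowTID :=
  TID55.h55t_rowTID (h13t_data2_of hid hfr) h13t_data3

end Fermat.Agent.Red.SM.TID13
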