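import Fermat.Agent.Red.SM.TIDGlueAbs31
import Fermat.Agent.Red.SM.InstSkeleton
import Fermat.Agent.Red.SM.Unram
import Fermat.Agent.S24.CuspEmb
import Fermat.Agent.S21.C1.PrimCount
import Fermat.Agent.S28.Defs

/-!
# P-RED / R-SM / SM-TID (glue end, helper31): from the formal identities to `Inst.RowTID`

Input (rows SM-TID, helper29 for `t₂`, helper80 for `t₃`): formal series
`t₂, t₃ ∈ ℚ((q))` with integral coefficients, leading term `q⁻¹`, and

* `j · t₂² = (t₂ + 256)³`,            `j(q²) · t₂ = (t₂ + 16)³`;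
* `j · t₃³ = (t₃ + 27)(t₃ + 243)³`,   `j(q³) · t₃ = (t₃ + 27)(t₃ + 3)³`.

Output: `h31_rowTID_of : h31_T2Formal t₂ → h31_T3Formal t₃ → Inst.RowTID`.

The membership `t₂ ∈ F_2` (resp. `t₃ ∈ F_3`) is the degree argument
`K(j) ⊆ F_2 = K(j, j(q²)) ⊆ K(j, t₂)`, `[K(j, t₂) : K(j)] ≤ 3 = ψ(2) = [F_2 : K(j)]`
(`h31_mem_of_finrank_le`).
-/

set_option autoImplicit false

open ModularCurve AlgebraicCurve IntermediateField

noncomputable section

namespace Fermat.Agent.Red.SM.TIDGlue

open Fermat.Agent.S37 Fermat.Agent.Red.SM Fermat.Agent.Red.SM.Inst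
open Fermat.Agent.S24 (jBar h19_adjoin_coeffEmb_eq)

/-! ## The formal inputs -/

/-- the formal facts about `t₂ = Δ(q)/Δ(q²)`. -/
structure h31_T2Formal (t : LaurentSeries ℚ) : Prop where
  id : jq * t ^ 2 = (t + HahnSeries.C 256) ^ 3
  fricke : qExpand ℚ 2 jq * t = (t + HahnSeries.C 16) ^ 3
  low : ∀ n : ℤ, n < -1 → t.coeff n = 0
  lead : t.coeff (-1) = 1
  int : ∀ n : ℤ, ∃ m : ℤ, t.coeff n = m

/-- the formal facts about `t₃ = (η(q)/η(q³))¹²`. -/
structure h31_T3Formal (t : LaurentSeries ℚ) : Prop where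
  id : jq * t ^ 3 = (t + HahnSeries.C 27) * (t + HahnSeries.C 243) ^ 3
  fricke : qExpand ℚ 3 jq * t = (t + HahnSeries.C 27) * (t + HahnSeries.C 3) ^ 3
  low : ∀ n : ℤ, n < -1 → t.coeff n = 0
  lead : t.coeff (-1) = 1
  int : ∀ n : ℤ, ∃ m : ℤ, t.coeff n = m

/-- constructor in the shape of the SM-TID deliverables (`jSub`, `IsMonicOfOrder`). -/
theorem h31_T2Formal.of_monic {t : LaurentSeries ℚ}
    (hid : jq * t ^ 2 = (t + HahnSeries.C 256) ^ 3)
    (hfr : Fermat.Agent.S28.jSub 2 * t = (t + HahnSeries.C 16) ^ 3)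
    (hmon : IsMonicOfOrder t (-1)) (hint : ∀ n : ℤ, ∃ m : ℤ, t.coeff n = m) :
    h31_T2Formal t where
  id := hid
  fricke := by
    have h : Fermat.Agent.S28.jSub 2 = qExpand ℚ 2 jq := by
      unfold Fermat.Agent.S28.jSub
      rw [dif_neg (by norm_num)]
    rw [← h]; exact hfr
  low := fun n hn => HahnSeries.coeff_eq_zero_of_lt_order (by rw [hmon.1]; exact hn)
  lead := hmon.coeff_self
  int := hint

/-- constructor in the shape of the SM-TID deliverables (`jSub`, `IsMonicOfOrder`). -/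
theorem h31_T3Formal.of_monic {t : LaurentSeries ℚ}
    (hid : jq * t ^ 3 = (t + HahnSeries.C 27) * (t + HahnSeries.C 243) ^ 3)
    (hfr : Fermat.Agent.S28.jSub 3 * t = (t + HahnSeries.C 27) * (t + HahnSeries.C 3) ^ 3)
    (hmon : IsMonicOfOrder t (-1)) (hint : ∀ n : ℤ, ∃ m : ℤ, t.coeff n = m) :
    h31_T3Formal t where
  id := hid
  fricke := by
    have h : Fermat.Agent.S28.jSub 3 = qExpand ℚ 3 jq := by
      unfold Fermat.Agent.S28.jSub
      rw [dif_neg (by norm_num)]
    rw [← h]; exact hfr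
  low := fun n hn => HahnSeries.coeff_eq_zero_of_lt_order (by rw [hmon.1]; exact hn)
  lead := hmon.coeff_self
  int := hint

/-! ## Small tools -/

theorem h31_coeffEmb_C (a : ℚ) :
    coeffEmb Kbar (HahnSeries.C a) = algebraMap Kbar (LaurentSeries Kbar) (algebraMap ℚ Kbar a) := by
  rw [algebraMap_laurentSeries_eq_single]
  show coeffMap (algebraMap ℚ Kbar) (HahnSeries.single 0 a) = _
  rw [coeffMap_single]

theorem h31_coeffEmb_C_natCast (a : ℕ) :
    coeffEmb Kbar (HahnSeries.C (a : ℚ)) = (a : LaurentSeries Kbar) := by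
  rw [h31_coeffEmb_C, map_natCast, map_natCast]

theorem h31_ne_zero_of_lead {t : LaurentSeries ℚ} (h : t.coeff (-1) = 1) :
    coeffEmb Kbar t ≠ 0 := by
  intro h0
  have h1 : (coeffEmb Kbar t).coeff (-1) = 0 := by rw [h0]; rfl
  rw [coeffEmb_coeff, h, map_one] at h1
  exact one_ne_zero h1

/-- a Laurent series over `ℚ` with integral coefficients comes from `ℤ((q))`. -/
theorem h31_exists_int_series (t : LaurentSeries ℚ) (hint : ∀ n : ℤ, ∃ m : ℤ, t.coeff n = m) :
    ∃ y : LaurentSeries ℤ, (∀ n : ℤ, (y.coeff n : ℚ) = t.coeff n) := by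
  classical
  choose c hc using hint
  have hsupp : Function.support c ⊆ t.support := by
    intro n hn
    simp only [Function.mem_support, ne_eq, HahnSeries.mem_support] at hn ⊢
    rw [hc n]
    exact_mod_cast hn
  exact ⟨⟨c, t.isPWO_support.mono hsupp⟩, fun n => (hc n).symm⟩

/-- the `exp` field of `IsTCoord`. -/
theorem h31_exp_of (t : LaurentSeries ℚ) (hlow : ∀ n : ℤ, n < -1 → t.coeff n = 0)
    (hlead : t.coeff (-1) = 1) (hint : ∀ n : ℤ, ∃ m : ℤ, t.coeff n = m) :
    ∃ y : LaurentSeries ℤ, coeffMap (Int.castRingHom Kbar) y = coeffEmb Kbar t ∧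
      (∀ n : ℤ, n < -1 → y.coeff n = 0) ∧ y.coeff (-1) = 1 := by
  obtain ⟨y, hy⟩ := h31_exists_int_series t hint
  refine ⟨y, ?_, ?_, ?_⟩
  · ext n
    rw [coeffMap_coeff, coeffEmb_coeff, ← hy n]
    simp
  · intro n hn
    have h := hy n
    rw [hlow n hn] at h
    exact_mod_cast h
  · have h := hy (-1)
    rw [hlead] at h
    exact_mod_cast h

theorem h31_dedekindPsi_two : dedekindPsi 2 = 3 := by
  have h := Fermat.Agent.S21.C1.dedekindPsi_prime_pow Nat.prime_two (k := 1) one_pos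
  simpa using h

theorem h31_dedekindPsi_three : dedekindPsi 3 = 4 := by
  have h := Fermat.Agent.S21.C1.dedekindPsi_prime_pow Nat.prime_three (k := 1) one_pos
  simpa using h

/-- the generator `j` of `K(j) ⊆ F_N`. -/
def h31_jk (N : ℕ) [NeZero N] : Kbar⟮jBar N⟯ :=
  ⟨jBar N, IntermediateField.mem_adjoin_simple_self Kbar (jBar N)⟩

theorem h31_algebraMap_jk (N : ℕ) [NeZero N] :
    algebraMap Kbar⟮jBar N⟯ (LaurentSeries Kbar) (h31_jk N) = coeffEmb Kbar jq := rfl

/-- the generators of `F_p` (`p` prime) are `j` and `j(q^p)`. -/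
theorem h31_gens_prime {p : ℕ} (hp : p.Prime) [NeZero p] (E : Set (LaurentSeries Kbar))
    (h1 : coeffEmb Kbar jq ∈ E) (hp' : coeffEmb Kbar (qExpand ℚ p jq) ∈ E) :
    ∀ s ∈ (⇑(coeffEmb Kbar) '' divisorExpansions p), s ∈ E := by
  rintro _ ⟨y, ⟨d, hd, hdvd, rfl⟩, rfl⟩
  rcases (Nat.dvd_prime hp).mp hdvd with h | h
  · subst h
    rw [qExpand_one_apply]
    exact h1
  · subst h
    exact hp'

/-! ## Membership -/

theorem h31_t2_mem {t : LaurentSeries ℚ} (h : h31_T2Formal t) :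
    coeffEmb Kbar t ∈ modularFunctionFieldBar 2 := by
  set T : LaurentSeries Kbar := coeffEmb Kbar t with hT
  have hT0 : T ≠ 0 := h31_ne_zero_of_lead h.lead
  have hid : coeffEmb Kbar jq * T ^ 2 = (T + 256) ^ 3 := by
    have := congrArg (coeffEmb Kbar) h.id
    rw [map_mul, map_pow, map_pow, map_add] at this
    rw [this]
    congr 2
    exact_mod_cast h31_coeffEmb_C_natCast 256
  have hfr : coeffEmb Kbar (qExpand ℚ 2 jq) * T = (T + 16) ^ 3 := by
    have := congrArg (coeffEmb Kbar) h.fricke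
    rw [map_mul, map_pow, map_add] at this
    rw [this]
    congr 2
    exact_mod_cast h31_coeffEmb_C_natCast 16
  let P : Polynomial Kbar⟮jBar 2⟯ :=
    (Polynomial.X + Polynomial.C 256) ^ 3 - Polynomial.C (h31_jk 2) * Polynomial.X ^ 2
  have hdegS : (Polynomial.C (h31_jk 2) * Polynomial.X ^ 2 : Polynomial Kbar⟮jBar 2⟯).degree
      < ((Polynomial.X + Polynomial.C 256 : Polynomial Kbar⟮jBar 2⟯) ^ 3).degree := by
    rw [Polynomial.degree_pow, Polynomial.degree_X_add_C]
    refine lt_of_le_of_lt (Polynomial.degree_C_mul_X_pow_le 2 _) ?_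
    norm_num
  have hmon : P.Monic :=
    Polynomial.Monic.sub_of_left ((Polynomial.monic_X_add_C _).pow 3) hdegS
  have hPdeg : P.natDegree ≤ 3 := by
    refine (Polynomial.natDegree_sub_le _ _).trans (max_le ?_ ?_)
    · refine (Polynomial.natDegree_pow_le).trans ?_
      rw [Polynomial.natDegree_X_add_C]
    · exact (Polynomial.natDegree_C_mul_X_pow_le _ 2).trans (by norm_num)
  have hPt : Polynomial.aeval T P = 0 := by
    simp only [P, map_sub, map_mul, map_pow, map_add, Polynomial.aeval_X, Polynomial.aeval_C,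
      h31_algebraMap_jk, map_ofNat]
    rw [hid, sub_self]
  refine h31_mem_of_finrank_le (modularFunctionFieldBar 2) (jBar 2) T
    (⇑(coeffEmb Kbar) '' divisorExpansions 2) (h19_adjoin_coeffEmb_eq 2) 3
    ((h31_ifaceFin 2).2.2.trans h31_dedekindPsi_two) P hmon.ne_zero hPdeg hPt ?_
  refine h31_gens_prime Nat.prime_two _ ?_ ?_
  · rw [SetLike.mem_coe, ← h31_algebraMap_jk 2]
    exact IntermediateField.algebraMap_mem _ _
  · rw [SetLike.mem_coe]
    have hTm : T ∈ IntermediateField.adjoin Kbar⟮jBar 2⟯ {T} :=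
      IntermediateField.mem_adjoin_simple_self _ T
    have h16 : (16 : LaurentSeries Kbar) ∈ IntermediateField.adjoin Kbar⟮jBar 2⟯ {T} := by
      have := IntermediateField.algebraMap_mem (IntermediateField.adjoin Kbar⟮jBar 2⟯ {T}) (16 : Kbar⟮jBar 2⟯)
      rwa [map_ofNat] at this
    have heq : coeffEmb Kbar (qExpand ℚ 2 jq) = (T + 16) ^ 3 * T⁻¹ := by
      rw [← hfr, mul_assoc, mul_inv_cancel₀ hT0, mul_one]
    rw [heq]
    exact mul_mem (pow_mem (add_mem hTm h16) 3) (inv_mem hTm)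

theorem h31_t3_mem {t : LaurentSeries ℚ} (h : h31_T3Formal t) :
    coeffEmb Kbar t ∈ modularFunctionFieldBar 3 := by
  set T : LaurentSeries Kbar := coeffEmb Kbar t with hT
  have hT0 : T ≠ 0 := h31_ne_zero_of_lead h.lead
  have hid : coeffEmb Kbar jq * T ^ 3 = (T + 27) * (T + 243) ^ 3 := by
    have := congrArg (coeffEmb Kbar) h.id
    rw [map_mul, map_pow, map_mul, map_pow, map_add, map_add] at this
    rw [this]
    congr 2
    · exact_mod_cast h31_coeffEmb_C_natCast 27
    · congr 1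
      exact_mod_cast h31_coeffEmb_C_natCast 243
  have hfr : coeffEmb Kbar (qExpand ℚ 3 jq) * T = (T + 27) * (T + 3) ^ 3 := by
    have := congrArg (coeffEmb Kbar) h.fricke
    rw [map_mul, map_mul, map_pow, map_add, map_add] at this
    rw [this]
    congr 2
    · exact_mod_cast h31_coeffEmb_C_natCast 27
    · congr 1
      exact_mod_cast h31_coeffEmb_C_natCast 3
  let P : Polynomial Kbar⟮jBar 3⟯ :=
    (Polynomial.X + Polynomial.C 27) * (Polynomial.X + Polynomial.C 243) ^ 3
      - Polynomial.C (h31_jk 3) * Polynomial.X ^ 3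
  have hmon1 : ((Polynomial.X + Polynomial.C 27) * (Polynomial.X + Polynomial.C 243) ^ 3 :
      Polynomial Kbar⟮jBar 3⟯).Monic :=
    (Polynomial.monic_X_add_C _).mul ((Polynomial.monic_X_add_C _).pow 3)
  have hdeg1 : ((Polynomial.X + Polynomial.C 27) * (Polynomial.X + Polynomial.C 243) ^ 3 :
      Polynomial Kbar⟮jBar 3⟯).natDegree = 4 := by
    rw [((Polynomial.monic_X_add_C _).natDegree_mul ((Polynomial.monic_X_add_C _).pow 3)),
      ((Polynomial.monic_X_add_C _).natDegree_pow), Polynomial.natDegree_X_add_C,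
      Polynomial.natDegree_X_add_C]
  have hdegS : (Polynomial.C (h31_jk 3) * Polynomial.X ^ 3 : Polynomial Kbar⟮jBar 3⟯).degree
      < ((Polynomial.X + Polynomial.C 27) * (Polynomial.X + Polynomial.C 243) ^ 3 :
        Polynomial Kbar⟮jBar 3⟯).degree := by
    rw [Polynomial.degree_eq_natDegree hmon1.ne_zero, hdeg1]
    refine lt_of_le_of_lt (Polynomial.degree_C_mul_X_pow_le 3 _) ?_
    norm_num
  have hmon : P.Monic := Polynomial.Monic.sub_of_left hmon1 hdegS
  have hPdeg : P.natDegree ≤ 4 := by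
    refine (Polynomial.natDegree_sub_le _ _).trans (max_le hdeg1.le ?_)
    exact (Polynomial.natDegree_C_mul_X_pow_le _ 3).trans (by norm_num)
  have hPt : Polynomial.aeval T P = 0 := by
    simp only [P, map_sub, map_mul, map_pow, map_add, Polynomial.aeval_X, Polynomial.aeval_C,
      h31_algebraMap_jk, map_ofNat]
    rw [hid, sub_self]
  refine h31_mem_of_finrank_le (modularFunctionFieldBar 3) (jBar 3) T
    (⇑(coeffEmb Kbar) '' divisorExpansions 3) (h19_adjoin_coeffEmb_eq 3) 4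
    ((h31_ifaceFin 3).2.2.trans h31_dedekindPsi_three) P hmon.ne_zero hPdeg hPt ?_
  refine h31_gens_prime Nat.prime_three _ ?_ ?_
  · rw [SetLike.mem_coe, ← h31_algebraMap_jk 3]
    exact IntermediateField.algebraMap_mem _ _
  · rw [SetLike.mem_coe]
    have hTm : T ∈ IntermediateField.adjoin Kbar⟮jBar 3⟯ {T} :=
      IntermediateField.mem_adjoin_simple_self _ T
    have hc : ∀ a : ℕ, (a : LaurentSeries Kbar) ∈ IntermediateField.adjoin Kbar⟮jBar 3⟯ {T} := by
      intro a
      have := IntermediateField.algebraMap_mem (IntermediateField.adjoin Kbar⟮jBar 3⟯ {T})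
        (a : Kbar⟮jBar 3⟯)
      rwa [map_natCast] at this
    have heq : coeffEmb Kbar (qExpand ℚ 3 jq) = (T + 27) * (T + 3) ^ 3 * T⁻¹ := by
      rw [← hfr, mul_assoc, mul_inv_cancel₀ hT0, mul_one]
    rw [heq]
    have h27 := hc 27
    have h3 := hc 3
    push_cast at h27 h3
    exact mul_mem (mul_mem (add_mem hTm h27) (pow_mem (add_mem hTm h3) 3)) (inv_mem hTm)

/-! ## The coordinates in `FF M` -/

theorem h31_isTCoord_t2 {t : LaurentSeries ℚ} (h : h31_T2Formal t) (M : ℕ) [NeZero M]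
    (hM : 2 ∣ M) : ∃ t' : FF M, IsTCoord 3 M t' := by
  have hmem : coeffEmb Kbar t ∈ modularFunctionFieldBar M := ffBar_le hM (h31_t2_mem h)
  refine ⟨⟨coeffEmb Kbar t, hmem⟩, ⟨Or.inl ⟨rfl, ?_⟩, ?_⟩⟩
  · apply Subtype.ext
    have hid : coeffEmb Kbar jq * (coeffEmb Kbar t) ^ 2 = (coeffEmb Kbar t + 256) ^ 3 := by
      have := congrArg (coeffEmb Kbar) h.id
      rw [map_mul, map_pow, map_pow, map_add] at this
      rw [this]
      congr 2
      exact_mod_cast h31_coeffEmb_C_natCast 256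
    show coeffEmb Kbar jq * (coeffEmb Kbar t) ^ 2
      = (coeffEmb Kbar t + algebraMap Kbar (LaurentSeries Kbar) 256) ^ 3
    rw [hid, map_ofNat]
  · exact h31_exp_of t h.low h.lead h.int

theorem h31_isTCoord_t3 {t : LaurentSeries ℚ} (h : h31_T3Formal t) (M : ℕ) [NeZero M]
    (hM : 3 ∣ M) : ∃ t' : FF M, IsTCoord 2 M t' := by
  have hmem : coeffEmb Kbar t ∈ modularFunctionFieldBar M := ffBar_le hM (h31_t3_mem h)
  refine ⟨⟨coeffEmb Kbar t, hmem⟩, ⟨Or.inr ⟨rfl, ?_⟩, ?_⟩⟩
  · apply Subtype.ext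
    have hid : coeffEmb Kbar jq * (coeffEmb Kbar t) ^ 3
        = (coeffEmb Kbar t + 27) * (coeffEmb Kbar t + 243) ^ 3 := by
      have := congrArg (coeffEmb Kbar) h.id
      rw [map_mul, map_pow, map_mul, map_pow, map_add, map_add] at this
      rw [this]
      congr 2
      · exact_mod_cast h31_coeffEmb_C_natCast 27
      · congr 1
        exact_mod_cast h31_coeffEmb_C_natCast 243
    show coeffEmb Kbar jq * (coeffEmb Kbar t) ^ 3
      = (coeffEmb Kbar t + algebraMap Kbar (LaurentSeries Kbar) 27)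
        * (coeffEmb Kbar t + algebraMap Kbar (LaurentSeries Kbar) 243) ^ 3
    rw [hid, map_ofNat, map_ofNat]
  · exact h31_exp_of t h.low h.lead h.int

/-- **SM-TID from the formal identities.** -/
theorem h31_rowTID_of {t2 t3 : LaurentSeries ℚ} (h2 : h31_T2Formal t2) (h3 : h31_T3Formal t3) :
    RowTID := by
  intro ℓ hℓ M _ haux
  rcases hℓ with rfl | rfl
  · have h9 : (9 : ℕ) ∣ M := by simpa [auxLevel] using haux
    exact h31_isTCoord_t3 h3 M (Dvd.dvd.trans (by norm_num) h9)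
  · have h4 : (4 : ℕ) ∣ M := by simpa [auxLevel] using haux
    exact h31_isTCoord_t2 h2 M (Dvd.dvd.trans (by norm_num) h4)

end Fermat.Agent.Red.SM.TIDGlue
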