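import Mathlib

/-!
# P-RED / R-SM / SM-TID (glue end, helper31): the abstract degree argument

`h31_mem_of_finrank_le` : let `F ⊆ Ω` be fields over `K`, `x ∈ F` with `[F : K(x)] = n`, and
`t ∈ Ω` a root of a nonzero polynomial of degree `≤ n` over `K(x)` such that the generators of
`F` over `K` lie in `K(x)(t)`.  Then `t ∈ F`.

(Used for `F = F_2`, `x = j`, `t = t₂ = Δ(q)/Δ(q²)`, `n = 3`, and for `F = F_3`,
`t = t₃ = (η(q)/η(q³))¹²`, `n = 4`.)
-/

set_option autoImplicit false

open IntermediateField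

namespace Fermat.Agent.Red.SM.TIDGlue

theorem h31_mem_of_finrank_le {K Ω : Type*} [Field K] [Field Ω] [Algebra K Ω]
    (F : IntermediateField K Ω) (x : F) (t : Ω) (S : Set Ω)
    (hF : F = IntermediateField.adjoin K S)
    (n : ℕ) (hn : Module.finrank K⟮x⟯ F = n)
    (P : Polynomial K⟮x⟯) (hP0 : P ≠ 0) (hPn : P.natDegree ≤ n)
    (hPt : Polynomial.aeval t P = 0)
    (hS : ∀ s ∈ S, s ∈ IntermediateField.adjoin K⟮x⟯ {t}) : t ∈ F := by
  classical
  -- `t` is integral over `k = K(x)`
  have hint : IsIntegral K⟮x⟯ t := by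
    rw [← isAlgebraic_iff_isIntegral]
    exact ⟨P, hP0, hPt⟩
  have hfin : FiniteDimensional K⟮x⟯ (IntermediateField.adjoin K⟮x⟯ {t}) :=
    IntermediateField.adjoin.finiteDimensional hint
  have hdeg : Module.finrank K⟮x⟯ (IntermediateField.adjoin K⟮x⟯ {t}) ≤ n := by
    rw [IntermediateField.adjoin.finrank hint]
    exact (Polynomial.natDegree_le_natDegree (minpoly.degree_le_of_ne_zero K⟮x⟯ t hP0 hPt)).trans hPn
  -- the image of `F` in `Ω` as an intermediate field over `k`
  let φ : F →ₐ[K⟮x⟯] Ω := IsScalarTower.toAlgHom K⟮x⟯ F Ω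
  have hφ : ∀ z : F, φ z = (z : Ω) := fun z => rfl
  have hrank : Module.finrank K⟮x⟯ φ.fieldRange = n := by
    rw [← hn]
    exact (LinearEquiv.finrank_eq (AlgEquiv.ofInjectiveField φ).toLinearEquiv).symm
  have hle : φ.fieldRange ≤ IntermediateField.adjoin K⟮x⟯ {t} := by
    rintro y ⟨z, rfl⟩
    show (z : Ω) ∈ IntermediateField.adjoin K⟮x⟯ {t}
    have hz : (z : Ω) ∈ IntermediateField.adjoin K S := by
      rw [← hF]; exact z.2
    have hle' : IntermediateField.adjoin K S ≤
        (IntermediateField.adjoin K⟮x⟯ {t}).restrictScalars K := by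
      rw [IntermediateField.adjoin_le_iff]
      intro s hs
      exact hS s hs
    exact hle' hz
  have heq : φ.fieldRange = IntermediateField.adjoin K⟮x⟯ {t} :=
    IntermediateField.eq_of_le_of_finrank_le hle (by rw [hrank]; exact hdeg)
  have ht : t ∈ φ.fieldRange := by
    rw [heq]
    exact IntermediateField.mem_adjoin_simple_self _ t
  obtain ⟨z, hz⟩ := ht
  have hz' : (z : Ω) = t := hz
  rw [← hz']
  exact z.2

end Fermat.Agent.Red.SM.TIDGlue
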