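import Mathlib

/-!
# P-RED / SM-TID (second seat, helper55): the degree argument for membership

Abstract lemma (Mathlib only): if `K ⊆ K(J) ⊆ E ⊆ K(T)` inside a field `Ω`, `T` is a root of a
monic polynomial of degree `n` over `K(J)` and `[E : K(J)] = n`, then `T ∈ E`.
-/

set_option autoImplicit false

open IntermediateField Polynomial

namespace Fermat.Agent.Red.SM.TID55

/-- **Degree argument.**  `K(J) ⊆ E ⊆ K(T)`, `T` a root of a monic polynomial of degree `n`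
over `K(J)`, `[E : K(J)] = n`  ⟹  `T ∈ E`. -/
theorem h55t_mem_of_finrank {K Ω : Type*} [Field K] [Field Ω] [Algebra K Ω]
    (E : IntermediateField K Ω) (J T : Ω) (hJ : J ∈ E) (hE : E ≤ K⟮T⟯) (n : ℕ)
    (p : Polynomial (K⟮J⟯)) (hp : p.Monic) (hpn : p.natDegree = n) (hpT : aeval T p = 0)
    [FiniteDimensional (K⟮(⟨J, hJ⟩ : E)⟯) E]
    (hn : Module.finrank (K⟮(⟨J, hJ⟩ : E)⟯) E = n) : T ∈ E := by
  classical
  have hFE : K⟮J⟯ ≤ E := by
    rw [IntermediateField.adjoin_le_iff]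
    intro x hx
    rw [Set.mem_singleton_iff] at hx
    rw [hx]; exact hJ
  -- transfer of membership `K(J) ↔ K(jE)`
  have hmap : (K⟮(⟨J, hJ⟩ : E)⟯).map E.val = K⟮J⟯ := by
    rw [IntermediateField.adjoin_map, Set.image_singleton]
    rfl
  have hlift : ∀ x : Ω, x ∈ K⟮J⟯ → ∃ y : E, y ∈ K⟮(⟨J, hJ⟩ : E)⟯ ∧ (y : Ω) = x := by
    intro x hx
    rw [← hmap] at hx
    obtain ⟨y, hy, rfl⟩ := hx
    exact ⟨y, hy, rfl⟩
  -- a basis of `E` over `K(jE)`
  let b := Module.finBasisOfFinrankEq (K⟮(⟨J, hJ⟩ : E)⟯) E hn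
  -- `T` is integral over `F`
  have hint : IsIntegral K⟮J⟯ T := ⟨p, hp, by simpa [aeval_def] using hpT⟩
  have hdeg : Module.finrank K⟮J⟯ K⟮J⟯⟮T⟯ ≤ n := by
    rw [IntermediateField.adjoin.finrank hint, ← hpn]
    exact Polynomial.natDegree_le_of_dvd (minpoly.dvd K⟮J⟯ T hpT) hp.ne_zero
  have : FiniteDimensional K⟮J⟯ K⟮J⟯⟮T⟯ := IntermediateField.adjoin.finiteDimensional hint
  -- the basis vectors lie in `F(T)`
  have hKT : ∀ x : Ω, x ∈ K⟮T⟯ → x ∈ K⟮J⟯⟮T⟯ := by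
    intro x hx
    have h1 : K⟮T⟯ ≤ (K⟮J⟯⟮T⟯).restrictScalars K := by
      rw [IntermediateField.adjoin_le_iff]
      intro y hy
      rw [Set.mem_singleton_iff] at hy
      rw [hy]
      exact IntermediateField.mem_adjoin_simple_self K⟮J⟯ T
    exact h1 hx
  have hbmem : ∀ i, ((b i : E) : Ω) ∈ K⟮J⟯⟮T⟯ := fun i => hKT _ (hE (b i).2)
  let v : Fin n → K⟮J⟯⟮T⟯ := fun i => ⟨((b i : E) : Ω), hbmem i⟩
  have hli : LinearIndependent K⟮J⟯ v := by
    rw [Fintype.linearIndependent_iff]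
    intro g hg i
    have hg' : ∑ j, (g j : Ω) * ((b j : E) : Ω) = 0 := by
      have := congrArg (fun z : K⟮J⟯⟮T⟯ => (z : Ω)) hg
      simpa [v, Algebra.smul_def, IntermediateField.algebraMap_apply] using this
    choose g' hg'mem hg'eq using fun j => hlift (g j : Ω) (g j).2
    have hsum : ∑ j, (⟨g' j, hg'mem j⟩ : K⟮(⟨J, hJ⟩ : E)⟯) • b j = 0 := by
      apply Subtype.ext
      have : ((∑ j, (⟨g' j, hg'mem j⟩ : K⟮(⟨J, hJ⟩ : E)⟯) • b j : E) : Ω)
          = ∑ j, (g j : Ω) * ((b j : E) : Ω) := by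
        rw [show ((∑ j, (⟨g' j, hg'mem j⟩ : K⟮(⟨J, hJ⟩ : E)⟯) • b j : E) : Ω)
            = E.val (∑ j, (⟨g' j, hg'mem j⟩ : K⟮(⟨J, hJ⟩ : E)⟯) • b j) from rfl, map_sum]
        refine Finset.sum_congr rfl fun j _ => ?_
        rw [Algebra.smul_def, map_mul]
        show ((g' j : E) : Ω) * ((b j : E) : Ω) = _
        rw [hg'eq j]
      rw [this, hg']
      rfl
    have h0 := (Fintype.linearIndependent_iff.mp b.linearIndependent) _ hsum i
    have h1 : (g' i : Ω) = 0 := by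
      have := congrArg (fun z : K⟮(⟨J, hJ⟩ : E)⟯ => ((z : E) : Ω)) h0
      simpa using this
    apply Subtype.ext
    rw [← hg'eq i, h1]
    rfl
  have hcard : Fintype.card (Fin n) = Module.finrank K⟮J⟯ K⟮J⟯⟮T⟯ := by
    rw [Fintype.card_fin]
    refine le_antisymm ?_ hdeg
    have := hli.fintype_card_le_finrank
    simpa using this
  have hspan := hli.span_eq_top_of_card_eq_finrank' hcard
  have hT : (⟨T, IntermediateField.mem_adjoin_simple_self K⟮J⟯ T⟩ : K⟮J⟯⟮T⟯) ∈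
      Submodule.span K⟮J⟯ (Set.range v) := by rw [hspan]; trivial
  -- everything in the span lies in `E`
  have key : ∀ z ∈ Submodule.span K⟮J⟯ (Set.range v), ((z : K⟮J⟯⟮T⟯) : Ω) ∈ E := by
    intro z hz
    induction hz using Submodule.span_induction with
    | mem x hx =>
        obtain ⟨i, rfl⟩ := hx
        exact (b i).2
    | zero => exact E.zero_mem
    | add x y _ _ hx hy => exact E.add_mem hx hy
    | smul a x _ hx =>
        have : ((a • x : K⟮J⟯⟮T⟯) : Ω) = (a : Ω) * (x : Ω) := by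
          simp [Algebra.smul_def, IntermediateField.algebraMap_apply]
        rw [this]
        exact E.mul_mem (hFE a.2) hx
  exact key _ hT

/-! ## Polynomial bookkeeping -/

section Poly

variable {R : Type*} [Field R]

theorem h55t_monic_cubic (a b : R) :
    ((X + C a) ^ 3 - C b * X ^ 2 : Polynomial R).Monic ∧
      ((X + C a) ^ 3 - C b * X ^ 2 : Polynomial R).natDegree = 3 := by
  have h1 : ((X + C a) ^ 3 : Polynomial R).Monic := (monic_X_add_C a).pow 3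
  have h2 : ((X + C a) ^ 3 : Polynomial R).natDegree = 3 := by
    rw [(monic_X_add_C a).natDegree_pow, natDegree_X_add_C]
  have h3 : (C b * X ^ 2 : Polynomial R).degree < ((X + C a) ^ 3 : Polynomial R).degree := by
    rw [degree_eq_natDegree h1.ne_zero, h2]
    exact lt_of_le_of_lt (degree_C_mul_X_pow_le 2 b) (by norm_num)
  refine ⟨h1.sub_of_left h3, ?_⟩
  rw [natDegree_sub_eq_left_of_natDegree_lt, h2]
  rw [h2]
  exact lt_of_le_of_lt (natDegree_C_mul_X_pow_le b 2) (by norm_num)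

theorem h55t_monic_quartic (a c b : R) :
    ((X + C a) * (X + C c) ^ 3 - C b * X ^ 3 : Polynomial R).Monic ∧
      ((X + C a) * (X + C c) ^ 3 - C b * X ^ 3 : Polynomial R).natDegree = 4 := by
  have h1 : ((X + C a) * (X + C c) ^ 3 : Polynomial R).Monic :=
    (monic_X_add_C a).mul ((monic_X_add_C c).pow 3)
  have h2 : ((X + C a) * (X + C c) ^ 3 : Polynomial R).natDegree = 4 := by
    rw [(monic_X_add_C a).natDegree_mul ((monic_X_add_C c).pow 3),
      (monic_X_add_C c).natDegree_pow, natDegree_X_add_C, natDegree_X_add_C]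
  have h3 : (C b * X ^ 3 : Polynomial R).degree <
      ((X + C a) * (X + C c) ^ 3 : Polynomial R).degree := by
    rw [degree_eq_natDegree h1.ne_zero, h2]
    exact lt_of_le_of_lt (degree_C_mul_X_pow_le 3 b) (by norm_num)
  refine ⟨h1.sub_of_left h3, ?_⟩
  rw [natDegree_sub_eq_left_of_natDegree_lt, h2]
  rw [h2]
  exact lt_of_le_of_lt (natDegree_C_mul_X_pow_le b 3) (by norm_num)

end Poly

/-- cubic case: `J T² = (T + a)³`, `[E : K(J)] = 3`, `K(J) ⊆ E ⊆ K(T)` ⟹ `T ∈ E`. -/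
theorem h55t_mem_cubic {K Ω : Type*} [Field K] [Field Ω] [Algebra K Ω]
    (E : IntermediateField K Ω) (J T : Ω) (hJ : J ∈ E) (hE : E ≤ K⟮T⟯) (a : K)
    (h : J * T ^ 2 = (T + algebraMap K Ω a) ^ 3)
    [FiniteDimensional (K⟮(⟨J, hJ⟩ : E)⟯) E]
    (hn : Module.finrank (K⟮(⟨J, hJ⟩ : E)⟯) E = 3) : T ∈ E := by
  have hpoly := h55t_monic_cubic (R := K⟮J⟯) (algebraMap K K⟮J⟯ a)
    ⟨J, mem_adjoin_simple_self K J⟩
  refine h55t_mem_of_finrank E J T hJ hE 3 _ hpoly.1 hpoly.2 ?_ hn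
  simp only [map_sub, map_pow, map_add, map_mul, aeval_X, aeval_C]
  rw [show algebraMap K⟮J⟯ Ω ⟨J, mem_adjoin_simple_self K J⟩ = J from rfl,
    show algebraMap K⟮J⟯ Ω (algebraMap K K⟮J⟯ a) = algebraMap K Ω a from rfl, h, sub_self]

/-- quartic case: `J T³ = (T + a)(T + c)³`, `[E : K(J)] = 4`, `K(J) ⊆ E ⊆ K(T)` ⟹ `T ∈ E`. -/
theorem h55t_mem_quartic {K Ω : Type*} [Field K] [Field Ω] [Algebra K Ω]
    (E : IntermediateField K Ω) (J T : Ω) (hJ : J ∈ E) (hE : E ≤ K⟮T⟯) (a c : K)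
    (h : J * T ^ 3 = (T + algebraMap K Ω a) * (T + algebraMap K Ω c) ^ 3)
    [FiniteDimensional (K⟮(⟨J, hJ⟩ : E)⟯) E]
    (hn : Module.finrank (K⟮(⟨J, hJ⟩ : E)⟯) E = 4) : T ∈ E := by
  have hpoly := h55t_monic_quartic (R := K⟮J⟯) (algebraMap K K⟮J⟯ a) (algebraMap K K⟮J⟯ c)
    ⟨J, mem_adjoin_simple_self K J⟩
  refine h55t_mem_of_finrank E J T hJ hE 4 _ hpoly.1 hpoly.2 ?_ hn
  simp only [map_sub, map_pow, map_add, map_mul, aeval_X, aeval_C]
  rw [show algebraMap K⟮J⟯ Ω ⟨J, mem_adjoin_simple_self K J⟩ = J from rfl,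
    show algebraMap K⟮J⟯ Ω (algebraMap K K⟮J⟯ a) = algebraMap K Ω a from rfl,
    show algebraMap K⟮J⟯ Ω (algebraMap K K⟮J⟯ c) = algebraMap K Ω c from rfl, h, sub_self]

/-- `E ≤ K(T)` bookkeeping: the two rational expressions lie in `K(T)`. -/
theorem h55t_cubic_mem_adjoin {K Ω : Type*} [Field K] [Field Ω] [Algebra K Ω]
    (J T : Ω) (hT : T ≠ 0) (a : K) (k : ℕ)
    (h : J * T ^ k = (T + algebraMap K Ω a) ^ 3) : J ∈ K⟮T⟯ := by
  have hTm : T ∈ K⟮T⟯ := mem_adjoin_simple_self K T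
  have : J = (T + algebraMap K Ω a) ^ 3 * (T ^ k)⁻¹ := by
    rw [← h, mul_assoc, mul_inv_cancel₀ (pow_ne_zero k hT), mul_one]
  rw [this]
  exact mul_mem (pow_mem (add_mem hTm (K⟮T⟯.algebraMap_mem a)) 3) (inv_mem (pow_mem hTm k))

theorem h55t_quartic_mem_adjoin {K Ω : Type*} [Field K] [Field Ω] [Algebra K Ω]
    (J T : Ω) (hT : T ≠ 0) (a c : K) (k : ℕ)
    (h : J * T ^ k = (T + algebraMap K Ω a) * (T + algebraMap K Ω c) ^ 3) : J ∈ K⟮T⟯ := by
  have hTm : T ∈ K⟮T⟯ := mem_adjoin_simple_self K T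
  have : J = (T + algebraMap K Ω a) * (T + algebraMap K Ω c) ^ 3 * (T ^ k)⁻¹ := by
    rw [← h, mul_assoc, mul_inv_cancel₀ (pow_ne_zero k hT), mul_one]
  rw [this]
  exact mul_mem (mul_mem (add_mem hTm (K⟮T⟯.algebraMap_mem a))
    (pow_mem (add_mem hTm (K⟮T⟯.algebraMap_mem c)) 3)) (inv_mem (pow_mem hTm k))

end Fermat.Agent.Red.SM.TID55
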