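import Fermat.Agent.Red.SM.TIDPackAbs
import Fermat.Agent.Red.SM.InstSkeleton
import Fermat.Agent.Red.SM.Unram
import Fermat.Agent.S24.CuspEmb

/-!
# P-RED / R-SM, SM-TID packaging (helper25): `RowTID` from the formal identities

The formal series `t₂ = Δ(q)/Δ(q²)` (level `2`, used for `ℓ = 3`) and
`t₃ = (η(q)/η(q³))¹²` (level `3`, used for `ℓ = 2`) enter only through

* the identity `j t² = (t + 256)³`, resp. `j t³ = (t + 27)(t + 243)³`,
* the Fricke twin `j(q²) t = (t + 16)³`, resp. `j(q³) t = (t + 27)(t + 3)³`,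
* integrality of the coefficients and the leading term `q⁻¹`.

From these, by the degree argument (`[F_p : K(j)] = p + 1`, S24), the series lies in `F_p`, hence
in every `F_M` with `p ∣ M`, and gives `Inst.IsTCoord`.

* `h25t_mem_ffBar` : the membership, generic form.
* `h25t_isTCoord_two`, `h25t_isTCoord_three` : the two levels.
* `h25t_rowTID` : `Inst.RowTID` from the two formal data.
-/

set_option autoImplicit false
set_option linter.style.haveILetI false
set_option linter.unusedSectionVars false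

open ModularCurve AlgebraicCurve IntermediateField Polynomial

noncomputable section

namespace Fermat.Agent.Red.SM.TIDPack

open Fermat.Agent.S37 Fermat.Agent.Red.SM

/-- the constant series is the image of the constant. -/
theorem h25t_C_eq_algebraMap (a : Kbar) :
    (HahnSeries.C a : LaurentSeries Kbar) = algebraMap Kbar (LaurentSeries Kbar) a := by
  rw [algebraMap_laurentSeries_eq_single]
  rfl

/-- `coeffEmb` of a rational constant. -/
theorem h25t_coeffEmb_C (a : ℚ) :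
    coeffEmb Kbar (HahnSeries.C a : LaurentSeries ℚ) = HahnSeries.C (algebraMap ℚ Kbar a) := by
  ext n
  rw [coeffEmb_coeff]
  simp only [HahnSeries.C_apply, HahnSeries.coeff_single]
  split_ifs <;> simp

/-- **membership by the degree argument**, generic form: `T` is a root of a monic polynomial
of degree `≤ p + 1` over `K(j)` and `j(q^p) ∈ K(j, T)`. -/
theorem h25t_mem_ffBar (p : ℕ) [NeZero p] (hp : p.Prime) (T : LaurentSeries Kbar)
    (hJp : coeffEmb Kbar (qExpand ℚ p jq) ∈ Kbar⟮coeffEmb Kbar jq, T⟯)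
    (P : Polynomial Kbar⟮coeffEmb Kbar jq⟯) (hP : P.Monic) (hPd : P.natDegree ≤ p + 1)
    (hroot : Polynomial.aeval T P = 0) : T ∈ modularFunctionFieldBar p := by
  have hfin := h31_ifaceFin p
  have hpsi : dedekindPsi p = p + 1 := by
    have h := Fermat.Agent.S21.C1.dedekindPsi_prime_pow hp (k := 1) one_pos
    simpa using h
  refine h25t_mem_of_degree (modularFunctionFieldBar p) (coeffEmb Kbar jq) T (p + 1)
    ?_ ?_ ?_ P hP hPd hroot
  · exact (Fermat.Agent.S24.jBar p).2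
  · have h := h25t_relfinrank_of_finrank (modularFunctionFieldBar p) (Fermat.Agent.S24.jBar p) (p + 1)
      (by rw [hfin.2.2, hpsi])
    exact h
  · rw [Fermat.Agent.S24.h19_adjoin_coeffEmb_eq, adjoin_le_iff]
    rintro _ ⟨x, ⟨d, hd0, hd, rfl⟩, rfl⟩
    rcases (Nat.dvd_prime hp).mp hd with h1 | h1
    · subst h1
      rw [qExpand_one_apply]
      exact subset_adjoin Kbar _ (Set.mem_insert _ _)
    · subst h1
      exact hJp


/-! ## integral series -/

/-- a rational Laurent series with integral coefficients comes from an integral series. -/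
theorem h25t_exists_int_series (t : LaurentSeries ℚ) (hint : ∀ n, ∃ m : ℤ, t.coeff n = m) :
    ∃ y : LaurentSeries ℤ, coeffMap (Int.castRingHom ℚ) y = t := by
  classical
  choose m hm using hint
  have hsupp : (Function.support m) ⊆ t.support := by
    intro n hn
    rw [Function.mem_support] at hn
    rw [HahnSeries.mem_support, hm n]
    exact_mod_cast hn
  let y : LaurentSeries ℤ := ⟨m, t.isPWO_support.mono hsupp⟩
  refine ⟨y, ?_⟩
  ext n
  rw [coeffMap_coeff]
  exact (hm n).symm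

/-- `coeffEmb` of an integral series. -/
theorem h25t_coeffEmb_int (y : LaurentSeries ℤ) :
    coeffEmb Kbar (coeffMap (Int.castRingHom ℚ) y) = coeffMap (Int.castRingHom Kbar) y := by
  ext n
  rw [coeffEmb_coeff, coeffMap_coeff, coeffMap_coeff]
  simp

/-! ## packaging -/

/-- the formal identity of level `2` (`ℓ = 3`) or level `3` (`ℓ = 2`). -/
def h25t_FRel (ℓ : ℕ) (t : LaurentSeries ℚ) : Prop :=
  (ℓ = 3 ∧ jq * t ^ 2 = (t + HahnSeries.C 256) ^ 3) ∨
  (ℓ = 2 ∧ jq * t ^ 3 = (t + HahnSeries.C 27) * (t + HahnSeries.C 243) ^ 3)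

theorem h25t_coe_cst (M : ℕ) (a : Kbar) :
    ((cst M a : FF M) : LaurentSeries Kbar) = HahnSeries.C a := by
  show algebraMap Kbar (LaurentSeries Kbar) a = HahnSeries.C a
  rw [algebraMap_laurentSeries_eq_single]
  rfl

/-- **packaging**: an integral series `y = q⁻¹ + …` whose base change lies in `F_M` and which
satisfies the formal identity is a `t`-coordinate. -/
theorem h25t_pack (ℓ M : ℕ) [NeZero M] (y : LaurentSeries ℤ)
    (hlow : ∀ n : ℤ, n < -1 → y.coeff n = 0) (hlead : y.coeff (-1) = 1)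
    (hmemK : coeffMap (Int.castRingHom Kbar) y ∈ modularFunctionFieldBar M)
    (hrel : h25t_FRel ℓ (coeffMap (Int.castRingHom ℚ) y)) :
    Inst.IsTCoord ℓ M (⟨coeffMap (Int.castRingHom Kbar) y, hmemK⟩ : FF M) := by
  refine ⟨?_, ⟨y, rfl, hlow, hlead⟩⟩
  rcases hrel with ⟨hℓ, hid⟩ | ⟨hℓ, hid⟩
  · left
    refine ⟨hℓ, ?_⟩
    apply Subtype.ext
    have h := congrArg (coeffEmb Kbar) hid
    simp only [map_mul, map_pow, map_add, h25t_coeffEmb_C, h25t_coeffEmb_int] at h
    have h256 : ((algebraMap ℚ Kbar) 256 : Kbar) = 256 := map_ofNat _ 256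
    rw [h256] at h
    show ((jB M : FF M) : LaurentSeries Kbar) * (coeffMap (Int.castRingHom Kbar) y) ^ 2
      = (coeffMap (Int.castRingHom Kbar) y + ((cst M 256 : FF M) : LaurentSeries Kbar)) ^ 3
    rw [h25t_coe_cst]
    exact h
  · right
    refine ⟨hℓ, ?_⟩
    apply Subtype.ext
    have h := congrArg (coeffEmb Kbar) hid
    simp only [map_mul, map_pow, map_add, h25t_coeffEmb_C, h25t_coeffEmb_int] at h
    have h27 : ((algebraMap ℚ Kbar) 27 : Kbar) = 27 := map_ofNat _ 27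
    have h243 : ((algebraMap ℚ Kbar) 243 : Kbar) = 243 := map_ofNat _ 243
    rw [h27, h243] at h
    show ((jB M : FF M) : LaurentSeries Kbar) * (coeffMap (Int.castRingHom Kbar) y) ^ 3
      = (coeffMap (Int.castRingHom Kbar) y + ((cst M 27 : FF M) : LaurentSeries Kbar))
        * (coeffMap (Int.castRingHom Kbar) y + ((cst M 243 : FF M) : LaurentSeries Kbar)) ^ 3
    rw [h25t_coe_cst, h25t_coe_cst]
    exact h

/-- **(E1)** entry point with membership in `modularFunctionFieldFull d`, `d ∣ M`, as a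
hypothesis. -/
theorem h25t_isTCoord_of_mem (ℓ d M : ℕ) [NeZero d] [NeZero M] (hd : d ∣ M)
    (y : LaurentSeries ℤ)
    (hlow : ∀ n : ℤ, n < -1 → y.coeff n = 0) (hlead : y.coeff (-1) = 1)
    (hmem : coeffMap (Int.castRingHom ℚ) y ∈ modularFunctionFieldFull d)
    (hrel : h25t_FRel ℓ (coeffMap (Int.castRingHom ℚ) y)) :
    ∃ t : FF M, Inst.IsTCoord ℓ M t := by
  have h1 : coeffEmb Kbar (coeffMap (Int.castRingHom ℚ) y) ∈ modularFunctionFieldBar d :=
    coeffEmb_mem_laurentBaseChange Kbar hmem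
  rw [h25t_coeffEmb_int] at h1
  exact ⟨_, h25t_pack ℓ M y hlow hlead (ffBar_le hd h1) hrel⟩

/-! ## the degree argument at levels `2` and `3` -/

/-- a series with a nonzero coefficient is nonzero. -/
theorem h25t_ne_zero (y : LaurentSeries ℤ) (hlead : y.coeff (-1) = 1) :
    coeffMap (Int.castRingHom Kbar) y ≠ 0 := by
  intro h
  have h1 := congrArg (fun s : LaurentSeries Kbar => s.coeff (-1)) h
  simp only [coeffMap_coeff, hlead, HahnSeries.coeff_zero] at h1
  simp at h1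

/-- level `2`: membership from the identity and the Fricke twin. -/
theorem h25t_mem_two (y : LaurentSeries ℤ) (hlead : y.coeff (-1) = 1)
    (hid : jq * (coeffMap (Int.castRingHom ℚ) y) ^ 2
      = (coeffMap (Int.castRingHom ℚ) y + HahnSeries.C 256) ^ 3)
    (hfr : qExpand ℚ 2 jq * coeffMap (Int.castRingHom ℚ) y
      = (coeffMap (Int.castRingHom ℚ) y + HahnSeries.C 16) ^ 3) :
    coeffMap (Int.castRingHom Kbar) y ∈ modularFunctionFieldBar 2 := by
  set T : LaurentSeries Kbar := coeffMap (Int.castRingHom Kbar) y with hT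
  set J : LaurentSeries Kbar := coeffEmb Kbar jq with hJ
  have hT0 : T ≠ 0 := h25t_ne_zero y hlead
  have hidK : J * T ^ 2 = (T + HahnSeries.C 256) ^ 3 := by
    have h := congrArg (coeffEmb Kbar) hid
    simp only [map_mul, map_pow, map_add, h25t_coeffEmb_C, h25t_coeffEmb_int] at h
    have h256 : ((algebraMap ℚ Kbar) 256 : Kbar) = 256 := map_ofNat _ 256
    rw [h256] at h
    exact h
  have hfrK : coeffEmb Kbar (qExpand ℚ 2 jq) * T = (T + HahnSeries.C 16) ^ 3 := by
    have h := congrArg (coeffEmb Kbar) hfr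
    simp only [map_mul, map_pow, map_add, h25t_coeffEmb_C, h25t_coeffEmb_int] at h
    have h16 : ((algebraMap ℚ Kbar) 16 : Kbar) = 16 := map_ofNat _ 16
    rw [h16] at h
    exact h
  have hTmem : T ∈ Kbar⟮J, T⟯ := subset_adjoin Kbar _ (Set.mem_insert_of_mem _ rfl)
  have hCmem : ∀ a : Kbar, (HahnSeries.C a : LaurentSeries Kbar) ∈ Kbar⟮J, T⟯ := by
    intro a
    rw [h25t_C_eq_algebraMap]
    exact IntermediateField.algebraMap_mem _ a
  have hJp : coeffEmb Kbar (qExpand ℚ 2 jq) ∈ Kbar⟮J, T⟯ := by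
    have h1 : coeffEmb Kbar (qExpand ℚ 2 jq) = (T + HahnSeries.C 16) ^ 3 / T := by
      rw [eq_div_iff hT0]
      exact hfrK
    rw [h1]
    exact div_mem (pow_mem (add_mem hTmem (hCmem 16)) 3) hTmem
  let jj : Kbar⟮J⟯ := ⟨J, mem_adjoin_simple_self Kbar J⟩
  let P : Polynomial Kbar⟮J⟯ := (X + C (256 : Kbar⟮J⟯)) ^ 3 - C jj * X ^ 2
  have hdeg1 : ((X + C (256 : Kbar⟮J⟯)) ^ 3).Monic := (monic_X_add_C _).pow 3
  have hnd1 : ((X + C (256 : Kbar⟮J⟯)) ^ 3).natDegree = 3 := by
    rw [(monic_X_add_C _).natDegree_pow, natDegree_X_add_C]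
  have hdeg2 : (C jj * X ^ 2 : Polynomial Kbar⟮J⟯).degree < ((X + C (256 : Kbar⟮J⟯)) ^ 3).degree := by
    rw [degree_eq_natDegree hdeg1.ne_zero, hnd1]
    calc (C jj * X ^ 2 : Polynomial Kbar⟮J⟯).degree ≤ (2 : ℕ) := degree_C_mul_X_pow_le 2 jj
      _ < (3 : ℕ) := by exact_mod_cast (by norm_num : (2 : ℕ) < 3)
  have hP : P.Monic := hdeg1.sub_of_left hdeg2
  have hPd : P.natDegree ≤ 2 + 1 := by
    have h1 : P.natDegree ≤ max ((X + C (256 : Kbar⟮J⟯)) ^ 3).natDegree
        (C jj * X ^ 2 : Polynomial Kbar⟮J⟯).natDegree := natDegree_sub_le _ _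
    have h2 : (C jj * X ^ 2 : Polynomial Kbar⟮J⟯).natDegree ≤ 2 := natDegree_C_mul_X_pow_le jj 2
    rw [hnd1] at h1
    omega
  have hroot : Polynomial.aeval T P = 0 := by
    have hjj : algebraMap Kbar⟮J⟯ (LaurentSeries Kbar) jj = J := rfl
    have h256 : algebraMap Kbar⟮J⟯ (LaurentSeries Kbar) (256 : Kbar⟮J⟯)
        = (HahnSeries.C 256 : LaurentSeries Kbar) := by
      rw [h25t_C_eq_algebraMap, map_ofNat, map_ofNat]
    simp only [P, map_sub, map_pow, map_add, map_mul, aeval_X, aeval_C, hjj, h256]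
    rw [hidK, sub_self]
  haveI : NeZero 2 := ⟨by norm_num⟩
  exact h25t_mem_ffBar 2 Nat.prime_two T hJp P hP hPd hroot

/-- level `3`: membership from the identity and the Fricke twin. -/
theorem h25t_mem_three (y : LaurentSeries ℤ) (hlead : y.coeff (-1) = 1)
    (hid : jq * (coeffMap (Int.castRingHom ℚ) y) ^ 3
      = (coeffMap (Int.castRingHom ℚ) y + HahnSeries.C 27)
        * (coeffMap (Int.castRingHom ℚ) y + HahnSeries.C 243) ^ 3)
    (hfr : qExpand ℚ 3 jq * coeffMap (Int.castRingHom ℚ) y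
      = (coeffMap (Int.castRingHom ℚ) y + HahnSeries.C 27)
        * (coeffMap (Int.castRingHom ℚ) y + HahnSeries.C 3) ^ 3) :
    coeffMap (Int.castRingHom Kbar) y ∈ modularFunctionFieldBar 3 := by
  set T : LaurentSeries Kbar := coeffMap (Int.castRingHom Kbar) y with hT
  set J : LaurentSeries Kbar := coeffEmb Kbar jq with hJ
  have hT0 : T ≠ 0 := h25t_ne_zero y hlead
  have hidK : J * T ^ 3 = (T + HahnSeries.C 27) * (T + HahnSeries.C 243) ^ 3 := by
    have h := congrArg (coeffEmb Kbar) hid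
    simp only [map_mul, map_pow, map_add, h25t_coeffEmb_C, h25t_coeffEmb_int] at h
    have h27 : ((algebraMap ℚ Kbar) 27 : Kbar) = 27 := map_ofNat _ 27
    have h243 : ((algebraMap ℚ Kbar) 243 : Kbar) = 243 := map_ofNat _ 243
    rw [h27, h243] at h
    exact h
  have hfrK : coeffEmb Kbar (qExpand ℚ 3 jq) * T
      = (T + HahnSeries.C 27) * (T + HahnSeries.C 3) ^ 3 := by
    have h := congrArg (coeffEmb Kbar) hfr
    simp only [map_mul, map_pow, map_add, h25t_coeffEmb_C, h25t_coeffEmb_int] at h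
    have h27 : ((algebraMap ℚ Kbar) 27 : Kbar) = 27 := map_ofNat _ 27
    have h3 : ((algebraMap ℚ Kbar) 3 : Kbar) = 3 := map_ofNat _ 3
    rw [h27, h3] at h
    exact h
  have hTmem : T ∈ Kbar⟮J, T⟯ := subset_adjoin Kbar _ (Set.mem_insert_of_mem _ rfl)
  have hCmem : ∀ a : Kbar, (HahnSeries.C a : LaurentSeries Kbar) ∈ Kbar⟮J, T⟯ := by
    intro a
    rw [h25t_C_eq_algebraMap]
    exact IntermediateField.algebraMap_mem _ a
  have hJp : coeffEmb Kbar (qExpand ℚ 3 jq) ∈ Kbar⟮J, T⟯ := by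
    have h1 : coeffEmb Kbar (qExpand ℚ 3 jq)
        = (T + HahnSeries.C 27) * (T + HahnSeries.C 3) ^ 3 / T := by
      rw [eq_div_iff hT0]
      exact hfrK
    rw [h1]
    exact div_mem (mul_mem (add_mem hTmem (hCmem 27)) (pow_mem (add_mem hTmem (hCmem 3)) 3)) hTmem
  let jj : Kbar⟮J⟯ := ⟨J, mem_adjoin_simple_self Kbar J⟩
  let P : Polynomial Kbar⟮J⟯ :=
    (X + C (27 : Kbar⟮J⟯)) * (X + C (243 : Kbar⟮J⟯)) ^ 3 - C jj * X ^ 3
  have hdeg1 : ((X + C (27 : Kbar⟮J⟯)) * (X + C (243 : Kbar⟮J⟯)) ^ 3).Monic :=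
    (monic_X_add_C _).mul ((monic_X_add_C _).pow 3)
  have hnd1 : ((X + C (27 : Kbar⟮J⟯)) * (X + C (243 : Kbar⟮J⟯)) ^ 3).natDegree = 4 := by
    rw [(monic_X_add_C _).natDegree_mul ((monic_X_add_C _).pow 3),
      (monic_X_add_C _).natDegree_pow, natDegree_X_add_C, natDegree_X_add_C]
  have hdeg2 : (C jj * X ^ 3 : Polynomial Kbar⟮J⟯).degree
      < ((X + C (27 : Kbar⟮J⟯)) * (X + C (243 : Kbar⟮J⟯)) ^ 3).degree := by
    rw [degree_eq_natDegree hdeg1.ne_zero, hnd1]
    calc (C jj * X ^ 3 : Polynomial Kbar⟮J⟯).degree ≤ (3 : ℕ) := degree_C_mul_X_pow_le 3 jj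
      _ < (4 : ℕ) := by exact_mod_cast (by norm_num : (3 : ℕ) < 4)
  have hP : P.Monic := hdeg1.sub_of_left hdeg2
  have hPd : P.natDegree ≤ 3 + 1 := by
    have h1 : P.natDegree ≤ max ((X + C (27 : Kbar⟮J⟯)) * (X + C (243 : Kbar⟮J⟯)) ^ 3).natDegree
        (C jj * X ^ 3 : Polynomial Kbar⟮J⟯).natDegree := natDegree_sub_le _ _
    have h2 : (C jj * X ^ 3 : Polynomial Kbar⟮J⟯).natDegree ≤ 3 := natDegree_C_mul_X_pow_le jj 3
    rw [hnd1] at h1
    omega
  have hroot : Polynomial.aeval T P = 0 := by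
    have hjj : algebraMap Kbar⟮J⟯ (LaurentSeries Kbar) jj = J := rfl
    have h27 : algebraMap Kbar⟮J⟯ (LaurentSeries Kbar) (27 : Kbar⟮J⟯)
        = (HahnSeries.C 27 : LaurentSeries Kbar) := by
      rw [h25t_C_eq_algebraMap, map_ofNat, map_ofNat]
    have h243 : algebraMap Kbar⟮J⟯ (LaurentSeries Kbar) (243 : Kbar⟮J⟯)
        = (HahnSeries.C 243 : LaurentSeries Kbar) := by
      rw [h25t_C_eq_algebraMap, map_ofNat, map_ofNat]
    simp only [P, map_sub, map_pow, map_add, map_mul, aeval_X, aeval_C, hjj, h27, h243]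
    rw [hidK, sub_self]
  haveI : NeZero 3 := ⟨by norm_num⟩
  exact h25t_mem_ffBar 3 Nat.prime_three T hJp P hP hPd hroot

/-- **(E2), level 2** (`ℓ = 3`): from the identity, the Fricke twin, integrality and the leading
term. -/
theorem h25t_isTCoord_two (y : LaurentSeries ℤ)
    (hlow : ∀ n : ℤ, n < -1 → y.coeff n = 0) (hlead : y.coeff (-1) = 1)
    (hid : jq * (coeffMap (Int.castRingHom ℚ) y) ^ 2
      = (coeffMap (Int.castRingHom ℚ) y + HahnSeries.C 256) ^ 3)
    (hfr : qExpand ℚ 2 jq * coeffMap (Int.castRingHom ℚ) y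
      = (coeffMap (Int.castRingHom ℚ) y + HahnSeries.C 16) ^ 3)
    (M : ℕ) [NeZero M] (hM : 2 ∣ M) : ∃ t : FF M, Inst.IsTCoord 3 M t :=
  ⟨_, h25t_pack 3 M y hlow hlead (ffBar_le hM (h25t_mem_two y hlead hid hfr))
    (Or.inl ⟨rfl, hid⟩)⟩

/-- **(E2), level 3** (`ℓ = 2`). -/
theorem h25t_isTCoord_three (y : LaurentSeries ℤ)
    (hlow : ∀ n : ℤ, n < -1 → y.coeff n = 0) (hlead : y.coeff (-1) = 1)
    (hid : jq * (coeffMap (Int.castRingHom ℚ) y) ^ 3
      = (coeffMap (Int.castRingHom ℚ) y + HahnSeries.C 27)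
        * (coeffMap (Int.castRingHom ℚ) y + HahnSeries.C 243) ^ 3)
    (hfr : qExpand ℚ 3 jq * coeffMap (Int.castRingHom ℚ) y
      = (coeffMap (Int.castRingHom ℚ) y + HahnSeries.C 27)
        * (coeffMap (Int.castRingHom ℚ) y + HahnSeries.C 3) ^ 3)
    (M : ℕ) [NeZero M] (hM : 3 ∣ M) : ∃ t : FF M, Inst.IsTCoord 2 M t :=
  ⟨_, h25t_pack 2 M y hlow hlead (ffBar_le hM (h25t_mem_three y hlead hid hfr))
    (Or.inr ⟨rfl, hid⟩)⟩

/-- the formal data of level `2`. -/
def h25t_Data2 : Prop :=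
  ∃ y : LaurentSeries ℤ, (∀ n : ℤ, n < -1 → y.coeff n = 0) ∧ y.coeff (-1) = 1 ∧
    jq * (coeffMap (Int.castRingHom ℚ) y) ^ 2
      = (coeffMap (Int.castRingHom ℚ) y + HahnSeries.C 256) ^ 3 ∧
    qExpand ℚ 2 jq * coeffMap (Int.castRingHom ℚ) y
      = (coeffMap (Int.castRingHom ℚ) y + HahnSeries.C 16) ^ 3

/-- the formal data of level `3`. -/
def h25t_Data3 : Prop :=
  ∃ y : LaurentSeries ℤ, (∀ n : ℤ, n < -1 → y.coeff n = 0) ∧ y.coeff (-1) = 1 ∧
    jq * (coeffMap (Int.castRingHom ℚ) y) ^ 3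
      = (coeffMap (Int.castRingHom ℚ) y + HahnSeries.C 27)
        * (coeffMap (Int.castRingHom ℚ) y + HahnSeries.C 243) ^ 3 ∧
    qExpand ℚ 3 jq * coeffMap (Int.castRingHom ℚ) y
      = (coeffMap (Int.castRingHom ℚ) y + HahnSeries.C 27)
        * (coeffMap (Int.castRingHom ℚ) y + HahnSeries.C 3) ^ 3

/-- **`RowTID` from the formal data.** -/
theorem h25t_rowTID (h2 : h25t_Data2) (h3 : h25t_Data3) : Inst.RowTID := by
  intro ℓ hℓ M _ hM
  rcases hℓ with rfl | rfl
  · -- `ℓ = 2`: `auxLevel 2 = 9 ∣ M`, level 3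
    obtain ⟨y, hlow, hlead, hid, hfr⟩ := h3
    have h9 : auxLevel 2 = 9 := by simp [auxLevel]
    rw [h9] at hM
    exact h25t_isTCoord_three y hlow hlead hid hfr M (Dvd.dvd.trans (by norm_num) hM)
  · -- `ℓ = 3`: `auxLevel 3 = 4 ∣ M`, level 2
    obtain ⟨y, hlow, hlead, hid, hfr⟩ := h2
    have h4 : auxLevel 3 = 4 := by simp [auxLevel]
    rw [h4] at hM
    exact h25t_isTCoord_two y hlow hlead hid hfr M (Dvd.dvd.trans (by norm_num) hM)

end Fermat.Agent.Red.SM.TIDPack
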