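import Mathlib

/-!
# P-RED / R-SM, SM-TID packaging (helper25): the degree argument, abstract form

Mathlib only.

`h25t_mem_of_degree` : let `K ⊆ L` be fields, `Fp` an intermediate field, `J ∈ Fp` with
`[Fp : K(J)] = n`, and `T ∈ L` a root of a monic polynomial of degree `≤ n` over `K(J)` such that
`Fp ⊆ K(J, T)`.  Then `T ∈ Fp`.
-/

set_option autoImplicit false
set_option linter.style.haveILetI false
set_option linter.unusedSectionVars false

noncomputable section

namespace Fermat.Agent.Red.SM.TIDPack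

open IntermediateField Polynomial Module

variable {K L : Type*} [Field K] [Field L] [Algebra K L]

/-- `K(J)(T)`, viewed over `K`, is `K(J, T)`; the relative degree of `K(J, T)` over `K(J)` is
the degree of `K(J)(T)` over `K(J)`. -/
theorem h25t_relfinrank_eq (J T : L) :
    (K⟮J⟯).relfinrank (K⟮J, T⟯) = finrank K⟮J⟯ (K⟮J⟯⟮T⟯) := by
  have hle : K⟮J⟯ ≤ K⟮J, T⟯ := by
    apply adjoin_le_iff.mpr
    intro x hx
    rw [Set.mem_singleton_iff] at hx
    rw [hx]
    exact subset_adjoin K _ (Set.mem_insert _ _)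
  rw [relfinrank_eq_finrank_of_le hle]
  have heq : extendScalars hle = K⟮J⟯⟮T⟯ := by
    apply IntermediateField.restrictScalars_injective K
    rw [extendScalars_restrictScalars, adjoin_simple_adjoin_simple]
  rw [heq]

/-- **the degree argument.** -/
theorem h25t_mem_of_degree (Fp : IntermediateField K L) (J T : L) (n : ℕ)
    (hJ : J ∈ Fp) (hdeg : (K⟮J⟯).relfinrank Fp = n) (hle : Fp ≤ K⟮J, T⟯)
    (P : Polynomial K⟮J⟯) (hP : P.Monic) (hPd : P.natDegree ≤ n)
    (hroot : Polynomial.aeval T P = 0) : T ∈ Fp := by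
  have hint : IsIntegral K⟮J⟯ T := ⟨P, hP, hroot⟩
  have h1 : finrank K⟮J⟯ (K⟮J⟯⟮T⟯) = (minpoly K⟮J⟯ T).natDegree :=
    IntermediateField.adjoin.finrank hint
  have h2 : (minpoly K⟮J⟯ T).natDegree ≤ P.natDegree :=
    natDegree_le_natDegree (minpoly.min K⟮J⟯ T hP hroot)
  have h3 : 0 < (minpoly K⟮J⟯ T).natDegree := minpoly.natDegree_pos hint
  have hJle : K⟮J⟯ ≤ Fp := by
    apply adjoin_le_iff.mpr
    intro x hx
    rw [Set.mem_singleton_iff] at hx
    rw [hx]
    exact hJ
  have h4 := relfinrank_mul_relfinrank hJle hle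
  rw [hdeg, h25t_relfinrank_eq, h1] at h4
  have h5 : Fp.relfinrank (K⟮J, T⟯) = 1 := by
    have h6 : n * Fp.relfinrank (K⟮J, T⟯) ≤ n := by
      rw [h4]; omega
    have h7 : Fp.relfinrank (K⟮J, T⟯) ≠ 0 := by
      intro h0
      rw [h0, mul_zero] at h4
      omega
    have h8 : Fp.relfinrank (K⟮J, T⟯) ≤ 1 := by
      by_contra hc
      push Not at hc
      have : n * 2 ≤ n * Fp.relfinrank (K⟮J, T⟯) := Nat.mul_le_mul_left n hc
      omega
    omega
  have h9 : K⟮J, T⟯ ≤ Fp := relfinrank_eq_one_iff.mp h5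
  exact h9 (subset_adjoin K _ (Set.mem_insert_of_mem _ rfl))

/-- transport of the degree: if `jF : ↥Fp` has `[Fp : K(jF)] = n` (as fields over the type
`↥Fp`), then `[Fp : K(J)] = n` inside `L`, `J` the image of `jF`. -/
theorem h25t_relfinrank_of_finrank (Fp : IntermediateField K L) (jF : Fp) (n : ℕ)
    (hdeg : finrank K⟮jF⟯ Fp = n) : (K⟮(jF : L)⟯).relfinrank Fp = n := by
  have h1 : (K⟮jF⟯).relfinrank (⊤ : IntermediateField K Fp) = n := by
    rw [relfinrank_top_right]; exact hdeg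
  have h2 := relfinrank_map_map (K⟮jF⟯) (⊤ : IntermediateField K Fp) Fp.val
  rw [h1] at h2
  have h3 : (K⟮jF⟯).map Fp.val = K⟮(jF : L)⟯ := by
    rw [adjoin_map, Set.image_singleton]
    rfl
  have h4 : (⊤ : IntermediateField K Fp).map Fp.val = Fp := by
    rw [← AlgHom.fieldRange_eq_map, fieldRange_val]
  rw [h3, h4] at h2
  exact h2

end Fermat.Agent.Red.SM.TIDPack
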