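import Mathlib

/-!
# P-RED / SM-TAME: the tame discriminant bound in residue characteristic zero (helper33)

Mathlib-only leaf (item (ii) of the DELTA hypothesis check).

Let `R` be a principal ideal domain, `π` a prime element of `R` whose residue field has
characteristic zero, `B` a Dedekind domain which is a free `R`-module of rank `n` with basis `b`.
Then for every finite set `s` of maximal ideals of `B` containing `π`:

  `ord_π (Algebra.discr R b) ≤ n - #s`        (`h33_tame_discr_bound`).

More precisely (`h33_discr_smith`) `ord_π (disc) = n - #T`, where `T` is the set of indices of a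
Smith basis of `B` relative to the radical of `π B` at which the Smith coefficient is `π`
(i.e. `#T = dim_κ B / rad (π B) = ∑ f_P`).

Route.
* `h33_not_dvd_differentIdeal_of_isCoprime`: if `π B = P ^ e * Q` with `Q` prime to `P`, then
  `P ^ e` does not divide the different (the trace of the CRT idempotent is a positive integer,
  nonzero in characteristic zero).
* `h33_pow_dvd_span_of_trace`: if `π ^ (k + 1)` divides all `Tr (w y)` then
  `w ∈ P ^ (k e + 1)` for all `P ∋ π`.
* `h33_exists_eq_mul_of_trace` (β): if `π ^ 2` divides all `Tr (w y)` then `w = π y₀` with `y₀` in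
  the radical of `π B`.
* `h33_exists_smith`, `h33_card_le`, `h33_discr_smith`: the Gram matrix in a Smith basis adapted
  to the radical is `diag (1, π) * Ĝ` with `Ĝ` invertible modulo `π` (a kernel vector of `Ĝ mod π`
  would give `w` as in (β)).
-/

set_option autoImplicit false
set_option linter.unusedSectionVars false
set_option linter.style.haveILetI false
set_option linter.overlappingInstances false

open scoped nonZeroDivisors

attribute [local instance] FractionRing.liftAlgebra FractionRing.isScalarTower_liftAlgebra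

namespace Fermat.Agent.Red.SM

section Different

variable (A : Type*) {B : Type*} [CommRing A] [CommRing B] [Algebra A B]
  [IsDomain A] [IsDedekindDomain A] [IsDedekindDomain B] [Module.IsTorsionFree A B]
  [Module.Finite A B]

/-- **Tameness.**  If `p B = P * Q` with `P ≠ ⊤` coprime to `Q` and the residue field `A ⧸ p` has
characteristic zero, then `P` does not divide the different (apply with `P = P₀ ^ e`). -/
theorem h33_not_dvd_differentIdeal_of_isCoprime
    [Algebra.IsSeparable (FractionRing A) (FractionRing B)]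
    {p : Ideal A} [p.IsMaximal] [CharZero (A ⧸ p)] (P Q : Ideal B) (hPtop : P ≠ ⊤)
    (hPQ : IsCoprime P Q) (hP : P * Q = Ideal.map (algebraMap A B) p) :
    ¬ P ∣ differentIdeal A B := by
  letI : Algebra (A ⧸ p) (B ⧸ Q) := Ideal.Quotient.algebraQuotientOfLEComap (by
      rw [← Ideal.map_le_iff_le_comap, ← hP]
      exact Ideal.mul_le_right)
  letI : Algebra (A ⧸ p) (B ⧸ P) := Ideal.Quotient.algebraQuotientOfLEComap (by
      rw [← Ideal.map_le_iff_le_comap, ← hP]
      exact Ideal.mul_le_left)
  haveI : IsScalarTower A (A ⧸ p) (B ⧸ Q) := .of_algebraMap_eq' rfl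
  haveI : IsScalarTower A (A ⧸ p) (B ⧸ P) := .of_algebraMap_eq' rfl
  haveI : Module.Finite (A ⧸ p) (B ⧸ Q) :=
    Module.Finite.of_restrictScalars_finite A (A ⧸ p) (B ⧸ Q)
  haveI : Module.Finite (A ⧸ p) (B ⧸ P) :=
    Module.Finite.of_restrictScalars_finite A (A ⧸ p) (B ⧸ P)
  letI : Field (A ⧸ p) := Ideal.Quotient.field p
  haveI : Nontrivial (B ⧸ P) := Ideal.Quotient.nontrivial_iff.mpr hPtop
  let e : (B ⧸ p.map (algebraMap A B)) ≃ₐ[A ⧸ p] ((B ⧸ P) × B ⧸ Q) :=
    { __ := (Ideal.quotEquivOfEq hP.symm).trans (Ideal.quotientMulEquivQuotientProd P Q hPQ),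
      commutes' := Quotient.ind fun _ ↦ rfl }
  obtain ⟨y, hy⟩ := Ideal.Quotient.mk_surjective (e.symm (1, 0))
  refine not_dvd_differentIdeal_of_intTrace_not_mem A P Q hP y ?_ ?_
  · have := congr((e $hy).2)
    simp at this
    simpa [e, Ideal.Quotient.eq_zero_iff_mem] using this
  · rw [← Ideal.Quotient.eq_zero_iff_mem, ← Algebra.trace_quotient_eq_of_isDedekindDomain,
      hy, Algebra.trace_eq_of_algEquiv, Algebra.trace_prod_apply]
    have h1 : Algebra.trace (A ⧸ p) (B ⧸ P) (1 : B ⧸ P) = (Module.finrank (A ⧸ p) (B ⧸ P) : A ⧸ p) := by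
      have := Algebra.trace_algebraMap (R := A ⧸ p) (S := B ⧸ P) 1
      simpa using this
    simp only [map_zero, add_zero, h1]
    exact_mod_cast (Module.finrank_pos (R := A ⧸ p) (M := B ⧸ P)).ne'

/-- If `π ^ k` divides all traces `Tr (w y)`, then `π ^ k` divides `d * w` for every `d` in the
different. -/
theorem h33_dvd_mul_of_trace
    (π : A) (hπ : π ≠ 0) (k : ℕ) (w : B)
    (hw : ∀ y : B, π ^ k ∣ Algebra.intTrace A B (w * y)) (d : B)
    (hd : d ∈ differentIdeal A B) :
    algebraMap A B (π ^ k) ∣ d * w := by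
  have hπk : algebraMap A (FractionRing B) (π ^ k) ≠ 0 := by
    rw [Ne, map_eq_zero_iff _ (FaithfulSMul.algebraMap_injective A (FractionRing B))]
    exact pow_ne_zero k hπ
  have hz : algebraMap B (FractionRing B) w * (algebraMap A (FractionRing B) (π ^ k))⁻¹ ∈
      Submodule.traceDual A (FractionRing A) (1 : Submodule B (FractionRing B)) := by
    rw [Submodule.mem_traceDual]
    intro a ha
    obtain ⟨y, rfl⟩ := Submodule.mem_one.mp ha
    obtain ⟨c, hc⟩ := hw y
    refine ⟨c, ?_⟩
    simp only [Algebra.traceForm_apply]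
    have h1 : algebraMap B (FractionRing B) w * (algebraMap A (FractionRing B) (π ^ k))⁻¹ *
        algebraMap B (FractionRing B) y =
        (algebraMap A (FractionRing A) (π ^ k))⁻¹ • algebraMap B (FractionRing B) (w * y) := by
      rw [Algebra.smul_def, map_inv₀, ← IsScalarTower.algebraMap_apply, map_mul]
      ring
    rw [h1, map_smul, ← Algebra.algebraMap_intTrace (A := A), hc, map_mul, smul_eq_mul,
      ← mul_assoc, inv_mul_cancel₀, one_mul]
    rw [Ne, map_eq_zero_iff _ (FaithfulSMul.algebraMap_injective A (FractionRing A))]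
    exact pow_ne_zero k hπ
  have hd' : algebraMap B (FractionRing B) d ∈
      (1 / Submodule.traceDual A (FractionRing A) (1 : Submodule B (FractionRing B))) := hd
  rw [Submodule.mem_div_iff_forall_mul_mem] at hd'
  obtain ⟨x, hx⟩ := Submodule.mem_one.mp (hd' _ hz)
  refine ⟨x, ?_⟩
  apply FaithfulSMul.algebraMap_injective B (FractionRing B)
  rw [map_mul, map_mul, ← IsScalarTower.algebraMap_apply, hx]
  field_simp

/-- The exponent of the maximal ideal `P` in `π B`. -/
noncomputable def h33_ramExp (π : A) (P : Ideal B) : ℕ :=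
  Multiset.count P (UniqueFactorizationMonoid.normalizedFactors
    (Ideal.span {algebraMap A B π}))

theorem h33_span_ne_bot {π : A} (hπ : π ≠ 0) : Ideal.span {algebraMap A B π} ≠ (⊥ : Ideal B) := by
  rw [Ne, Ideal.span_singleton_eq_bot, map_eq_zero_iff _ (FaithfulSMul.algebraMap_injective A B)]
  exact hπ

theorem h33_ramExp_pos {π : A} (hπ : π ≠ 0) (P : Ideal B) [P.IsMaximal]
    (hP : algebraMap A B π ∈ P) : 0 < h33_ramExp A π P := by
  obtain ⟨Q, hQ1, hQ2⟩ := Ideal.eq_prime_pow_mul_coprime (h33_span_ne_bot A hπ) P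
  by_contra h0
  have h0' : h33_ramExp A π P = 0 := by omega
  unfold h33_ramExp at h0'
  rw [h0', pow_zero, one_mul] at hQ2
  have hle : Q ≤ P := by
    rw [← hQ2, Ideal.span_singleton_le_iff_mem]
    exact hP
  have : P ⊔ Q = P := sup_eq_left.mpr hle
  rw [this] at hQ1
  exact (Ideal.IsMaximal.ne_top ‹_›) hQ1

/-- **Per-prime tameness.**  If `π ^ k` divides all traces `Tr (w y)` (`k ≥ 1`), then
`w ∈ P ^ ((k - 1) e + 1)` for every maximal ideal `P ∋ π`, `e` the exponent of `P` in `π B`. -/
theorem h33_pow_dvd_span_of_trace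
    [Algebra.IsSeparable (FractionRing A) (FractionRing B)]
    {π : A} (hπ : Prime π) [CharZero (A ⧸ Ideal.span {π})]
    (P : Ideal B) [P.IsMaximal] (hP : algebraMap A B π ∈ P)
    (k : ℕ) (w : B) (hw : ∀ y : B, π ^ (k + 1) ∣ Algebra.intTrace A B (w * y)) :
    P ^ (k * h33_ramExp A π P + 1) ∣ Ideal.span {w} := by
  haveI hpprime : (Ideal.span {π}).IsPrime := (Ideal.span_singleton_prime hπ.ne_zero).mpr hπ
  haveI hpmax : (Ideal.span {π}).IsMaximal :=
    hpprime.isMaximal (by rw [Ne, Ideal.span_singleton_eq_bot]; exact hπ.ne_zero)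
  obtain ⟨Q, hQ1, hQ2⟩ := Ideal.eq_prime_pow_mul_coprime (h33_span_ne_bot A hπ.ne_zero) P
  have he := h33_ramExp_pos A hπ.ne_zero P hP
  change _ = P ^ (h33_ramExp A π P) * Q at hQ2
  set e := h33_ramExp A π P with he_def
  have hPbot : P ≠ ⊥ := by
    rintro rfl
    exact hπ.ne_zero ((map_eq_zero_iff _ (FaithfulSMul.algebraMap_injective A B)).1 (by simpa using hP))
  have hPprime : Prime P := Ideal.prime_of_isPrime hPbot inferInstance
  -- Part 1
  have hmap : Ideal.map (algebraMap A B) (Ideal.span {π}) = Ideal.span {algebraMap A B π} := by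
    rw [Ideal.map_span, Set.image_singleton]
  have h1 : ¬ P ^ e ∣ differentIdeal A B := by
    refine h33_not_dvd_differentIdeal_of_isCoprime A (p := Ideal.span {π}) (P ^ e) Q ?_ ?_ ?_
    · intro htop
      have : P ^ e ≤ P := Ideal.pow_le_self (by omega)
      rw [htop] at this
      exact (Ideal.IsMaximal.ne_top ‹_›) (top_le_iff.mp this)
    · exact (Ideal.isCoprime_iff_sup_eq.mpr hQ1).pow_left
    · rw [hmap, hQ2]
  -- Step 2a
  have h2 : differentIdeal A B * Ideal.span {w} ≤ Ideal.span {algebraMap A B π} ^ (k + 1) := by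
    rw [Ideal.mul_le]
    intro d hd x hx
    obtain ⟨c, rfl⟩ := Ideal.mem_span_singleton'.mp hx
    rw [Ideal.span_singleton_pow, Ideal.mem_span_singleton, ← map_pow]
    have := h33_dvd_mul_of_trace A π hπ.ne_zero (k + 1) w hw d hd
    rw [mul_left_comm]
    exact Dvd.dvd.mul_left this c
  have h3 : P ^ (e * (k + 1)) ∣ differentIdeal A B * Ideal.span {w} := by
    rw [Ideal.dvd_iff_le]
    refine h2.trans ?_
    rw [hQ2, mul_pow, ← pow_mul]
    exact Ideal.mul_le_left
  rw [pow_dvd_iff_le_emultiplicity, emultiplicity_mul hPprime] at h3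
  rw [← emultiplicity_lt_iff_not_dvd] at h1
  rw [pow_dvd_iff_le_emultiplicity]
  by_contra hcon
  rw [not_le] at hcon
  obtain ⟨m, hm⟩ : ∃ m : ℕ, emultiplicity P (Ideal.span {w}) = m :=
    ENat.ne_top_iff_exists.mp (ne_top_of_lt hcon) |>.imp fun _ h => h.symm
  obtain ⟨d, hd⟩ : ∃ d : ℕ, emultiplicity P (differentIdeal A B) = d :=
    ENat.ne_top_iff_exists.mp (ne_top_of_lt h1) |>.imp fun _ h => h.symm
  rw [hm] at hcon h3
  rw [hd] at h1 h3
  have h1' : d < e := by exact_mod_cast h1
  have h3' : e * (k + 1) ≤ d + m := by exact_mod_cast h3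
  have hcon' : m < k * e + 1 := by exact_mod_cast hcon
  have : e * (k + 1) = k * e + e := by ring
  omega

/-- `x` lies in every maximal ideal of `B` containing `π`. -/
def h33_InRad (π : A) (x : B) : Prop :=
  ∀ P : Ideal B, P.IsMaximal → algebraMap A B π ∈ P → x ∈ P

variable {A}

theorem h33_InRad.add {π : A} {x y : B} (hx : h33_InRad A π x) (hy : h33_InRad A π y) :
    h33_InRad A π (x + y) := fun P hP hπ => P.add_mem (hx P hP hπ) (hy P hP hπ)

theorem h33_InRad.mul_left {π : A} {x : B} (hx : h33_InRad A π x) (y : B) :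
    h33_InRad A π (y * x) := fun P hP hπ => P.mul_mem_left y (hx P hP hπ)

theorem h33_InRad.mul_right {π : A} {x : B} (hx : h33_InRad A π x) (y : B) :
    h33_InRad A π (x * y) := fun P hP hπ => P.mul_mem_right y (hx P hP hπ)

theorem h33_inRad_algebraMap (π : A) : h33_InRad A π (algebraMap A B π) := fun _ _ h => h

theorem h33_inRad_zero (π : A) : h33_InRad A π (0 : B) := fun P _ _ => P.zero_mem

theorem h33_InRad.smul {π : A} {x : B} (hx : h33_InRad A π x) (c : A) :
    h33_InRad A π (c • x) := by
  rw [Algebra.smul_def]; exact hx.mul_left _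

theorem h33_inRad_smul_self (π : A) (y : B) : h33_InRad A π ((π : A) • y) := by
  rw [Algebra.smul_def]; exact (h33_inRad_algebraMap π).mul_right y

theorem h33_inRad_sum {π : A} {α : Type*} (t : Finset α) (f : α → B)
    (h : ∀ i ∈ t, h33_InRad A π (f i)) : h33_InRad A π (∑ i ∈ t, f i) :=
  fun P hP hπ => P.sum_mem fun i hi => h i hi P hP hπ

variable (A)

/-- **(α)** the trace of an element of the radical of `π B` is divisible by `π`. -/
theorem h33_dvd_intTrace_of_inRad {π : A} (hπ : Prime π) (x : B) (hx : h33_InRad A π x) :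
    π ∣ Algebra.intTrace A B x := by
  haveI hpprime : (Ideal.span {π}).IsPrime := (Ideal.span_singleton_prime hπ.ne_zero).mpr hπ
  haveI hpmax : (Ideal.span {π}).IsMaximal :=
    hpprime.isMaximal (by rw [Ne, Ideal.span_singleton_eq_bot]; exact hπ.ne_zero)
  have hmap : Ideal.map (algebraMap A B) (Ideal.span {π}) = Ideal.span {algebraMap A B π} := by
    rw [Ideal.map_span, Set.image_singleton]
  have hrad : x ∈ (Ideal.map (algebraMap A B) (Ideal.span {π})).radical := by
    rw [Ideal.radical_eq_sInf, Ideal.mem_sInf]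
    rintro J ⟨hJ1, hJ2⟩
    have hπJ : algebraMap A B π ∈ J := hJ1 (by rw [hmap]; exact Ideal.mem_span_singleton_self _)
    have hJbot : J ≠ ⊥ := by
      rintro rfl
      exact hπ.ne_zero
        ((map_eq_zero_iff _ (FaithfulSMul.algebraMap_injective A B)).1 (by simpa using hπJ))
    exact hx J (hJ2.isMaximal hJbot) hπJ
  obtain ⟨n, hn⟩ := hrad
  rw [← Ideal.mem_span_singleton, ← Ideal.Quotient.eq_zero_iff_mem,
    ← Algebra.trace_quotient_eq_of_isDedekindDomain, ← isNilpotent_iff_eq_zero]
  refine Algebra.isNilpotent_trace_of_isNilpotent ⟨n, ?_⟩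
  rw [← map_pow, Ideal.Quotient.eq_zero_iff_mem]
  exact hn

/-- **(β')** if `π` divides all traces `Tr (w y)` then `w` lies in the radical of `π B`. -/
theorem h33_inRad_of_trace
    [Algebra.IsSeparable (FractionRing A) (FractionRing B)]
    {π : A} (hπ : Prime π) [CharZero (A ⧸ Ideal.span {π})]
    (w : B) (hw : ∀ y : B, π ∣ Algebra.intTrace A B (w * y)) : h33_InRad A π w := by
  intro P hP hπP
  haveI := hP
  have h := h33_pow_dvd_span_of_trace A hπ P hπP 0 w (by simpa using hw)
  rw [zero_mul, zero_add, pow_one, Ideal.dvd_iff_le, Ideal.span_singleton_le_iff_mem] at h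
  exact h

/-- **(β'')** if `π ^ 2` divides all traces `Tr (w y)` then `π` divides `w`. -/
theorem h33_dvd_of_trace
    [Algebra.IsSeparable (FractionRing A) (FractionRing B)]
    {π : A} (hπ : Prime π) [CharZero (A ⧸ Ideal.span {π})]
    (w : B) (hw : ∀ y : B, π ^ 2 ∣ Algebra.intTrace A B (w * y)) : algebraMap A B π ∣ w := by
  by_cases hw0 : w = 0
  · rw [hw0]; exact dvd_zero _
  have hI := h33_span_ne_bot (B := B) A hπ.ne_zero
  have hW : Ideal.span {w} ≠ (⊥ : Ideal B) := by
    rw [Ne, Ideal.span_singleton_eq_bot]; exact hw0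
  rw [← Ideal.mem_span_singleton, ← Ideal.span_singleton_le_iff_mem, ← Ideal.dvd_iff_le,
    UniqueFactorizationMonoid.dvd_iff_normalizedFactors_le_normalizedFactors hI hW,
    Multiset.le_iff_count]
  intro P
  by_cases hPmem : P ∈ UniqueFactorizationMonoid.normalizedFactors
      (Ideal.span {algebraMap A B π} : Ideal B)
  · have hPprime : Prime P := UniqueFactorizationMonoid.prime_of_normalized_factor P hPmem
    have hPbot : P ≠ ⊥ := hPprime.ne_zero
    haveI hPmax : P.IsMaximal := (Ideal.isPrime_of_prime hPprime).isMaximal hPbot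
    have hπP : algebraMap A B π ∈ P := by
      have := UniqueFactorizationMonoid.dvd_of_mem_normalizedFactors hPmem
      rw [Ideal.dvd_iff_le, Ideal.span_singleton_le_iff_mem] at this
      exact this
    have h := h33_pow_dvd_span_of_trace A hπ P hπP 1 w hw
    have h' : P ^ (h33_ramExp A π P) ∣ Ideal.span {w} :=
      (pow_dvd_pow P (by omega)).trans h
    rw [pow_dvd_iff_le_emultiplicity,
      UniqueFactorizationMonoid.emultiplicity_eq_count_normalizedFactors hPprime.irreducible hW,
      normalize_eq] at h'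
    exact_mod_cast h'
  · rw [Multiset.count_eq_zero_of_notMem hPmem]
    exact Nat.zero_le _

/-- **(β)** if `π ^ 2` divides all traces `Tr (w y)` then `w = π y₀` with `y₀` in the radical of
`π B`. -/
theorem h33_exists_eq_mul_of_trace
    [Algebra.IsSeparable (FractionRing A) (FractionRing B)]
    {π : A} (hπ : Prime π) [CharZero (A ⧸ Ideal.span {π})]
    (w : B) (hw : ∀ y : B, π ^ 2 ∣ Algebra.intTrace A B (w * y)) :
    ∃ y₀ : B, w = algebraMap A B π * y₀ ∧ h33_InRad A π y₀ := by
  obtain ⟨y₀, rfl⟩ := h33_dvd_of_trace A hπ w hw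
  refine ⟨y₀, rfl, h33_inRad_of_trace A hπ y₀ fun y => ?_⟩
  obtain ⟨c, hc⟩ := hw y
  have h1 : Algebra.intTrace A B (algebraMap A B π * y₀ * y) =
      π * Algebra.intTrace A B (y₀ * y) := by
    rw [mul_assoc, ← Algebra.smul_def, map_smul, smul_eq_mul]
  rw [h1, pow_two, mul_assoc] at hc
  exact ⟨c, mul_left_cancel₀ hπ.ne_zero hc⟩

end Different

section Smith

variable {R B ι : Type*} [CommRing R] [IsDomain R] [IsPrincipalIdealRing R]
  [CommRing B] [IsDomain B] [IsDedekindDomain B] [Algebra R B] [Module.IsTorsionFree R B]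
  [Module.Finite R B] [Fintype ι] [DecidableEq ι]

theorem h33_inRad_iff_mem_radical {π : R} (hπ : π ≠ 0) (x : B) :
    h33_InRad R π x ↔ x ∈ (Ideal.span {algebraMap R B π} : Ideal B).radical := by
  constructor
  · intro hx
    rw [Ideal.radical_eq_sInf, Ideal.mem_sInf]
    rintro J ⟨hJ1, hJ2⟩
    have hπJ : algebraMap R B π ∈ J := hJ1 (Ideal.mem_span_singleton_self _)
    have hJbot : J ≠ ⊥ := by
      rintro rfl
      exact hπ ((map_eq_zero_iff _ (FaithfulSMul.algebraMap_injective R B)).1 (by simpa using hπJ))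
    exact hx J (hJ2.isMaximal hJbot) hπJ
  · rintro ⟨n, hn⟩ P hP hπP
    haveI := hP
    have : x ^ n ∈ P := (Ideal.span_singleton_le_iff_mem P).2 hπP hn
    exact hP.isPrime.mem_of_pow_mem n this

/-- A Smith basis of `B` adapted to the radical of `π B`: there are a basis `b'` of `B` and a set
`T` of indices such that the radical of `π B` is `⨁_{i ∈ T} π b' i ⊕ ⨁_{i ∉ T} b' i`. -/
theorem h33_exists_smith (b : Module.Basis ι R B) {π : R} (hπ : Prime π) :
    ∃ (b' : Module.Basis ι R B) (T : Finset ι),
      (∀ i, i ∉ T → h33_InRad R π (b' i)) ∧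
      (∀ y : B, h33_InRad R π y → ∀ i ∈ T, π ∣ b'.repr y i) := by
  classical
  have hrad : (Ideal.span {algebraMap R B π} : Ideal B).radical ≠ ⊥ := by
    intro h
    have h1 : algebraMap R B π ∈ (Ideal.span {algebraMap R B π} : Ideal B).radical :=
      Ideal.le_radical (Ideal.mem_span_singleton_self _)
    rw [h] at h1
    exact hπ.ne_zero
      ((map_eq_zero_iff _ (FaithfulSMul.algebraMap_injective R B)).1 (by simpa using h1))
  obtain ⟨b', a, ab', hab⟩ := Ideal.exists_smith_normal_form b _ hrad
  -- coordinates of elements of the radical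
  have hcoord : ∀ y : B, h33_InRad R π y → ∀ i, a i ∣ b'.repr y i := by
    intro y hy i
    have hy' := (h33_inRad_iff_mem_radical hπ.ne_zero y).1 hy
    have h1 := ab'.sum_repr ⟨y, hy'⟩
    obtain ⟨c, hc⟩ : ∃ c : ι → R, ∀ j, c j = ab'.repr ⟨y, hy'⟩ j := ⟨_, fun _ => rfl⟩
    have h2 : ∑ j, (c j * a j) • b' j = y := by
      have := congrArg Subtype.val h1
      simp only [Submodule.coe_sum, Submodule.coe_smul_of_tower, hab] at this
      rw [← this]
      exact Finset.sum_congr rfl fun j _ => by rw [mul_smul, hc]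
    have h3 : b'.repr y i = c i * a i := by
      rw [← h2, b'.repr_sum_self]
    rw [h3]
    exact dvd_mul_left _ _
  have hadvd : ∀ i, a i ∣ π := by
    intro i
    have h := hcoord (π • b' i) (h33_inRad_smul_self π (b' i)) i
    simpa using h
  refine ⟨b', Finset.univ.filter (fun i => π ∣ a i), ?_, ?_⟩
  · intro i hi
    simp only [Finset.mem_filter, Finset.mem_univ, true_and] at hi
    obtain ⟨c, hc⟩ := hadvd i
    have hπc : π ∣ c := by
      rcases hπ.dvd_or_dvd (show π ∣ a i * c from ⟨1, by rw [mul_one, hc]⟩) with h | h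
      · exact absurd h hi
      · exact h
    obtain ⟨c', rfl⟩ := hπc
    have h1 : a i * c' = 1 := by
      have : π * 1 = π * (a i * c') := by rw [mul_one]; nth_rewrite 1 [hc]; ring
      exact (mul_left_cancel₀ hπ.ne_zero this).symm
    have h2 : b' i = c' • ((ab' i : (Ideal.span {algebraMap R B π} : Ideal B).radical) : B) := by
      rw [hab, ← mul_smul, mul_comm, h1, one_smul]
    rw [h2]
    exact ((h33_inRad_iff_mem_radical hπ.ne_zero _).2 (ab' i).2).smul c'
  · intro y hy i hi
    simp only [Finset.mem_filter, Finset.mem_univ, true_and] at hi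
    exact hi.trans (hcoord y hy i)

/-- **Counting.**  The number of maximal ideals over `π` is at most the number of indices of a
Smith basis at which the radical of `π B` is not everything. -/
theorem h33_card_le (b' : Module.Basis ι R B) {π : R} (hπ : Prime π) (T : Finset ι)
    (hT : ∀ i, i ∉ T → h33_InRad R π (b' i))
    (s : Finset (Ideal B)) (hs : ∀ P ∈ s, P.IsMaximal ∧ algebraMap R B π ∈ P) :
    s.card ≤ T.card := by
  classical
  haveI hpprime : (Ideal.span {π}).IsPrime := (Ideal.span_singleton_prime hπ.ne_zero).mpr hπ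
  haveI hpmax : (Ideal.span {π}).IsMaximal :=
    hpprime.isMaximal (by rw [Ne, Ideal.span_singleton_eq_bot]; exact hπ.ne_zero)
  letI : Field (R ⧸ Ideal.span {π}) := Ideal.Quotient.field _
  -- CRT elements
  have hcop : Pairwise (Function.onFun IsCoprime (fun P : s => (P : Ideal B))) := by
    intro P Q hPQ
    haveI := (hs P P.2).1
    haveI := (hs Q Q.2).1
    exact Ideal.isCoprime_of_isMaximal (fun h => hPQ (Subtype.ext h))
  have hcrt : ∀ P₀ : s, ∃ c : B, c - 1 ∈ (P₀ : Ideal B) ∧
      ∀ P : s, P ≠ P₀ → c ∈ (P : Ideal B) := by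
    intro P₀
    obtain ⟨c, hc⟩ := Ideal.exists_forall_sub_mem_ideal hcop
      (fun P => if P = P₀ then (1 : B) else 0)
    refine ⟨c, by simpa using hc P₀, fun P hP => ?_⟩
    simpa [hP] using hc P
  choose c hc1 hc2 using hcrt
  -- the coordinate vectors
  let v : s → (T → R ⧸ Ideal.span {π}) :=
    fun P i => Ideal.Quotient.mk _ (b'.repr (c P) i)
  have hli : LinearIndependent (R ⧸ Ideal.span {π}) v := by
    rw [Fintype.linearIndependent_iff]
    intro g hg P₀
    choose α hα using fun P => Ideal.Quotient.mk_surjective (g P)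
    set x : B := ∑ P, α P • c P with hx
    -- coordinates of `x` at `i ∈ T` are divisible by `π`
    have hxT : ∀ i ∈ T, π ∣ b'.repr x i := by
      intro i hi
      have h1 := congrFun hg ⟨i, hi⟩
      simp only [Finset.sum_apply, Pi.smul_apply, smul_eq_mul, Pi.zero_apply, v, ← hα,
        ← map_mul, ← map_sum] at h1
      rw [Ideal.Quotient.eq_zero_iff_mem, Ideal.mem_span_singleton] at h1
      have h2 : b'.repr x i = ∑ P, α P * b'.repr (c P) i := by
        rw [hx, map_sum, Finsupp.coe_finsetSum, Finset.sum_apply]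
        exact Finset.sum_congr rfl fun P _ => by rw [map_smul, Finsupp.smul_apply, smul_eq_mul]
      rw [h2]
      exact h1
    -- hence `x` lies in the radical
    have hxrad : h33_InRad R π x := by
      rw [← b'.sum_repr x]
      refine h33_inRad_sum _ _ fun i _ => ?_
      by_cases hi : i ∈ T
      · obtain ⟨t, ht⟩ := hxT i hi
        rw [ht, mul_smul]
        exact h33_inRad_smul_self π _
      · exact (hT i hi).smul _
    -- so `α P₀ ∈ P₀`
    haveI hP₀max := (hs P₀ P₀.2).1
    have hxP₀ : x ∈ (P₀ : Ideal B) := hxrad P₀ hP₀max (hs P₀ P₀.2).2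
    have h3 : α P₀ • c P₀ ∈ (P₀ : Ideal B) := by
      have h4 : x = α P₀ • c P₀ + ∑ P ∈ Finset.univ.erase P₀, α P • c P := by
        rw [hx, ← Finset.add_sum_erase _ _ (Finset.mem_univ P₀)]
      have h5 : ∑ P ∈ Finset.univ.erase P₀, α P • c P ∈ (P₀ : Ideal B) := by
        refine Ideal.sum_mem _ fun P hP => ?_
        rw [Algebra.smul_def]
        exact Ideal.mul_mem_left _ _ (hc2 P P₀ (Finset.ne_of_mem_erase hP).symm)
      have h6 : α P₀ • c P₀ = x - ∑ P ∈ Finset.univ.erase P₀, α P • c P := by
        rw [h4]; ring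
      rw [h6]
      exact Ideal.sub_mem _ hxP₀ h5
    rw [Algebra.smul_def] at h3
    have hcP₀ : c P₀ ∉ (P₀ : Ideal B) := by
      intro h
      have : (1 : B) ∈ (P₀ : Ideal B) := by
        have := Ideal.sub_mem _ h (hc1 P₀)
        simpa using this
      exact hP₀max.ne_top ((Ideal.eq_top_iff_one _).2 this)
    have hαP₀ : algebraMap R B (α P₀) ∈ (P₀ : Ideal B) :=
      (hP₀max.isPrime.mem_or_mem h3).resolve_right hcP₀
    -- so `π ∣ α P₀`
    rw [← hα P₀, Ideal.Quotient.eq_zero_iff_mem]
    have hJ : Ideal.span {π} = Ideal.comap (algebraMap R B) (P₀ : Ideal B) := by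
      refine hpmax.eq_of_le (Ideal.comap_ne_top _ hP₀max.ne_top) ?_
      rw [Ideal.span_singleton_le_iff_mem, Ideal.mem_comap]
      exact (hs P₀ P₀.2).2
    rw [hJ, Ideal.mem_comap]
    exact hαP₀
  have h := hli.fintype_card_le_finrank
  rw [Module.finrank_fintype_fun_eq_card, Fintype.card_coe, Fintype.card_coe] at h
  exact h

/-- **Exact order of the discriminant in a Smith basis adapted to the radical of `π B`.** -/
theorem h33_discr_smith [Algebra.IsSeparable (FractionRing R) (FractionRing B)]
    (b' : Module.Basis ι R B) {π : R} (hπ : Prime π) [CharZero (R ⧸ Ideal.span {π})]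
    (T : Finset ι) (hT1 : ∀ i, i ∉ T → h33_InRad R π (b' i))
    (hT2 : ∀ y : B, h33_InRad R π y → ∀ i ∈ T, π ∣ b'.repr y i) :
    ∃ c : R, Algebra.discr R b' = π ^ (Fintype.card ι - T.card) * c ∧ ¬ π ∣ c := by
  classical
  haveI : Module.Free R B := Module.Free.of_basis b'
  haveI hpprime : (Ideal.span {π}).IsPrime := (Ideal.span_singleton_prime hπ.ne_zero).mpr hπ
  have htr : ∀ x : B, Algebra.intTrace R B x = Algebra.trace R B x := fun x => by
    rw [Algebra.intTrace_eq_trace]
  set G := Algebra.traceMatrix R b' with hG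
  have hGij : ∀ i j, G i j = Algebra.trace R B (b' i * b' j) := fun i j => by
    rw [hG, Algebra.traceMatrix_apply, Algebra.traceForm_apply]
  let δ : ι → R := fun i => if i ∈ T then 1 else π
  let δ' : ι → R := fun i => if i ∈ T then π else 1
  have hδδ' : ∀ i, δ' i * δ i = π := by
    intro i
    by_cases h : i ∈ T <;> simp [δ, δ', h]
  have hex : ∀ i j, ∃ g, G i j = δ i * g := by
    intro i j
    by_cases hi : i ∈ T
    · exact ⟨G i j, by simp [δ, hi]⟩
    · obtain ⟨g, hg⟩ := h33_dvd_intTrace_of_inRad R hπ (b' i * b' j) ((hT1 i hi).mul_right _)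
      exact ⟨g, by rw [hGij, ← htr, hg]; simp [δ, hi]⟩
  choose Ĝ hĜ using hex
  have hGmat : G = Matrix.diagonal δ * Matrix.of Ĝ := by
    ext i j
    rw [Matrix.diagonal_mul, hĜ]
    rfl
  have hprod : ∏ i, δ i = π ^ (Fintype.card ι - T.card) := by
    rw [Finset.prod_ite, Finset.prod_const_one, one_mul, Finset.prod_const, ← Finset.card_compl]
    congr 2
    ext i
    simp
  have hdet : G.det = π ^ (Fintype.card ι - T.card) * (Matrix.of Ĝ).det := by
    rw [hGmat, Matrix.det_mul, Matrix.det_diagonal, hprod]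
  refine ⟨(Matrix.of Ĝ).det, by rw [Algebra.discr_def, ← hG]; exact hdet, ?_⟩
  intro hdvd
  have hdet0 : ((Ideal.Quotient.mk (Ideal.span {π})).mapMatrix (Matrix.of Ĝ)).det = 0 := by
    rw [← RingHom.map_det, Ideal.Quotient.eq_zero_iff_mem, Ideal.mem_span_singleton]
    exact hdvd
  obtain ⟨v, hv0, hv⟩ := Matrix.exists_vecMul_eq_zero_iff.mpr hdet0
  choose x hx using fun i => Ideal.Quotient.mk_surjective (v i)
  have hsum : ∀ j, π ∣ ∑ i, x i * Ĝ i j := by
    intro j
    have := congrFun hv j
    simp only [Matrix.vecMul, dotProduct, RingHom.mapMatrix_apply, Matrix.map_apply,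
      Matrix.of_apply, ← hx, ← map_mul, ← map_sum, Pi.zero_apply] at this
    rwa [Ideal.Quotient.eq_zero_iff_mem, Ideal.mem_span_singleton] at this
  set w : B := ∑ i, (x i * δ' i) • b' i with hw
  have hwj : ∀ j, π ^ 2 ∣ Algebra.trace R B (w * b' j) := by
    intro j
    have h1 : Algebra.trace R B (w * b' j) = π * ∑ i, x i * Ĝ i j := by
      rw [hw, Finset.sum_mul, map_sum, Finset.mul_sum]
      refine Finset.sum_congr rfl fun i _ => ?_
      rw [smul_mul_assoc, map_smul, smul_eq_mul, ← hGij, hĜ, ← hδδ' i]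
      ring
    rw [h1, pow_two]
    exact mul_dvd_mul_left _ (hsum j)
  have hwy : ∀ y, π ^ 2 ∣ Algebra.intTrace R B (w * y) := by
    intro y
    rw [htr, ← b'.sum_repr y, Finset.mul_sum, map_sum]
    refine Finset.dvd_sum fun j _ => ?_
    rw [mul_smul_comm, map_smul, smul_eq_mul]
    exact Dvd.dvd.mul_left (hwj j) _
  obtain ⟨y₀, hy₀, hy₀rad⟩ := h33_exists_eq_mul_of_trace R hπ w hwy
  have hcoord : ∀ i, x i * δ' i = π * b'.repr y₀ i := by
    intro i
    have h1 : b'.repr w i = x i * δ' i := by rw [hw, b'.repr_sum_self]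
    have h2 : b'.repr w i = π * b'.repr y₀ i := by
      rw [hy₀, ← Algebra.smul_def, map_smul, Finsupp.smul_apply, smul_eq_mul]
    rw [← h1, h2]
  apply hv0
  funext i
  rw [← hx i, Pi.zero_apply, Ideal.Quotient.eq_zero_iff_mem, Ideal.mem_span_singleton]
  by_cases hi : i ∈ T
  · have h3 := hcoord i
    simp only [δ', hi, if_true] at h3
    have h4 : x i = b'.repr y₀ i := by
      apply mul_right_cancel₀ hπ.ne_zero
      rw [h3, mul_comm]
    rw [h4]
    exact hT2 y₀ hy₀rad i hi
  · have h3 := hcoord i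
    simp only [δ', hi, if_false, mul_one] at h3
    exact ⟨_, h3⟩

end Smith

section Final

variable {R B ι : Type*} [CommRing R] [IsDomain R] [IsPrincipalIdealRing R]
  [CommRing B] [IsDomain B] [IsDedekindDomain B] [Algebra R B]
  [Fintype ι] [DecidableEq ι]

theorem h33_isSeparable_fractionRing [CharZero R] [Module.Finite R B] [Module.IsTorsionFree R B] :
    Algebra.IsSeparable (FractionRing R) (FractionRing B) := by
  haveI : CharZero (FractionRing R) :=
    charZero_of_injective_algebraMap (IsFractionRing.injective R (FractionRing R))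
  haveI : Algebra.IsIntegral R B := Algebra.IsIntegral.of_finite R B
  haveI : Algebra.IsAlgebraic R B := inferInstance
  haveI h1 : Algebra.IsAlgebraic R (FractionRing B) :=
    (IsFractionRing.isAlgebraic_iff' R B (FractionRing B)).1 inferInstance
  haveI : Algebra.IsAlgebraic (FractionRing R) (FractionRing B) :=
    (IsFractionRing.comap_isAlgebraic_iff (A := R) (K := FractionRing R)
      (C := FractionRing B)).1 h1
  infer_instance

/-- **TAME (upper bound).**  Let `R` be a principal ideal domain, `π` a prime element of `R`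
whose residue field has characteristic zero, `B` a Dedekind domain which is a free `R`-module
with basis `b`, and `s` a finite set of maximal ideals of `B` containing `π`.  Then
`ord_π (disc b) ≤ n - #s`. -/
theorem h33_tame_discr_bound (b : Module.Basis ι R B) {π : R} (hπ : Prime π)
    (hchar : ∀ m : ℕ, m ≠ 0 → ¬ π ∣ (m : R))
    (s : Finset (Ideal B)) (hs : ∀ P ∈ s, P.IsMaximal ∧ algebraMap R B π ∈ P) :
    ¬ π ^ (Fintype.card ι - s.card + 1) ∣ Algebra.discr R b := by
  classical
  haveI : Module.Free R B := Module.Free.of_basis b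
  haveI : Module.Finite R B := Module.Finite.of_basis b
  haveI : Module.IsTorsionFree R B := inferInstance
  haveI hcz : CharZero (R ⧸ Ideal.span {π}) := by
    refine charZero_of_inj_zero fun m hm => ?_
    by_contra hm0
    have h1 : (Ideal.Quotient.mk (Ideal.span {π})) (m : R) = 0 := by
      rw [map_natCast]; exact hm
    rw [Ideal.Quotient.eq_zero_iff_mem, Ideal.mem_span_singleton] at h1
    exact hchar m hm0 h1
  haveI : CharZero R := RingHom.charZero (Ideal.Quotient.mk (Ideal.span {π}))
  haveI : Algebra.IsSeparable (FractionRing R) (FractionRing B) := h33_isSeparable_fractionRing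
  obtain ⟨b', T, hT1, hT2⟩ := h33_exists_smith b hπ
  obtain ⟨c, hc, hπc⟩ := h33_discr_smith b' hπ T hT1 hT2
  have hcard := h33_card_le b' hπ T hT1 s hs
  have hTle : T.card ≤ Fintype.card ι := Finset.card_le_univ T
  have hb : Algebra.discr R b = (b'.toMatrix b).det ^ 2 * Algebra.discr R b' := by
    rw [← Algebra.discr_of_matrix_vecMul, Module.Basis.toMatrix_map_vecMul]
  have hu : IsUnit (b'.toMatrix b).det := by
    rw [← Module.Basis.det_apply]
    exact b'.isUnit_det b
  intro hdvd
  rw [hb, hc] at hdvd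
  have h1 : π ^ (Fintype.card ι - s.card + 1) ∣ π ^ (Fintype.card ι - T.card) * c :=
    ((hu.pow 2).dvd_mul_left).mp hdvd
  have h2 : Fintype.card ι - s.card + 1 =
      (Fintype.card ι - T.card) + (T.card - s.card + 1) := by omega
  rw [h2, pow_add] at h1
  have h3 := (mul_dvd_mul_iff_left (pow_ne_zero _ hπ.ne_zero)).mp h1
  exact hπc ((dvd_pow_self π (by omega)).trans h3)

end Final
end Fermat.Agent.Red.SM
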