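import Mathlib
import Fermat.Agent.Red.SM.Tame

/-!
# P-RED / SM-TAME: consumer forms (helper33)

* `h33_card_maximal_le`, `h33_finite_maximal` : at most `n` maximal ideals of `B` contain `π`.
* `h33_discr_ne_zero`.
* `h33_tame_add_card_le` : `π ^ m ∣ disc b → m + #s ≤ n`.
* `h33_tame_natCard` : `π ^ m ∣ disc b → m + Nat.card {P maximal ∋ π} ≤ n`.
* (the frozen `Core.h74_Tame` of `Red/SM/CoreSkeleton.lean` is `h99_h74_tame`, helper99.)
-/

set_option autoImplicit false
set_option linter.unusedSectionVars false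
set_option linter.style.haveILetI false
set_option linter.overlappingInstances false

open Polynomial

namespace Fermat.Agent.Red.SM

section PID

variable {R B ι : Type*} [CommRing R] [IsDomain R] [IsPrincipalIdealRing R]
  [CommRing B] [IsDomain B] [IsDedekindDomain B] [Algebra R B]
  [Fintype ι] [DecidableEq ι]

/-- at most `n` maximal ideals of `B` contain `π`. -/
theorem h33_card_maximal_le (b : Module.Basis ι R B) {π : R} (hπ : Prime π)
    (s : Finset (Ideal B)) (hs : ∀ P ∈ s, P.IsMaximal ∧ algebraMap R B π ∈ P) :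
    s.card ≤ Fintype.card ι := by
  haveI : Module.Free R B := Module.Free.of_basis b
  haveI : Module.Finite R B := Module.Finite.of_basis b
  haveI : Module.IsTorsionFree R B := inferInstance
  obtain ⟨b', T, hT1, -⟩ := h33_exists_smith b hπ
  exact (h33_card_le b' hπ T hT1 s hs).trans (Finset.card_le_univ T)

/-- finitely many maximal ideals of `B` contain `π`. -/
theorem h33_finite_maximal (b : Module.Basis ι R B) {π : R} (hπ : Prime π) :
    Finite {P : Ideal B // P.IsMaximal ∧ algebraMap R B π ∈ P} := by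
  by_contra hinf
  rw [not_finite_iff_infinite] at hinf
  have hinf' : (Set.univ : Set {P : Ideal B // P.IsMaximal ∧ algebraMap R B π ∈ P}).Infinite :=
    Set.infinite_univ
  obtain ⟨t, -, ht⟩ := hinf'.exists_subset_card_eq (Fintype.card ι + 1)
  have h := h33_card_maximal_le b hπ (t.map ⟨Subtype.val, Subtype.val_injective⟩) (by
    intro P hP
    rw [Finset.mem_map] at hP
    obtain ⟨Q, -, rfl⟩ := hP
    exact Q.2)
  rw [Finset.card_map, ht] at h
  omega

theorem h33_discr_ne_zero (b : Module.Basis ι R B) {π : R} (hπ : Prime π)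
    (hchar : ∀ m : ℕ, m ≠ 0 → ¬ π ∣ (m : R)) : Algebra.discr R b ≠ 0 := by
  intro h0
  refine h33_tame_discr_bound b hπ hchar ∅ (by simp) ?_
  rw [h0]
  exact dvd_zero _

/-- **TAME**, additive form. -/
theorem h33_tame_add_card_le (b : Module.Basis ι R B) {π : R} (hπ : Prime π)
    (hchar : ∀ m : ℕ, m ≠ 0 → ¬ π ∣ (m : R))
    (s : Finset (Ideal B)) (hs : ∀ P ∈ s, P.IsMaximal ∧ algebraMap R B π ∈ P)
    (m : ℕ) (hm : π ^ m ∣ Algebra.discr R b) : m + s.card ≤ Fintype.card ι := by
  have h1 := h33_card_maximal_le b hπ s hs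
  by_contra hcon
  refine h33_tame_discr_bound b hπ hchar s hs ((pow_dvd_pow π ?_).trans hm)
  omega

/-- **TAME**, `Nat.card` form. -/
theorem h33_tame_natCard (b : Module.Basis ι R B) {π : R} (hπ : Prime π)
    (hchar : ∀ m : ℕ, m ≠ 0 → ¬ π ∣ (m : R))
    (m : ℕ) (hm : π ^ m ∣ Algebra.discr R b) :
    m + Nat.card {P : Ideal B // P.IsMaximal ∧ algebraMap R B π ∈ P} ≤ Fintype.card ι := by
  classical
  haveI := h33_finite_maximal b hπ
  letI := Fintype.ofFinite {P : Ideal B // P.IsMaximal ∧ algebraMap R B π ∈ P}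
  have h := h33_tame_add_card_le b hπ hchar
    ((Finset.univ : Finset {P : Ideal B // P.IsMaximal ∧ algebraMap R B π ∈ P}).map
      ⟨Subtype.val, Subtype.val_injective⟩) (by
    intro P hP
    rw [Finset.mem_map] at hP
    obtain ⟨Q, -, rfl⟩ := hP
    exact Q.2) m hm
  rwa [Finset.card_map, Finset.card_univ, ← Nat.card_eq_fintype_card] at h

end PID

end Fermat.Agent.Red.SM
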